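import Fermat.Agent.S36.Inst.Defs

/-!
# S36, modular side: branches as `DVal`s

(`F0 A N`, `Algebra (K0 A) (F0 A N)`, `resK0` are in `Inst/Defs.lean`.)

* `iotaF0 A N : F0 A N →+* FB N`
* `IsBrK A N M e ϖ`, `mkDVal` : a branch `(e, ϖ)` with residue field `FT A M` gives a `DVal`
-/

set_option autoImplicit false
set_option synthInstance.maxHeartbeats 400000

open AlgebraicCurve ModularCurve

namespace Fermat.Agent.S36Lib

open Fermat.Agent.S18Lib Fermat.Agent.S24Lib Fermat.Agent.ESLib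

noncomputable section

/-- the inclusion `F₀ → FB N` -/
def iotaF0 (A : ValuationSubring Qb) (N : ℕ) : F0 A N →+* FB N := (F0 A N).subtype

theorem iotaF0_algebraMap (A : ValuationSubring Qb) (N : ℕ) (c : K0 A) :
    iotaF0 A N (algebraMap (K0 A) (F0 A N) c) =
      algebraMap Qb (FB N) (algebraMap (K0 A) Qb c) := rfl

/-- a branch `(e, ϖ)` with residue field `FT A M` -/
structure IsBrK (A : ValuationSubring Qb) (N M : ℕ) (e : FB N →+* LaurentSeries Qb)
    (ϖ : F0 A N) : Prop where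
  res : ∀ (x : F0 A N) (h : e (x : FB N) ∈ gRing A), gRed A ⟨_, h⟩ ∈ FT A M
  ne : ϖ ≠ 0
  mem : e (ϖ : FB N) ∈ gRing A
  zero_iff : ∀ (x : F0 A N) (h : e (x : FB N) ∈ gRing A),
    gRed A ⟨_, h⟩ = 0 ↔ e ((x * ϖ⁻¹ : F0 A N) : FB N) ∈ gRing A

/-- the valuation ring of a branch -/
def brO (A : ValuationSubring Qb) (N : ℕ) (e : FB N →+* LaurentSeries Qb) : Subring (F0 A N) :=
  (gRing A).comap (e.comp (iotaF0 A N))

theorem mem_brO {A : ValuationSubring Qb} {N : ℕ} {e : FB N →+* LaurentSeries Qb} {x : F0 A N} :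
    x ∈ brO A N e ↔ e (x : FB N) ∈ gRing A := Iff.rfl

/-- the `DVal` of a branch -/
def mkDVal {A : ValuationSubring Qb} {N M : ℕ} {e : FB N →+* LaurentSeries Qb} {ϖ : F0 A N}
    (h : IsBrK A N M e ϖ) : DVal (F0 A N) (FT A M) where
  O := brO A N e
  red := RingHom.codRestrict ((gRed A).comp
      (RingHom.codRestrict ((e.comp (iotaF0 A N)).comp (brO A N e).subtype) (gRing A)
        (fun x => x.2))) (FT A M) (fun x => h.res (x : F0 A N) x.2)
  π := ϖ
  π_ne := h.ne
  π_mem := h.mem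
  red_eq_zero_iff := fun x => by
    refine Iff.trans ?_ (h.zero_iff (x : F0 A N) x.2)
    constructor
    · intro hx
      exact congrArg Subtype.val hx
    · intro hx
      exact Subtype.ext hx

theorem coe_mkDVal_red {A : ValuationSubring Qb} {N M : ℕ} {e : FB N →+* LaurentSeries Qb}
    {ϖ : F0 A N} (h : IsBrK A N M e ϖ) (x : (mkDVal h).O) :
    (((mkDVal h).red x : FT A M) : LaurentSeries (kk A)) = gRed A ⟨e ((x : F0 A N) : FB N), x.2⟩ :=
  rfl

end

end Fermat.Agent.S36Lib
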