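import Fermat.Agent.S36.Mod.BLReg

/-!
# S36 (BL): the bounding lemma
-/

set_option autoImplicit false
set_option synthInstance.maxHeartbeats 400000
set_option linter.unusedSectionVars false

open AlgebraicCurve ModularCurve Polynomial
open scoped IntermediateField

namespace Fermat.Agent.S36Lib

open Fermat.Agent.S18Lib Fermat.Agent.S24Lib Fermat.Agent.S28Lib Fermat.Agent.ESLib
  Fermat.Agent.S34Lib Fermat.Agent.FFLib

noncomputable section

variable {M q : ℕ} [NeZero M] [NeZero q] [hqF : Fact q.Prime] (hqM : ¬ q ∣ M)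
variable {w : FB (q ^ 2 * M) ≃ₐ[Qb] FB (q ^ 2 * M)} {ζ : Qbˣ}
  {i : ℕ → FB (q ^ 2 * M) →ₐ[Qb] LaurentSeries Qb} {ζ₂ : Qbˣ}
variable (A : ValuationSubring Qb) (hA : A.LiesOverPrime q)

theorem BL_tri_g {n : ℕ} {α γ β : ℤ} {g : FB (q ^ 2 * M)} (hg : BLHyp A w i n α γ β g) :
    BLTri A w (i 1) α γ β (rd A (eInf (q ^ 2 * M)) (qF (q ^ 2 * M) q) α g)
      (rd A (i 1 : FB (q ^ 2 * M) →+* LaurentSeries Qb) (piF M q) γ g)
      (rd A (eZero w) (qF (q ^ 2 * M) q) β g) g :=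
  ⟨hg.fix, ⟨hg.inf, rfl⟩, ⟨hg.mid, rfl⟩, ⟨hg.zero, rfl⟩⟩

theorem BL_coe_zpow (x : FT A M) (k : ℤ) :
    ((x ^ k : FT A M) : LaurentSeries (kk A)) = (x : LaurentSeries (kk A)) ^ k :=
  map_zpow₀ (FT A M).val x k

theorem BL_coe_E6T : ((E6T A M : FT A M) : LaurentSeries (kk A)) = BL_E (kk A) := by
  show algebraMap (FT A M) (LaurentSeries (kk A)) (E6T A M) = _
  unfold E6T
  rw [map_mul, map_pow, map_pow, map_sub, map_ofNat]
  rfl

theorem BL_cast_sub : ((q - 1 : ℕ) : ℤ) = (q : ℤ) - 1 := by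
  rw [Nat.cast_sub hqF.out.one_le, Nat.cast_one]

theorem BL_q1_pos : 0 < (q : ℤ) - 1 := by
  have := hqF.out.one_lt
  omega

theorem BL_H_ne_zero {H : FT A M} (hH : (H : LaurentSeries (kk A)) = (phiL (kk A) q)⁻¹) :
    H ≠ 0 := by
  rintro rfl
  exact inv_ne_zero (phiL_ne_zero (kk A) q) hH.symm

theorem BL_E6T_ne_zero : E6T A M ≠ 0 := by
  intro h
  apply BL_E_ne_zero (kk A)
  rw [← BL_coe_E6T (M := M), h]
  rfl

theorem BL_ord_E6T (P : Place (kk A) (FT A M)) (hP : P.ord (jT A M) < 0) :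
    P.ord (E6T A M) = 7 * P.ord (jT A M) := by
  have hj := BL_jT_ne_zero (M := M) A
  have h1 : P.ord (jT A M - 1728) = P.ord (jT A M) := by
    have h2 : jT A M - 1728 = algebraMap (kk A) (FT A M) (-1728) + jT A M := by
      rw [map_neg, map_ofNat]
      ring
    rw [h2]
    refine D2.ord_add_eq P hj (Or.inr ?_)
    rw [ord_algebraMap]
    omega
  have h3 : jT A M - 1728 ≠ 0 := by
    intro h0
    rw [h0, Place.ord_zero] at h1
    omega
  unfold E6T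
  rw [P.ord_mul (pow_ne_zero _ hj) (pow_ne_zero _ h3), pl_ord_pow, pl_ord_pow, h1]
  push_cast
  ring

theorem BL_exists_nat (x y : ℤ) : ∃ r : ℕ, x ≤ r ∧ y ≤ r :=
  ⟨(max x y).toNat, (le_max_left x y).trans (Int.self_le_toNat _),
    (le_max_right x y).trans (Int.self_le_toNat _)⟩

/-! ## the finite places -/

include hqM hA in
theorem BL_fin_all (B : BrData M q w ζ i ζ₂) {n : ℕ} {α γ β : ℤ}
    {g : FB (q ^ 2 * M)} (hg : BLHyp A w i n α γ β g) (P : Place (kk A) (FT A M))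
    (hP : 0 ≤ P.ord (jT A M)) (U : FT A M) :
    ((U : LaurentSeries (kk A)) = rd A (eInf (q ^ 2 * M)) (qF (q ^ 2 * M) q) α g ^ (12 * (q - 1)) *
      phiL (kk A) q ^ (((q : ℤ) - 1) * (γ + β - q * α)) → 0 ≤ P.ord U) ∧
    ((U : LaurentSeries (kk A)) =
      rd A (i 1 : FB (q ^ 2 * M) →+* LaurentSeries Qb) (piF M q) γ g ^ (12 * (q - 1)) *
      (phiL (kk A) q ^ (((q : ℤ) - 1) * (α + β)) * BL_E (kk A) ^ (((q : ℤ) - 1) * (2 * γ))) →
        0 ≤ P.ord U) ∧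
    ((U : LaurentSeries (kk A)) = rd A (eZero w) (qF (q ^ 2 * M) q) β g ^ (12 * (q - 1)) *
      phiL (kk A) q ^ (((q : ℤ) - 1) * (γ + α - q * β)) → 0 ≤ P.ord U) := by
  have hc := BL_cast_sub (q := q)
  have T := BL_tri_mon hqM A hA B (BL_tri_g A hg) (12 * (q - 1)) (-(((q : ℤ) - 1) * α))
    (((q : ℤ) - 1) * β - γ) (γ - ((q : ℤ) - 1) * α) 0
  have T0 := T.congr (a' := 0) (c' := 0) (b' := 0)
    (by push_cast; rw [hc]; ring) (by push_cast; rw [hc]; ring) (by push_cast; rw [hc]; ring)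
    rfl rfl rfl
  have hreg : ∀ v : Place Qb (FB (q ^ 2 * M)), 0 ≤ v.ord (JF (q ^ 2 * M) 1 (one_dvd _)) →
      0 ≤ v.ord (BL_mon M q g (12 * (q - 1)) (-(((q : ℤ) - 1) * α))
        (((q : ℤ) - 1) * β - γ) (γ - ((q : ℤ) - 1) * α) 0) := by
    intro v hv
    exact BL_reg_mon v _ _ _ _ _ (BL_ge_pow v (BL_L_fin (isFF_bar _) hg.memL v hv) _)
      (BL_et1_fin v hv _) (BL_et2_fin v hv _) (by simp)
  have I := BL_fin hqM A hA B hreg T0 le_rfl le_rfl le_rfl P hP U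
  refine ⟨fun h => I.1 rfl ?_, fun h => I.2.1 rfl ?_, fun h => I.2.2 rfl ?_⟩
  · rw [h, zpow_zero, mul_one]
    congr 2
    ring
  · rw [h, zpow_zero, mul_one]
    congr 3
    · ring
    · push_cast
      rw [hc]
      ring
  · rw [h, mul_zero, zpow_zero, mul_one]
    congr 2
    ring

/-! ## the infinite places -/

theorem BL_coe_mul (x y : FT A M) :
    ((x * y : FT A M) : LaurentSeries (kk A)) = (x : LaurentSeries (kk A)) * y := rfl

theorem BL_coe_pow (x : FT A M) (n : ℕ) :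
    ((x ^ n : FT A M) : LaurentSeries (kk A)) = (x : LaurentSeries (kk A)) ^ n := rfl

theorem BL_coe_jT : ((jT A M : FT A M) : LaurentSeries (kk A)) = jqModC (kk A) := rfl

include hqM hA in
theorem BL_inf_inf (B : BrData M q w ζ i ζ₂) (H : FT A M)
    (hH : (H : LaurentSeries (kk A)) = (phiL (kk A) q)⁻¹) {n : ℕ} {α γ β : ℤ}
    {g : FB (q ^ 2 * M)} (hg : BLHyp A w i n α γ β g) (u : FT A M)
    (hu : (u : LaurentSeries (kk A)) = rd A (eInf (q ^ 2 * M)) (qF (q ^ 2 * M) q) α g)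
    (P : Place (kk A) (FT A M)) (hP : P.ord (jT A M) < 0) :
    D2_ge P (n * P.ord (jT A M)) u := by
  have hc := BL_cast_sub (q := q)
  have hq1 := BL_q1_pos (q := q)
  obtain ⟨r, hr1, hr2⟩ := BL_exists_nat (((q : ℤ) - 1) * α - γ) (α - β)
  obtain ⟨d, hd⟩ : ∃ d : ℤ, d = -((12 * n + r * (q * (q - 1)) : ℕ) : ℤ) := ⟨_, rfl⟩
  have T := BL_tri_mon hqM A hA B (BL_tri_g A hg) 12 (-α) 0 (-(r : ℤ)) d
  have hr3 : (r : ℤ) ≤ ((q : ℤ) - 1) * r :=
    le_mul_of_one_le_left (Nat.cast_nonneg r) (by omega)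
  have hreg : ∀ v : Place Qb (FB (q ^ 2 * M)), v.ord (JF (q ^ 2 * M) 1 (one_dvd _)) ≤ 0 →
      0 ≤ v.ord (BL_mon M q g 12 (-α) 0 (-(r : ℤ)) d) := by
    intro v hv
    refine BL_reg_mon v _ _ _ _ _ (BL_ge_pow v (BL_L_inf (isFF_bar _) hg.memL v hv) 12) (m1 := 0)
      (Or.inr (by rw [zpow_zero, Place.ord_one])) (BL_et2_neg v hv r) ?_
    rw [hd]
    push_cast
    apply le_of_eq
    ring
  by_cases hu0 : u = 0
  · exact Or.inl hu0
  have hH0 := BL_H_ne_zero A hH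
  have hj := BL_jT_ne_zero (M := M) A
  have I := (BL_infty hqM A hA B hreg T (by push_cast; linarith) (by push_cast; nlinarith)
    (by push_cast; linarith) P hP (u ^ 12 * H ^ ((q : ℤ) * r) * jT A M ^ d)).1
    (by push_cast; ring) (by
      rw [BL_coe_mul, BL_coe_mul, BL_coe_pow, BL_coe_zpow, BL_coe_zpow, hu, hH, inv_zpow',
        BL_coe_jT]
      congr 3
      ring)
  rw [P.ord_mul (mul_ne_zero (pow_ne_zero _ hu0) (zpow_ne_zero _ hH0)) (zpow_ne_zero _ hj),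
    P.ord_mul (pow_ne_zero _ hu0) (zpow_ne_zero _ hH0), pl_ord_pow, P.ord_zpow, P.ord_zpow,
    ord_H_of_neg A M q hA H hH P hP, hd] at I
  push_cast at I
  rw [hc] at I
  refine Or.inr ?_
  nlinarith

include hqM hA in
theorem BL_mid_inf (B : BrData M q w ζ i ζ₂) (H : FT A M)
    (hH : (H : LaurentSeries (kk A)) = (phiL (kk A) q)⁻¹) {n : ℕ} {α γ β : ℤ}
    {g : FB (q ^ 2 * M)} (hg : BLHyp A w i n α γ β g) (u : FT A M)
    (hu : (u : LaurentSeries (kk A)) =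
      rd A (i 1 : FB (q ^ 2 * M) →+* LaurentSeries Qb) (piF M q) γ g)
    (P : Place (kk A) (FT A M)) (hP : P.ord (jT A M) < 0) :
    D2_ge P ((n - γ) * P.ord (jT A M)) u := by
  have hc := BL_cast_sub (q := q)
  have hq1 := BL_q1_pos (q := q)
  obtain ⟨r, hr1, hr2⟩ := BL_exists_nat (γ - ((q : ℤ) - 1) * α) (γ - ((q : ℤ) - 1) * β)
  obtain ⟨d, hd⟩ : ∃ d : ℤ, d = -((12 * (q - 1) * n + 2 * (r * (q - 1)) : ℕ) : ℤ) := ⟨_, rfl⟩
  have T := BL_tri_mon hqM A hA B (BL_tri_g A hg) (12 * (q - 1)) ((r : ℤ) - γ) (-(r : ℤ)) r d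
  have hreg : ∀ v : Place Qb (FB (q ^ 2 * M)), v.ord (JF (q ^ 2 * M) 1 (one_dvd _)) ≤ 0 →
      0 ≤ v.ord (BL_mon M q g (12 * (q - 1)) ((r : ℤ) - γ) (-(r : ℤ)) r d) := by
    intro v hv
    refine BL_reg_mon v _ _ _ _ _
      (BL_ge_pow v (BL_L_inf (isFF_bar _) hg.memL v hv) (12 * (q - 1)))
      (BL_et1_neg v hv r) (BL_et2_pos v hv r) ?_
    rw [hd]
    push_cast
    apply le_of_eq
    ring
  by_cases hu0 : u = 0
  · exact Or.inl hu0
  have hH0 := BL_H_ne_zero A hH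
  have hj := BL_jT_ne_zero (M := M) A
  have hE := BL_E6T_ne_zero (M := M) A
  have I := (BL_infty hqM A hA B hreg T (by push_cast; rw [hc]; nlinarith)
    (by push_cast; rw [hc]; apply le_of_eq; ring)
    (by push_cast; rw [hc]; nlinarith) P hP
    (u ^ (12 * (q - 1)) * (H ^ (2 * ((r : ℤ) - γ)) * E6T A M ^ (((q : ℤ) - 1) * (2 * γ))) *
      jT A M ^ d)).2.1
    (by push_cast; rw [hc]; ring) (by
      rw [BL_coe_mul, BL_coe_mul, BL_coe_mul, BL_coe_pow, BL_coe_zpow, BL_coe_zpow, BL_coe_zpow,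
        hu, hH, inv_zpow', BL_coe_jT, BL_coe_E6T]
      congr 4
      · ring
      · push_cast
        rw [hc]
        ring)
  rw [P.ord_mul (mul_ne_zero (pow_ne_zero _ hu0)
      (mul_ne_zero (zpow_ne_zero _ hH0) (zpow_ne_zero _ hE))) (zpow_ne_zero _ hj),
    P.ord_mul (pow_ne_zero _ hu0) (mul_ne_zero (zpow_ne_zero _ hH0) (zpow_ne_zero _ hE)),
    P.ord_mul (zpow_ne_zero _ hH0) (zpow_ne_zero _ hE),
    pl_ord_pow, P.ord_zpow, P.ord_zpow, P.ord_zpow,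
    ord_H_of_neg A M q hA H hH P hP, BL_ord_E6T A P hP, hd] at I
  push_cast at I
  rw [hc] at I
  refine Or.inr ?_
  have h1 : 0 ≤ ((q : ℤ) - 1) * (12 * (P.ord u - (n - γ) * P.ord (jT A M))) := by
    refine I.trans (le_of_eq ?_)
    ring
  have h2 := (mul_nonneg_iff_of_pos_left hq1).mp h1
  linarith

include hqM hA in
theorem BL_zero_inf (B : BrData M q w ζ i ζ₂) (H : FT A M)
    (hH : (H : LaurentSeries (kk A)) = (phiL (kk A) q)⁻¹) {n : ℕ} {α γ β : ℤ}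
    {g : FB (q ^ 2 * M)} (hg : BLHyp A w i n α γ β g) (u : FT A M)
    (hu : (u : LaurentSeries (kk A)) = rd A (eZero w) (qF (q ^ 2 * M) q) β g)
    (P : Place (kk A) (FT A M)) (hP : P.ord (jT A M) < 0) :
    D2_ge P (n * q ^ 2 * P.ord (jT A M)) u := by
  have hc := BL_cast_sub (q := q)
  have hq1 := BL_q1_pos (q := q)
  obtain ⟨r, hr1, hr2⟩ := BL_exists_nat (β - α) (((q : ℤ) - 1) * β - γ)
  obtain ⟨d, hd⟩ : ∃ d : ℤ, d = -((12 * n + r * (q - 1) : ℕ) : ℤ) := ⟨_, rfl⟩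
  have T := BL_tri_mon hqM A hA B (BL_tri_g A hg) 12 ((q : ℤ) * r - β) ((q : ℤ) * r) 0 d
  have hr3 : (r : ℤ) ≤ (q : ℤ) * r :=
    le_mul_of_one_le_left (Nat.cast_nonneg r) (by omega)
  have hr4 : (q : ℤ) * r ≤ ((q : ℤ) - 1) * ((q : ℤ) * r) :=
    le_mul_of_one_le_left (by positivity) (by omega)
  have hreg : ∀ v : Place Qb (FB (q ^ 2 * M)), v.ord (JF (q ^ 2 * M) 1 (one_dvd _)) ≤ 0 →
      0 ≤ v.ord (BL_mon M q g 12 ((q : ℤ) * r - β) ((q : ℤ) * r) 0 d) := by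
    intro v hv
    refine BL_reg_mon v _ _ _ _ _ (BL_ge_pow v (BL_L_inf (isFF_bar _) hg.memL v hv) 12)
      (BL_et1_pos v hv r) (m2 := 0) (Or.inr (by rw [zpow_zero, Place.ord_one])) ?_
    rw [hd]
    push_cast
    apply le_of_eq
    ring
  by_cases hu0 : u = 0
  · exact Or.inl hu0
  have hH0 := BL_H_ne_zero A hH
  have hj := BL_jT_ne_zero (M := M) A
  have I := (BL_infty hqM A hA B hreg T (by push_cast; linarith) (by push_cast; nlinarith)
    (by push_cast; apply le_of_eq; ring) P hP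
    (u ^ 12 * H ^ ((q : ℤ) * ((q : ℤ) * r)) * jT A M ^ (((q ^ 2 : ℕ) : ℤ) * d))).2.2
    (by push_cast; ring) (by
      rw [BL_coe_mul, BL_coe_mul, BL_coe_pow, BL_coe_zpow, BL_coe_zpow, hu, hH, inv_zpow',
        BL_coe_jT]
      congr 3
      ring)
  rw [P.ord_mul (mul_ne_zero (pow_ne_zero _ hu0) (zpow_ne_zero _ hH0)) (zpow_ne_zero _ hj),
    P.ord_mul (pow_ne_zero _ hu0) (zpow_ne_zero _ hH0), pl_ord_pow, P.ord_zpow, P.ord_zpow,
    ord_H_of_neg A M q hA H hH P hP, hd] at I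
  push_cast at I
  rw [hc] at I
  refine Or.inr ?_
  have h1 : 0 ≤ 12 * (P.ord u - n * q ^ 2 * P.ord (jT A M)) := by
    refine I.trans (le_of_eq ?_)
    ring
  linarith

/-! ## the statements -/

include hqM hA in
theorem bl_inf (B : BrData M q w ζ i ζ₂) (H : FT A M)
    (hH : (H : LaurentSeries (kk A)) = (phiL (kk A) q)⁻¹) {n : ℕ} {α γ β : ℤ}
    {g : FB (q ^ 2 * M)} (hg : BLHyp A w i n α γ β g) (u : FT A M)
    (hu : (u : LaurentSeries (kk A)) = rd A (eInf (q ^ 2 * M)) (qF (q ^ 2 * M) q) α g)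
    (P : Place (kk A) (FT A M)) :
    (0 ≤ P.ord (jT A M) → D2_ge P ((γ + β - q * α) * P.ord H) (u ^ 12)) ∧
    (P.ord (jT A M) < 0 → D2_ge P (n * P.ord (jT A M)) u) := by
  refine ⟨fun hP => ?_, BL_inf_inf hqM A hA B H hH hg u hu P⟩
  have hc := BL_cast_sub (q := q)
  have hq1 := BL_q1_pos (q := q)
  by_cases hu0 : u = 0
  · exact Or.inl (by rw [hu0]; simp)
  have hH0 := BL_H_ne_zero A hH
  have I := (BL_fin_all hqM A hA B hg P hP
    (u ^ (12 * (q - 1)) * H ^ (-(((q : ℤ) - 1) * (γ + β - q * α))))).1 (by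
      rw [BL_coe_mul, BL_coe_pow, BL_coe_zpow, hu, hH, inv_zpow', neg_neg])
  rw [P.ord_mul (pow_ne_zero _ hu0) (zpow_ne_zero _ hH0), pl_ord_pow, P.ord_zpow] at I
  push_cast at I
  rw [hc] at I
  refine Or.inr ?_
  rw [pl_ord_pow]
  have h1 : 0 ≤ ((q : ℤ) - 1) * (((12 : ℕ) : ℤ) * P.ord u - (γ + β - q * α) * P.ord H) := by
    refine I.trans (le_of_eq ?_)
    push_cast
    ring
  have h2 := (mul_nonneg_iff_of_pos_left hq1).mp h1
  linarith

include hqM hA in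
theorem bl_mid (B : BrData M q w ζ i ζ₂) (H : FT A M)
    (hH : (H : LaurentSeries (kk A)) = (phiL (kk A) q)⁻¹) {n : ℕ} {α γ β : ℤ}
    {g : FB (q ^ 2 * M)} (hg : BLHyp A w i n α γ β g) (u : FT A M)
    (hu : (u : LaurentSeries (kk A)) =
      rd A (i 1 : FB (q ^ 2 * M) →+* LaurentSeries Qb) (piF M q) γ g)
    (P : Place (kk A) (FT A M)) :
    (0 ≤ P.ord (jT A M) →
      D2_ge P ((α + β) * P.ord H - 2 * γ * P.ord (E6T A M)) (u ^ 12)) ∧
    (P.ord (jT A M) < 0 → D2_ge P ((n - γ) * P.ord (jT A M)) u) := by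
  refine ⟨fun hP => ?_, BL_mid_inf hqM A hA B H hH hg u hu P⟩
  have hc := BL_cast_sub (q := q)
  have hq1 := BL_q1_pos (q := q)
  by_cases hu0 : u = 0
  · exact Or.inl (by rw [hu0]; simp)
  have hH0 := BL_H_ne_zero A hH
  have hE := BL_E6T_ne_zero (M := M) A
  have I := (BL_fin_all hqM A hA B hg P hP
    (u ^ (12 * (q - 1)) * (H ^ (-(((q : ℤ) - 1) * (α + β))) *
      E6T A M ^ (((q : ℤ) - 1) * (2 * γ))))).2.1 (by
      rw [BL_coe_mul, BL_coe_mul, BL_coe_pow, BL_coe_zpow, BL_coe_zpow, hu, hH, inv_zpow', neg_neg,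
        BL_coe_E6T])
  rw [P.ord_mul (pow_ne_zero _ hu0) (mul_ne_zero (zpow_ne_zero _ hH0) (zpow_ne_zero _ hE)),
    P.ord_mul (zpow_ne_zero _ hH0) (zpow_ne_zero _ hE), pl_ord_pow, P.ord_zpow,
    P.ord_zpow] at I
  push_cast at I
  rw [hc] at I
  refine Or.inr ?_
  rw [pl_ord_pow]
  have h1 : 0 ≤ ((q : ℤ) - 1) * (((12 : ℕ) : ℤ) * P.ord u -
      ((α + β) * P.ord H - 2 * γ * P.ord (E6T A M))) := by
    refine I.trans (le_of_eq ?_)
    push_cast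
    ring
  have h2 := (mul_nonneg_iff_of_pos_left hq1).mp h1
  linarith

include hqM hA in
theorem bl_zero (B : BrData M q w ζ i ζ₂) (H : FT A M)
    (hH : (H : LaurentSeries (kk A)) = (phiL (kk A) q)⁻¹) {n : ℕ} {α γ β : ℤ}
    {g : FB (q ^ 2 * M)} (hg : BLHyp A w i n α γ β g) (u : FT A M)
    (hu : (u : LaurentSeries (kk A)) = rd A (eZero w) (qF (q ^ 2 * M) q) β g)
    (P : Place (kk A) (FT A M)) :
    (0 ≤ P.ord (jT A M) → D2_ge P ((γ + α - q * β) * P.ord H) (u ^ 12)) ∧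
    (P.ord (jT A M) < 0 → D2_ge P (n * q ^ 2 * P.ord (jT A M)) u) := by
  refine ⟨fun hP => ?_, BL_zero_inf hqM A hA B H hH hg u hu P⟩
  have hc := BL_cast_sub (q := q)
  have hq1 := BL_q1_pos (q := q)
  by_cases hu0 : u = 0
  · exact Or.inl (by rw [hu0]; simp)
  have hH0 := BL_H_ne_zero A hH
  have I := (BL_fin_all hqM A hA B hg P hP
    (u ^ (12 * (q - 1)) * H ^ (-(((q : ℤ) - 1) * (γ + α - q * β))))).2.2 (by
      rw [BL_coe_mul, BL_coe_pow, BL_coe_zpow, hu, hH, inv_zpow', neg_neg])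
  rw [P.ord_mul (pow_ne_zero _ hu0) (zpow_ne_zero _ hH0), pl_ord_pow, P.ord_zpow] at I
  push_cast at I
  rw [hc] at I
  refine Or.inr ?_
  rw [pl_ord_pow]
  have h1 : 0 ≤ ((q : ℤ) - 1) * (((12 : ℕ) : ℤ) * P.ord u - (γ + α - q * β) * P.ord H) := by
    refine I.trans (le_of_eq ?_)
    push_cast
    ring
  have h2 := (mul_nonneg_iff_of_pos_left hq1).mp h1
  linarith

end

end Fermat.Agent.S36Lib
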