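import Fermat.Agent.S36.Mod.ValDefs

/-!
# S36 (VAL), leaf (FIX): the field `F0 = {IsFix}`
-/

set_option autoImplicit false
set_option synthInstance.maxHeartbeats 400000
set_option linter.unusedSectionVars false
set_option linter.unusedVariables false

open AlgebraicCurve ModularCurve

namespace Fermat.Agent.S36Lib

open Fermat.Agent.S18Lib Fermat.Agent.S24Lib Fermat.Agent.S28Lib Fermat.Agent.ESLib
  Fermat.Agent.S34Lib Fermat.Agent.S28Lib.RelationAux Fermat.Agent.FFLib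

noncomputable section

variable {A : ValuationSubring Qb}

/-- (FIX) -/
theorem isFix_iff_coeff {N : ℕ} (x : FB N) :
    IsFix A N x ↔ ∀ n, (x : LaurentSeries Qb).coeff n ∈ K0 A := by
  constructor
  · intro h n
    rw [mem_K0_iff]
    intro σ hσ
    have h1 := congrArg (fun y : FB N => (y : LaurentSeries Qb).coeff n) (h σ hσ)
    simpa using h1
  · intro h σ hσ
    apply Subtype.ext
    rw [coe_gal]
    ext n
    rw [coeffMap_coeff]
    exact (mem_K0_iff.1 (h n)) σ hσ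

/-- (FIX) -/
theorem isFix_zero (N : ℕ) : IsFix A N 0 := fun σ _ => map_zero _

/-- (FIX) -/
theorem isFix_one (N : ℕ) : IsFix A N 1 := fun σ _ => map_one _

/-- (FIX) -/
theorem IsFix.add {N : ℕ} {x y : FB N} (hx : IsFix A N x) (hy : IsFix A N y) :
    IsFix A N (x + y) := fun σ hσ => by rw [map_add, hx σ hσ, hy σ hσ]

/-- (FIX) -/
theorem IsFix.neg {N : ℕ} {x : FB N} (hx : IsFix A N x) : IsFix A N (-x) :=
  fun σ hσ => by rw [map_neg, hx σ hσ]

/-- (FIX) -/
theorem IsFix.sub {N : ℕ} {x y : FB N} (hx : IsFix A N x) (hy : IsFix A N y) :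
    IsFix A N (x - y) := fun σ hσ => by rw [map_sub, hx σ hσ, hy σ hσ]

/-- (FIX) -/
theorem IsFix.mul {N : ℕ} {x y : FB N} (hx : IsFix A N x) (hy : IsFix A N y) :
    IsFix A N (x * y) := fun σ hσ => by rw [map_mul, hx σ hσ, hy σ hσ]

/-- (FIX) -/
theorem IsFix.inv {N : ℕ} {x : FB N} (hx : IsFix A N x) : IsFix A N x⁻¹ :=
  fun σ hσ => by rw [map_inv₀, hx σ hσ]

/-- (FIX) -/
theorem IsFix.div {N : ℕ} {x y : FB N} (hx : IsFix A N x) (hy : IsFix A N y) :
    IsFix A N (x / y) := fun σ hσ => by rw [map_div₀, hx σ hσ, hy σ hσ]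

/-- (FIX) -/
theorem IsFix.pow {N : ℕ} {x : FB N} (hx : IsFix A N x) (n : ℕ) : IsFix A N (x ^ n) :=
  fun σ hσ => by rw [map_pow, hx σ hσ]

/-- (FIX) -/
theorem IsFix.zpow {N : ℕ} {x : FB N} (hx : IsFix A N x) (n : ℤ) : IsFix A N (x ^ n) :=
  fun σ hσ => by rw [map_zpow₀, hx σ hσ]

/-- (FIX) -/
theorem isFix_algebraMap_iff (N : ℕ) (c : Qb) :
    IsFix A N (algebraMap Qb (FB N) c) ↔ c ∈ K0 A := by
  rw [mem_K0_iff]
  have h1 : ∀ σ : GQ, ESLib.gal N σ (algebraMap Qb (FB N) c) = algebraMap Qb (FB N) (σ c) :=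
    fun σ => arithmeticRingAut_algebraMap _ σ c
  constructor
  · intro h σ hσ
    have := h σ hσ
    rw [h1] at this
    exact (algebraMap Qb (FB N)).injective this
  · intro h σ hσ
    rw [h1, h σ hσ]

/-- (FIX) -/
theorem isFix_JF (N d : ℕ) [NeZero N] (h : d ∣ N) : IsFix A N (JF N d h) :=
  fun σ _ => IM_gal_J N σ d _

/-- (FIX) -/
theorem isFix_qF (N q : ℕ) : IsFix A N (qF N q) := by
  rw [qF, isFix_algebraMap_iff]
  exact natCast_mem (K0 A) q

/-- (FIX) -/
theorem isFix_piF (M q : ℕ) [NeZero (q ^ 2 * M)] : IsFix A (q ^ 2 * M) (piF M q) :=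
  (isFix_JF _ _ _).sub (isFix_JF _ _ _)

/-- (FIX) -/
theorem IsFix.aHom {N' N : ℕ} [NeZero N'] [NeZero N] (h : N' ∣ N) {x : FB N'}
    (hx : IsFix A N' x) : IsFix A N (aHom h x) := by
  rw [isFix_iff_coeff] at hx ⊢
  rw [coe_aHom]
  exact hx

/-- (FIX) -/
theorem IsFix.bHom {N' N : ℕ} [NeZero N'] [NeZero N] (d : ℕ) [NeZero d] (h : N' * d ∣ N)
    {x : FB N'} (hx : IsFix A N' x) : IsFix A N (bHom d h x) := by
  rw [isFix_iff_coeff] at hx ⊢
  rw [coe_bHom]
  intro n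
  by_cases hn : (d : ℤ) ∣ n
  · obtain ⟨k, rfl⟩ := hn
    rw [qExpand_coeff_mul]
    exact hx k
  · rw [qExpand_coeff_of_not_dvd d _ hn]
    exact (K0 A).zero_mem

/-- (FIX) -/
theorem IsFix.al {N Q M : ℕ} [NeZero N] {w : FB N ≃ₐ[Qb] FB N} (hw : IsAL N Q M w) {x : FB N}
    (hx : IsFix A N x) : IsFix A N (w x) :=
  fun σ hσ => by rw [← hw.gal, hx σ hσ]

/-- (FIX) elements of `R0` are fixed -/
theorem isFix_of_mem_R0 {N : ℕ} [NeZero N] {x : FB N} (hx : x ∈ R0 A N) : IsFix A N x := by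
  induction hx using Subring.closure_induction with
  | mem y hy =>
    rcases hy with ⟨c, hc, rfl⟩ | ⟨d, h, rfl⟩
    · exact (isFix_algebraMap_iff N c).2 hc
    · exact isFix_JF N d h
  | zero => exact isFix_zero N
  | one => exact isFix_one N
  | add y z _ _ hy hz => exact hy.add hz
  | neg y _ hy => exact hy.neg
  | mul y z _ _ hy hz => exact hy.mul hz

variable (A)

/-- (FIX) the subfield `F0` -/
def fixF (N : ℕ) : Subfield (FB N) where
  carrier := {x | IsFix A N x}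
  mul_mem' := IsFix.mul
  one_mem' := isFix_one N
  add_mem' := IsFix.add
  zero_mem' := isFix_zero N
  neg_mem' := IsFix.neg
  inv_mem' := fun _ => IsFix.inv

theorem mem_fixF {N : ℕ} {x : FB N} : x ∈ fixF A N ↔ IsFix A N x := Iff.rfl

end

end Fermat.Agent.S36Lib
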