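import Fermat.Agent.S36.Mod.Defs
import Fermat.Agent.S18.FiniteFT
import Fermat.Agent.ES.Formal
import Fermat.Agent.Lib.FF.Defs

/-!
# S36, modular side: definitions of the branch data (`dvdM tauFam BrData AllInt E6T BLHyp`)
-/

set_option autoImplicit false
set_option synthInstance.maxHeartbeats 400000
set_option linter.unusedSectionVars false

open AlgebraicCurve ModularCurve Polynomial

namespace Fermat.Agent.S36Lib

open Fermat.Agent.S18Lib Fermat.Agent.S24Lib Fermat.Agent.S28Lib Fermat.Agent.ESLib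
  Fermat.Agent.S34Lib Fermat.Agent.FFLib

noncomputable section

theorem dvdM (M q : ℕ) : M ∣ q ^ 2 * M := dvd_mul_left _ _

variable (M q : ℕ) [NeZero M] [NeZero q]

/-- the complete list of conjugates over `FB M`, all restricting to `V_{q²}` on `FB M` -/
def tauFam (w : FB (q ^ 2 * M) ≃ₐ[Qb] FB (q ^ 2 * M))
    (i : ℕ → FB (q ^ 2 * M) →ₐ[Qb] LaurentSeries Qb) (ζ₂ : Qbˣ) :
    Unit ⊕ (Fin (q - 1) ⊕ Fin (q ^ 2)) → (FB (q ^ 2 * M) →+* LaurentSeries Qb)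
  | Sum.inl _ => (qExpand Qb (q ^ 2)).comp (eInf (q ^ 2 * M))
  | Sum.inr (Sum.inl a) =>
      (qExpand Qb (q ^ 2)).comp (i ((a : ℕ) + 1) : FB (q ^ 2 * M) →+* LaurentSeries Qb)
  | Sum.inr (Sum.inr k) => (twistHom (ζ₂ ^ (k : ℕ))).comp (eZero w)

/-- the data: `w_{q²}`, the middle embeddings `i a` attached to `ζ ^ a` (`q ∤ a`), a primitive
`q²`-th root of unity -/
structure BrData (w : FB (q ^ 2 * M) ≃ₐ[Qb] FB (q ^ 2 * M)) (ζ : Qbˣ)
    (i : ℕ → FB (q ^ 2 * M) →ₐ[Qb] LaurentSeries Qb) (ζ₂ : Qbˣ) : Prop where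
  al : IsAL (q ^ 2 * M) (q ^ 2) M w
  prim : IsPrimitiveRoot ζ q
  mid : ∀ a : ℕ, ¬ q ∣ a → IsIMid M q (ζ ^ a) (i a)
  prim₂ : IsPrimitiveRoot ζ₂ (q ^ 2)

variable {M q}

/-- `h` is integral on all branches -/
structure AllInt (A : ValuationSubring Qb) (w : FB (q ^ 2 * M) ≃ₐ[Qb] FB (q ^ 2 * M))
    (i : ℕ → FB (q ^ 2 * M) →ₐ[Qb] LaurentSeries Qb) (h : FB (q ^ 2 * M)) : Prop where
  inf : (h : LaurentSeries Qb) ∈ gRing A
  mid : ∀ a : ℕ, ¬ q ∣ a → i a h ∈ gRing A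
  zero : ((w h : FB (q ^ 2 * M)) : LaurentSeries Qb) ∈ gRing A

/-- `j̄⁴ (j̄ - 1728)³` -/
def E6T (A : ValuationSubring Qb) (M : ℕ) : FT A M := jT A M ^ 4 * (jT A M - 1728) ^ 3

/-- the hypotheses of (BL) on `g` -/
structure BLHyp (A : ValuationSubring Qb) (w : FB (q ^ 2 * M) ≃ₐ[Qb] FB (q ^ 2 * M))
    (i : ℕ → FB (q ^ 2 * M) →ₐ[Qb] LaurentSeries Qb) (n : ℕ) (α γ β : ℤ)
    (g : FB (q ^ 2 * M)) : Prop where
  fix : IsFix A (q ^ 2 * M) g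
  memL : g ∈ riemannRochSpace (n • poleDiv Qb (JF (q ^ 2 * M) 1 (one_dvd _)))
  inf : Ge A (eInf (q ^ 2 * M)) (qF (q ^ 2 * M) q) α g
  mid : Ge A (i 1 : FB (q ^ 2 * M) →+* LaurentSeries Qb) (piF M q) γ g
  zero : Ge A (eZero w) (qF (q ^ 2 * M) q) β g

end

end Fermat.Agent.S36Lib
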