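import Fermat.Agent.S36.Mod.ValDefs
import Fermat.Agent.S36.Mod.ValFix

/-!
# S36 (VAL), leaf (DESC): `F0 = Frac (R0)`
-/

set_option autoImplicit false
set_option synthInstance.maxHeartbeats 400000
set_option linter.unusedSectionVars false
set_option linter.unusedVariables false

open AlgebraicCurve ModularCurve

namespace Fermat.Agent.S36Lib

open Fermat.Agent.S18Lib Fermat.Agent.S24Lib Fermat.Agent.S28Lib Fermat.Agent.ESLib
  Fermat.Agent.S34Lib Fermat.Agent.S28Lib.RelationAux Fermat.Agent.FFLib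

noncomputable section

variable (A : ValuationSubring Qb)

/-- coefficientwise application of an additive map -/
def DESC_Lam (lam : Qb →+ Qb) (y : LaurentSeries Qb) : LaurentSeries Qb := y.map lam

theorem DESC_Lam_coeff (lam : Qb →+ Qb) (y : LaurentSeries Qb) (n : ℤ) :
    (DESC_Lam lam y).coeff n = lam (y.coeff n) := rfl

theorem DESC_Lam_support (lam : Qb →+ Qb) (y : LaurentSeries Qb) :
    (DESC_Lam lam y).support ⊆ y.support := by
  intro n hn
  rw [HahnSeries.mem_support, DESC_Lam_coeff] at hn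
  rw [HahnSeries.mem_support]
  intro h0
  exact hn (by rw [h0, map_zero])

variable {A}

theorem DESC_Lam_mul {lam : Qb →+ Qb} (hl : ∀ k ∈ K0 A, ∀ c, lam (k * c) = k * lam c)
    (u y : LaurentSeries Qb) (hu : ∀ n, u.coeff n ∈ K0 A) :
    DESC_Lam lam (u * y) = u * DESC_Lam lam y := by
  ext n
  rw [DESC_Lam_coeff, HahnSeries.coeff_mul,
    HahnSeries.coeff_mul_right' y.isPWO_support (DESC_Lam_support lam y), map_sum]
  refine Finset.sum_congr rfl fun ij _ => ?_
  rw [hl _ (hu _), DESC_Lam_coeff]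

theorem DESC_monomial {N : ℕ} [NeZero N] (y : LaurentSeries Qb)
    (hy : y ∈ Submonoid.closure (gensBar N)) : ∃ P ∈ R0 A N, (P : LaurentSeries Qb) = y := by
  induction hy using Submonoid.closure_induction with
  | mem y hy =>
    obtain ⟨_, ⟨d, hd0, hd, rfl⟩, rfl⟩ := hy
    refine ⟨JF N d hd, Subring.subset_closure (Or.inr ⟨d, hd, rfl⟩), ?_⟩
    exact Wq_J_eq d
  | one => exact ⟨1, (R0 A N).one_mem, rfl⟩
  | mul y z _ _ hy hz =>
    obtain ⟨P, hP, rfl⟩ := hy
    obtain ⟨Q, hQ, rfl⟩ := hz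
    exact ⟨P * Q, (R0 A N).mul_mem hP hQ, rfl⟩

theorem DESC_span {N : ℕ} [NeZero N] (y : LaurentSeries Qb)
    (hy : y ∈ Algebra.adjoin Qb (gensBar N))
    (lam : Qb →+ Qb) (hl : ∀ k ∈ K0 A, ∀ c, lam (k * c) = k * lam c) (hi : ∀ c, lam c ∈ K0 A) :
    ∃ P ∈ R0 A N, (P : LaurentSeries Qb) = DESC_Lam lam y := by
  have hy' : y ∈ Subalgebra.toSubmodule (Algebra.adjoin Qb (gensBar N)) := hy
  rw [Algebra.adjoin_eq_span] at hy'
  clear hy
  induction hy' using Submodule.span_induction generalizing lam with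
  | mem y hy =>
    obtain ⟨P, hP, rfl⟩ := DESC_monomial (A := A) y hy
    refine ⟨algebraMap Qb (FB N) (lam 1) * P, (R0 A N).mul_mem
      (Subring.subset_closure (Or.inl ⟨lam 1, hi 1, rfl⟩)) hP, ?_⟩
    have hc := (isFix_iff_coeff P).1 (isFix_of_mem_R0 hP)
    have e1 : ((algebraMap Qb (FB N) (lam 1) * P : FB N) : LaurentSeries Qb) =
        algebraMap Qb (LaurentSeries Qb) (lam 1) * (P : LaurentSeries Qb) := rfl
    rw [e1, algebraMap_laurentSeries_eq_single]
    ext n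
    rw [HahnSeries.coeff_single_zero_mul, DESC_Lam_coeff, mul_comm, ← hl _ (hc n), mul_one]
  | zero =>
    refine ⟨0, (R0 A N).zero_mem, ?_⟩
    ext n
    rw [DESC_Lam_coeff, HahnSeries.coeff_zero, map_zero]
    rfl
  | add y z _ _ hy hz =>
    obtain ⟨P, hP, hP'⟩ := hy lam hl hi
    obtain ⟨Q, hQ, hQ'⟩ := hz lam hl hi
    refine ⟨P + Q, (R0 A N).add_mem hP hQ, ?_⟩
    have : ((P + Q : FB N) : LaurentSeries Qb) = (P : LaurentSeries Qb) + Q := rfl
    rw [this, hP', hQ']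
    ext n
    rw [HahnSeries.coeff_add, DESC_Lam_coeff, DESC_Lam_coeff, DESC_Lam_coeff, HahnSeries.coeff_add,
      map_add]
  | smul c y _ hy =>
    obtain ⟨P, hP, hP'⟩ := hy (lam.comp (AddMonoidHom.mulLeft c))
      (fun k hk d => by
        show lam (c * (k * d)) = k * lam (c * d)
        rw [mul_left_comm, hl k hk])
      (fun d => hi _)
    refine ⟨P, hP, ?_⟩
    rw [hP']
    ext n
    rw [DESC_Lam_coeff, DESC_Lam_coeff, Algebra.smul_def, algebraMap_laurentSeries_eq_single,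
      HahnSeries.coeff_single_zero_mul]
    rfl

variable (A)

theorem DESC_exists_lam {c : Qb} (hc : c ≠ 0) :
    ∃ lam : Qb →+ Qb, (∀ k ∈ K0 A, ∀ d, lam (k * d) = k * lam d) ∧ (∀ d, lam d ∈ K0 A) ∧
      lam c ≠ 0 := by
  have h := (Module.forall_dual_apply_eq_zero_iff (K0 A) c).not.2 hc
  push Not at h
  obtain ⟨φ, hφ⟩ := h
  refine ⟨((algebraMap (K0 A) Qb : K0 A →+* Qb) : K0 A →+ Qb).comp (φ : Qb →+ K0 A), ?_, ?_, ?_⟩
  · intro k hk d
    show ((φ (k * d) : K0 A) : Qb) = k * ((φ d : K0 A) : Qb)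
    have : k * d = (⟨k, hk⟩ : K0 A) • d := rfl
    rw [this, map_smul]
    rfl
  · intro d
    exact (φ d).2
  · intro h0
    exact hφ (Subtype.ext h0)

/-- (DESC) -/
theorem exists_R0_frac {N : ℕ} [NeZero N] (x : FB N) (hx : IsFix A N x) :
    ∃ P ∈ R0 A N, ∃ Q ∈ R0 A N, Q ≠ 0 ∧ x * Q = P := by
  have hx' : (x : LaurentSeries Qb) ∈ IntermediateField.adjoin Qb (gensBar N) := by
    rw [← bar_eq_adjoin N]
    exact x.2
  obtain ⟨r, hr, s, hs, hxrs⟩ := IntermediateField.mem_adjoin_iff_div.1 hx'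
  by_cases hs0 : s = 0
  · refine ⟨0, (R0 A N).zero_mem, 1, (R0 A N).one_mem, one_ne_zero, ?_⟩
    rw [mul_one]
    apply Subtype.ext
    rw [hxrs, hs0, div_zero]
    rfl
  have hxs : (x : LaurentSeries Qb) * s = r := by rw [hxrs, div_mul_cancel₀ _ hs0]
  obtain ⟨n, hn⟩ : ∃ n, s.coeff n ≠ 0 := by
    by_contra hcon
    push Not at hcon
    exact hs0 (HahnSeries.ext (funext hcon))
  obtain ⟨lam, hl, hi, hlam⟩ := DESC_exists_lam A hn
  obtain ⟨P, hP, hP'⟩ := DESC_span r hr lam hl hi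
  obtain ⟨Q, hQ, hQ'⟩ := DESC_span s hs lam hl hi
  refine ⟨P, hP, Q, hQ, ?_, ?_⟩
  · rintro rfl
    apply hlam
    rw [← DESC_Lam_coeff, ← hQ']
    rfl
  · apply Subtype.ext
    have : ((x * Q : FB N) : LaurentSeries Qb) = (x : LaurentSeries Qb) * Q := rfl
    rw [this, hQ', hP', ← DESC_Lam_mul hl _ _ ((isFix_iff_coeff x).1 hx), hxs]

end

end Fermat.Agent.S36Lib
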