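import Fermat.Agent.S36.Mod.ValDefs

/-!
# S36 (VAL), leaf (GU): units of the Gauss ring, lifting of series with coefficients in `A`
-/

set_option autoImplicit false
set_option synthInstance.maxHeartbeats 400000
set_option linter.unusedSectionVars false
set_option linter.unusedVariables false

open AlgebraicCurve ModularCurve

namespace Fermat.Agent.S36Lib

open Fermat.Agent.S18Lib Fermat.Agent.S24Lib Fermat.Agent.S28Lib Fermat.Agent.ESLib
  Fermat.Agent.S34Lib Fermat.Agent.S28Lib.RelationAux Fermat.Agent.FFLib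

noncomputable section

variable (A : ValuationSubring Qb)

/-- (GU) -/
theorem exists_cE_eq {y : LaurentSeries Qb} (h : ∀ n, y.coeff n ∈ A) :
    ∃ y' : LaurentSeries A, cE A y' = y := by
  refine ⟨⟨fun n => ⟨y.coeff n, h n⟩, y.isPWO_support.mono ?_⟩, ?_⟩
  · intro n hn
    simp only [Function.mem_support, ne_eq] at hn
    simp only [HahnSeries.mem_support, ne_eq]
    intro h0
    exact hn (Subtype.ext h0)
  · ext n
    rfl

variable {A}

/-- (GU) -/
theorem isGU_cE {y : LaurentSeries A} (h : cR A y ≠ 0) : IsGU A (cE A y) :=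
  ⟨cE_mem_gRing A y, by rw [gRed_cE]; exact h⟩

/-- (GU) -/
theorem isGU_one : IsGU A 1 :=
  ⟨(gRing A).one_mem, by
    have : (⟨1, (gRing A).one_mem⟩ : gRing A) = 1 := rfl
    rw [this, map_one]
    exact one_ne_zero⟩

/-- (GU) -/
theorem IsGU.mul {x y : LaurentSeries Qb} (hx : IsGU A x) (hy : IsGU A y) : IsGU A (x * y) := by
  obtain ⟨hx, hx'⟩ := hx
  obtain ⟨hy, hy'⟩ := hy
  refine ⟨(gRing A).mul_mem hx hy, ?_⟩
  have : (⟨x * y, (gRing A).mul_mem hx hy⟩ : gRing A) = ⟨x, hx⟩ * ⟨y, hy⟩ := rfl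
  rw [this, map_mul]
  exact mul_ne_zero hx' hy'

/-- (GU) -/
theorem IsGU.ne_zero {x : LaurentSeries Qb} (hx : IsGU A x) : x ≠ 0 := by
  obtain ⟨hx, hx'⟩ := hx
  rintro rfl
  apply hx'
  have : (⟨0, hx⟩ : gRing A) = 0 := rfl
  rw [this, map_zero]

/-- (GU) `gRed` of an inverse -/
theorem gRed_inv {x : LaurentSeries Qb} (hx : x ∈ gRing A) (hx' : x⁻¹ ∈ gRing A) :
    gRed A ⟨x⁻¹, hx'⟩ = (gRed A ⟨x, hx⟩)⁻¹ := by
  by_cases h0 : x = 0
  · subst h0
    have h1 : (⟨0, hx⟩ : gRing A) = 0 := rfl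
    have h2 : (⟨(0 : LaurentSeries Qb)⁻¹, hx'⟩ : gRing A) = 0 := Subtype.ext inv_zero
    rw [h1, h2, map_zero, inv_zero]
  · have h1 : (⟨x⁻¹, hx'⟩ : gRing A) * ⟨x, hx⟩ = 1 := Subtype.ext (inv_mul_cancel₀ h0)
    have h2 := congrArg (gRed A) h1
    rw [map_mul, map_one] at h2
    exact eq_inv_of_mul_eq_one_left h2

/-- (GU) -/
theorem IsGU.inv {x : LaurentSeries Qb} (hx : IsGU A x) : IsGU A x⁻¹ := by
  obtain ⟨hx, hx'⟩ := hx
  have h := inv_mem_gRing A ⟨x, hx⟩ hx'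
  exact ⟨h, by rw [gRed_inv hx h]; exact inv_ne_zero hx'⟩

/-- (GU) -/
theorem IsGU.zpow {x : LaurentSeries Qb} (hx : IsGU A x) (n : ℤ) : IsGU A (x ^ n) := by
  have hpow : ∀ k : ℕ, IsGU A (x ^ k) := by
    intro k
    induction k with
    | zero => rw [pow_zero]; exact isGU_one
    | succ k ih => rw [pow_succ]; exact ih.mul hx
  obtain ⟨k, rfl | rfl⟩ := n.eq_nat_or_neg
  · rw [zpow_natCast]; exact hpow k
  · rw [zpow_neg, zpow_natCast]; exact (hpow k).inv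

/-- (GU) constants -/
theorem C_mem_gRing {c : Qb} (hc : c ∈ A) : (HahnSeries.C c : LaurentSeries Qb) ∈ gRing A := by
  rw [← rr_cE_C A ⟨c, hc⟩]
  exact cE_mem_gRing A _

/-- (GU) -/
theorem gRed_C {c : Qb} (hc : c ∈ A) :
    gRed A ⟨HahnSeries.C c, C_mem_gRing hc⟩ = HahnSeries.C (resA A ⟨c, hc⟩) := by
  have h : (⟨HahnSeries.C c, C_mem_gRing hc⟩ : gRing A) =
      ⟨cE A (HahnSeries.C (⟨c, hc⟩ : A)), cE_mem_gRing A _⟩ := Subtype.ext (rr_cE_C A ⟨c, hc⟩).symm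
  rw [h, gRed_cE, rr_cR_C]

/-- (GU) a constant of the Gauss ring is integral -/
theorem mem_of_C_mem_gRing {c : Qb} (h : (HahnSeries.C c : LaurentSeries Qb) ∈ gRing A) :
    c ∈ A := by
  refine rr_c_mem A h (b := 1) (w := 1) (by rw [map_one]; exact one_ne_zero) ?_
  rw [map_one]

end

end Fermat.Agent.S36Lib
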