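import Fermat.Agent.S36.Mod.ValDefs
import Fermat.Agent.S36.Mod.ValGU
import Fermat.Agent.S36.Mod.ValFix

/-!
# S36 (VAL), leaf (API): `Ge` / `rd` calculus
-/

set_option autoImplicit false
set_option synthInstance.maxHeartbeats 400000
set_option linter.unusedSectionVars false
set_option linter.unusedVariables false

open AlgebraicCurve ModularCurve

namespace Fermat.Agent.S36Lib

open Fermat.Agent.S18Lib Fermat.Agent.S24Lib Fermat.Agent.S28Lib Fermat.Agent.ESLib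
  Fermat.Agent.S34Lib Fermat.Agent.S28Lib.RelationAux Fermat.Agent.FFLib

noncomputable section

section Api

variable {A : ValuationSubring Qb} {N : ℕ} {e : FB N →+* LaurentSeries Qb} {ϖ : FB N}

theorem API_gRed_add {x y : LaurentSeries Qb} (hx : x ∈ gRing A) (hy : y ∈ gRing A)
    (hxy : x + y ∈ gRing A) : gRed A ⟨x + y, hxy⟩ = gRed A ⟨x, hx⟩ + gRed A ⟨y, hy⟩ := by
  have : (⟨x + y, hxy⟩ : gRing A) = ⟨x, hx⟩ + ⟨y, hy⟩ := rfl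
  rw [this, map_add]

theorem API_gRed_mul {x y : LaurentSeries Qb} (hx : x ∈ gRing A) (hy : y ∈ gRing A)
    (hxy : x * y ∈ gRing A) : gRed A ⟨x * y, hxy⟩ = gRed A ⟨x, hx⟩ * gRed A ⟨y, hy⟩ := by
  have : (⟨x * y, hxy⟩ : gRing A) = ⟨x, hx⟩ * ⟨y, hy⟩ := rfl
  rw [this, map_mul]

theorem API_gRed_neg {x : LaurentSeries Qb} (hx : x ∈ gRing A)
    (hxy : -x ∈ gRing A) : gRed A ⟨-x, hxy⟩ = - gRed A ⟨x, hx⟩ := by
  have : (⟨-x, hxy⟩ : gRing A) = -⟨x, hx⟩ := rfl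
  rw [this, map_neg]

theorem API_gRed_pow {x : LaurentSeries Qb} (hx : x ∈ gRing A) (k : ℕ)
    (hxy : x ^ k ∈ gRing A) : gRed A ⟨x ^ k, hxy⟩ = gRed A ⟨x, hx⟩ ^ k := by
  have : (⟨x ^ k, hxy⟩ : gRing A) = ⟨x, hx⟩ ^ k := rfl
  rw [this, map_pow]

theorem API_ge_of_eq {a : ℤ} {g : FB N} {x : LaurentSeries Qb} (hx : x ∈ gRing A)
    (h : e (ϖ ^ (-a) * g) = x) : Ge A e ϖ a g := by
  show e (ϖ ^ (-a) * g) ∈ gRing A
  rw [h]; exact hx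

theorem API_rd_eq {a : ℤ} {g : FB N} {x : LaurentSeries Qb} (hx : x ∈ gRing A)
    (h : e (ϖ ^ (-a) * g) = x) : rd A e ϖ a g = gRed A ⟨x, hx⟩ := by
  rw [rd_of_ge (API_ge_of_eq hx h)]
  congr 1
  exact Subtype.ext h

theorem rd_of_not_ge {a : ℤ} {g : FB N} (h : ¬ Ge A e ϖ a g) : rd A e ϖ a g = 0 := dif_neg h

/-- (API) -/
theorem ge_and_rd_ne_iff {a : ℤ} {g : FB N} :
    (Ge A e ϖ a g ∧ rd A e ϖ a g ≠ 0) ↔ IsGU A (e (ϖ ^ (-a) * g)) := by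
  constructor
  · rintro ⟨h, hr⟩
    rw [rd_of_ge h] at hr
    exact ⟨h, hr⟩
  · rintro ⟨h, hr⟩
    have h' : Ge A e ϖ a g := h
    exact ⟨h', by rw [rd_of_ge h']; exact hr⟩

/-- (API) -/
theorem Ge.zero (a : ℤ) : Ge A e ϖ a 0 :=
  API_ge_of_eq (gRing A).zero_mem (by rw [mul_zero, map_zero])

/-- (API) -/
theorem rd_zero (a : ℤ) : rd A e ϖ a 0 = 0 := by
  rw [API_rd_eq (gRing A).zero_mem (by rw [mul_zero, map_zero])]
  exact map_zero (gRed A)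

/-- (API) -/
theorem Ge.add {a : ℤ} {g h : FB N} (hg : Ge A e ϖ a g) (hh : Ge A e ϖ a h) :
    Ge A e ϖ a (g + h) :=
  API_ge_of_eq ((gRing A).add_mem hg hh) (by rw [mul_add, map_add])

/-- (API) -/
theorem rd_add {a : ℤ} {g h : FB N} (hg : Ge A e ϖ a g) (hh : Ge A e ϖ a h) :
    rd A e ϖ a (g + h) = rd A e ϖ a g + rd A e ϖ a h := by
  rw [API_rd_eq ((gRing A).add_mem hg hh) (by rw [mul_add, map_add]), rd_of_ge hg, rd_of_ge hh]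
  exact API_gRed_add hg hh _

/-- (API) -/
theorem Ge.neg {a : ℤ} {g : FB N} (hg : Ge A e ϖ a g) : Ge A e ϖ a (-g) :=
  API_ge_of_eq ((gRing A).neg_mem hg) (by rw [mul_neg, map_neg])

/-- (API) -/
theorem rd_neg (a : ℤ) (g : FB N) : rd A e ϖ a (-g) = - rd A e ϖ a g := by
  by_cases hg : Ge A e ϖ a g
  · rw [API_rd_eq ((gRing A).neg_mem hg) (by rw [mul_neg, map_neg]), rd_of_ge hg]
    exact API_gRed_neg hg _
  · have hg' : ¬ Ge A e ϖ a (-g) := fun h => hg (by simpa using h.neg)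
    rw [rd_of_not_ge hg, rd_of_not_ge hg', neg_zero]

/-- (API) -/
theorem Ge.sub {a : ℤ} {g h : FB N} (hg : Ge A e ϖ a g) (hh : Ge A e ϖ a h) :
    Ge A e ϖ a (g - h) := by
  rw [sub_eq_add_neg]
  exact hg.add hh.neg

/-- (API) -/
theorem rd_sub {a : ℤ} {g h : FB N} (hg : Ge A e ϖ a g) (hh : Ge A e ϖ a h) :
    rd A e ϖ a (g - h) = rd A e ϖ a g - rd A e ϖ a h := by
  rw [sub_eq_add_neg, rd_add hg hh.neg, rd_neg, sub_eq_add_neg]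

theorem API_mul_eq (hϖ : ϖ ≠ 0) (a b : ℤ) (g h : FB N) :
    e (ϖ ^ (-(a + b)) * (g * h)) = e (ϖ ^ (-a) * g) * e (ϖ ^ (-b) * h) := by
  rw [← map_mul, neg_add, zpow_add₀ hϖ]
  congr 1
  ring

/-- (API) -/
theorem Ge.mul (hϖ : ϖ ≠ 0) {a b : ℤ} {g h : FB N} (hg : Ge A e ϖ a g) (hh : Ge A e ϖ b h) :
    Ge A e ϖ (a + b) (g * h) :=
  API_ge_of_eq ((gRing A).mul_mem hg hh) (API_mul_eq hϖ a b g h)

/-- (API) -/
theorem rd_mul (hϖ : ϖ ≠ 0) {a b : ℤ} {g h : FB N} (hg : Ge A e ϖ a g) (hh : Ge A e ϖ b h) :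
    rd A e ϖ (a + b) (g * h) = rd A e ϖ a g * rd A e ϖ b h := by
  rw [API_rd_eq ((gRing A).mul_mem hg hh) (API_mul_eq hϖ a b g h), rd_of_ge hg, rd_of_ge hh]
  exact API_gRed_mul hg hh _

theorem ge_one : Ge A e ϖ 0 1 :=
  API_ge_of_eq (gRing A).one_mem (by rw [neg_zero, zpow_zero, one_mul, map_one])

theorem rd_one : rd A e ϖ 0 1 = 1 := by
  rw [API_rd_eq (gRing A).one_mem (by rw [neg_zero, zpow_zero, one_mul, map_one])]
  exact map_one (gRed A)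

/-- (API) -/
theorem Ge.pow (hϖ : ϖ ≠ 0) {a : ℤ} {g : FB N} (hg : Ge A e ϖ a g) (n : ℕ) :
    Ge A e ϖ (n * a) (g ^ n) := by
  induction n with
  | zero =>
    rw [Nat.cast_zero, zero_mul, pow_zero]
    exact ge_one
  | succ n ih =>
    rw [Nat.cast_succ, add_mul, one_mul, pow_succ]
    exact ih.mul hϖ hg

/-- (API) -/
theorem rd_pow (hϖ : ϖ ≠ 0) {a : ℤ} {g : FB N} (hg : Ge A e ϖ a g) (n : ℕ) :
    rd A e ϖ (n * a) (g ^ n) = rd A e ϖ a g ^ n := by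
  induction n with
  | zero =>
    rw [Nat.cast_zero, zero_mul, pow_zero, pow_zero]
    exact rd_one
  | succ n ih =>
    rw [Nat.cast_succ, add_mul, one_mul, pow_succ, pow_succ, rd_mul hϖ (hg.pow hϖ n) hg, ih]

theorem API_shift_eq (hϖ : ϖ ≠ 0) (a b : ℤ) (g : FB N) :
    ϖ ^ (-(a + b)) * (ϖ ^ b * g) = ϖ ^ (-a) * g := by
  rw [← mul_assoc, ← zpow_add₀ hϖ]
  congr 2
  ring

/-- (API) shift by a power of the uniformizer -/
theorem ge_unif_mul_iff (hϖ : ϖ ≠ 0) (a b : ℤ) (g : FB N) :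
    Ge A e ϖ (a + b) (ϖ ^ b * g) ↔ Ge A e ϖ a g := by
  unfold Ge
  rw [API_shift_eq hϖ]

/-- (API) -/
theorem rd_unif_mul (hϖ : ϖ ≠ 0) (a b : ℤ) (g : FB N) :
    rd A e ϖ (a + b) (ϖ ^ b * g) = rd A e ϖ a g := by
  by_cases hg : Ge A e ϖ a g
  · rw [API_rd_eq hg (by rw [API_shift_eq hϖ]), rd_of_ge hg]
  · rw [rd_of_not_ge hg, rd_of_not_ge (fun h => hg ((ge_unif_mul_iff hϖ a b g).1 h))]

theorem API_unif_eq (hϖ : ϖ ≠ 0) (a : ℤ) : e (ϖ ^ (-a) * ϖ ^ a) = 1 := by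
  rw [← zpow_add₀ hϖ, neg_add_cancel, zpow_zero, map_one]

/-- (API) -/
theorem ge_unif_zpow (hϖ : ϖ ≠ 0) (a : ℤ) : Ge A e ϖ a (ϖ ^ a) :=
  API_ge_of_eq (gRing A).one_mem (API_unif_eq hϖ a)

/-- (API) -/
theorem rd_unif_zpow (hϖ : ϖ ≠ 0) (a : ℤ) : rd A e ϖ a (ϖ ^ a) = 1 := by
  rw [API_rd_eq (gRing A).one_mem (API_unif_eq hϖ a)]
  exact map_one (gRed A)

theorem API_inv_eq (a : ℤ) (g : FB N) :
    e (ϖ ^ (-(-a)) * g⁻¹) = (e (ϖ ^ (-a) * g))⁻¹ := by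
  rw [← map_inv₀, mul_inv, ← zpow_neg]

/-- (API) -/
theorem Ge.inv (hϖ : ϖ ≠ 0) {a : ℤ} {g : FB N} (hg : Ge A e ϖ a g) (hr : rd A e ϖ a g ≠ 0) :
    Ge A e ϖ (-a) g⁻¹ := by
  obtain ⟨h, -⟩ := (ge_and_rd_ne_iff.1 ⟨hg, hr⟩).inv
  exact API_ge_of_eq h (API_inv_eq a g)

/-- (API) -/
theorem rd_inv (hϖ : ϖ ≠ 0) {a : ℤ} {g : FB N} (hg : Ge A e ϖ a g) (hr : rd A e ϖ a g ≠ 0) :
    rd A e ϖ (-a) g⁻¹ = (rd A e ϖ a g)⁻¹ := by
  obtain ⟨h, -⟩ := (ge_and_rd_ne_iff.1 ⟨hg, hr⟩).inv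
  rw [API_rd_eq h (API_inv_eq a g), rd_of_ge hg, gRed_inv hg h]

variable (hB : IsBranch A e ϖ)
include hB

theorem API_mono_eq (a : ℤ) (k : ℕ) (g : FB N) :
    e (ϖ ^ (-a) * g) = e ϖ ^ k * e (ϖ ^ (-(a + k)) * g) := by
  rw [← map_pow, ← map_mul, ← mul_assoc, ← zpow_natCast, ← zpow_add₀ hB.ne]
  congr 3
  ring

/-- (API) -/
theorem IsBranch.ge_mono {a b : ℤ} (hab : a ≤ b) {g : FB N} (hg : Ge A e ϖ b g) :
    Ge A e ϖ a g := by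
  obtain ⟨k, rfl⟩ : ∃ k : ℕ, b = a + k := ⟨(b - a).toNat, by omega⟩
  exact API_ge_of_eq ((gRing A).mul_mem ((gRing A).pow_mem hB.mem k) hg) (API_mono_eq hB a k g)

/-- (API) -/
theorem IsBranch.rd_eq_zero_of_lt {a b : ℤ} (hab : a < b) {g : FB N} (hg : Ge A e ϖ b g) :
    rd A e ϖ a g = 0 := by
  obtain ⟨k, rfl⟩ : ∃ k : ℕ, b = a + k := ⟨(b - a).toNat, by omega⟩
  have hk : k ≠ 0 := by
    rintro rfl
    simp at hab
  rw [API_rd_eq ((gRing A).mul_mem ((gRing A).pow_mem hB.mem k) hg) (API_mono_eq hB a k g)]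
  rw [API_gRed_mul ((gRing A).pow_mem hB.mem k) hg, API_gRed_pow hB.mem, hB.red, zero_pow hk,
    zero_mul]

/-- (API) -/
theorem IsBranch.unique {a b : ℤ} {g : FB N} (ha : Ge A e ϖ a g) (ha' : rd A e ϖ a g ≠ 0)
    (hb : Ge A e ϖ b g) (hb' : rd A e ϖ b g ≠ 0) : a = b := by
  rcases lt_trichotomy a b with h | h | h
  · exact absurd (hB.rd_eq_zero_of_lt h hb) ha'
  · exact h
  · exact absurd (hB.rd_eq_zero_of_lt h ha) hb'

/-- (API) the key property of discreteness -/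
theorem IsBranch.rd_eq_zero_iff {a : ℤ} {g : FB N} (hfix : IsFix A N g) (hg : Ge A e ϖ a g) :
    rd A e ϖ a g = 0 ↔ Ge A e ϖ (a + 1) g := by
  by_cases hg0 : g = 0
  · subst hg0
    exact ⟨fun _ => Ge.zero _, fun _ => rd_zero _⟩
  obtain ⟨a0, h0, h0'⟩ := hB.disc g hg0 hfix
  have ha : a ≤ a0 := by
    by_contra hlt
    exact h0' (hB.rd_eq_zero_of_lt (not_le.1 hlt) hg)
  constructor
  · intro hr
    have hne : a ≠ a0 := by
      rintro rfl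
      exact h0' hr
    exact hB.ge_mono (by omega) h0
  · intro h
    exact hB.rd_eq_zero_of_lt (by omega) h

theorem API_const_eq (c : Qb) : e (ϖ ^ (-(0 : ℤ)) * algebraMap Qb (FB N) c) = HahnSeries.C c := by
  rw [neg_zero, zpow_zero, one_mul, hB.const]

/-- (API) constants -/
theorem IsBranch.ge_const {c : Qb} (hc : c ∈ A) : Ge A e ϖ 0 (algebraMap Qb (FB N) c) :=
  API_ge_of_eq (C_mem_gRing hc) (API_const_eq hB c)

/-- (API) -/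
theorem IsBranch.rd_const {c : Qb} (hc : c ∈ A) :
    rd A e ϖ 0 (algebraMap Qb (FB N) c) = HahnSeries.C (resA A ⟨c, hc⟩) := by
  rw [API_rd_eq (C_mem_gRing hc) (API_const_eq hB c), gRed_C]

/-- (API) -/
theorem IsBranch.vB_spec {g : FB N} (hg0 : g ≠ 0) (hfix : IsFix A N g) :
    Ge A e ϖ (vB A e ϖ g) g ∧ rd A e ϖ (vB A e ϖ g) g ≠ 0 := by
  have h := hB.disc g hg0 hfix
  rw [vB, dif_pos h]
  exact h.choose_spec

/-- (API) -/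
theorem IsBranch.vB_eq {a : ℤ} {g : FB N} (ha : Ge A e ϖ a g) (ha' : rd A e ϖ a g ≠ 0) :
    vB A e ϖ g = a := by
  have h : ∃ a : ℤ, Ge A e ϖ a g ∧ rd A e ϖ a g ≠ 0 := ⟨a, ha, ha'⟩
  rw [vB, dif_pos h]
  exact hB.unique h.choose_spec.1 h.choose_spec.2 ha ha'

/-- (API) -/
theorem IsBranch.ge_iff_le_vB {g : FB N} (hg0 : g ≠ 0) (hfix : IsFix A N g) (a : ℤ) :
    Ge A e ϖ a g ↔ a ≤ vB A e ϖ g := by
  obtain ⟨h1, h2⟩ := hB.vB_spec hg0 hfix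
  constructor
  · intro h
    by_contra hlt
    exact h2 (hB.rd_eq_zero_of_lt (not_le.1 hlt) h)
  · intro h
    exact hB.ge_mono h h1

/-- (API) -/
theorem IsBranch.vB_mul {g h : FB N} (hg0 : g ≠ 0) (hg : IsFix A N g) (hh0 : h ≠ 0)
    (hh : IsFix A N h) : vB A e ϖ (g * h) = vB A e ϖ g + vB A e ϖ h := by
  obtain ⟨h1, h2⟩ := hB.vB_spec hg0 hg
  obtain ⟨h3, h4⟩ := hB.vB_spec hh0 hh
  exact hB.vB_eq (h1.mul hB.ne h3) (by rw [rd_mul hB.ne h1 h3]; exact mul_ne_zero h2 h4)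

/-- (API) -/
theorem IsBranch.vB_inv {g : FB N} (hg0 : g ≠ 0) (hg : IsFix A N g) :
    vB A e ϖ g⁻¹ = - vB A e ϖ g := by
  obtain ⟨h1, h2⟩ := hB.vB_spec hg0 hg
  exact hB.vB_eq (h1.inv hB.ne h2) (by rw [rd_inv hB.ne h1 h2]; exact inv_ne_zero h2)

/-- (API) -/
theorem IsBranch.vB_add {g h : FB N} (hg0 : g ≠ 0) (hg : IsFix A N g) (hh0 : h ≠ 0)
    (hh : IsFix A N h) (hgh : g + h ≠ 0) :
    min (vB A e ϖ g) (vB A e ϖ h) ≤ vB A e ϖ (g + h) := by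
  rw [← hB.ge_iff_le_vB hgh (hg.add hh)]
  exact (hB.ge_mono (min_le_left _ _) (hB.vB_spec hg0 hg).1).add
    (hB.ge_mono (min_le_right _ _) (hB.vB_spec hh0 hh).1)

/-- (API) -/
theorem IsBranch.vB_unif : vB A e ϖ ϖ = 1 := by
  have h1 := ge_unif_zpow (A := A) (e := e) hB.ne 1
  have h2 := rd_unif_zpow (A := A) (e := e) hB.ne 1
  rw [zpow_one] at h1 h2
  exact hB.vB_eq h1 (by rw [h2]; exact one_ne_zero)

end Api

end

end Fermat.Agent.S36Lib
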