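import Fermat.Agent.S36.Mod.ValDefs
import Fermat.Agent.S36.Mod.ValGU
import Fermat.Agent.S36.K0a
import Fermat.Agent.S36.K0d

/-!
# S36 (VAL), leaf (G4): discreteness
-/

set_option autoImplicit false
set_option synthInstance.maxHeartbeats 400000
set_option linter.unusedSectionVars false
set_option linter.unusedVariables false

open AlgebraicCurve ModularCurve

namespace Fermat.Agent.S36Lib

open Fermat.Agent.S18Lib Fermat.Agent.S24Lib Fermat.Agent.S28Lib Fermat.Agent.ESLib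
  Fermat.Agent.S34Lib Fermat.Agent.S28Lib.RelationAux Fermat.Agent.FFLib

noncomputable section

variable (A : ValuationSubring Qb)

theorem G4_zpow_mem {π : Qb} (hπ : π ∈ A) {k : ℤ} (hk : 0 ≤ k) : π ^ k ∈ A := by
  obtain ⟨m, rfl⟩ := Int.eq_ofNat_of_zero_le hk
  rw [zpow_natCast]
  exact A.pow_mem hπ m

theorem G4_mem_of_nonunits {π : Qb} (hπ : π ∈ A.nonunits) : π ∈ A := by
  rw [ValuationSubring.mem_nonunits_iff] at hπ
  exact (A.valuation_le_one_iff π).1 hπ.le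

theorem G4_nonneg_of_zpow_mem {π : Qb} (hπ : π ∈ A.nonunits) (hπ0 : π ≠ 0) {k : ℤ}
    (hk : π ^ k ∈ A) : 0 ≤ k := by
  rw [ValuationSubring.mem_nonunits_iff] at hπ
  have hv0 : 0 < A.valuation π := zero_lt_iff.mpr ((Valuation.ne_zero_iff _).mpr hπ0)
  rw [← A.valuation_le_one_iff, map_zpow₀] at hk
  by_contra hneg
  exact absurd hk (not_le.mpr (one_lt_zpow_of_neg₀ hv0 hπ (not_le.mp hneg)))

theorem G4_coeff_C_mul (c : Qb) (y : LaurentSeries Qb) (n : ℤ) :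
    (HahnSeries.C c * y).coeff n = c * y.coeff n := by
  rw [HahnSeries.C_mul_eq_smul, HahnSeries.coeff_smul, smul_eq_mul]

/-- (G4) bounded denominators: ring operations -/
theorem isBD_C (K1 : Subfield Qb) {π : Qb} (hπ : π ∈ A.nonunits) (hπ0 : π ≠ 0)
    (hdisc : ∀ x ∈ K1, x ≠ 0 → ∃ (n : ℤ) (u : Qb), IsU A u ∧ x = π ^ n * u)
    {c : Qb} (hc : c ∈ K1) : IsBD A K1 π (HahnSeries.C c) := by
  have hcoeff : ∀ n : ℤ, (HahnSeries.C c : LaurentSeries Qb).coeff n = if n = 0 then c else 0 := by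
    intro n
    rw [HahnSeries.C_apply, HahnSeries.coeff_single]
    congr 1
  have hπA := G4_mem_of_nonunits A hπ
  refine ⟨fun n => ?_, ?_⟩
  · rw [hcoeff]
    split_ifs
    · exact hc
    · exact K1.zero_mem
  · by_cases hc0 : c = 0
    · refine ⟨0, fun n => ?_⟩
      rw [hcoeff, hc0]
      simp only [ite_self, mul_zero]
      exact A.zero_mem
    · obtain ⟨k, u, hu, rfl⟩ := hdisc c hc hc0
      refine ⟨(-k).toNat, fun n => ?_⟩
      rw [hcoeff]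
      split_ifs
      · rw [← mul_assoc, ← zpow_natCast, ← zpow_add₀ hπ0]
        exact A.mul_mem _ _ (G4_zpow_mem A hπA (by omega)) hu.1
      · rw [mul_zero]; exact A.zero_mem

/-- (G4) -/
theorem IsBD.add {K1 : Subfield Qb} {π : Qb} (hπ : π ∈ A) {x y : LaurentSeries Qb}
    (hx : IsBD A K1 π x) (hy : IsBD A K1 π y) : IsBD A K1 π (x + y) := by
  obtain ⟨hx1, s, hs⟩ := hx
  obtain ⟨hy1, t, ht⟩ := hy
  refine ⟨fun n => ?_, s + t, fun n => ?_⟩
  · rw [HahnSeries.coeff_add]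
    exact K1.add_mem (hx1 n) (hy1 n)
  · have : π ^ (s + t) * (x + y).coeff n =
        π ^ t * (π ^ s * x.coeff n) + π ^ s * (π ^ t * y.coeff n) := by
      rw [HahnSeries.coeff_add]; ring
    rw [this]
    exact A.add_mem _ _ (A.mul_mem _ _ (A.pow_mem hπ t) (hs n)) (A.mul_mem _ _ (A.pow_mem hπ s) (ht n))

/-- (G4) -/
theorem IsBD.neg {K1 : Subfield Qb} {π : Qb} {x : LaurentSeries Qb}
    (hx : IsBD A K1 π x) : IsBD A K1 π (-x) := by
  obtain ⟨hx1, s, hs⟩ := hx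
  refine ⟨fun n => ?_, s, fun n => ?_⟩
  · rw [HahnSeries.coeff_neg]
    exact K1.neg_mem (hx1 n)
  · rw [HahnSeries.coeff_neg, mul_neg]
    exact A.neg_mem _ (hs n)

/-- (G4) -/
theorem IsBD.mul {K1 : Subfield Qb} {π : Qb} {x y : LaurentSeries Qb}
    (hx : IsBD A K1 π x) (hy : IsBD A K1 π y) : IsBD A K1 π (x * y) := by
  obtain ⟨hx1, s, hs⟩ := hx
  obtain ⟨hy1, t, ht⟩ := hy
  refine ⟨fun n => ?_, s + t, fun n => ?_⟩
  · rw [HahnSeries.coeff_mul]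
    exact K1.sum_mem fun ij _ => K1.mul_mem (hx1 _) (hy1 _)
  · rw [HahnSeries.coeff_mul, Finset.mul_sum]
    refine A.toSubring.sum_mem fun ij _ => ?_
    have : π ^ (s + t) * (x.coeff ij.1 * y.coeff ij.2) =
        (π ^ s * x.coeff ij.1) * (π ^ t * y.coeff ij.2) := by ring
    rw [this]
    exact A.mul_mem _ _ (hs _) (ht _)

/-- (G4) the minimum of the valuations of the coefficients is attained -/
theorem IsBD.exists_eq {K1 : Subfield Qb} {π : Qb} (hπ : π ∈ A.nonunits) (hπ0 : π ≠ 0)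
    (hdisc : ∀ x ∈ K1, x ≠ 0 → ∃ (n : ℤ) (u : Qb), IsU A u ∧ x = π ^ n * u)
    {y : LaurentSeries Qb} (hy : IsBD A K1 π y) (hy0 : y ≠ 0) :
    ∃ (a : ℤ) (y' : LaurentSeries A), cR A y' ≠ 0 ∧ y = HahnSeries.C (π ^ a) * cE A y' := by
  obtain ⟨hy1, s, hs⟩ := hy
  have hπA := G4_mem_of_nonunits A hπ
  let P : ℤ → Prop := fun k => ∃ (n : ℤ) (u : Qb), IsU A u ∧ y.coeff n ≠ 0 ∧ y.coeff n = π ^ k * u
  have hbdd : ∃ b : ℤ, ∀ k : ℤ, P k → b ≤ k := by
    refine ⟨-(s : ℤ), ?_⟩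
    rintro k ⟨n, u, hu, hn0, hn⟩
    have h1 := hs n
    rw [hn, ← mul_assoc, ← zpow_natCast, ← zpow_add₀ hπ0] at h1
    have hu0 : u ≠ 0 := by
      rintro rfl
      exact hn0 (by rw [hn, mul_zero])
    have h2 : π ^ ((s : ℤ) + k) ∈ A := by
      have := A.mul_mem _ _ h1 hu.2
      rwa [mul_assoc, mul_inv_cancel₀ hu0, mul_one] at this
    have := G4_nonneg_of_zpow_mem A hπ hπ0 h2
    omega
  have hinh : ∃ k : ℤ, P k := by
    obtain ⟨n, hn⟩ : ∃ n, y.coeff n ≠ 0 := by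
      by_contra hcon
      push Not at hcon
      exact hy0 (HahnSeries.ext (funext hcon))
    obtain ⟨k, u, hu, hk⟩ := hdisc _ (hy1 n) hn
    exact ⟨k, n, u, hu, hn, hk⟩
  obtain ⟨a, ⟨n0, u0, hu0, hn0, hn0'⟩, hmin⟩ := Int.exists_least_of_bdd hbdd hinh
  have hmem : ∀ n, (HahnSeries.C (π ^ (-a)) * y).coeff n ∈ A := by
    intro n
    rw [G4_coeff_C_mul]
    by_cases hn : y.coeff n = 0
    · rw [hn, mul_zero]; exact A.zero_mem
    · obtain ⟨k, u, hu, hk⟩ := hdisc _ (hy1 n) hn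
      have hak : a ≤ k := hmin k ⟨n, u, hu, hn, hk⟩
      rw [hk, ← mul_assoc, ← zpow_add₀ hπ0]
      exact A.mul_mem _ _ (G4_zpow_mem A hπA (by omega)) hu.1
  obtain ⟨y', hy'⟩ := exists_cE_eq A hmem
  refine ⟨a, y', ?_, ?_⟩
  · intro h0
    have h1 : (cR A y').coeff n0 = 0 := by rw [h0]; rfl
    rw [cR, coeffMap_coeff, IsLocalRing.residue_eq_zero_iff, A.valuation_lt_one_iff] at h1
    have h2 : ((y'.coeff n0 : A) : Qb) = u0 := by
      have : (cE A y').coeff n0 = ((y'.coeff n0 : A) : Qb) := rfl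
      rw [← this, hy', G4_coeff_C_mul, hn0', ← mul_assoc, ← zpow_add₀ hπ0, neg_add_cancel,
        zpow_zero, one_mul]
    rw [h2] at h1
    have hu00 : u0 ≠ 0 := by
      rintro rfl
      exact hn0 (by rw [hn0', mul_zero])
    exact ((isU_iff_not_mem_nonunits hu0.1 hu00).1 hu0)
      ((ValuationSubring.mem_nonunits_iff A).2 h1)
  · rw [hy', ← mul_assoc, ← map_mul, ← zpow_add₀ hπ0, add_neg_cancel, zpow_zero, map_one, one_mul]

/-- (G4) the case `K1 = K0 A`, `π = q` -/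
theorem exists_C_mul_cE {q : ℕ} (hq : q.Prime) (hA : A.LiesOverPrime q) {y : LaurentSeries Qb}
    (hy0 : y ≠ 0) (hK : ∀ n, y.coeff n ∈ K0 A) (s : ℕ) (hs : ∀ n, (q : Qb) ^ s * y.coeff n ∈ A) :
    ∃ (a : ℤ) (y' : LaurentSeries A), cR A y' ≠ 0 ∧
      y = HahnSeries.C ((q : Qb) ^ a) * cE A y' := by
  refine IsBD.exists_eq A (K1 := (K0 A).toSubfield) (π := (q : Qb)) hA
    (by exact_mod_cast hq.ne_zero) ?_ ⟨hK, s, hs⟩ hy0
  intro x hx hx0
  obtain ⟨n, u, -, hu, h⟩ := exists_zpow_mul_unit A hq hA hx hx0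
  exact ⟨n, u, hu, h⟩

/-- (G4) the case `K1 = K0 A (ζ)`, `π = ζ - 1` -/
theorem exists_C_mul_cE_zeta {q : ℕ} (hq : q.Prime) (hA : A.LiesOverPrime q) {ζ : Qb}
    (hζ : IsPrimitiveRoot ζ q) {y : LaurentSeries Qb} (hy0 : y ≠ 0)
    (hK : ∀ n, y.coeff n ∈ IntermediateField.adjoin (K0 A) {ζ}) (s : ℕ)
    (hs : ∀ n, (ζ - 1) ^ s * y.coeff n ∈ A) :
    ∃ (a : ℤ) (y' : LaurentSeries A), cR A y' ≠ 0 ∧
      y = HahnSeries.C ((ζ - 1) ^ a) * cE A y' := by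
  refine IsBD.exists_eq A (K1 := (IntermediateField.adjoin (K0 A) {ζ}).toSubfield) (π := ζ - 1)
    (K0d_zeta_sub_one_mem A hq hA hζ) (sub_ne_zero.2 (hζ.ne_one hq.one_lt)) ?_ ⟨hK, s, hs⟩ hy0
  intro x hx hx0
  obtain ⟨n, u, -, hu, h⟩ := exists_zpow_mul_unit_zeta A hq hA hζ hx hx0
  exact ⟨n, u, hu, h⟩

end

end Fermat.Agent.S36Lib
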