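import Fermat.Agent.S36.Mod.ValDefs
import Fermat.Agent.S36.Mod.ValGU
import Fermat.Agent.S36.Mod.ValDisc
import Fermat.Agent.S36.Mod.ValFix

/-!
# S36 (VAL), extras: bounded denominators + Gauss ring => integral coefficients; `R0` is `IsBD`
-/

set_option autoImplicit false
set_option synthInstance.maxHeartbeats 400000
set_option linter.unusedSectionVars false
set_option linter.unusedVariables false

open AlgebraicCurve ModularCurve

namespace Fermat.Agent.S36Lib

open Fermat.Agent.S18Lib Fermat.Agent.S24Lib Fermat.Agent.S28Lib Fermat.Agent.ESLib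
  Fermat.Agent.S34Lib Fermat.Agent.S28Lib.RelationAux Fermat.Agent.FFLib

noncomputable section

variable (A : ValuationSubring Qb)

/-- a series with bounded denominators which lies in the Gauss ring has integral coefficients -/
theorem IsBD.coeff_mem {K1 : Subfield Qb} {π : Qb} (hπ : π ∈ A.nonunits) (hπ0 : π ≠ 0)
    (hdisc : ∀ x ∈ K1, x ≠ 0 → ∃ (n : ℤ) (u : Qb), IsU A u ∧ x = π ^ n * u)
    {y : LaurentSeries Qb} (hy : IsBD A K1 π y) (hg : y ∈ gRing A) (n : ℤ) : y.coeff n ∈ A := by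
  by_cases hy0 : y = 0
  · rw [hy0]; exact A.zero_mem
  obtain ⟨a, y', hy', rfl⟩ := IsBD.exists_eq A hπ hπ0 hdisc hy hy0
  have hπA := G4_mem_of_nonunits A hπ
  have hc : π ^ a ∈ A := by
    refine rr_c_mem A hg (b := 1) (w := y') hy' ?_
    rw [map_one, mul_one]
  rw [G4_coeff_C_mul]
  exact A.mul_mem _ _ hc (y'.coeff n).2

/-- the elements of `R0` have bounded denominators on every reasonable branch -/
theorem isBD_of_mem_R0 {N : ℕ} [NeZero N] (e : FB N →+* LaurentSeries Qb)
    (K1 : Subfield Qb) {π : Qb} (hπ : π ∈ A.nonunits) (hπ0 : π ≠ 0)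
    (hK : ∀ x ∈ K0 A, x ∈ K1)
    (hdisc : ∀ x ∈ K1, x ≠ 0 → ∃ (n : ℤ) (u : Qb), IsU A u ∧ x = π ^ n * u)
    (const : ∀ c : Qb, e (algebraMap Qb (FB N) c) = HahnSeries.C c)
    (hJ : ∀ (d : ℕ) (h : d ∣ N), IsBD A K1 π (e (JF N d h))) {z : FB N} (hz : z ∈ R0 A N) :
    IsBD A K1 π (e z) := by
  have hπA := G4_mem_of_nonunits A hπ
  induction hz using Subring.closure_induction with
  | mem t ht =>
    rcases ht with ⟨c, hc, rfl⟩ | ⟨d, h, rfl⟩
    · rw [const]
      exact isBD_C A K1 hπ hπ0 hdisc (hK c hc)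
    · exact hJ d h
  | zero =>
    rw [map_zero, ← map_zero (HahnSeries.C : Qb →+* LaurentSeries Qb)]
    exact isBD_C A K1 hπ hπ0 hdisc K1.zero_mem
  | one =>
    rw [map_one, ← map_one (HahnSeries.C : Qb →+* LaurentSeries Qb)]
    exact isBD_C A K1 hπ hπ0 hdisc K1.one_mem
  | add s t _ _ hs ht => rw [map_add]; exact IsBD.add A hπA hs ht
  | neg s _ hs => rw [map_neg]; exact IsBD.neg A hs
  | mul s t _ _ hs ht => rw [map_mul]; exact IsBD.mul A hs ht

end

end Fermat.Agent.S36Lib
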