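import Fermat.Agent.S36.Mod.ValDefs
import Fermat.Agent.S36.Mod.ValGU
import Fermat.Agent.S36.Mod.ValDisc
import Fermat.Agent.S36.Mod.ValFix
import Fermat.Agent.S36.Mod.ValApi
import Fermat.Agent.S36.Mod.ValDesc
import Fermat.Agent.S36.Mod.ValExtra

/-!
# S36 (VAL), leaf (V1): the three branches
-/

set_option autoImplicit false
set_option synthInstance.maxHeartbeats 400000
set_option linter.unusedSectionVars false
set_option linter.unusedVariables false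

open AlgebraicCurve ModularCurve

namespace Fermat.Agent.S36Lib

open Fermat.Agent.S18Lib Fermat.Agent.S24Lib Fermat.Agent.S28Lib Fermat.Agent.ESLib
  Fermat.Agent.S34Lib Fermat.Agent.S28Lib.RelationAux Fermat.Agent.FFLib

noncomputable section

variable (A : ValuationSubring Qb)

theorem V1_res_eq_zero {π : Qb} (hπ : π ∈ A.nonunits) (hπA : π ∈ A) :
    resA A ⟨π, hπA⟩ = 0 := by
  rw [IsLocalRing.residue_eq_zero_iff, A.valuation_lt_one_iff]
  exact (ValuationSubring.mem_nonunits_iff A).1 hπ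

theorem V1_alg (c Y P Q : LaurentSeries Qb) (hc : c ≠ 0) (a b : ℤ) :
    (c * Y) ^ (-(a - b)) * (c ^ a * P / (c ^ b * Q)) = Y ^ (-(a - b)) * (P * Q⁻¹) := by
  have h1 : c ^ (-(a - b)) * c ^ a * (c ^ b)⁻¹ = 1 := by
    rw [← zpow_neg, ← zpow_add₀ hc, ← zpow_add₀ hc]
    have : -(a - b) + a + -b = 0 := by ring
    rw [this, zpow_zero]
  calc (c * Y) ^ (-(a - b)) * (c ^ a * P / (c ^ b * Q))
      = (c ^ (-(a - b)) * c ^ a * (c ^ b)⁻¹) * (Y ^ (-(a - b)) * (P * Q⁻¹)) := by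
        rw [mul_zpow, div_eq_mul_inv, mul_inv]; ring
    _ = Y ^ (-(a - b)) * (P * Q⁻¹) := by rw [h1, one_mul]

/-- (V1a) the general criterion -/
theorem isBranch_of {N : ℕ} [NeZero N] (e : FB N →+* LaurentSeries Qb) (ϖ : FB N)
    (K1 : Subfield Qb) {π : Qb} (hπ : π ∈ A.nonunits) (hπ0 : π ≠ 0)
    (hK : ∀ x ∈ K0 A, x ∈ K1)
    (hdisc : ∀ x ∈ K1, x ≠ 0 → ∃ (n : ℤ) (u : Qb), IsU A u ∧ x = π ^ n * u)
    (const : ∀ c : Qb, e (algebraMap Qb (FB N) c) = HahnSeries.C c)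
    (hJ : ∀ (d : ℕ) (h : d ∣ N), IsBD A K1 π (e (JF N d h)))
    (fix : IsFix A N ϖ)
    (hϖ : ∃ y : LaurentSeries A, cR A y ≠ 0 ∧ e ϖ = HahnSeries.C π * cE A y) :
    IsBranch A e ϖ := by
  obtain ⟨y, hy, hey⟩ := hϖ
  have hπA := G4_mem_of_nonunits A hπ
  have hC0 : (HahnSeries.C π : LaurentSeries Qb) ≠ 0 := (map_ne_zero HahnSeries.C).2 hπ0
  have hey' : e ϖ = cE A (HahnSeries.C (⟨π, hπA⟩ : A) * y) := by rw [map_mul, rr_cE_C, hey]
  have hmem : e ϖ ∈ gRing A := by rw [hey']; exact cE_mem_gRing A _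
  have hne : ϖ ≠ 0 := by
    rintro rfl
    rw [map_zero] at hey
    exact mul_ne_zero hC0 (rr_cE_ne_zero A hy) hey.symm
  refine ⟨const, hne, fix, hmem, ?_, ?_⟩
  · have h1 : (⟨e ϖ, hmem⟩ : gRing A) =
        ⟨cE A (HahnSeries.C (⟨π, hπA⟩ : A) * y), cE_mem_gRing A _⟩ := Subtype.ext hey'
    rw [h1, gRed_cE, map_mul, rr_cR_C, V1_res_eq_zero A hπ hπA, map_zero, zero_mul]
  · intro x hx0 hxfix
    obtain ⟨P, hP, Q, hQ, hQ0, hxQ⟩ := exists_R0_frac A x hxfix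
    have hBD : ∀ z ∈ R0 A N, IsBD A K1 π (e z) := by
      intro z hz
      induction hz using Subring.closure_induction with
      | mem t ht =>
        rcases ht with ⟨c, hc, rfl⟩ | ⟨d, h, rfl⟩
        · rw [const]
          exact isBD_C A K1 hπ hπ0 hdisc (hK c hc)
        · exact hJ d h
      | zero =>
        rw [map_zero, ← map_zero (HahnSeries.C : Qb →+* LaurentSeries Qb)]
        exact isBD_C A K1 hπ hπ0 hdisc K1.zero_mem
      | one =>
        rw [map_one, ← map_one (HahnSeries.C : Qb →+* LaurentSeries Qb)]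
        exact isBD_C A K1 hπ hπ0 hdisc K1.one_mem
      | add s t _ _ hs ht => rw [map_add]; exact IsBD.add A hπA hs ht
      | neg s _ hs => rw [map_neg]; exact IsBD.neg A hs
      | mul s t _ _ hs ht => rw [map_mul]; exact IsBD.mul A hs ht
    have hP0 : P ≠ 0 := by rw [← hxQ]; exact mul_ne_zero hx0 hQ0
    obtain ⟨a, p', hp', hPe⟩ := IsBD.exists_eq A hπ hπ0 hdisc (hBD P hP) ((map_ne_zero e).2 hP0)
    obtain ⟨b, q', hq', hQe⟩ := IsBD.exists_eq A hπ hπ0 hdisc (hBD Q hQ) ((map_ne_zero e).2 hQ0)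
    refine ⟨a - b, ge_and_rd_ne_iff.2 ?_⟩
    have hx : x = P / Q := eq_div_of_mul_eq hQ0 hxQ
    have h2 : e (ϖ ^ (-(a - b)) * x) =
        (cE A y) ^ (-(a - b)) * (cE A p' * (cE A q')⁻¹) := by
      rw [hx, map_mul, map_zpow₀, map_div₀, hey, hPe, hQe, map_zpow₀, map_zpow₀]
      exact V1_alg _ _ _ _ hC0 a b
    rw [h2]
    exact ((isGU_cE hy).zpow _).mul ((isGU_cE hp').mul (isGU_cE hq').inv)

theorem V1_Wq_J_eq (d : ℕ) [NeZero d] : Wq_J d = qExpand Qb d (jqModC Qb) := by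
  rw [Wq_J_eq, coeffEmb, coeffMap_qExpand'']
  congr 1
  exact coeffMap_jqModC (R := ℚ) (algebraMap ℚ Qb)

/-- (V1b) `j(t^d)` has integral coefficients -/
theorem Wq_J_eq_cE (d : ℕ) [NeZero d] : Wq_J d = cE A (qExpand A d (jqModC A)) := by
  rw [V1_Wq_J_eq, cE, coeffMap_qExpand'', coeffMap_jqModC]

theorem V1_Wq_J_coeff (d : ℕ) (n : ℤ) : ∃ k : ℤ, (Wq_J d).coeff n = (k : Qb) := by
  by_cases hd : d = 0
  · subst hd
    exact ⟨0, by rw [Wq_J, dif_pos rfl]; simp⟩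
  · have : NeZero d := ⟨hd⟩
    rw [V1_Wq_J_eq]
    by_cases hn : (d : ℤ) ∣ n
    · obtain ⟨m, rfl⟩ := hn
      rw [qExpand_coeff_mul]
      exact ⟨_, coeff_jqModC_eq_intCast m⟩
    · exact ⟨0, by rw [qExpand_coeff_of_not_dvd d _ hn]; simp⟩

/-- (V1b) -/
theorem isBD_Wq_J (K1 : Subfield Qb) (π : Qb) (d : ℕ) : IsBD A K1 π (Wq_J d) := by
  refine ⟨fun n => ?_, 0, fun n => ?_⟩
  · obtain ⟨k, hk⟩ := V1_Wq_J_coeff d n
    rw [hk]
    exact intCast_mem K1 k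
  · obtain ⟨k, hk⟩ := V1_Wq_J_coeff d n
    rw [hk, pow_zero, one_mul]
    exact intCast_mem A k

theorem V1_isU_zpow {z : Qb} (hz : IsU A z) (n : ℤ) : IsU A (z ^ n) := by
  have hpow : ∀ k : ℕ, IsU A (z ^ k) := fun k =>
    ⟨A.pow_mem hz.1 k, by rw [← inv_pow]; exact A.pow_mem hz.2 k⟩
  obtain ⟨k, rfl | rfl⟩ := n.eq_nat_or_neg
  · rw [zpow_natCast]; exact hpow k
  · rw [zpow_neg, zpow_natCast]; exact (hpow k).inv

/-- (V1b) -/
theorem isBD_twist_Wq_J (K1 : Subfield Qb) (π : Qb) (z : Qbˣ) (hz : IsU A (z : Qb))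
    (hz1 : (z : Qb) ∈ K1) (d : ℕ) : IsBD A K1 π (twist z (Wq_J d)) := by
  refine ⟨fun n => ?_, 0, fun n => ?_⟩
  · obtain ⟨k, hk⟩ := V1_Wq_J_coeff d n
    rw [twist_coeff, hk, Units.val_zpow_eq_zpow_val]
    exact K1.mul_mem (K1.zpow_mem hz1 n) (intCast_mem K1 k)
  · obtain ⟨k, hk⟩ := V1_Wq_J_coeff d n
    rw [twist_coeff, hk, pow_zero, one_mul, Units.val_zpow_eq_zpow_val]
    exact A.mul_mem _ _ (V1_isU_zpow A hz n).1 (intCast_mem A k)

theorem V1_disc_q {q : ℕ} (hq : q.Prime) (hA : A.LiesOverPrime q) :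
    ∀ x ∈ (K0 A).toSubfield, x ≠ 0 → ∃ (n : ℤ) (u : Qb), IsU A u ∧ x = (q : Qb) ^ n * u := by
  intro x hx hx0
  obtain ⟨n, u, -, hu, h⟩ := exists_zpow_mul_unit A hq hA hx hx0
  exact ⟨n, u, hu, h⟩

/-- (V1c) the branch at `∞` -/
theorem isBranch_inf {q : ℕ} (hq : q.Prime) (hA : A.LiesOverPrime q) (N : ℕ) [NeZero N] :
    IsBranch A (eInf N) (qF N q) := by
  refine isBranch_of A (eInf N) (qF N q) (K0 A).toSubfield (π := (q : Qb)) hA
    (by exact_mod_cast hq.ne_zero) (fun x hx => hx) (V1_disc_q A hq hA)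
    (fun c => rr_coe_algebraMap N c) (fun d h => isBD_Wq_J A _ _ d) (isFix_qF N q) ?_
  refine ⟨1, by rw [map_one]; exact one_ne_zero, ?_⟩
  rw [map_one, mul_one]
  exact rr_coe_algebraMap N (q : Qb)

/-- extra: elements of `R0` have bounded denominators at `∞` -/
theorem isBD_eInf_of_mem_R0 {q : ℕ} (hq : q.Prime) (hA : A.LiesOverPrime q) {N : ℕ} [NeZero N]
    {z : FB N} (hz : z ∈ R0 A N) : IsBD A (K0 A).toSubfield (q : Qb) (eInf N z) :=
  isBD_of_mem_R0 A (eInf N) (K0 A).toSubfield (π := (q : Qb)) hA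
    (by exact_mod_cast hq.ne_zero) (fun x hx => hx) (V1_disc_q A hq hA)
    (fun c => rr_coe_algebraMap N c) (fun d h => isBD_Wq_J A _ _ d) hz

/-- extra: an element `q ^ s * z`, `z ∈ R0`, of the Gauss ring has coefficients in `A ∩ K0` -/
theorem coeff_mem_of_mem_R0 {q : ℕ} (hq : q.Prime) (hA : A.LiesOverPrime q) {N : ℕ} [NeZero N]
    {z : FB N} (hz : z ∈ R0 A N) (s : ℤ) (hg : eInf N (qF N q ^ s * z) ∈ gRing A) (n : ℤ) :
    (eInf N (qF N q ^ s * z)).coeff n ∈ A ∧ (eInf N (qF N q ^ s * z)).coeff n ∈ K0 A := by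
  have hq0 : (q : Qb) ≠ 0 := by exact_mod_cast hq.ne_zero
  have h1 : IsBD A (K0 A).toSubfield (q : Qb) (eInf N (qF N q ^ s * z)) := by
    rw [map_mul, map_zpow₀]
    have h2 : eInf N (qF N q) = HahnSeries.C (q : Qb) := rr_coe_algebraMap N (q : Qb)
    rw [h2, ← map_zpow₀]
    exact IsBD.mul A (isBD_C A _ hA hq0 (V1_disc_q A hq hA)
      ((K0 A).toSubfield.zpow_mem (natCast_mem _ q) s)) (isBD_eInf_of_mem_R0 A hq hA hz)
  exact ⟨IsBD.coeff_mem A hA hq0 (V1_disc_q A hq hA) h1 hg n, h1.1 n⟩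

/-- (V1c) the branch at `0` -/
theorem isBranch_zero {q : ℕ} (hq : q.Prime) (hA : A.LiesOverPrime q) {N Q M : ℕ} [NeZero N]
    (hN : N = Q * M) {w : FB N ≃ₐ[Qb] FB N} (hw : IsAL N Q M w) :
    IsBranch A (eZero w) (qF N q) := by
  have hconst : ∀ c : Qb, eZero w (algebraMap Qb (FB N) c) = HahnSeries.C c := by
    intro c
    rw [eZero_apply, w.commutes]
    exact rr_coe_algebraMap N c
  refine isBranch_of A (eZero w) (qF N q) (K0 A).toSubfield (π := (q : Qb)) hA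
    (by exact_mod_cast hq.ne_zero) (fun x hx => hx) (V1_disc_q A hq hA)
    hconst (fun d h => ?_) (isFix_qF N q) ?_
  · obtain ⟨d1, e1, hd1, he1, rfl⟩ := (Nat.dvd_mul).mp (hN ▸ h)
    rw [eZero_apply, JF, hw.gen d1 e1 hd1 he1]
    exact isBD_Wq_J A _ _ _
  · refine ⟨1, by rw [map_one]; exact one_ne_zero, ?_⟩
    rw [map_one, mul_one]
    exact hconst (q : Qb)

/-- (MIDU) `(z^n - 1)/(z - 1) ≡ n` -/
theorem exists_geom_zpow {z : Qb} (hz : IsU A z) (hz0 : z ≠ 0) (hz1 : z - 1 ∈ A.nonunits) (n : ℤ) :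
    ∃ g ∈ A, z ^ n - 1 = (z - 1) * g ∧ g - (n : Qb) ∈ A.nonunits := by
  have hzero : (0 : Qb) ∈ A.nonunits := by
    rw [ValuationSubring.mem_nonunits_iff, map_zero]; exact zero_lt_one
  have hnat : ∀ m : ℕ, ∃ g ∈ A, z ^ m - 1 = (z - 1) * g ∧ g - (m : Qb) ∈ A.nonunits := by
    intro m
    induction m with
    | zero => exact ⟨0, A.zero_mem, by simp, by simp [hzero]⟩
    | succ m ih =>
      obtain ⟨g, hg, h1, h2⟩ := ih
      refine ⟨z * g + 1, A.add_mem _ _ (A.mul_mem _ _ hz.1 hg) A.one_mem, ?_, ?_⟩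
      · have : z ^ (m + 1) - 1 = z * (z ^ m - 1) + (z - 1) := by ring
        rw [this, h1]; ring
      · have : z * g + 1 - ((m + 1 : ℕ) : Qb) = z * (g - (m : Qb)) + (m : Qb) * (z - 1) := by
          push_cast; ring
        rw [this]
        exact K0d_nonunits_add (K0d_nonunits_mul hz.1 h2)
          (K0d_nonunits_mul (natCast_mem A m) hz1)
  obtain ⟨m, rfl | rfl⟩ := n.eq_nat_or_neg
  · obtain ⟨g, hg, h1, h2⟩ := hnat m
    exact ⟨g, hg, by rw [zpow_natCast]; exact h1, by simpa using h2⟩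
  · obtain ⟨g, hg, h1, h2⟩ := hnat m
    have hzm : (z ^ m)⁻¹ ∈ A := by rw [← inv_pow]; exact A.pow_mem hz.2 m
    have hzm0 : z ^ m ≠ 0 := pow_ne_zero m hz0
    have h3 : (z ^ m)⁻¹ - 1 = (z - 1) * (-(z ^ m)⁻¹ * g) := by
      have : (z ^ m)⁻¹ - 1 = -(z ^ m)⁻¹ * (z ^ m - 1) := by
        field_simp
        ring
      rw [this, h1]; ring
    refine ⟨-(z ^ m)⁻¹ * g, A.mul_mem _ _ (A.neg_mem _ hzm) hg, ?_, ?_⟩
    · rw [zpow_neg, zpow_natCast]; exact h3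
    · have : -(z ^ m)⁻¹ * g - ((-(m : ℤ) : ℤ) : Qb) =
          -(z ^ m)⁻¹ * (g - (m : Qb)) + (-(m : Qb)) * ((z ^ m)⁻¹ - 1) := by
        push_cast; ring
      rw [this, h3]
      refine K0d_nonunits_add (K0d_nonunits_mul (A.neg_mem _ hzm) h2)
        (K0d_nonunits_mul (A.neg_mem _ (natCast_mem A m)) ?_)
      rw [mul_comm]
      exact K0d_nonunits_mul (A.mul_mem _ _ (A.neg_mem _ hzm) hg) hz1

/-- (MIDU) for any integral series `f`: `f(z t) - f(t) = (z - 1) (θ f + ...)` -/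
theorem exists_twist_sub (z : Qbˣ) (hz : IsU A (z : Qb)) (hz1 : (z : Qb) - 1 ∈ A.nonunits)
    (f : LaurentSeries A) :
    ∃ y : LaurentSeries A, twist z (cE A f) - cE A f = HahnSeries.C ((z : Qb) - 1) * cE A y ∧
      cR A y = thetaFun (cR A f) := by
  choose g hgA hg1 hg2 using exists_geom_zpow A hz z.ne_zero hz1
  let y : LaurentSeries A := ⟨fun n => ⟨g n, hgA n⟩ * f.coeff n, f.isPWO_support.mono (by
    intro n hn
    simp only [Function.mem_support, ne_eq] at hn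
    simp only [HahnSeries.mem_support, ne_eq]
    intro h0
    exact hn (by rw [h0, mul_zero]))⟩
  have hy : ∀ n, y.coeff n = ⟨g n, hgA n⟩ * f.coeff n := fun n => rfl
  refine ⟨y, ?_, ?_⟩
  · ext n
    rw [HahnSeries.coeff_sub, twist_coeff, G4_coeff_C_mul, cE, coeffMap_coeff, coeffMap_coeff, hy,
      Units.val_zpow_eq_zpow_val]
    show (z : Qb) ^ n * (f.coeff n : Qb) - (f.coeff n : Qb) =
      ((z : Qb) - 1) * (g n * (f.coeff n : Qb))
    rw [← mul_assoc, ← hg1 n]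
    ring
  · ext n
    rw [thetaFun_coeff, cR, coeffMap_coeff, coeffMap_coeff, hy, map_mul]
    congr 1
    rw [← map_intCast (IsLocalRing.residue A) n, ← sub_eq_zero, ← map_sub,
      IsLocalRing.residue_eq_zero_iff, A.valuation_lt_one_iff]
    have := (ValuationSubring.mem_nonunits_iff A).1 (hg2 n)
    simpa using this

theorem V1_zeta {q : ℕ} (z : Qbˣ) (hz : IsPrimitiveRoot z q) : IsPrimitiveRoot (z : Qb) q :=
  IsPrimitiveRoot.coe_units_iff.2 hz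

theorem V1_isU_zeta {q : ℕ} (hq : q.Prime) (z : Qbˣ) (hz : IsPrimitiveRoot z q) :
    IsU A (z : Qb) := by
  refine ⟨K0d_zeta_mem A hq (V1_zeta z hz), ?_⟩
  have h1 : IsPrimitiveRoot ((z : Qb)⁻¹) q := (V1_zeta z hz).inv
  exact K0d_zeta_mem A hq h1

/-- (MIDU) the uniformizer of the middle branch -/
theorem mid_unif {q : ℕ} (hq : q.Prime) (hA : A.LiesOverPrime q) (M : ℕ) [NeZero M] [NeZero q]
    (z : Qbˣ) (hz : IsPrimitiveRoot z q) {i : FB (q ^ 2 * M) →ₐ[Qb] LaurentSeries Qb}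
    (hi : IsIMid M q z i) :
    ∃ y : LaurentSeries A, i (piF M q) = HahnSeries.C ((z : Qb) - 1) * cE A y ∧
      cR A y = thetaFun (jqModC (kk A)) := by
  obtain ⟨y, hy1, hy2⟩ := exists_twist_sub A z (V1_isU_zeta A hq z hz)
    (K0d_zeta_sub_one_mem A hq hA (V1_zeta z hz)) (jqModC A)
  refine ⟨y, ?_, ?_⟩
  · rw [← hy1, piF, map_sub]
    have h1 : Wq_J 1 = cE A (jqModC A) := by
      rw [Wq_J_eq_cE A 1, qExpand_one_apply]
    have h2 : i (JF (q ^ 2 * M) 1 (one_dvd _)) = Wq_J 1 := hi.low 1 (one_dvd _) _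
    have h3 : i (JF (q ^ 2 * M) (q ^ 2) (dvd_mul_right _ _)) = twist z (Wq_J 1) := by
      rw [← hi.top 1 (one_dvd _) (Wq_J_mem (Nat.mul_dvd_mul_left _ (one_dvd _)))]
      congr 1
      apply Subtype.ext
      show Wq_J (q ^ 2) = Wq_J (q ^ 2 * 1)
      rw [mul_one]
    rw [h2, h3, h1]
  · rw [hy2, cR, coeffMap_jqModC]

/-- (MIDU) -/
theorem thetaFun_jqModC_ne_zero (κ : Type*) [Field κ] : thetaFun (jqModC κ) ≠ 0 := by
  intro h
  have h1 := congrArg (fun y => HahnSeries.coeff y (-1)) h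
  simp only [thetaFun_coeff, coeff_jqModC_neg_one, HahnSeries.coeff_zero] at h1
  simp at h1

/-- (V1d) the middle branch -/
theorem isBranch_mid {q : ℕ} (hq : q.Prime) (hA : A.LiesOverPrime q) (M : ℕ) [NeZero M]
    [NeZero q] (z : Qbˣ) (hz : IsPrimitiveRoot z q)
    {i : FB (q ^ 2 * M) →ₐ[Qb] LaurentSeries Qb} (hi : IsIMid M q z i) :
    IsBranch A (i : FB (q ^ 2 * M) →+* LaurentSeries Qb) (piF M q) := by
  have hζ := V1_zeta z hz
  have hzK : (z : Qb) ∈ (IntermediateField.adjoin (K0 A) {(z : Qb)}).toSubfield :=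
    IntermediateField.mem_adjoin_simple_self (K0 A) (z : Qb)
  refine isBranch_of A (i : FB (q ^ 2 * M) →+* LaurentSeries Qb) (piF M q)
    (IntermediateField.adjoin (K0 A) {(z : Qb)}).toSubfield (π := (z : Qb) - 1)
    (K0d_zeta_sub_one_mem A hq hA hζ) (sub_ne_zero.2 (hζ.ne_one hq.one_lt))
    (fun x hx => (IntermediateField.adjoin (K0 A) {(z : Qb)}).algebraMap_mem ⟨x, hx⟩) ?_ ?_ ?_
    (isFix_piF M q) ?_
  · intro x hx hx0
    obtain ⟨n, u, -, hu, h⟩ := exists_zpow_mul_unit_zeta A hq hA hζ hx hx0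
    exact ⟨n, u, hu, h⟩
  · intro c
    show i (algebraMap Qb _ c) = HahnSeries.C c
    rw [i.commutes, algebraMap_eq_C]
  · intro d h
    show IsBD A _ _ (i (JF (q ^ 2 * M) d h))
    rcases IM_dvd_cases hq h with h1 | ⟨d', hd', rfl⟩
    · rw [JF, hi.low d h1]
      exact isBD_Wq_J A _ _ d
    · rw [JF, hi.top d' hd']
      exact isBD_twist_Wq_J A _ _ z (V1_isU_zeta A hq z hz) hzK d'
  · obtain ⟨y, hy1, hy2⟩ := mid_unif A hq hA M z hz hi
    exact ⟨y, by rw [hy2]; exact thetaFun_jqModC_ne_zero _, hy1⟩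

end

end Fermat.Agent.S36Lib
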