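import Fermat.Agent.S36.Mod.EtaL
import Fermat.Agent.S34.RedG2
import Fermat.Agent.S34.VqBound
import Fermat.Agent.Lib.FF.RatOrd

/-!
# S36, modular side, block (ETA): `H = φ̄⁻¹` is a monic polynomial of degree `q - 1` in `j̄`
-/

set_option autoImplicit false
set_option synthInstance.maxHeartbeats 400000

open AlgebraicCurve IntermediateField Polynomial ModularCurve CongruenceSubgroup
  Fermat.Agent.S24Lib Fermat.Agent.FFLib Fermat.Agent.S18Lib Fermat.Agent.S28Lib
  Fermat.Agent.ESLib Fermat.Agent.S34Lib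

namespace Fermat.Agent.S36Lib

noncomputable section

/-! ### abstract: a rational function of `x` without poles off the poles of `x` is a polynomial -/

theorem EH_poly_aux {K F : Type*} [Field K] [Field F] [Algebra K F] [IsAlgClosed K]
    (h : IsFF K F) {x y : F} (hx : Transcendental K x)
    (hy : ∀ v : Place K F, 0 ≤ v.ord x → 0 ≤ v.ord y) (n : ℕ) :
    ∀ a b : K[X], b ≠ 0 → b.natDegree = n → y * aeval x b = aeval x a →
      ∃ p : K[X], y = aeval x p := by
  induction n with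
  | zero =>
    intro a b hb hn hab
    rw [natDegree_eq_zero] at hn
    obtain ⟨c, rfl⟩ := hn
    have hc : c ≠ 0 := by
      rintro rfl
      exact hb (map_zero _)
    refine ⟨C c⁻¹ * a, ?_⟩
    rw [map_mul, ← hab, aeval_C, aeval_C, mul_comm y, ← mul_assoc, ← map_mul, inv_mul_cancel₀ hc,
      map_one, one_mul]
  | succ n ih =>
    intro a b hb hn hab
    obtain ⟨c, hc⟩ := IsAlgClosed.exists_root b (by
      rw [degree_eq_natDegree hb, hn]
      exact_mod_cast (Nat.succ_ne_zero n))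
    obtain ⟨b₁, rfl⟩ := dvd_iff_isRoot.2 hc
    have hb₁ : b₁ ≠ 0 := right_ne_zero_of_mul hb
    set u := x - algebraMap K F c with hu
    have hut : Transcendental K u := by
      intro hal
      apply hx
      have : x = u + algebraMap K F c := by rw [hu]; ring
      rw [this]
      exact hal.add (isAlgebraic_algebraMap c)
    obtain ⟨v, hv⟩ := exists_place_ord_pos h hut
    have hu0 : u ≠ 0 := fun h0 => hut (h0 ▸ isAlgebraic_zero)
    have hvx : 0 ≤ v.ord x := by
      have h1 : D2_ge v 0 x := by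
        have : x = u + algebraMap K F c := by rw [hu]; ring
        rw [this]
        exact D2.ge_add v (Or.inr hv.le) (Or.inr (by rw [ord_algebraMap]))
      rcases h1 with h1 | h1
      · rw [h1, Place.ord_zero]
      · exact h1
    have hroot : a.IsRoot c := by
      by_contra hne
      have h1 : aeval x a = aeval u (a.comp (X + C c)) := by
        rw [aeval_comp]
        congr 1
        simp [hu]
      have h2 : (a.comp (X + C c)).coeff 0 ≠ 0 := by
        rw [coeff_zero_eq_eval_zero, eval_comp]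
        simpa using hne
      obtain ⟨h3, h4⟩ := ze_ord_aeval v hv h2
      rw [← h1] at h3 h4
      have h5 : aeval x ((X - C c) * b₁) = u * aeval x b₁ := by simp [hu]
      rw [h5] at hab
      have h6 : D2_ge v (0 + (v.ord u + 0)) (y * (u * aeval x b₁)) :=
        D2.ge_mul v (Or.inr (hy v hvx)) (D2.ge_mul v (Or.inr le_rfl) (ze_ge_aeval v hvx b₁))
      rw [hab] at h6
      rcases h6 with h6 | h6
      · exact h3 h6
      · omega
    obtain ⟨a₁, rfl⟩ := dvd_iff_isRoot.2 hroot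
    refine ih a₁ b₁ hb₁ ?_ ?_
    · rw [natDegree_mul (X_sub_C_ne_zero c) hb₁, natDegree_X_sub_C] at hn
      omega
    · have h5 : aeval x ((X - C c) * b₁) = u * aeval x b₁ := by simp [hu]
      have h6 : aeval x ((X - C c) * a₁) = u * aeval x a₁ := by simp [hu]
      rw [h5, h6] at hab
      apply mul_left_cancel₀ hu0
      rw [← hab]
      ring

/-! ### leading terms of polynomials in `j` -/

theorem EH_j_pow (κ : Type) [CommRing κ] (i : ℕ) :
    jqModC κ ^ i = HahnSeries.single (-(i : ℤ)) 1 *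
      HahnSeries.ofPowerSeries ℤ κ ((jNum.map (Int.castRingHom κ)) ^ i) := by
  rw [jqModC, mul_pow, HahnSeries.single_pow, one_pow, map_pow]
  congr 2
  simp

theorem EH_coeff_j_pow (κ : Type) [CommRing κ] (i : ℕ) :
    (jqModC κ ^ i).coeff (-(i : ℤ)) = 1 ∧ ∀ m : ℤ, m < -(i : ℤ) → (jqModC κ ^ i).coeff m = 0 := by
  rw [EH_j_pow]
  constructor
  · rw [HahnSeries.coeff_single_mul, one_mul, sub_self]
    have h0 := HahnSeries.ofPowerSeries_apply_coeff (Γ := ℤ)
      ((jNum.map (Int.castRingHom κ)) ^ i) 0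
    rw [Nat.cast_zero] at h0
    rw [h0, PowerSeries.coeff_zero_eq_constantCoeff_apply, map_pow,
      ← PowerSeries.coeff_zero_eq_constantCoeff_apply, PowerSeries.coeff_map,
      PowerSeries.coeff_zero_eq_constantCoeff_apply, constantCoeff_jNum]
    simp
  · intro m hm
    rw [HahnSeries.coeff_single_mul, one_mul, ofPowerSeries_coeff_of_neg _ (by omega)]

theorem EH_coeff_smul {κ : Type} [Field κ] (c : κ) (x : LaurentSeries κ) (m : ℤ) :
    (algebraMap κ (LaurentSeries κ) c * x).coeff m = c * x.coeff m := by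
  rw [algebraMap_laurentSeries_eq_single, HahnSeries.coeff_single_mul, sub_zero]

theorem EH_coeff_aeval (κ : Type) [Field κ] (p : κ[X]) (N : ℕ) (hp : p.natDegree ≤ N) :
    (aeval (jqModC κ) p).coeff (-(N : ℤ)) = p.coeff N ∧
      ∀ m : ℤ, m < -(N : ℤ) → (aeval (jqModC κ) p).coeff m = 0 := by
  rw [aeval_eq_sum_range' (Nat.lt_succ_of_le hp)]
  simp only [Algebra.smul_def]
  constructor
  · rw [HahnSeries.coeff_sum, Finset.sum_eq_single N]
    · rw [EH_coeff_smul, (EH_coeff_j_pow κ N).1, mul_one]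
    · intro i hi hne
      have hi' : i < N := lt_of_le_of_ne (Nat.lt_succ_iff.1 (Finset.mem_range.1 hi)) hne
      rw [EH_coeff_smul, (EH_coeff_j_pow κ i).2 _ (by omega), mul_zero]
    · intro hN
      exact absurd (Finset.mem_range.2 (Nat.lt_succ_self N)) hN
  · intro m hm
    rw [HahnSeries.coeff_sum]
    refine Finset.sum_eq_zero fun i hi => ?_
    have hi' : i ≤ N := Nat.lt_succ_iff.1 (Finset.mem_range.1 hi)
    rw [EH_coeff_smul, (EH_coeff_j_pow κ i).2 _ (by omega), mul_zero]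

/-! ### `H ∈ FT A M` with the sharp pole bound -/

section Level

variable (M q : ℕ) [NeZero M] [NeZero q] [hqF : Fact q.Prime] (hqM : ¬ q ∣ M)
variable (A : ValuationSubring Qb) (hA : A.LiesOverPrime q)

theorem EH_isAL_wq : IsAL (q * M) q M (wq M q hqM) := by
  refine ⟨?_, wq_wq M q hqM, wq_gal M q hqM⟩
  intro d e hd he h
  rcases (Nat.dvd_prime hqF.out).1 hd with rfl | rfl
  · rw [coe_wq M q hqM _ (by rw [one_mul]; exact Wq_J_mem he), Wq_qExpand_J, Nat.div_one, one_mul]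
  · have h1 : (⟨Wq_J (d * e), h⟩ : FB (d * M)) =
        wq M d hqM ⟨Wq_J e, Wq_J_mem (Dvd.dvd.mul_left he d)⟩ := by
      apply Subtype.ext
      rw [coe_wq M d hqM _ (Wq_J_mem he), Wq_qExpand_J]
    rw [h1, wq_wq, Nat.div_self (Nat.pos_of_ne_zero (NeZero.ne d)), one_mul]

include hqM hA in
theorem EH_exists_H : ∃ H : FT A M, (H : LaurentSeries (kk A)) = (phiL (kk A) q)⁻¹ ∧
    H ∈ riemannRochSpace ((q - 1) • poleDiv (kk A) (jT A M)) := by
  have hk := isAlgClosed_kk A
  have hFt := isFF_FT A M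
  have hF := isFF_bar (q * M)
  have hq0 : 0 < q := hqF.out.pos
  have hc : Nat.Coprime q M := (Nat.Prime.coprime_iff_not_dvd hqF.out).2 hqM
  obtain ⟨R, hR⟩ := exists_red2 M q hqM A hA
  obtain ⟨h1, hr1⟩ := jN_mem hR hA
  set y : FB (q * M) := etaF (q * M) 1 q (one_dvd _) (dvd_mul_right q M) with hy
  have hy1 : (y : LaurentSeries Qb) = (phiL Qb q)⁻¹ := by
    rw [phiL_eq_DD, inv_div]
    rfl
  have hy2 : ((wq M q hqM y : FB (q * M)) : LaurentSeries Qb) =
      HahnSeries.C ((q : Qb) ^ 12) * phiL Qb q := by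
    have h := wQ_etaQ q M hc (wq M q hqM) (EH_isAL_wq M q hqM).gen (d₁ := 1) (e₁ := 1) (d₂ := q)
      (e₂ := 1) (one_dvd _) (one_dvd _) dvd_rfl (one_dvd _)
      (by rw [mul_one, mul_one]; exact y.2)
    have e : y = ⟨DD (1 * 1) / DD (q * 1), by rw [mul_one, mul_one]; exact y.2⟩ := by
      apply Subtype.ext
      show DD 1 / DD q = DD (1 * 1) / DD (q * 1)
      rw [mul_one, mul_one]
    rw [e, h, Nat.div_one, Nat.div_self hq0, mul_one, mul_one, phiL_eq_DD]
    simp
  have hq12 : (q : Qb) ^ 12 ∈ A := pow_mem (natCast_mem A q) 12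
  have hyO : y ∈ R.O := (hR.mem_iff y).2 ⟨by rw [hy1]; exact (isGU_phiL A q).inv.1, by
    rw [hy2]; exact (gRing A).mul_mem (C_mem_gRing hq12) (isGU_phiL A q).1⟩
  have ht := transcendental_jT A M
  have hx₁ : Transcendental (kk A) (R.red ⟨_, h1⟩).1 := by rw [hr1]; exact ht
  have hx₂ : Transcendental (kk A) (R.red ⟨_, h1⟩).2 := by
    rw [hr1]; exact DG_transcendental_pow ht hq0
  have hdeg : Module.finrank Qb⟮(((⟨_, h1⟩ : R.O) : R.O) : FB (q * M))⟯ (FB (q * M)) ≤
      Module.finrank (kk A)⟮(R.red ⟨_, h1⟩).1⟯ (FT A M)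
        + Module.finrank (kk A)⟮(R.red ⟨_, h1⟩).2⟯ (FT A M) := by
    rw [hr1]
    show Module.finrank Qb⟮jN M q⟯ (FB (q * M)) ≤
      Module.finrank (kk A)⟮jT A M⟯ (FT A M) + Module.finrank (kk A)⟮jT A M ^ q⟯ (FT A M)
    rw [finrank_jN M q hqM, finrank_jT_pow M A q hq0]
    have := idx_le_finrank_FT M hqM A hA
    nlinarith
  have hyL : (((⟨y, hyO⟩ : R.O) : R.O) : FB (q * M)) ∈ riemannRochSpace
      ((q - 1) • poleDiv Qb (((⟨_, h1⟩ : R.O) : R.O) : FB (q * M))
        + 0 • zeroDiv Qb (((⟨_, h1⟩ : R.O) : R.O) : FB (q * M))) := by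
    rw [zero_smul, add_zero]
    have := etaF_one_mem_L (q * M) q (dvd_mul_right q M)
    rw [JF_one] at this
    exact this
  have h3 := (red_mem_L_pole_zero2 hF hFt R ⟨_, h1⟩ hx₁ hx₂ hdeg (q - 1) 0 ⟨y, hyO⟩ hyL).1
  rw [hr1, zero_smul, add_zero] at h3
  refine ⟨(R.red ⟨y, hyO⟩).1, ?_, h3⟩
  have hm : (((⟨y, hyO⟩ : R.O) : FB (q * M)) : LaurentSeries Qb) ∈ gRing A := by
    show (y : LaurentSeries Qb) ∈ gRing A
    rw [hy1]
    exact (isGU_phiL A q).inv.1
  rw [hR.red_fst ⟨y, hyO⟩ hm, ← gRed_phiL_inv A q (isGU_phiL A q).inv.1]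
  congr 1
  exact Subtype.ext hy1

end Level

theorem EH_coe_aeval (A : ValuationSubring Qb) (M : ℕ) (p : (kk A)[X]) :
    ((aeval (jT A M) p : FT A M) : LaurentSeries (kk A)) = aeval (jqModC (kk A)) p :=
  (Polynomial.aeval_algHom_apply (FT A M).val (jT A M) p).symm

/-- (f5) -/
theorem exists_H_poly (A : ValuationSubring Qb) (q : ℕ) [hqF : Fact q.Prime]
    (hA : A.LiesOverPrime q) :
    ∃ p : (kk A)[X], p.Monic ∧ p.natDegree = q - 1 ∧
      (phiL (kk A) q)⁻¹ = aeval (jqModC (kk A)) p := by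
  have hq0 : NeZero q := ⟨hqF.out.ne_zero⟩
  have hk := isAlgClosed_kk A
  have hq1 : ¬ q ∣ 1 := fun h => hqF.out.one_lt.ne' (Nat.dvd_one.1 h)
  obtain ⟨H, hH, hL⟩ := EH_exists_H 1 q hq1 A hA
  have hFt := isFF_FT A 1
  have ht := transcendental_jT A 1
  have hmem : (H : LaurentSeries (kk A)) ∈ (kk A)⟮jqModC (kk A)⟯ := by
    have hle : FT A 1 ≤ (kk A)⟮jqModC (kk A)⟯ := by
      apply IntermediateField.adjoin_le_iff.2
      rintro x ⟨d, hd, hd1, rfl⟩
      obtain rfl := Nat.dvd_one.1 hd1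
      rw [qExpand_one_apply]
      exact mem_adjoin_simple_self _ _
    exact hle H.2
  obtain ⟨r, s, hrs⟩ := (mem_adjoin_simple_iff (kk A) _).1 hmem
  have hH0 : (H : LaurentSeries (kk A)) ≠ 0 := by
    rw [hH]
    exact inv_ne_zero (phiL_ne_zero _ _)
  have hs : aeval (jqModC (kk A)) s ≠ 0 := by
    intro h0
    rw [h0, div_zero] at hrs
    exact hH0 hrs
  have hs0 : s ≠ 0 := by
    rintro rfl
    exact hs (map_zero _)
  have hab : H * aeval (jT A 1) s = aeval (jT A 1) r := by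
    apply Subtype.ext
    show (H : LaurentSeries (kk A)) * ((aeval (jT A 1) s : FT A 1) : LaurentSeries (kk A)) = _
    rw [EH_coe_aeval, EH_coe_aeval, hrs, div_mul_cancel₀ _ hs]
  have hreg : ∀ v : Place (kk A) (FT A 1), 0 ≤ v.ord (jT A 1) → 0 ≤ v.ord H := by
    intro v hv
    have := (mem_L_iff.1 hL) v
    rw [Finsupp.smul_apply, poleDiv_apply hFt, max_eq_right (by omega), smul_zero, neg_zero] at this
    rcases this with h | h
    · rw [h, Place.ord_zero]
    · exact h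
  obtain ⟨p, hp⟩ := EH_poly_aux hFt ht hreg _ r s hs0 rfl hab
  have hp' : (phiL (kk A) q)⁻¹ = aeval (jqModC (kk A)) p := by rw [← hH, hp, EH_coe_aeval]
  obtain ⟨c1, c2⟩ := phiL_inv_coeff (kk A) q
  obtain ⟨d1, d2⟩ := EH_coeff_aeval (kk A) p p.natDegree le_rfl
  have hp0 : p ≠ 0 := by
    rintro rfl
    rw [map_zero] at hp'
    exact inv_ne_zero (phiL_ne_zero _ _) hp'
  have hqpos : 0 < q := hqF.out.pos
  have hcast : ((q - 1 : ℕ) : ℤ) = (q : ℤ) - 1 := by
    rw [Nat.cast_sub hqpos]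
    simp
  have hdeg : p.natDegree = q - 1 := by
    rcases lt_trichotomy p.natDegree (q - 1) with h | h | h
    · exfalso
      have h1 : (-((q : ℤ) - 1)) < -(p.natDegree : ℤ) := by
        have : (p.natDegree : ℤ) < ((q - 1 : ℕ) : ℤ) := by exact_mod_cast h
        omega
      rw [hp', d2 _ h1] at c1
      exact zero_ne_one c1
    · exact h
    · exfalso
      have h1 : -(p.natDegree : ℤ) < (-((q : ℤ) - 1)) := by
        have : ((q - 1 : ℕ) : ℤ) < (p.natDegree : ℤ) := by exact_mod_cast h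
        omega
      rw [← hp', c2 _ h1] at d1
      exact leadingCoeff_ne_zero.2 hp0 d1.symm
  refine ⟨p, ?_, hdeg, hp'⟩
  rw [← hp', hdeg, hcast, c1] at d1
  rw [Monic, leadingCoeff, hdeg]
  exact d1.symm

theorem exists_HT (A : ValuationSubring Qb) (M q : ℕ) [NeZero M] [Fact q.Prime]
    (hA : A.LiesOverPrime q) :
    ∃ H : FT A M, (H : LaurentSeries (kk A)) = (phiL (kk A) q)⁻¹ := by
  obtain ⟨p, -, -, hp⟩ := exists_H_poly A q hA
  exact ⟨aeval (jT A M) p, by rw [EH_coe_aeval, hp]⟩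

theorem EH_eq_aeval (A : ValuationSubring Qb) (M q : ℕ) [NeZero M] [Fact q.Prime]
    (hA : A.LiesOverPrime q) (H : FT A M) (hH : (H : LaurentSeries (kk A)) = (phiL (kk A) q)⁻¹) :
    ∃ p : (kk A)[X], p.Monic ∧ p.natDegree = q - 1 ∧ H = aeval (jT A M) p := by
  obtain ⟨p, h1, h2, hp⟩ := exists_H_poly A q hA
  exact ⟨p, h1, h2, Subtype.ext (by rw [EH_coe_aeval, hH, hp])⟩

theorem ord_H_nonneg (A : ValuationSubring Qb) (M q : ℕ) [NeZero M] [Fact q.Prime]
    (hA : A.LiesOverPrime q) (H : FT A M) (hH : (H : LaurentSeries (kk A)) = (phiL (kk A) q)⁻¹)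
    (P : Place (kk A) (FT A M)) (hP : 0 ≤ P.ord (jT A M)) : 0 ≤ P.ord H := by
  obtain ⟨p, -, -, rfl⟩ := EH_eq_aeval A M q hA H hH
  rcases ze_ge_aeval P hP p with h | h
  · rw [h, Place.ord_zero]
  · exact h

theorem ord_H_of_neg (A : ValuationSubring Qb) (M q : ℕ) [NeZero M] [hqF : Fact q.Prime]
    (hA : A.LiesOverPrime q) (H : FT A M) (hH : (H : LaurentSeries (kk A)) = (phiL (kk A) q)⁻¹)
    (P : Place (kk A) (FT A M)) (hP : P.ord (jT A M) < 0) :
    P.ord H = ((q : ℤ) - 1) * P.ord (jT A M) := by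
  obtain ⟨p, h1, h2, rfl⟩ := EH_eq_aeval A M q hA H hH
  rw [(uo_poly_pole p h1.ne_zero P hP).2, h2, Nat.cast_sub hqF.out.pos]
  simp

end

end Fermat.Agent.S36Lib
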