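import Fermat.Agent.S36.Mod.Defs
import Fermat.Agent.S36.Mod.BrDefs
import Fermat.Agent.S36.Num
import Fermat.Agent.S34.ModDefs
import Fermat.Agent.S34.Frob
import Fermat.Agent.S18.PoleLemma
import Fermat.Agent.ES.Formal

/-!
# S36 (TAU): the complete family of conjugates of `FB (q ^ 2 * M)` over `FB M`
-/

set_option autoImplicit false
set_option synthInstance.maxHeartbeats 400000
set_option linter.unusedSectionVars false

open AlgebraicCurve ModularCurve Polynomial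
open scoped IntermediateField

namespace Fermat.Agent.S36Lib

open Fermat.Agent.S18Lib Fermat.Agent.S24Lib Fermat.Agent.S28Lib Fermat.Agent.ESLib
  Fermat.Agent.S34Lib Fermat.Agent.FFLib

noncomputable section

/-! ## the setting -/

variable (M q : ℕ) [NeZero M] [NeZero q] [hqF : Fact q.Prime] (hqM : ¬ q ∣ M)

variable {M q}
variable {w : FB (q ^ 2 * M) ≃ₐ[Qb] FB (q ^ 2 * M)} {ζ : Qbˣ}
  {i : ℕ → FB (q ^ 2 * M) →ₐ[Qb] LaurentSeries Qb} {ζ₂ : Qbˣ}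

/-! ## (TAU) `Mod/Tau.lean` : the family is complete -/

theorem TAU_exists_unit (n : ℕ) [NeZero n] : ∃ ζ : Qbˣ, IsPrimitiveRoot ζ n := by
  obtain ⟨z, hz⟩ := exists_primitiveRoot_Qb n
  obtain ⟨u, rfl⟩ := hz.isUnit (NeZero.ne n)
  exact ⟨u, IsPrimitiveRoot.coe_units_iff.mp hz⟩

include hqM in
theorem exists_brData : ∃ (w : FB (q ^ 2 * M) ≃ₐ[Qb] FB (q ^ 2 * M)) (ζ : Qbˣ)
    (i : ℕ → FB (q ^ 2 * M) →ₐ[Qb] LaurentSeries Qb) (ζ₂ : Qbˣ), BrData M q w ζ i ζ₂ := by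
  classical
  have hq : q.Prime := hqF.out
  have hc : Nat.Coprime (q ^ 2) M :=
    Nat.Coprime.pow_left 2 ((Nat.Prime.coprime_iff_not_dvd hq).mpr hqM)
  obtain ⟨w, hw⟩ := exists_isAL (q ^ 2 * M) (q ^ 2) M rfl hc
  obtain ⟨ζ, hζ⟩ := TAU_exists_unit q
  obtain ⟨ζ₂, hζ₂⟩ := TAU_exists_unit (q ^ 2)
  have hex : ∀ a : ℕ, ∃ i : FB (q ^ 2 * M) →ₐ[Qb] LaurentSeries Qb,
      ¬ q ∣ a → IsIMid M q (ζ ^ a) i := by
    intro a
    by_cases ha : q ∣ a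
    · exact ⟨(FB (q ^ 2 * M)).val, fun h => absurd ha h⟩
    · obtain ⟨i, hi⟩ := exists_isIMid M q hq hqM (ζ ^ a)
        (hζ.pow_of_coprime a ((Nat.Prime.coprime_iff_not_dvd hq).mpr ha).symm)
      exact ⟨i, fun _ => hi⟩
  choose i hi using hex
  exact ⟨w, ζ, i, ζ₂, hw, hζ, hi, hζ₂⟩

theorem TAU_not_dvd (a : Fin (q - 1)) : ¬ q ∣ (a : ℕ) + 1 := by
  intro h
  have h1 := Nat.le_of_dvd (Nat.succ_pos _) h
  have h2 := a.2
  omega

theorem tauFam_aHom (B : BrData M q w ζ i ζ₂) (t) (y : FB M) :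
    tauFam M q w i ζ₂ t (aHom (dvdM M q) y) = qExpand Qb (q ^ 2) (y : LaurentSeries Qb) := by
  rcases t with _ | a | k
  · show qExpand Qb (q ^ 2) ((aHom (dvdM M q) y : FB (q ^ 2 * M)) : LaurentSeries Qb) = _
    rw [coe_aHom]
  · show qExpand Qb (q ^ 2) (i ((a : ℕ) + 1) (aHom (dvdM M q) y)) = _
    obtain ⟨y, hy⟩ := y
    rw [aHom_eq, (B.mid _ (TAU_not_dvd a)).apply_of_mem y
      (FB_le_of_dvd (dvd_mul_left M q) hy)]
  · show twist (ζ₂ ^ (k : ℕ)) ((w (aHom (dvdM M q) y) : FB (q ^ 2 * M)) : LaurentSeries Qb) = _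
    obtain ⟨y, hy⟩ := y
    rw [aHom_eq, wQ_eq_qExpand (q ^ 2) M w B.al.gen y hy, twist_qExpand]
    rw [← pow_mul, mul_comm, pow_mul, B.prim₂.pow_eq_one, one_pow]

theorem TAU_coeff_J_one : (Wq_J 1).coeff (-1) = 1 := by
  have h := W7_coeff_jE_pow_self 1
  rw [pow_one] at h
  rw [Wq_J_eq]
  exact h

/-- the values of the family at `j(t^{q²})` -/
theorem TAU_value (B : BrData M q w ζ i ζ₂) (t) :
    tauFam M q w i ζ₂ t (JF (q ^ 2 * M) (q ^ 2) (dvd_mul_right _ _)) =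
      match t with
      | Sum.inl _ => qExpand Qb (q ^ 2) (qExpand Qb (q ^ 2) (Wq_J 1))
      | Sum.inr (Sum.inl a) => qExpand Qb (q ^ 2) (twist (ζ ^ ((a : ℕ) + 1)) (Wq_J 1))
      | Sum.inr (Sum.inr k) => twist (ζ₂ ^ (k : ℕ)) (Wq_J 1) := by
  rcases t with _ | a | k
  · show qExpand Qb (q ^ 2) (Wq_J (q ^ 2)) = qExpand Qb (q ^ 2) (qExpand Qb (q ^ 2) (Wq_J 1))
    rw [Wq_qExpand_J (q ^ 2) 1, mul_one]
  · show qExpand Qb (q ^ 2) (i ((a : ℕ) + 1) ⟨Wq_J (q ^ 2), _⟩) =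
      qExpand Qb (q ^ 2) (twist (ζ ^ ((a : ℕ) + 1)) (Wq_J 1))
    have h1 := (B.mid _ (TAU_not_dvd a)).top 1 (one_dvd M)
      (by rw [mul_one]; exact Wq_J_mem (dvd_mul_right _ _))
    rw [← h1]
    congr 2
    apply Subtype.ext
    show Wq_J (q ^ 2) = Wq_J (q ^ 2 * 1)
    rw [mul_one]
  · show twist (ζ₂ ^ (k : ℕ)) ((w ⟨Wq_J (q ^ 2), _⟩ : FB (q ^ 2 * M)) : LaurentSeries Qb) =
      twist (ζ₂ ^ (k : ℕ)) (Wq_J 1)
    have h1 := B.al.gen (q ^ 2) 1 dvd_rfl (one_dvd M)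
      (by rw [mul_one]; exact Wq_J_mem (dvd_mul_right _ _))
    rw [Nat.div_self (pow_pos hqF.out.pos 2), one_mul] at h1
    rw [← h1]
    congr 3
    apply Subtype.ext
    show Wq_J (q ^ 2) = Wq_J (q ^ 2 * 1)
    rw [mul_one]

theorem tauFam_injective (B : BrData M q w ζ i ζ₂) : Function.Injective (tauFam M q w i ζ₂) := by
  have hq : q.Prime := hqF.out
  have hq2 : 2 ≤ q := hq.two_le
  have hnd : ¬ ((q ^ 2 : ℕ) : ℤ) ∣ (-1 : ℤ) := by
    intro h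
    have h1 : ((q ^ 2 : ℕ) : ℤ) ∣ 1 := (dvd_neg).mp h
    have h2 : q ^ 2 ∣ 1 := by exact_mod_cast h1
    have h3 := Nat.le_of_dvd one_pos h2
    nlinarith
  have hm : (-((q ^ 2 : ℕ) : ℤ)) = ((q ^ 2 : ℕ) : ℤ) * (-1) := by ring
  -- the two invariants
  have c1 : ∀ t, (tauFam M q w i ζ₂ t (JF (q ^ 2 * M) (q ^ 2) (dvd_mul_right _ _))).coeff (-1) =
      match t with
      | Sum.inl _ => 0
      | Sum.inr (Sum.inl _) => 0
      | Sum.inr (Sum.inr k) => (((ζ₂ ^ (k : ℕ)) ^ (-1 : ℤ) : Qbˣ) : Qb) := by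
    intro t
    rw [TAU_value B t]
    rcases t with _ | a | k
    · exact qExpand_coeff_of_not_dvd (q ^ 2) _ hnd
    · exact qExpand_coeff_of_not_dvd (q ^ 2) _ hnd
    · show (twist (ζ₂ ^ (k : ℕ)) (Wq_J 1)).coeff (-1) = _
      rw [twist_coeff, TAU_coeff_J_one, mul_one]
  have c2 : ∀ t, (tauFam M q w i ζ₂ t (JF (q ^ 2 * M) (q ^ 2)
      (dvd_mul_right _ _))).coeff (-((q ^ 2 : ℕ) : ℤ)) =
      match t with
      | Sum.inl _ => 0
      | Sum.inr (Sum.inl a) => (((ζ ^ ((a : ℕ) + 1)) ^ (-1 : ℤ) : Qbˣ) : Qb)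
      | Sum.inr (Sum.inr k) => (tauFam M q w i ζ₂ (Sum.inr (Sum.inr k))
          (JF (q ^ 2 * M) (q ^ 2) (dvd_mul_right _ _))).coeff (-((q ^ 2 : ℕ) : ℤ)) := by
    intro t
    rcases t with _ | a | k
    · rw [TAU_value B]
      show (qExpand Qb (q ^ 2) (qExpand Qb (q ^ 2) (Wq_J 1))).coeff _ = 0
      rw [hm, qExpand_coeff_mul]
      exact qExpand_coeff_of_not_dvd (q ^ 2) _ hnd
    · rw [TAU_value B]
      show (qExpand Qb (q ^ 2) (twist (ζ ^ ((a : ℕ) + 1)) (Wq_J 1))).coeff _ = _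
      rw [hm, qExpand_coeff_mul, twist_coeff, TAU_coeff_J_one, mul_one]
    · rfl
  intro t t' htt
  have e1 := c1 t
  have e2 := c2 t
  rw [htt, c1 t'] at e1
  rw [htt, c2 t'] at e2
  rcases t with _ | a | k <;> rcases t' with _ | a' | k'
  · rfl
  · exact absurd e2 (Units.ne_zero _)
  · exact absurd e1 (Units.ne_zero _)
  · exact absurd e2.symm (Units.ne_zero _)
  · have h1 : (ζ ^ ((a' : ℕ) + 1)) ^ (-1 : ℤ) = (ζ ^ ((a : ℕ) + 1)) ^ (-1 : ℤ) := Units.ext e2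
    rw [zpow_neg_one, zpow_neg_one, inv_inj] at h1
    have h2 := B.prim.pow_inj (by have := a'.2; omega) (by have := a.2; omega) h1
    have h3 : a = a' := Fin.ext (by omega)
    rw [h3]
  · exact absurd e1 (Units.ne_zero _)
  · exact absurd e1.symm (Units.ne_zero _)
  · exact absurd e1.symm (Units.ne_zero _)
  · have h1 : (ζ₂ ^ (k' : ℕ)) ^ (-1 : ℤ) = (ζ₂ ^ (k : ℕ)) ^ (-1 : ℤ) := Units.ext e1
    rw [zpow_neg_one, zpow_neg_one, inv_inj] at h1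
    have h2 := B.prim₂.pow_inj k'.2 k.2 h1
    have h3 : k = k' := Fin.ext h2.symm
    rw [h3]

include hqM in
theorem card_eq_finrank :
    Fintype.card (Unit ⊕ (Fin (q - 1) ⊕ Fin (q ^ 2))) =
      (letI := algebraAlong (aHom (dvdM M q)); Module.finrank (FB M) (FB (q ^ 2 * M))) := by
  have hq : q.Prime := hqF.out
  have hle : FB M ≤ FB (q ^ 2 * M) := FB_le_of_dvd (dvdM M q)
  have hd := D2_degree hle
  have h1 : (CongruenceSubgroup.Gamma0 (q ^ 2 * M)).index =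
      (CongruenceSubgroup.Gamma0 M).index * (q * (q + 1)) := by
    rw [Fermat.Agent.S20Lib.index_Gamma0 (q ^ 2 * M), Fermat.Agent.S20Lib.index_Gamma0 M,
      dedekindPsi_sq_mul (NeZero.ne M) hq hqM]
    ring
  rw [h1] at hd
  have h2 := (Nat.eq_of_mul_eq_mul_left (Nat.pos_of_ne_zero (D2_index_ne_zero M)) hd).symm
  have h3 : Fintype.card (Unit ⊕ (Fin (q - 1) ⊕ Fin (q ^ 2))) = q * (q + 1) := by
    simp only [Fintype.card_sum, Fintype.card_unit, Fintype.card_fin]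
    have := hq.one_le
    obtain ⟨r, rfl⟩ : ∃ r, q = r + 1 := ⟨q - 1, by omega⟩
    simp only [Nat.add_sub_cancel]
    ring
  rw [h3]
  exact h2.symm

end

end Fermat.Agent.S36Lib
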