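import Fermat.Agent.S34.Wq
import Fermat.Agent.ES.NormQ
import Fermat.Prelude.Def_ModularCurve_HeckeOperator

/-! # S36 (EMB): the embeddings `i_mid` of `FB (q ^ 2 * M)` at the cusps `a / q`

* `laurentFun_vadd_real` : the Laurent expansion of `g(τ + x)` is the twist of that of `g`
* `IM_aeval_eq_zero_iff` : polynomial relations between expansions = relations between functions
* `exists_iMid`, `IsIMid` and its API (`unique`, `apply_of_mem`, `apply_qExpand`, `gal`, `comp_wQ`)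
-/

set_option autoImplicit false
set_option synthInstance.maxHeartbeats 400000

open AlgebraicCurve IntermediateField Polynomial ModularCurve CongruenceSubgroup
  Fermat.Agent.S24Lib Fermat.Agent.FFLib Fermat.Agent.S18Lib Fermat.Agent.S28Lib
  Fermat.Agent.ESLib Fermat.Agent.S20Lib Fermat.Agent.S34Lib Fermat.Agent.S20Lib.Cusps
open UpperHalfPlane ModularForm Matrix.SpecialLinearGroup Filter Topology
open scoped MatrixGroups Manifold

namespace Fermat.Agent.S36Lib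

noncomputable section

local notation "𝕢" => Function.Periodic.qParam
local notation "ιP" => HahnSeries.ofPowerSeries ℤ ℂ

variable {g : ℍ → ℂ}

lemma IM_qParam_vadd (x : ℝ) (τ : ℍ) :
    𝕢 1 ((x +ᵥ τ : ℍ) : ℂ) = Complex.exp (2 * Real.pi * Complex.I * x) * 𝕢 1 (τ : ℂ) := by
  simp only [Function.Periodic.qParam, coe_vadd]
  rw [← Complex.exp_add]
  congr 1
  push_cast
  ring

lemma IM_vadd {u : ℍ → ℂ} (hu : QI ⊤ 1 u) (x : ℝ) :
    QI ⊤ 1 (fun τ : ℍ => u (x +ᵥ τ)) ∧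
      ∀ n, (qExpansion 1 (fun τ : ℍ => u (x +ᵥ τ))).coeff n =
        (qExpansion 1 u).coeff n * Complex.exp (2 * Real.pi * Complex.I * x) ^ n := by
  have hs : ∀ τ : ℍ, HasSum (fun m => ((qExpansion 1 u).coeff m *
      Complex.exp (2 * Real.pi * Complex.I * x) ^ m) • 𝕢 ((1 : ℕ) : ℝ) (τ : ℂ) ^ m)
      (u (x +ᵥ τ)) := by
    intro τ
    have := hu.hasSum one_pos (x +ᵥ τ)
    simp only [Nat.cast_one] at this ⊢
    rw [IM_qParam_vadd] at this
    convert this using 2 with m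
    simp only [smul_eq_mul, mul_pow]
    ring
  have hq : QI ⊤ 1 (fun τ : ℍ => u (x +ᵥ τ)) :=
    QI.of_hasSum one_pos (W1_mdiff_vadd hu.holo x) (fun _ => Subring.mem_top _) hs
  refine ⟨hq, fun n => ?_⟩
  have := (QIAux.coeff_unique (h := ((1 : ℕ) : ℝ)) (by norm_num) (hq.analytic one_pos) hs n).symm
  simpa using this

lemma IM_twist {u : ℍ → ℂ} (hu : QI ⊤ 1 u) (x : ℝ) (Z : ℂˣ)
    (hZ : (Z : ℂ) = Complex.exp (2 * Real.pi * Complex.I * x)) :
    ιP (qExpansion 1 (fun τ : ℍ => u (x +ᵥ τ))) = twist Z (ιP (qExpansion 1 u)) := by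
  ext n
  rw [twist_coeff]
  rcases lt_or_ge n 0 with hn | hn
  · rw [ofPowerSeries_coeff_of_neg _ hn, ofPowerSeries_coeff_of_neg _ hn, mul_zero]
  · lift n to ℕ using hn
    rw [HahnSeries.ofPowerSeries_apply_coeff, HahnSeries.ofPowerSeries_apply_coeff,
      (IM_vadd hu x).2, zpow_natCast, Units.val_pow_eq_pow_val, hZ, mul_comm]

lemma IM_isMerInf_of_qi {u : ℍ → ℂ} (hu : QI ⊤ 1 u) : IsMerInf 1 u :=
  ⟨hu.holo, hu.per, ⟨0, by rw [pow_zero, mul_one]; exact hu.bdd⟩⟩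

lemma IM_tendsto_vadd (x : ℝ) : Tendsto (fun τ : ℍ => x +ᵥ τ) atImInfty atImInfty := by
  rw [atImInfty, tendsto_comap_iff]
  have : (UpperHalfPlane.im ∘ fun τ : ℍ => x +ᵥ τ) = UpperHalfPlane.im := by
    funext τ; simp
  rw [this]
  exact tendsto_comap

lemma IM_bdd_ratio (x : ℝ) : IsBoundedAtImInfty (fun τ : ℍ => Dl τ / Dl (x +ᵥ τ)) := by
  have h1 : Tendsto (fun τ : ℍ => (Dl τ * ee (-1) τ) / (Dl (x +ᵥ τ) * ee (-1) (x +ᵥ τ)))
      atImInfty (𝓝 (1 / 1)) :=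
    W3.tendsto_Dl_mul_ee.div (W3.tendsto_Dl_mul_ee.comp (IM_tendsto_vadd x)) one_ne_zero
  have h2 : IsBoundedAtImInfty (fun τ : ℍ => ee (-1) (x +ᵥ τ) / ee (-1) τ) := by
    apply W3.bdd_of_norm_le_one
    intro τ
    rw [norm_div, norm_ee, norm_ee]
    simp
  have := (W3.bdd_of_tendsto h1).mul h2
  refine this.congr' ?_ (by rfl)
  refine Filter.Eventually.of_forall fun τ => ?_
  simp only [Pi.mul_apply]
  have e1 := ee_ne_zero (-1) τ
  have e2 := ee_ne_zero (-1) (x +ᵥ τ)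
  have e3 := Dl_ne_zero (x +ᵥ τ)
  field_simp

/-- real translations: `g(τ + x)` has the twisted Laurent expansion -/
theorem laurentFun_vadd_real (hg : IsMerInf 1 g) (x : ℝ) (Z : ℂˣ)
    (hZ : (Z : ℂ) = Complex.exp (2 * Real.pi * Complex.I * x)) :
    IsMerInf 1 (fun τ => g (x +ᵥ τ)) ∧
      laurentFun 1 (fun τ => g (x +ᵥ τ)) = twist Z (laurentFun 1 g) := by
  obtain ⟨M, hM⟩ := hg.bdd
  have hu : QI ⊤ 1 (g * Dl ^ M) := W1_qi hg hM
  have hv : QI ⊤ 1 (Dl ^ M) := (W1_qi_Dl 1).pow one_pos M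
  have huS := (IM_vadd hu x).1
  have hvS := (IM_vadd hv x).1
  have hmul : (fun τ => g (x +ᵥ τ)) * (fun τ : ℍ => (Dl ^ M) (x +ᵥ τ)) =
      fun τ : ℍ => (g * Dl ^ M) (x +ᵥ τ) := by
    funext τ; rfl
  have hgS : IsMerInf 1 (fun τ => g (x +ᵥ τ)) := by
    refine ⟨W1_mdiff_vadd hg.holo x, ?_, ⟨M, ?_⟩⟩
    · intro w
      by_cases hw : 0 < w.im
      · have hw' : 0 < (w + ((1 : ℕ) : ℂ)).im := by simpa using hw
        have hp := hg.per ((x : ℂ) + w)
        have hw1 : 0 < ((x : ℂ) + w).im := by simpa using hw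
        have hw2 : 0 < ((x : ℂ) + w + ((1 : ℕ) : ℂ)).im := by simpa using hw
        simp only [Function.comp_apply, ofComplex_apply_of_im_pos hw',
          ofComplex_apply_of_im_pos hw, ofComplex_apply_of_im_pos hw1,
          ofComplex_apply_of_im_pos hw2] at hp ⊢
        convert hp using 2
        · ext; simp [coe_vadd]; ring
        · ext; simp [coe_vadd]
      · have hw1 : w.im ≤ 0 := not_lt.mp hw
        have hw' : (w + ((1 : ℕ) : ℂ)).im ≤ 0 := by simpa using hw1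
        simp only [Function.comp_apply, ofComplex_apply_of_im_nonpos hw',
          ofComplex_apply_of_im_nonpos hw1]
    · have hr : IsBoundedAtImInfty (fun τ : ℍ => (Dl τ / Dl (x +ᵥ τ)) ^ M) := by
        have h0 := IM_bdd_ratio x
        clear hmul hvS huS hv hu hM
        induction M with
        | zero =>
          simp only [pow_zero]
          exact Filter.const_boundedAtFilter _ (1 : ℂ)
        | succ k ih =>
          have := ih.mul h0
          refine this.congr' ?_ (by rfl)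
          exact Filter.Eventually.of_forall fun τ => by simp [pow_succ]
      have := huS.bdd.mul hr
      refine this.congr' ?_ (by rfl)
      refine Filter.Eventually.of_forall fun τ => ?_
      simp only [Pi.mul_apply, Pi.pow_apply]
      have e3 := Dl_ne_zero (x +ᵥ τ)
      rw [div_pow]
      field_simp
  refine ⟨hgS, ?_⟩
  have h1 := laurentFun_mul one_pos hgS (IM_isMerInf_of_qi hvS)
  rw [hmul, laurentFun_of_bdd one_pos (IM_isMerInf_of_qi huS) huS.bdd,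
    laurentFun_of_bdd one_pos (IM_isMerInf_of_qi hvS) hvS.bdd] at h1
  simp only [Nat.cast_one] at h1
  rw [IM_twist hu x Z hZ, IM_twist hv x Z hZ] at h1
  have h2 := laurentFun_mul_pow one_pos hg hM
  simp only [Nat.cast_one] at h2
  have h3 : qExpansion 1 (Dl ^ M) = qExpansion 1 Dl ^ M := by
    have := W1_qExp_pow one_pos (W1_qi_Dl 1) M
    simpa using this
  rw [← h2, h3, map_pow, twist_mul] at h1
  have h4 : twist Z (ιP (qExpansion 1 Dl) ^ M) ≠ 0 := by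
    have h5 : ιP (qExpansion 1 Dl) ^ M ≠ 0 := by
      have := W1_d_ne_zero (h := 1) one_pos
      simp only [Nat.cast_one] at this
      exact pow_ne_zero _ this
    intro h0
    apply h5
    have := congrArg (twist Z⁻¹) h0
    rw [twist_twist, inv_mul_cancel, twist_one] at this
    rw [this]
    ext n; simp
  exact (mul_right_cancel₀ h4 h1.symm)

/-! ### polynomial relations and Laurent expansions -/

/-- the ring of `1`-periodic holomorphic functions, meromorphic at `i∞` -/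
def IM_MI : Subring (ℍ → ℂ) where
  carrier := {g | IsMerInf 1 g}
  mul_mem' := IsMerInf.mul
  one_mem' := isMerInf_const 1 1
  add_mem' := IsMerInf.add
  zero_mem' := isMerInf_const 1 0
  neg_mem' := fun {g} h => by
    have := (isMerInf_const 1 (-1)).mul h
    have e : Function.const ℍ (-1 : ℂ) * g = -g := by
      funext τ; simp
    rwa [e] at this

/-- the `q`-expansion ring hom -/
def IM_laurHom : IM_MI →+* LaurentSeries ℂ where
  toFun g := laurentFun 1 (g : ℍ → ℂ)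
  map_one' := by
    have := laurentFun_const (h := 1) one_pos 1
    rw [map_one] at this
    exact this
  map_zero' := by
    have := laurentFun_const (h := 1) one_pos 0
    rw [map_zero] at this
    exact this
  map_add' a b := laurentFun_add one_pos a.2 b.2
  map_mul' a b := laurentFun_mul one_pos a.2 b.2

theorem IM_laurHom_injective : Function.Injective IM_laurHom := by
  rw [injective_iff_map_eq_zero]
  intro a ha
  exact Subtype.ext ((laurentFun_eq_zero_iff one_pos a.2).mp ha)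

/-- constants -/
def IM_const : ℂ →+* IM_MI where
  toFun c := ⟨Function.const ℍ c, isMerInf_const 1 c⟩
  map_one' := rfl
  map_mul' _ _ := rfl
  map_zero' := rfl
  map_add' _ _ := rfl

/-- polynomial relations over `Qb` between Laurent series which are the expansions of analytic
functions can be tested on the functions -/
theorem IM_aeval_eq_zero_iff {ι : Type*} (Js : ι → LaurentSeries Qb) (gs : ι → ℍ → ℂ)
    (hg : ∀ i, IsMerInf 1 (gs i)) (hL : ∀ i, laurentFun 1 (gs i) = coeffMap iotaC (Js i))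
    (P : MvPolynomial ι Qb) :
    MvPolynomial.aeval Js P = 0 ↔
      MvPolynomial.eval₂ ((Pi.constRingHom ℍ ℂ).comp iotaC) gs P = 0 := by
  set E : IM_MI := MvPolynomial.eval₂ (IM_const.comp iotaC)
    (fun i => (⟨gs i, hg i⟩ : IM_MI)) P with hE
  have h1 : IM_laurHom E = coeffMap iotaC (MvPolynomial.aeval Js P) := by
    rw [hE, MvPolynomial.eval₂_comp_left, MvPolynomial.aeval_def, MvPolynomial.eval₂_comp_left]
    congr 1
    · ext c : 1
      show laurentFun 1 (Function.const ℍ (iotaC c)) = coeffMap iotaC (algebraMap Qb _ c)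
      rw [laurentFun_const one_pos, W6_coeffMap_iotaC_algebraMap]
    · funext i
      exact hL i
  have h2 : IM_MI.subtype E =
      MvPolynomial.eval₂ ((Pi.constRingHom ℍ ℂ).comp iotaC) gs P := by
    rw [hE, MvPolynomial.eval₂_comp_left]
    rfl
  rw [← h2, ← map_eq_zero_iff (coeffMap iotaC) (coeffMap iotaC).injective, ← h1,
    map_eq_zero_iff _ IM_laurHom_injective,
    map_eq_zero_iff _ (Subring.subtype_injective IM_MI)]

/-- substitution `τ ↦ W τ` in polynomial relations -/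
theorem IM_eval₂_comp {ι : Type*} (gs gs' : ι → ℍ → ℂ) (W : ℍ → ℍ)
    (h : ∀ i τ, gs i (W τ) = gs' i τ) (P : MvPolynomial ι Qb)
    (h0 : MvPolynomial.eval₂ ((Pi.constRingHom ℍ ℂ).comp iotaC) gs P = 0) :
    MvPolynomial.eval₂ ((Pi.constRingHom ℍ ℂ).comp iotaC) gs' P = 0 := by
  let cW : (ℍ → ℂ) →+* (ℍ → ℂ) := RingHom.pi (fun τ => Pi.evalRingHom (fun _ => ℂ) (W τ))
  have h1 := congrArg cW h0
  rw [map_zero, MvPolynomial.eval₂_comp_left] at h1
  rw [← h1]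
  congr 1
  funext i
  funext τ
  exact (h i τ).symm

theorem IM_abs_exists_algHom {K E ι : Type*} [Field K] [Field E] [Algebra K E] (J J' : ι → E)
    (h : ∀ P : MvPolynomial ι K, MvPolynomial.aeval J P = 0 ↔ MvPolynomial.aeval J' P = 0)
    (F : IntermediateField K E) (hF : F = IntermediateField.adjoin K (Set.range J)) :
    ∃ φ : F →ₐ[K] E, ∀ i (hi : J i ∈ F), φ ⟨J i, hi⟩ = J' i := by
  subst hF
  obtain ⟨φ, hφ⟩ := Wq_exists_algHom_adjoin J J' h
  exact ⟨φ, fun i _ => hφ i⟩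

/-! ### the pointwise identities -/

lemma IM_janD_smul {N e : ℕ} [NeZero N] (he : e ∣ N) (γ : SL(2, ℤ)) (hγ : γ ∈ Gamma0 N) (τ : ℍ) :
    janD e (γ • τ) = janD e τ := by
  have := congrFun ((isWH_janD (N := N) he).inv γ hγ) τ
  rw [ModularForm.SL_slash_apply] at this
  simpa using this

lemma IM_linear_ne_zero (r s : ℤ) (h : r ≠ 0 ∨ s ≠ 0) (τ : ℍ) : (r : ℂ) * (τ : ℂ) + (s : ℂ) ≠ 0 := by
  intro h0
  have h1 := congrArg Complex.im h0
  simp only [Complex.add_im, Complex.mul_im, Complex.intCast_re, Complex.intCast_im,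
    zero_mul, add_zero, Complex.zero_im, UpperHalfPlane.coe_im] at h1
  have h2 := τ.im_pos
  have hr : r = 0 := by
    have : (r : ℝ) = 0 := by
      rcases mul_eq_zero.mp h1 with h3 | h3
      · exact h3
      · exact absurd h3 h2.ne'
    exact_mod_cast this
  subst hr
  rcases h with h | h
  · exact h rfl
  · apply h
    simpa using h0

theorem IM_janD_mid (q M : ℕ) (hq : 0 < q) (hM : 0 < M) (a : ℕ) (c δ : ℤ)
    (hc : (M : ℤ) * c * a + δ * q = 1) (γ : SL(2, ℤ)) (h00 : γ 0 0 = 1) (h01 : γ 0 1 = 0)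
    (h10 : γ 1 0 = q * M * c) (h11 : γ 1 1 = 1) (d : ℕ) (hd : d ∣ M) (τ : ℍ) :
    janD (q ^ 2 * d) (γ • τ) = janD d (((a : ℝ) / q) +ᵥ τ) := by
  obtain ⟨M', rfl⟩ := hd
  have hd0 : 0 < d := by
    rcases Nat.eq_zero_or_pos d with h0 | h0
    · simp [h0] at hM
    · exact h0
  let γ' : SL(2, ℤ) := ⟨!![q, -(d * a); M' * c, δ], by
    rw [Matrix.det_fin_two_of]; push_cast at hc; linarith⟩
  have key : utr (q ^ 2 * d) 0 1 (γ • τ) = γ' • utr d 0 1 (((a : ℝ) / q) +ᵥ τ) := by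
    apply UpperHalfPlane.ext
    rw [coe_utr (Nat.mul_pos (pow_pos hq 2) hd0) one_pos, coe_specialLinearGroup_apply,
      coe_specialLinearGroup_apply, coe_utr hd0 one_pos, coe_vadd]
    have f1 : (γ' : Matrix (Fin 2) (Fin 2) ℤ) 0 0 = q := rfl
    have f2 : (γ' : Matrix (Fin 2) (Fin 2) ℤ) 0 1 = -(d * a) := rfl
    have f3 : (γ' : Matrix (Fin 2) (Fin 2) ℤ) 1 0 = M' * c := rfl
    have f4 : (γ' : Matrix (Fin 2) (Fin 2) ℤ) 1 1 = δ := rfl
    rw [h00, h01, h10, h11, f1, f2, f3, f4]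
    have h1 := IM_linear_ne_zero (q * (d * M' : ℕ) * c) 1 (Or.inr one_ne_zero) τ
    have hqC : (q : ℂ) ≠ 0 := by exact_mod_cast hq.ne'
    have hcC : ((d * M' : ℕ) : ℂ) * c * a + δ * q = 1 := by exact_mod_cast hc
    simp only [eq_intCast]
    push_cast at h1 hcC ⊢
    have h2 : ((M' : ℂ) * c * ((d * ((a : ℂ) / q + (τ : ℂ)) + 0) / 1) + δ) =
        (q * (d * M') * c * (τ : ℂ) + 1) / q := by
      field_simp
      linear_combination hcC
    rw [h2]
    field_simp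
    ring
  show jan (utr (q ^ 2 * d) 0 1 (γ • τ)) = jan (utr d 0 1 (((a : ℝ) / q) +ᵥ τ))
  rw [key, Wq_jan_smul]

/-! ### the embedding at the middle cusps -/

lemma IM_laurentFun_janD (n : ℕ) (hn : n ≠ 0) :
    IsMerInf 1 (janD n) ∧ laurentFun 1 (janD n) = coeffMap iotaC (Wq_J n) := by
  have : NeZero n := ⟨hn⟩
  refine ⟨(isWH_janD (N := n) dvd_rfl).isMerInf_one, ?_⟩
  rw [laurentFun_janD, Wq_J_eq, W6_coeffMap_iotaC_coeffEmb]

theorem exists_iMid (M q : ℕ) [NeZero M] [NeZero q] (hq : q.Prime) (hqM : ¬ q ∣ M) (z : Qbˣ)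
    (hz : IsPrimitiveRoot z q) :
    ∃ i : FB (q ^ 2 * M) →ₐ[Qb] LaurentSeries Qb,
      (∀ n, n ∣ q * M → ∀ h : Wq_J n ∈ FB (q ^ 2 * M), i ⟨Wq_J n, h⟩ = Wq_J n) ∧
      (∀ d, d ∣ M → ∀ h : Wq_J (q ^ 2 * d) ∈ FB (q ^ 2 * M),
        i ⟨Wq_J (q ^ 2 * d), h⟩ = twist z (Wq_J d)) := by
  classical
  have hM0 : 0 < M := Nat.pos_of_ne_zero (NeZero.ne M)
  -- the root of unity
  let Z : ℂˣ := Units.map (iotaC : Qb →* ℂ) z
  have hZprim : IsPrimitiveRoot (Z : ℂ) q := by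
    have h1 : IsPrimitiveRoot (z : Qb) q := IsPrimitiveRoot.coe_units_iff.mpr hz
    exact h1.map_of_injective iotaC.injective
  obtain ⟨a, -, haq, hZa⟩ := (Complex.isPrimitiveRoot_iff _ q hq.ne_zero).mp hZprim
  have hZ : (Z : ℂ) = Complex.exp (2 * Real.pi * Complex.I * (((a : ℝ) / q : ℝ) : ℂ)) := by
    rw [← hZa]; push_cast; rfl
  -- the matrix
  obtain ⟨c, δ, hc⟩ : ∃ c δ : ℤ, (M : ℤ) * c * a + δ * q = 1 := by
    have h1 : Nat.Coprime (M * a) q :=
      Nat.Coprime.mul_left ((Nat.Prime.coprime_iff_not_dvd hq).mpr hqM).symm haq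
    obtain ⟨u, v, huv⟩ := Nat.isCoprime_iff_coprime.mpr h1
    exact ⟨u, v, by push_cast at huv; linarith⟩
  let γ : SL(2, ℤ) := ⟨!![1, 0; q * M * c, 1], by rw [Matrix.det_fin_two_of]; ring⟩
  have hγ : γ ∈ Gamma0 (q * M) := by
    rw [Gamma0_mem]
    show (((q * M * c : ℤ)) : ZMod (q * M)) = 0
    have : ((q * M * c : ℤ)) = ((q * M : ℕ) : ℤ) * c := by push_cast; ring
    rw [this, Int.cast_mul, Int.cast_natCast, ZMod.natCast_self, zero_mul]
  -- the families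
  let ι : Type := {n // n ∣ q * M} ⊕ {d // d ∣ M}
  let J : ι → LaurentSeries Qb := Sum.elim (fun n => Wq_J n.1) (fun d => Wq_J (q ^ 2 * d.1))
  let J' : ι → LaurentSeries Qb := Sum.elim (fun n => Wq_J n.1) (fun d => twist z (Wq_J d.1))
  let G : ι → ℍ → ℂ := Sum.elim (fun n => janD n.1) (fun d => janD (q ^ 2 * d.1))
  let G' : ι → ℍ → ℂ := Sum.elim (fun n => janD n.1)
    (fun d => fun τ => janD d.1 (((a : ℝ) / q) +ᵥ τ))
  have hne1 : ∀ n : {n // n ∣ q * M}, n.1 ≠ 0 := fun n h =>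
    NeZero.ne (q * M) (Nat.eq_zero_of_zero_dvd (h ▸ n.2))
  have hne2 : ∀ d : {d // d ∣ M}, d.1 ≠ 0 := fun d h =>
    NeZero.ne M (Nat.eq_zero_of_zero_dvd (h ▸ d.2))
  have hG : ∀ i, IsMerInf 1 (G i) ∧ laurentFun 1 (G i) = coeffMap iotaC (J i) := by
    rintro (n | d)
    · exact IM_laurentFun_janD n.1 (hne1 n)
    · exact IM_laurentFun_janD _ (Nat.mul_ne_zero (pow_ne_zero 2 hq.ne_zero) (hne2 d))
  have hG' : ∀ i, IsMerInf 1 (G' i) ∧ laurentFun 1 (G' i) = coeffMap iotaC (J' i) := by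
    rintro (n | d)
    · exact IM_laurentFun_janD n.1 (hne1 n)
    · obtain ⟨h1, h2⟩ := IM_laurentFun_janD d.1 (hne2 d)
      obtain ⟨h3, h4⟩ := laurentFun_vadd_real h1 ((a : ℝ) / q) Z hZ
      refine ⟨h3, ?_⟩
      show laurentFun 1 (fun τ => janD d.1 (((a : ℝ) / q) +ᵥ τ)) =
        coeffMap iotaC (twist z (Wq_J d.1))
      rw [h4, h2, coeffMap_twist]
  have hGG : ∀ i τ, G i (γ • τ) = G' i τ := by
    rintro (n | d) τ
    · exact IM_janD_smul n.2 γ hγ τ
    · exact IM_janD_mid q M hq.pos hM0 a c δ hc γ rfl rfl rfl rfl d.1 d.2 τ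
  have hGG' : ∀ i τ, G' i (γ⁻¹ • τ) = G i τ := by
    intro i τ
    rw [← hGG, smul_inv_smul]
  have hrel : ∀ P : MvPolynomial ι Qb,
      MvPolynomial.aeval J P = 0 ↔ MvPolynomial.aeval J' P = 0 := by
    intro P
    rw [IM_aeval_eq_zero_iff J G (fun i => (hG i).1) (fun i => (hG i).2),
      IM_aeval_eq_zero_iff J' G' (fun i => (hG' i).1) (fun i => (hG' i).2)]
    exact ⟨IM_eval₂_comp G G' _ hGG P, IM_eval₂_comp G' G _ hGG' P⟩
  have hrange : Set.range J = gensBar (q ^ 2 * M) := by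
    ext y
    constructor
    · rintro ⟨(⟨n, hn⟩ | ⟨d, hd⟩), rfl⟩
      · have hn' : n ∣ q ^ 2 * M := hn.trans ⟨q, by ring⟩
        have : NeZero n := ⟨hne1 ⟨n, hn⟩⟩
        exact ⟨_, ⟨n, this, hn', rfl⟩, (Wq_J_eq n).symm⟩
      · have hd' : q ^ 2 * d ∣ q ^ 2 * M := Nat.mul_dvd_mul_left _ hd
        have : NeZero (q ^ 2 * d) :=
          ⟨Nat.mul_ne_zero (pow_ne_zero 2 hq.ne_zero) (hne2 ⟨d, hd⟩)⟩
        exact ⟨_, ⟨q ^ 2 * d, this, hd', rfl⟩, (Wq_J_eq (q ^ 2 * d)).symm⟩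
    · rintro ⟨_, ⟨n, hne, hn, rfl⟩, rfl⟩
      obtain ⟨u, v, hu, hv, rfl⟩ := (Nat.dvd_mul).mp hn
      obtain ⟨k, hk, rfl⟩ := (Nat.dvd_prime_pow hq).mp hu
      rcases Nat.lt_or_ge k 2 with hk2 | hk2
      · have h1 : q ^ k * v ∣ q * M :=
          Nat.mul_dvd_mul (by simpa using pow_dvd_pow q (Nat.lt_succ_iff.mp hk2)) hv
        exact ⟨Sum.inl ⟨_, h1⟩, Wq_J_eq _⟩
      · obtain rfl : k = 2 := le_antisymm hk hk2
        exact ⟨Sum.inr ⟨v, hv⟩, Wq_J_eq _⟩
  obtain ⟨φ, hφ⟩ := IM_abs_exists_algHom (K := Qb) J J' hrel (FB (q ^ 2 * M))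
    (by rw [hrange]; exact bar_eq_adjoin (q ^ 2 * M))
  exact ⟨φ, fun n hn h => hφ (Sum.inl ⟨n, hn⟩) h, fun d hd h => hφ (Sum.inr ⟨d, hd⟩) h⟩

/-! ### API -/

section API

variable (M q : ℕ) [NeZero M] [NeZero q]

/-- the characterising property of the embedding `i_mid` attached to `z` -/
structure IsIMid (z : Qbˣ) (i : FB (q ^ 2 * M) →ₐ[Qb] LaurentSeries Qb) : Prop where
  low : ∀ n, n ∣ q * M → ∀ h : Wq_J n ∈ FB (q ^ 2 * M), i ⟨Wq_J n, h⟩ = Wq_J n
  top : ∀ d, d ∣ M → ∀ h : Wq_J (q ^ 2 * d) ∈ FB (q ^ 2 * M),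
    i ⟨Wq_J (q ^ 2 * d), h⟩ = twist z (Wq_J d)

variable {M q}

omit [NeZero M] [NeZero q] in
theorem IM_dvd_cases (hq : q.Prime) {n : ℕ} (hn : n ∣ q ^ 2 * M) :
    n ∣ q * M ∨ ∃ d, d ∣ M ∧ n = q ^ 2 * d := by
  obtain ⟨u, v, hu, hv, rfl⟩ := (Nat.dvd_mul).mp hn
  obtain ⟨k, hk, rfl⟩ := (Nat.dvd_prime_pow hq).mp hu
  rcases Nat.lt_or_ge k 2 with hk2 | hk2
  · exact Or.inl (Nat.mul_dvd_mul (by simpa using pow_dvd_pow q (Nat.lt_succ_iff.mp hk2)) hv)
  · obtain rfl : k = 2 := le_antisymm hk hk2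
    exact Or.inr ⟨v, hv, rfl⟩

/-- two ring homs on `FB (q ^ 2 * M)` which agree on constants and on the generators are equal -/
theorem IM_ringHom_ext (hq : q.Prime) {L : Type*} [Field L] (f g : FB (q ^ 2 * M) →+* L)
    (hc : ∀ c : Qb, f (algebraMap Qb _ c) = g (algebraMap Qb _ c))
    (h1 : ∀ n, n ∣ q * M → ∀ h : Wq_J n ∈ FB (q ^ 2 * M), f ⟨Wq_J n, h⟩ = g ⟨Wq_J n, h⟩)
    (h2 : ∀ d, d ∣ M → ∀ h : Wq_J (q ^ 2 * d) ∈ FB (q ^ 2 * M),
      f ⟨Wq_J (q ^ 2 * d), h⟩ = g ⟨Wq_J (q ^ 2 * d), h⟩) : f = g := by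
  refine Wq_ringHom_ext f g hc fun n hn => ?_
  rcases IM_dvd_cases hq hn with h | ⟨d, hd, rfl⟩
  · exact h1 n h _
  · exact h2 d hd _

theorem IsIMid.unique (hq : q.Prime) {z : Qbˣ} {i i' : FB (q ^ 2 * M) →ₐ[Qb] LaurentSeries Qb}
    (h : IsIMid M q z i) (h' : IsIMid M q z i') : i = i' := by
  apply AlgHom.coe_ringHom_injective
  refine IM_ringHom_ext hq _ _ (fun c => ?_) (fun n hn hm => ?_) (fun d hd hm => ?_)
  · show i (algebraMap Qb _ c) = i' (algebraMap Qb _ c)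
    rw [i.commutes, i'.commutes]
  · show i ⟨Wq_J n, hm⟩ = i' ⟨Wq_J n, hm⟩
    rw [h.low n hn, h'.low n hn]
  · show i ⟨Wq_J (q ^ 2 * d), hm⟩ = i' ⟨Wq_J (q ^ 2 * d), hm⟩
    rw [h.top d hd, h'.top d hd]

/-- `i_mid` is the identity on `FB (q * M)` -/
theorem IsIMid.apply_of_mem {z : Qbˣ} {i : FB (q ^ 2 * M) →ₐ[Qb] LaurentSeries Qb}
    (h : IsIMid M q z i) (x : LaurentSeries Qb) (hx : x ∈ FB (q * M))
    (hx' : x ∈ FB (q ^ 2 * M)) : i ⟨x, hx'⟩ = x := by
  have hle : FB (q * M) ≤ FB (q ^ 2 * M) := FB_le_of_dvd ⟨q, by ring⟩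
  have key : (i : FB (q ^ 2 * M) →+* LaurentSeries Qb).comp
      (IntermediateField.inclusion hle : FB (q * M) →+* FB (q ^ 2 * M)) =
      ((FB (q * M)).val : FB (q * M) →+* LaurentSeries Qb) := by
    refine Wq_ringHom_ext _ _ ?_ ?_
    · intro c
      show i (IntermediateField.inclusion hle (algebraMap Qb (FB (q * M)) c)) =
        algebraMap Qb (LaurentSeries Qb) c
      have h1 : IntermediateField.inclusion hle (algebraMap Qb (FB (q * M)) c) =
          algebraMap Qb (FB (q ^ 2 * M)) c := rfl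
      rw [h1, i.commutes]
    · intro n hn
      exact h.low n hn _
  exact RingHom.congr_fun key ⟨x, hx⟩

theorem IM_qExpand_mem {d M N : ℕ} [NeZero d] [NeZero M] [NeZero N] (h : M * d ∣ N) {y : LaurentSeries Qb}
    (hy : y ∈ FB M) : qExpand Qb d y ∈ FB N :=
  FB_le_of_dvd h (heckeBetaBar Qb M d ⟨y, hy⟩).2

/-- `i_mid (y(q^{q²})) = y(z q)` for `y ∈ FB M` -/
theorem IsIMid.apply_qExpand {z : Qbˣ} {i : FB (q ^ 2 * M) →ₐ[Qb] LaurentSeries Qb}
    (h : IsIMid M q z i) (y : LaurentSeries Qb) (hy : y ∈ FB M)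
    (hy' : qExpand Qb (q ^ 2) y ∈ FB (q ^ 2 * M)) :
    i ⟨qExpand Qb (q ^ 2) y, hy'⟩ = twist z y := by
  have hle : FB (M * q ^ 2) ≤ FB (q ^ 2 * M) := FB_le_of_dvd (by rw [mul_comm])
  have key : (i : FB (q ^ 2 * M) →+* LaurentSeries Qb).comp
      ((IntermediateField.inclusion hle : FB (M * q ^ 2) →+* FB (q ^ 2 * M)).comp
        (heckeBetaBar Qb M (q ^ 2) : FB M →+* FB (M * q ^ 2))) =
      (twistHom z).comp ((FB M).val : FB M →+* LaurentSeries Qb) := by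
    refine Wq_ringHom_ext _ _ ?_ ?_
    · intro c
      show i (IntermediateField.inclusion hle (heckeBetaBar Qb M (q ^ 2)
        (algebraMap Qb (FB M) c))) = twist z (algebraMap Qb (LaurentSeries Qb) c)
      rw [(heckeBetaBar Qb M (q ^ 2)).commutes]
      have h1 : IntermediateField.inclusion hle (algebraMap Qb (FB (M * q ^ 2)) c) =
          algebraMap Qb (FB (q ^ 2 * M)) c := rfl
      rw [h1, i.commutes]
      ext n
      rw [twist_coeff, algebraMap_laurentSeries_eq_single]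
      by_cases hn : n = 0
      · subst hn; simp
      · rw [HahnSeries.coeff_single_of_ne hn, mul_zero]
    · intro d hd
      show i (IntermediateField.inclusion hle (heckeBetaBar Qb M (q ^ 2) ⟨Wq_J d, _⟩)) =
        twist z (Wq_J d)
      rw [← h.top d hd (Wq_J_mem (Nat.mul_dvd_mul_left _ hd))]
      congr 1
      apply Subtype.ext
      exact Wq_qExpand_J (q ^ 2) d
  exact RingHom.congr_fun key ⟨y, hy⟩

lemma IM_coeffMap_J (σ : GQ) (n : ℕ) : coeffMap (σ : Qb →+* Qb) (Wq_J n) = Wq_J n := by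
  by_cases hn : n = 0
  · rw [Wq_J, dif_pos hn, map_zero]
  · have : NeZero n := ⟨hn⟩
    rw [Wq_J_eq, coeffMap_coeffEmb]

lemma IM_gal_J (N : ℕ) (σ : GQ) (n : ℕ) (h : Wq_J n ∈ FB N) :
    gal N σ ⟨Wq_J n, h⟩ = ⟨Wq_J n, h⟩ :=
  Subtype.ext (IM_coeffMap_J σ n)

/-- Galois equivariance -/
theorem IsIMid.gal (hq : q.Prime) {z : Qbˣ} {i i' : FB (q ^ 2 * M) →ₐ[Qb] LaurentSeries Qb}
    (σ : GQ) (h : IsIMid M q z i)
    (h' : IsIMid M q (Units.map ((σ : Qb →+* Qb) : Qb →* Qb) z) i') (x : FB (q ^ 2 * M)) :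
    coeffMap (σ : Qb →+* Qb) (i x) = i' (gal (q ^ 2 * M) σ x) := by
  have key : (coeffMap (σ : Qb →+* Qb)).comp (i : FB (q ^ 2 * M) →+* LaurentSeries Qb) =
      (i' : FB (q ^ 2 * M) →+* LaurentSeries Qb).comp
        (ESLib.gal (q ^ 2 * M) σ : FB (q ^ 2 * M) →+* FB (q ^ 2 * M)) := by
    refine IM_ringHom_ext hq _ _ (fun c => ?_) (fun n hn hm => ?_) (fun d hd hm => ?_)
    · show coeffMap (σ : Qb →+* Qb) (i (algebraMap Qb _ c)) =
        i' (ESLib.gal (q ^ 2 * M) σ (algebraMap Qb _ c))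
      have h1 : ESLib.gal (q ^ 2 * M) σ (algebraMap Qb (FB (q ^ 2 * M)) c) =
          algebraMap Qb (FB (q ^ 2 * M)) (σ c) := arithmeticRingAut_algebraMap _ σ c
      rw [h1, i.commutes, i'.commutes, coeffMap_algebraMap]
      rfl
    · show coeffMap (σ : Qb →+* Qb) (i ⟨Wq_J n, hm⟩) = i' (ESLib.gal (q ^ 2 * M) σ ⟨Wq_J n, hm⟩)
      rw [IM_gal_J, h.low n hn, h'.low n hn, IM_coeffMap_J]
    · show coeffMap (σ : Qb →+* Qb) (i ⟨Wq_J (q ^ 2 * d), hm⟩) =
        i' (ESLib.gal (q ^ 2 * M) σ ⟨Wq_J (q ^ 2 * d), hm⟩)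
      rw [IM_gal_J, h.top d hd, h'.top d hd, coeffMap_twist, IM_coeffMap_J]
  exact RingHom.congr_fun key x

/-- compatibility with the Atkin-Lehner involution `w_{q²}`:
`i_z ∘ w = twist z ∘ i_{z⁻¹}` -/
theorem IsIMid.comp_wQ (hq : q.Prime) {z : Qbˣ} (hz : z ^ q = 1)
    {i i' : FB (q ^ 2 * M) →ₐ[Qb] LaurentSeries Qb}
    (h : IsIMid M q z i) (h' : IsIMid M q z⁻¹ i') (w : FB (q ^ 2 * M) ≃ₐ[Qb] FB (q ^ 2 * M))
    (hw : ∀ d e : ℕ, d ∣ q ^ 2 → e ∣ M → ∀ h : Wq_J (d * e) ∈ FB (q ^ 2 * M),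
        ((w ⟨Wq_J (d * e), h⟩ : FB (q ^ 2 * M)) : LaurentSeries Qb) = Wq_J (q ^ 2 / d * e))
    (x : FB (q ^ 2 * M)) : i (w x) = twist z (i' x) := by
  have hq0 : 0 < q := hq.pos
  have key : (i : FB (q ^ 2 * M) →+* LaurentSeries Qb).comp
      (w : FB (q ^ 2 * M) →+* FB (q ^ 2 * M)) =
      (twistHom z).comp (i' : FB (q ^ 2 * M) →+* LaurentSeries Qb) := by
    refine IM_ringHom_ext hq _ _ (fun c => ?_) (fun n hn hm => ?_) (fun d hd hm => ?_)
    · show i (w (algebraMap Qb _ c)) = twist z (i' (algebraMap Qb _ c))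
      rw [w.commutes, i.commutes, i'.commutes]
      ext n
      rw [twist_coeff, algebraMap_laurentSeries_eq_single]
      by_cases hn : n = 0
      · subst hn; simp
      · rw [HahnSeries.coeff_single_of_ne hn, mul_zero]
    · show i (w ⟨Wq_J n, hm⟩) = twist z (i' ⟨Wq_J n, hm⟩)
      rw [h'.low n hn]
      obtain ⟨u, v, hu, hv, rfl⟩ := (Nat.dvd_mul).mp hn
      rcases (Nat.dvd_prime hq).mp hu with rfl | hu'
      · have h1 : w ⟨Wq_J (1 * v), hm⟩ = ⟨Wq_J (q ^ 2 * v),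
            Wq_J_mem (Nat.mul_dvd_mul_left _ hv)⟩ := by
          apply Subtype.ext
          rw [hw 1 v (one_dvd _) hv, Nat.div_one]
        rw [h1, h.top v hv, one_mul]
      · subst hu'
        have h2 : u ^ 2 / u = u := by
          rw [pow_two, Nat.mul_div_cancel _ hq0]
        have h1 : w ⟨Wq_J (u * v), hm⟩ = ⟨Wq_J (u * v), hm⟩ := by
          apply Subtype.ext
          rw [hw u v (Dvd.intro_left (u ^ 1) (by ring)) hv, h2]
        rw [h1, h.low _ hn, ← Wq_qExpand_J, twist_qExpand u z hz]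
    · show i (w ⟨Wq_J (q ^ 2 * d), hm⟩) = twist z (i' ⟨Wq_J (q ^ 2 * d), hm⟩)
      have hdm : Wq_J d ∈ FB (q ^ 2 * M) := Wq_J_mem (Dvd.dvd.mul_left hd _)
      have h1 : w ⟨Wq_J (q ^ 2 * d), hm⟩ = ⟨Wq_J d, hdm⟩ := by
        apply Subtype.ext
        rw [hw (q ^ 2) d dvd_rfl hd, Nat.div_self (pow_pos hq0 2), one_mul]
      rw [h1, h.low d (Dvd.dvd.mul_left hd _), h'.top d hd, twist_twist, mul_inv_cancel,
        twist_one]
  exact RingHom.congr_fun key x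

end API

/-- `exists_iMid`, packaged -/
theorem exists_isIMid (M q : ℕ) [NeZero M] [NeZero q] (hq : q.Prime) (hqM : ¬ q ∣ M) (z : Qbˣ)
    (hz : IsPrimitiveRoot z q) : ∃ i, IsIMid M q z i := by
  obtain ⟨i, h1, h2⟩ := exists_iMid M q hq hqM z hz
  exact ⟨i, h1, h2⟩

end

end Fermat.Agent.S36Lib
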