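import Fermat.Agent.S36.NrmDefs
import Fermat.Agent.S36.K0Defs
import Fermat.Agent.S36.Mod.IMid
import Fermat.Agent.S18.RedRing
import Fermat.Agent.S18.HHProd

/-!
# S36, modular side: shared definitions

Level `N = q ^ 2 * M`, `q ∤ M`.  Three *branches* `e : FB N →+* ℚ̄((t))` (expansions at the cusps
`∞`, `1/(qM)`, `0`), each with a uniformizer `ϖ ∈ FB N` (`q`, `j_{q²} - j`, `q`).

* `IsFix A N x` : `x` is fixed by the inertia group of `A` (its `q`-expansion has coefficients in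
  `K0 A`)
* `IsIMid M q z i` (in `Mod/IMid.lean`) : `i` is the expansion at the middle cusp attached to the
  primitive `q`-th root of unity `z`
* `Ge A e ϖ a g` : `v(g) ≥ a` on the branch `(e, ϖ)`;  `rd A e ϖ a g` : the reduction of
  `e (ϖ ^ (-a) g)`
* `eInf`, `eZero w`, `qF`, `piF`
* `phiL q = Δ(t^q) / Δ(t)`
-/

set_option autoImplicit false
set_option synthInstance.maxHeartbeats 400000

open AlgebraicCurve ModularCurve

namespace Fermat.Agent.S36Lib

open Fermat.Agent.S18Lib Fermat.Agent.S24Lib Fermat.Agent.S28Lib Fermat.Agent.ESLib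
  Fermat.Agent.S34Lib Fermat.Agent.S28Lib.RelationAux

noncomputable section

/-- `x` is fixed by the inertia group of `A` -/
def IsFix (A : ValuationSubring Qb) (N : ℕ) (x : FB N) : Prop :=
  ∀ σ ∈ A.inertiaSubgroupIn ℚ, ESLib.gal N σ x = x

/-- `v(g) ≥ a` on the branch `(e, ϖ)` -/
def Ge (A : ValuationSubring Qb) {N : ℕ} (e : FB N →+* LaurentSeries Qb) (ϖ : FB N) (a : ℤ)
    (g : FB N) : Prop :=
  e (ϖ ^ (-a) * g) ∈ gRing A

open Classical in
/-- the reduction of `e (ϖ ^ (-a) g)` (junk value `0`) -/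
def rd (A : ValuationSubring Qb) {N : ℕ} (e : FB N →+* LaurentSeries Qb) (ϖ : FB N) (a : ℤ)
    (g : FB N) : LaurentSeries (kk A) :=
  if h : Ge A e ϖ a g then gRed A ⟨_, h⟩ else 0

theorem rd_of_ge {A : ValuationSubring Qb} {N : ℕ} {e : FB N →+* LaurentSeries Qb} {ϖ : FB N}
    {a : ℤ} {g : FB N} (h : Ge A e ϖ a g) : rd A e ϖ a g = gRed A ⟨_, h⟩ := dif_pos h

/-- the branch at `∞` -/
def eInf (N : ℕ) : FB N →+* LaurentSeries Qb := ((FB N).val : FB N →+* LaurentSeries Qb)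

theorem eInf_apply (N : ℕ) (x : FB N) : eInf N x = (x : LaurentSeries Qb) := rfl

/-- the branch at `0` -/
def eZero {N : ℕ} (w : FB N ≃ₐ[Qb] FB N) : FB N →+* LaurentSeries Qb :=
  (eInf N).comp (w : FB N →+* FB N)

theorem eZero_apply {N : ℕ} (w : FB N ≃ₐ[Qb] FB N) (x : FB N) :
    eZero w x = ((w x : FB N) : LaurentSeries Qb) := rfl

/-- the constant `q` -/
def qF (N q : ℕ) : FB N := algebraMap Qb (FB N) (q : Qb)

/-- `j(t^n)` as an element of `FB N` -/
def JF (N n : ℕ) [NeZero N] (h : n ∣ N) : FB N := ⟨Wq_J n, Wq_J_mem h⟩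

/-- the uniformizer `j_{q²} - j` of the middle branch -/
def piF (M q : ℕ) [NeZero (q ^ 2 * M)] : FB (q ^ 2 * M) :=
  JF (q ^ 2 * M) (q ^ 2) (dvd_mul_right _ _) - JF (q ^ 2 * M) 1 (one_dvd _)

/-- `φ = Δ(t^q) / Δ(t)` -/
def phiL (κ : Type*) [Field κ] (q : ℕ) : LaurentSeries κ := DLd κ q / DLd κ 1

end

end Fermat.Agent.S36Lib
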