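import Fermat.Agent.S36.Mod.ConjAbs
import Fermat.Agent.S36.Mod.Tau

/-!
# S36 (CJ): consequences of the complete family of conjugates
-/

set_option autoImplicit false
set_option synthInstance.maxHeartbeats 400000
set_option linter.unusedSectionVars false
set_option linter.style.haveILetI false

open AlgebraicCurve ModularCurve Polynomial
open scoped IntermediateField

namespace Fermat.Agent.S36Lib

open Fermat.Agent.S18Lib Fermat.Agent.S24Lib Fermat.Agent.S28Lib Fermat.Agent.ESLib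
  Fermat.Agent.S34Lib Fermat.Agent.FFLib

noncomputable section

/-- abstract form, along a ring hom -/
theorem CJ_abs {K F Ω ι : Type*} [Field K] [Field F] [Field Ω] [CharZero K] [Fintype ι]
    (φ : K →+* F) (V : K →+* Ω) (τ : ι → F →+* Ω) (hτ : ∀ i a, τ i (φ a) = V a)
    (hinj : Function.Injective τ)
    (hcard : Fintype.card ι = (letI := φ.toAlgebra; Module.finrank K F))
    (hpos : 0 < Fintype.card ι) (x : F) :
    (∀ S : Subring Ω, (∀ i, τ i x ∈ S) →
      ∃ P : K[X], P.Monic ∧ (∀ k, V (P.coeff k) ∈ S) ∧ P.eval₂ φ x = 0) ∧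
    ∃ T : K, V T = ∑ i, τ i x := by
  letI := φ.toAlgebra
  haveI : FiniteDimensional K F := Module.finite_of_finrank_pos (by rw [← hcard]; exact hpos)
  refine ⟨fun S hS => ⟨minpoly K x, minpoly.monic (Algebra.IsIntegral.isIntegral x),
    fun k => conj_coeff_mem V τ hτ hinj hcard x S hS k, ?_⟩,
    ⟨Algebra.trace K F x, conj_trace V τ hτ hinj hcard x⟩⟩
  have := minpoly.aeval K x
  rwa [Polynomial.aeval_def] at this

variable {M q : ℕ} [NeZero M] [NeZero q] [hqF : Fact q.Prime] (hqM : ¬ q ∣ M)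
variable {w : FB (q ^ 2 * M) ≃ₐ[Qb] FB (q ^ 2 * M)} {ζ : Qbˣ}
  {i : ℕ → FB (q ^ 2 * M) →ₐ[Qb] LaurentSeries Qb} {ζ₂ : Qbˣ}

include hqM in
theorem CJ_main (B : BrData M q w ζ i ζ₂) (x : FB (q ^ 2 * M)) :
    (∀ S : Subring (LaurentSeries Qb), (∀ t, tauFam M q w i ζ₂ t x ∈ S) →
      ∃ P : (FB M)[X], P.Monic ∧
        (∀ k, ((qExpand Qb (q ^ 2)).comp ((FB M).val : FB M →+* LaurentSeries Qb))
          (P.coeff k) ∈ S) ∧
        P.eval₂ (aHom (dvdM M q) : FB M →+* FB (q ^ 2 * M)) x = 0) ∧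
    ∃ T : FB M, ((qExpand Qb (q ^ 2)).comp ((FB M).val : FB M →+* LaurentSeries Qb)) T =
      ∑ t, tauFam M q w i ζ₂ t x :=
  CJ_abs (aHom (dvdM M q) : FB M →+* FB (q ^ 2 * M))
    ((qExpand Qb (q ^ 2)).comp ((FB M).val : FB M →+* LaurentSeries Qb))
    (tauFam M q w i ζ₂) (fun t a => tauFam_aHom B t a) (tauFam_injective B)
    (card_eq_finrank hqM) (Fintype.card_pos_iff.mpr ⟨Sum.inl ()⟩) x

include hqM in
theorem exists_poly_of_mem (B : BrData M q w ζ i ζ₂) (x : FB (q ^ 2 * M))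
    (S : Subring (LaurentSeries Qb)) (hS : ∀ t, tauFam M q w i ζ₂ t x ∈ S) :
    ∃ P : (FB M)[X], P.Monic ∧ (∀ k, qExpand Qb (q ^ 2) ((P.coeff k : FB M) : LaurentSeries Qb) ∈ S) ∧
      P.eval₂ (aHom (dvdM M q) : FB M →+* FB (q ^ 2 * M)) x = 0 :=
  (CJ_main hqM B x).1 S hS

include hqM in
theorem exists_trace (B : BrData M q w ζ i ζ₂) (x : FB (q ^ 2 * M)) :
    ∃ T : FB M, qExpand Qb (q ^ 2) (T : LaurentSeries Qb) = ∑ t, tauFam M q w i ζ₂ t x :=
  (CJ_main hqM B x).2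

end

end Fermat.Agent.S36Lib
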