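import Fermat.Agent.S36.Mod.ValDefs

/-!
# S36 (VAL), leaves (G1)(G2)(G3): stability of the Gauss ring under `qExpand`, `twist`, inertia
-/

set_option autoImplicit false
set_option synthInstance.maxHeartbeats 400000
set_option linter.unusedSectionVars false
set_option linter.unusedVariables false

open AlgebraicCurve ModularCurve

namespace Fermat.Agent.S36Lib

open Fermat.Agent.S18Lib Fermat.Agent.S24Lib Fermat.Agent.S28Lib Fermat.Agent.ESLib
  Fermat.Agent.S34Lib Fermat.Agent.S28Lib.RelationAux Fermat.Agent.FFLib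

noncomputable section

variable (A : ValuationSubring Qb)

/-- general principle: an operator defined over `A` preserves the Gauss ring -/
theorem G_mem (TQ : LaurentSeries Qb →+* LaurentSeries Qb) (TA : LaurentSeries A →+* LaurentSeries A)
    (Tk : LaurentSeries (kk A) →+* LaurentSeries (kk A))
    (hE : ∀ y, cE A (TA y) = TQ (cE A y)) (hR : ∀ y, cR A (TA y) = Tk (cR A y))
    {x : LaurentSeries Qb} (hx : x ∈ gRing A) : TQ x ∈ gRing A := by
  obtain ⟨a, s, hs, h⟩ := hx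
  refine ⟨TA a, TA s, ?_, ?_⟩
  · rw [hR]
    exact (map_ne_zero Tk).2 hs
  · rw [hE, hE, ← map_mul, h]

/-- general principle: and commutes with the reduction -/
theorem G_red (TQ : LaurentSeries Qb →+* LaurentSeries Qb) (TA : LaurentSeries A →+* LaurentSeries A)
    (Tk : LaurentSeries (kk A) →+* LaurentSeries (kk A))
    (hE : ∀ y, cE A (TA y) = TQ (cE A y)) (hR : ∀ y, cR A (TA y) = Tk (cR A y))
    {x : LaurentSeries Qb} (hx : x ∈ gRing A) (hx' : TQ x ∈ gRing A) :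
    gRed A ⟨TQ x, hx'⟩ = Tk (gRed A ⟨x, hx⟩) := by
  obtain ⟨a, s, hs, h⟩ := id hx
  have hs' : cR A (TA s) ≠ 0 := by
    rw [hR]
    exact (map_ne_zero Tk).2 hs
  have h' : TQ x * cE A (TA s) = cE A (TA a) := by rw [hE, hE, ← map_mul, h]
  rw [gRed_eq A ⟨TQ x, hx'⟩ hs' h', gRed_eq A ⟨x, hx⟩ hs h, hR, hR, map_div₀]

/-- (G1) -/
theorem qExpand_mem_gRing (d : ℕ) [NeZero d] {x : LaurentSeries Qb} (hx : x ∈ gRing A) :
    qExpand Qb d x ∈ gRing A :=
  G_mem A (qExpand Qb d) (qExpand A d) (qExpand (kk A) d)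
    (fun y => coeffMap_qExpand'' _ d y) (fun y => coeffMap_qExpand'' _ d y) hx

/-- (G1) -/
theorem gRed_qExpand (d : ℕ) [NeZero d] {x : LaurentSeries Qb} (hx : x ∈ gRing A) :
    gRed A ⟨qExpand Qb d x, qExpand_mem_gRing A d hx⟩ = qExpand (kk A) d (gRed A ⟨x, hx⟩) :=
  G_red A (qExpand Qb d) (qExpand A d) (qExpand (kk A) d)
    (fun y => coeffMap_qExpand'' _ d y) (fun y => coeffMap_qExpand'' _ d y) hx _

/-- a unit of `ℚ̄` which is a unit of `A` -/
def G_unit (z : Qbˣ) (hz : IsU A (z : Qb)) : Aˣ where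
  val := ⟨(z : Qb), hz.1⟩
  inv := ⟨(z : Qb)⁻¹, hz.2⟩
  val_inv := Subtype.ext (mul_inv_cancel₀ z.ne_zero)
  inv_val := Subtype.ext (inv_mul_cancel₀ z.ne_zero)

theorem G_unit_map (z : Qbˣ) (hz : IsU A (z : Qb)) :
    Units.map (A.subtype : A →* Qb) (G_unit A z hz) = z := Units.ext rfl

theorem G_twist_E (z : Qbˣ) (hz : IsU A (z : Qb)) (y : LaurentSeries A) :
    cE A (twistHom (G_unit A z hz) y) = twistHom z (cE A y) := by
  rw [twistHom_apply, twistHom_apply, cE, coeffMap_twist]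
  congr 1
  exact G_unit_map A z hz

theorem G_twist_R (z : Qbˣ) (hz : IsU A (z : Qb)) (y : LaurentSeries A) :
    cR A (twistHom (G_unit A z hz) y) =
      twistHom (Units.map (IsLocalRing.residue A : A →* kk A) (G_unit A z hz)) (cR A y) := by
  rw [twistHom_apply, twistHom_apply, cR, coeffMap_twist]

/-- (G2) -/
theorem twist_mem_gRing (z : Qbˣ) (hz : IsU A (z : Qb)) {x : LaurentSeries Qb}
    (hx : x ∈ gRing A) : twist z x ∈ gRing A :=
  G_mem A (twistHom z) (twistHom (G_unit A z hz)) _ (G_twist_E A z hz) (G_twist_R A z hz) hx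

/-- (G2), general form -/
theorem gRed_twist' (z : Qbˣ) (hz : IsU A (z : Qb)) {x : LaurentSeries Qb} (hx : x ∈ gRing A) :
    gRed A ⟨twist z x, twist_mem_gRing A z hz hx⟩ =
      twist (Units.map (IsLocalRing.residue A : A →* kk A) (G_unit A z hz)) (gRed A ⟨x, hx⟩) :=
  G_red A (twistHom z) (twistHom (G_unit A z hz)) _ (G_twist_E A z hz) (G_twist_R A z hz) hx _

/-- (G2) -/
theorem gRed_twist (z : Qbˣ) (hz : IsU A (z : Qb)) (hz1 : (z : Qb) - 1 ∈ A.nonunits)
    {x : LaurentSeries Qb} (hx : x ∈ gRing A) :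
    gRed A ⟨twist z x, twist_mem_gRing A z hz hx⟩ = gRed A ⟨x, hx⟩ := by
  have h1 : Units.map (IsLocalRing.residue A : A →* kk A) (G_unit A z hz) = 1 := by
    apply Units.ext
    show IsLocalRing.residue A ⟨(z : Qb), hz.1⟩ = 1
    rw [← map_one (IsLocalRing.residue A), ← sub_eq_zero, ← map_sub,
      IsLocalRing.residue_eq_zero_iff, A.valuation_lt_one_iff]
    rw [ValuationSubring.mem_nonunits_iff] at hz1
    exact hz1
  rw [gRed_twist' A z hz hx, h1, twist_one]

/-- the restriction of an element of the inertia group to `A` -/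
def G_sigma {σ : GQ} (hσ : σ ∈ A.inertiaSubgroupIn ℚ) : A →+* A :=
  ((σ : Qb →+* Qb).comp A.subtype).codRestrict A.toSubring (fun a => (inertia_mem hσ a.2).1)

theorem G_sigma_E {σ : GQ} (hσ : σ ∈ A.inertiaSubgroupIn ℚ) (y : LaurentSeries A) :
    cE A (coeffMap (G_sigma A hσ) y) = coeffMap (σ : Qb →+* Qb) (cE A y) := by
  rw [cE, coeffMap_coeffMap, coeffMap_coeffMap]
  rfl

theorem G_sigma_R {σ : GQ} (hσ : σ ∈ A.inertiaSubgroupIn ℚ) (y : LaurentSeries A) :
    cR A (coeffMap (G_sigma A hσ) y) = RingHom.id _ (cR A y) := by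
  rw [cR, coeffMap_coeffMap, RingHom.id_apply]
  apply coeffMap_congr
  ext a
  show IsLocalRing.residue A (G_sigma A hσ a) = IsLocalRing.residue A a
  rw [← sub_eq_zero, ← map_sub, IsLocalRing.residue_eq_zero_iff, A.valuation_lt_one_iff]
  have := (inertia_mem hσ a.2).2
  rw [ValuationSubring.mem_nonunits_iff] at this
  exact this

/-- (G3) -/
theorem coeffMap_mem_gRing {σ : GQ} (hσ : σ ∈ A.inertiaSubgroupIn ℚ) {x : LaurentSeries Qb}
    (hx : x ∈ gRing A) : coeffMap (σ : Qb →+* Qb) x ∈ gRing A :=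
  G_mem A (coeffMap (σ : Qb →+* Qb)) (coeffMap (G_sigma A hσ)) (RingHom.id _)
    (G_sigma_E A hσ) (G_sigma_R A hσ) hx

/-- (G3) -/
theorem gRed_coeffMap {σ : GQ} (hσ : σ ∈ A.inertiaSubgroupIn ℚ) {x : LaurentSeries Qb}
    (hx : x ∈ gRing A) :
    gRed A ⟨coeffMap (σ : Qb →+* Qb) x, coeffMap_mem_gRing A hσ hx⟩ = gRed A ⟨x, hx⟩ :=
  G_red A (coeffMap (σ : Qb →+* Qb)) (coeffMap (G_sigma A hσ)) (RingHom.id _)
    (G_sigma_E A hσ) (G_sigma_R A hσ) hx _

end

end Fermat.Agent.S36Lib
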