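import Fermat.Agent.S36.Mod.BrDefs
import Fermat.Agent.S36.Mod.Conj
import Fermat.Agent.S36.Mod.ValG
import Fermat.Agent.S36.Mod.ValGU
import Fermat.Agent.S36.Mod.ValFix
import Fermat.Agent.S36.Mod.ValApi
import Fermat.Agent.S36.Mod.ValV1
import Fermat.Agent.S36.K0d
import Fermat.Agent.S34.ModDefs
import Fermat.Agent.S34.Frob

/-!
# S36, modular side, (V2): the residue fields of the three branches are `FT A M` (trace trick)
-/

set_option autoImplicit false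
set_option synthInstance.maxHeartbeats 400000
set_option linter.unusedSectionVars false

open AlgebraicCurve ModularCurve Polynomial
open scoped IntermediateField

namespace Fermat.Agent.S36Lib

open Fermat.Agent.S18Lib Fermat.Agent.S24Lib Fermat.Agent.S28Lib Fermat.Agent.ESLib
  Fermat.Agent.S34Lib Fermat.Agent.FFLib

noncomputable section

variable {M q : ℕ} [NeZero M] [NeZero q] [hqF : Fact q.Prime] (hqM : ¬ q ∣ M)
variable {w : FB (q ^ 2 * M) ≃ₐ[Qb] FB (q ^ 2 * M)} {ζ : Qbˣ}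
  {i : ℕ → FB (q ^ 2 * M) →ₐ[Qb] LaurentSeries Qb} {ζ₂ : Qbˣ}
variable (A : ValuationSubring Qb) (hA : A.LiesOverPrime q)

/-! ### general lemmas -/

theorem V2_of_eq {A : ValuationSubring Qb} {y : LaurentSeries Qb} (Y : gRing A)
    (h : y = (Y : LaurentSeries Qb)) : ∃ hy : y ∈ gRing A, gRed A ⟨y, hy⟩ = gRed A Y := by
  subst h
  exact ⟨Y.2, rfl⟩

theorem V2_transfer {A : ValuationSubring Qb} {y y' : LaurentSeries Qb}
    {b : LaurentSeries (kk A)} (h : y = y') (H : ∃ h : y' ∈ gRing A, gRed A ⟨y', h⟩ = b) :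
    ∃ h : y ∈ gRing A, gRed A ⟨y, h⟩ = b := by
  subst h
  exact H

include hqM hA in
/-- `V c` integral ⟹ `c` integral, for `c ∈ FB M` -/
theorem V2_mem_of_qExpand (d : ℕ) [NeZero d] (c : FB M)
    (h : qExpand Qb d (c : LaurentSeries Qb) ∈ gRing A) : (c : LaurentSeries Qb) ∈ gRing A := by
  by_contra hc
  have hc' : c ∉ OC M hqM A hA := hc
  have hinv : c⁻¹ ∈ OC M hqM A hA := ((OC M hqM A hA).mem_or_inv_mem c).resolve_left hc'
  have hc0 : c ≠ 0 := by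
    rintro rfl
    exact hc' (zero_mem _)
  have hred : redC M hqM A hA ⟨c⁻¹, hinv⟩ = 0 := by
    by_contra hne
    obtain ⟨u, hu⟩ := isUnit_of_redC_ne_zero M hqM A hA _ hne
    apply hc'
    have h1 : ((u⁻¹ : (OC M hqM A hA)ˣ) : OC M hqM A hA) * ⟨c⁻¹, hinv⟩ = 1 := by
      rw [← hu]; simp
    have h2 : (((u⁻¹ : (OC M hqM A hA)ˣ) : OC M hqM A hA) : FB M) * c⁻¹ = 1 :=
      congrArg Subtype.val h1
    have h3 : (((u⁻¹ : (OC M hqM A hA)ˣ) : OC M hqM A hA) : FB M) = c :=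
      eq_of_mul_inv_eq_one h2
    rw [← h3]
    exact Subtype.mem _
  have hg : ((c⁻¹ : FB M) : LaurentSeries Qb) ∈ gRing A := hinv
  have hg0 : gRed A ⟨_, hg⟩ = 0 := congrArg Subtype.val hred
  have h4 := gRed_qExpand A d hg
  rw [hg0, map_zero] at h4
  have h5 : qExpand Qb d (c : LaurentSeries Qb) * qExpand Qb d ((c⁻¹ : FB M) : LaurentSeries Qb)
      = 1 := by
    rw [← map_mul]
    have : (c : LaurentSeries Qb) * ((c⁻¹ : FB M) : LaurentSeries Qb) = 1 :=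
      congrArg Subtype.val (mul_inv_cancel₀ hc0)
    rw [this, map_one]
  have h6 : (⟨_, h⟩ : gRing A) * ⟨_, qExpand_mem_gRing A d hg⟩ = 1 := Subtype.ext h5
  have h7 := congrArg (gRed A) h6
  rw [map_mul, h4, mul_zero, map_one] at h7
  exact zero_ne_one h7

include hqM hA in
/-- the trace trick -/
theorem V2_core (B : BrData M q w ζ i ζ₂) (y : FB (q ^ 2 * M))
    (c : Unit ⊕ (Fin (q - 1) ⊕ Fin (q ^ 2)) → LaurentSeries (kk A))
    (hall : ∀ t, ∃ h : tauFam M q w i ζ₂ t y ∈ gRing A, gRed A ⟨_, h⟩ = c t)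
    (u : LaurentSeries (kk A)) (hu : ∑ t, c t = qExpand (kk A) (q ^ 2) u) : u ∈ FT A M := by
  obtain ⟨T, hT⟩ := exists_trace hqM B y
  choose hmem hred using hall
  have h1 : qExpand Qb (q ^ 2) (T : LaurentSeries Qb) =
      ((∑ t, (⟨_, hmem t⟩ : gRing A) : gRing A) : LaurentSeries Qb) := by
    rw [hT, AddSubmonoidClass.coe_finsetSum]
  obtain ⟨hVT, hVTr⟩ := V2_of_eq _ h1
  have hTg := V2_mem_of_qExpand hqM A hA (q ^ 2) T hVT
  have h2 := gRed_qExpand A (q ^ 2) hTg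
  have h3 : qExpand (kk A) (q ^ 2) (gRed A ⟨_, hTg⟩) = qExpand (kk A) (q ^ 2) u := by
    rw [← h2, hVTr, map_sum, ← hu]
    exact Finset.sum_congr rfl fun t _ => hred t
  rw [← qExpand_injective (q ^ 2) h3]
  exact rr_gRed_mem_FT M hqM A hA ⟨_, hTg⟩ T.2

/-- smallness on a branch -/
theorem V2_small {A : ValuationSubring Qb} {N : ℕ} {e : FB N →+* LaurentSeries Qb} {ϖ : FB N}
    (hB : IsBranch A e ϖ) {x E : FB N} (hx : IsFix A N x) (hE : IsFix A N E)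
    (hE0 : ∃ h : e E ∈ gRing A, gRed A ⟨e E, h⟩ = 0) :
    ∃ r₀ : ℕ, ∀ r, r₀ ≤ r → ∃ h : e (x * E ^ r) ∈ gRing A, gRed A ⟨_, h⟩ = 0 := by
  obtain ⟨hEm, hE0⟩ := hE0
  by_cases hx0 : x = 0
  · refine ⟨0, fun r _ => ?_⟩
    obtain ⟨h1, h2⟩ := V2_of_eq (A := A) (y := e (x * E ^ r)) 0 (by rw [hx0, zero_mul, map_zero]; rfl)
    exact ⟨h1, by rw [h2, map_zero]⟩
  have hz : ∀ g : FB N, e (ϖ ^ (-(0 : ℤ)) * g) = e g := by
    intro g
    rw [neg_zero, zpow_zero, one_mul]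
  have hv := (hB.vB_spec hx0 hx).1
  have hG0 : Ge A e ϖ 0 E := API_ge_of_eq hEm (hz E)
  have hr0 : rd A e ϖ 0 E = 0 := by rw [API_rd_eq hEm (hz E), hE0]
  have hG1 : Ge A e ϖ (0 + 1) E := (hB.rd_eq_zero_iff hE hG0).1 hr0
  refine ⟨(1 - vB A e ϖ x).toNat, fun r hr => ?_⟩
  have h1 := Ge.mul hB.ne hv (Ge.pow hB.ne hG1 r)
  have h2 : (1 : ℤ) ≤ vB A e ϖ x + r * (0 + 1) := by
    have := Int.self_le_toNat (1 - vB A e ϖ x)
    have h3 : ((1 - vB A e ϖ x).toNat : ℤ) ≤ r := by exact_mod_cast hr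
    omega
  have h3 := hB.ge_mono h2 h1
  have h4 : Ge A e ϖ 0 (x * E ^ r) := hB.ge_mono zero_le_one h3
  have h5 := hB.rd_eq_zero_of_lt zero_lt_one h3
  have h6 : e (x * E ^ r) ∈ gRing A := by
    have := h4
    unfold Ge at this
    rwa [hz] at this
  refine ⟨h6, ?_⟩
  rw [← API_rd_eq h6 (hz _), h5]

/-! ### reductions of `j(t^d)` -/

theorem V2_J (d : ℕ) [NeZero d] :
    ∃ h : Wq_J d ∈ gRing A, gRed A ⟨_, h⟩ = qExpand (kk A) d (jqModC (kk A)) := by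
  obtain ⟨h2, h3⟩ := V2_of_eq
    (⟨cE A _, cE_mem_gRing A (qExpand A d (jqModC A))⟩ : gRing A) (Wq_J_eq_cE A d)
  refine ⟨h2, ?_⟩
  rw [h3, gRed_cE, cR_def, coeffMap_qExpand, coeffMap_jqModC]

include hA in
theorem V2_Jq : qExpand (kk A) q (jqModC (kk A)) = jqModC (kk A) ^ q := by
  have : CharP (kk A) q := charP_kk hqF.out hA
  exact qExpand_jqModC_eq_pow q (kk A)

include hA in
theorem V2_Jqq : qExpand (kk A) (q ^ 2) (jqModC (kk A)) = jqModC (kk A) ^ (q ^ 2) := by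
  rw [qExpand_congr (sq q), ← qExpand_qExpand, V2_Jq A hA, map_pow, V2_Jq A hA, ← pow_mul, ← sq]

theorem V2_pow_ne {a b : ℕ} (hab : a ≠ b) : jqModC (kk A) ^ a ≠ jqModC (kk A) ^ b := by
  intro h
  have h1 := congrArg HahnSeries.order h
  rw [HahnSeries.order_pow, HahnSeries.order_pow, Fermat.Agent.S28Lib.order_jqModC] at h1
  apply hab
  simpa using h1

/-- the reductions of `j`, `j_q`, `j_{q²}` on a branch -/
structure V2Tri (M q : ℕ) [NeZero M] [NeZero q] (A : ValuationSubring Qb)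
    (e : FB (q ^ 2 * M) →+* LaurentSeries Qb) (b₁ b₂ b₃ : LaurentSeries (kk A)) : Prop where
  h1 : ∃ h : e (JF (q ^ 2 * M) 1 (one_dvd _)) ∈ gRing A, gRed A ⟨_, h⟩ = b₁
  h2 : ∃ h : e (JF (q ^ 2 * M) q (Dvd.intro_left (q * M) (by ring))) ∈ gRing A,
    gRed A ⟨_, h⟩ = b₂
  h3 : ∃ h : e (JF (q ^ 2 * M) (q ^ 2) (dvd_mul_right _ _)) ∈ gRing A, gRed A ⟨_, h⟩ = b₃

/-- the auxiliary function for the branch `∞` -/
def V2EInf (M q : ℕ) [NeZero M] [NeZero q] : FB (q ^ 2 * M) :=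
  (JF (q ^ 2 * M) (q ^ 2) (dvd_mul_right _ _) - JF (q ^ 2 * M) 1 (one_dvd _)) *
    (JF (q ^ 2 * M) q (Dvd.intro_left (q * M) (by ring)) -
      JF (q ^ 2 * M) (q ^ 2) (dvd_mul_right _ _) ^ q)

/-- the auxiliary function for the middle branches -/
def V2EMid (M q : ℕ) [NeZero M] [NeZero q] : FB (q ^ 2 * M) :=
  (JF (q ^ 2 * M) (q ^ 2) (dvd_mul_right _ _) -
      JF (q ^ 2 * M) q (Dvd.intro_left (q * M) (by ring)) ^ q) *
    (JF (q ^ 2 * M) 1 (one_dvd _) - JF (q ^ 2 * M) q (Dvd.intro_left (q * M) (by ring)) ^ q)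

theorem V2_isFix_EInf : IsFix A (q ^ 2 * M) (V2EInf M q) :=
  ((isFix_JF _ _ _).sub (isFix_JF _ _ _)).mul ((isFix_JF _ _ _).sub ((isFix_JF _ _ _).pow q))

theorem V2_isFix_EMid : IsFix A (q ^ 2 * M) (V2EMid M q) :=
  ((isFix_JF _ _ _).sub ((isFix_JF _ _ _).pow q)).mul
    ((isFix_JF _ _ _).sub ((isFix_JF _ _ _).pow q))

variable {A}

theorem V2Tri.eInf {e : FB (q ^ 2 * M) →+* LaurentSeries Qb} {b₁ b₂ b₃ : LaurentSeries (kk A)}
    (h : V2Tri M q A e b₁ b₂ b₃) :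
    ∃ hm : e (V2EInf M q) ∈ gRing A, gRed A ⟨_, hm⟩ = (b₃ - b₁) * (b₂ - b₃ ^ q) := by
  obtain ⟨m1, r1⟩ := h.h1
  obtain ⟨m2, r2⟩ := h.h2
  obtain ⟨m3, r3⟩ := h.h3
  obtain ⟨k1, k2⟩ := V2_of_eq (A := A) (y := e (V2EInf M q))
    (((⟨_, m3⟩ : gRing A) - ⟨_, m1⟩) * (⟨_, m2⟩ - (⟨_, m3⟩ : gRing A) ^ q)) (by
      rw [V2EInf, map_mul, map_sub, map_sub, map_pow]
      rfl)
  refine ⟨k1, ?_⟩
  rw [k2, map_mul, map_sub, map_sub, map_pow, r1, r2, r3]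

theorem V2Tri.eMid {e : FB (q ^ 2 * M) →+* LaurentSeries Qb} {b₁ b₂ b₃ : LaurentSeries (kk A)}
    (h : V2Tri M q A e b₁ b₂ b₃) :
    ∃ hm : e (V2EMid M q) ∈ gRing A, gRed A ⟨_, hm⟩ = (b₃ - b₂ ^ q) * (b₁ - b₂ ^ q) := by
  obtain ⟨m1, r1⟩ := h.h1
  obtain ⟨m2, r2⟩ := h.h2
  obtain ⟨m3, r3⟩ := h.h3
  obtain ⟨k1, k2⟩ := V2_of_eq (A := A) (y := e (V2EMid M q))
    (((⟨_, m3⟩ : gRing A) - (⟨_, m2⟩ : gRing A) ^ q) * (⟨_, m1⟩ - (⟨_, m2⟩ : gRing A) ^ q)) (by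
      rw [V2EMid, map_mul, map_sub, map_sub, map_pow]
      rfl)
  refine ⟨k1, ?_⟩
  rw [k2, map_mul, map_sub, map_sub, map_pow, r1, r2, r3]

variable (A)

include hA in
theorem V2_J1 : ∃ h : Wq_J 1 ∈ gRing A, gRed A ⟨_, h⟩ = jqModC (kk A) := by
  obtain ⟨h, hr⟩ := V2_J A 1
  exact ⟨h, by rw [hr, qExpand_one_apply]⟩

include hA in
theorem V2_Jq' : ∃ h : Wq_J q ∈ gRing A, gRed A ⟨_, h⟩ = jqModC (kk A) ^ q := by
  obtain ⟨h, hr⟩ := V2_J A q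
  exact ⟨h, by rw [hr, V2_Jq A hA]⟩

include hA in
theorem V2_Jqq' : ∃ h : Wq_J (q ^ 2) ∈ gRing A, gRed A ⟨_, h⟩ = jqModC (kk A) ^ (q ^ 2) := by
  obtain ⟨h, hr⟩ := V2_J A (q ^ 2)
  exact ⟨h, by rw [hr, V2_Jqq A hA]⟩

include hA in
theorem V2_tri_inf : V2Tri M q A (eInf (q ^ 2 * M)) (jqModC (kk A)) (jqModC (kk A) ^ q)
    (jqModC (kk A) ^ (q ^ 2)) where
  h1 := V2_transfer rfl (V2_J1 A hA)
  h2 := V2_transfer rfl (V2_Jq' A hA)
  h3 := V2_transfer rfl (V2_Jqq' A hA)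

theorem V2_JF_eq {N : ℕ} [NeZero N] {d : ℕ} (h : d ∣ N) (n : ℕ) (hn : n = d)
    (h' : Wq_J n ∈ FB N) : JF N d h = ⟨Wq_J n, h'⟩ := by
  subst hn
  rfl

theorem V2_al_JF {N Q M' : ℕ} [NeZero N] {w : FB N ≃ₐ[Qb] FB N} (hw : IsAL N Q M' w) (d : ℕ)
    (hd : d ∣ Q) (h : d ∣ N) : eZero w (JF N d h) = Wq_J (Q / d) := by
  rw [eZero_apply, V2_JF_eq h (d * 1) (mul_one d) (by rw [mul_one]; exact Wq_J_mem h),
    hw.gen d 1 hd (one_dvd _), mul_one]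

include hA in
theorem V2_tri_zero (hw : IsAL (q ^ 2 * M) (q ^ 2) M w) :
    V2Tri M q A (eZero w) (jqModC (kk A) ^ (q ^ 2)) (jqModC (kk A) ^ q) (jqModC (kk A)) where
  h1 := by
    refine V2_transfer ?_ (V2_Jqq' A hA)
    rw [V2_al_JF hw 1 (one_dvd _), Nat.div_one]
  h2 := by
    refine V2_transfer ?_ (V2_Jq' A hA)
    have h2 : q ^ 2 / q = q := by
      rw [sq, Nat.mul_div_cancel _ hqF.out.pos]
    rw [V2_al_JF hw q (Dvd.intro_left q (by ring)), h2]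
  h3 := by
    refine V2_transfer ?_ (V2_J1 A hA)
    rw [V2_al_JF hw (q ^ 2) dvd_rfl, Nat.div_self (pow_pos hqF.out.pos 2)]

include hA in
theorem V2_tri_mid {z : Qbˣ} (hz : IsPrimitiveRoot z q)
    {j : FB (q ^ 2 * M) →ₐ[Qb] LaurentSeries Qb} (hj : IsIMid M q z j) :
    V2Tri M q A (j : FB (q ^ 2 * M) →+* LaurentSeries Qb) (jqModC (kk A)) (jqModC (kk A) ^ q)
      (jqModC (kk A)) where
  h1 := V2_transfer (hj.low 1 (one_dvd _) _) (V2_J1 A hA)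
  h2 := V2_transfer (hj.low q (dvd_mul_right _ _) _) (V2_Jq' A hA)
  h3 := by
    have hzQ : IsPrimitiveRoot (z : Qb) q := hz.map_of_injective (Units.coeHom_injective)
    have hU : IsU A (z : Qb) := by
      refine ⟨K0d_zeta_mem A hqF.out hzQ, ?_⟩
      have h1 : ((z : Qb))⁻¹ = (z : Qb) ^ (q - 1) := by
        apply inv_eq_of_mul_eq_one_left
        rw [← pow_succ, Nat.sub_add_cancel hqF.out.pos, hzQ.pow_eq_one]
      rw [h1]
      exact pow_mem (K0d_zeta_mem A hqF.out hzQ) _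
    obtain ⟨h, hr⟩ := V2_J1 A hA
    refine V2_transfer (y' := twist z (Wq_J 1)) ?_ ⟨twist_mem_gRing A z hU h, ?_⟩
    · show j _ = _
      rw [V2_JF_eq _ (q ^ 2 * 1) (mul_one _)
        (by rw [mul_one]; exact Wq_J_mem (dvd_mul_right _ _)), hj.top 1 (one_dvd _)]
    · rw [gRed_twist A z hU (K0d_zeta_sub_one_mem A hqF.out hA hzQ) h, hr]

theorem V2_isU_of_pow_eq_one (z : Qbˣ) {n : ℕ} (hn : 0 < n) (h : z ^ n = 1) :
    IsU A (z : Qb) := by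
  have hz : (z : Qb) ^ n = 1 := by
    rw [← Units.val_pow_eq_pow_val, h, Units.val_one]
  have hint : IsIntegral ℤ (z : Qb) := IsIntegral.of_pow hn (by rw [hz]; exact isIntegral_one)
  have hmem : (z : Qb) ∈ A := Fermat.Agent.FrobLib.integral_mem_valuationSubring A hint
  refine ⟨hmem, ?_⟩
  have h1 : ((z : Qb))⁻¹ = (z : Qb) ^ (n - 1) := by
    apply inv_eq_of_mul_eq_one_left
    rw [← pow_succ, Nat.sub_add_cancel hn, hz]
  rw [h1]
  exact pow_mem hmem _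

theorem V2_not_dvd (a : Fin (q - 1)) : ¬ q ∣ (a : ℕ) + 1 :=
  Nat.not_dvd_of_pos_of_lt (Nat.succ_pos _) (by have := a.2; omega)

theorem V2_prim (B : BrData M q w ζ i ζ₂) {a : ℕ} (ha : ¬ q ∣ a) : IsPrimitiveRoot (ζ ^ a) q :=
  B.prim.pow_of_coprime _ ((Nat.Prime.coprime_iff_not_dvd hqF.out).mpr ha).symm

theorem V2_jq_mem : jqModC (kk A) ∈ FT A M := (jT A M).2

include hqM hA in
theorem gRed_mem_FT_inf (B : BrData M q w ζ i ζ₂) (x : FB (q ^ 2 * M))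
    (hfix : IsFix A (q ^ 2 * M) x) (hx : (x : LaurentSeries Qb) ∈ gRing A) :
    gRed A ⟨_, hx⟩ ∈ FT A M := by
  have hq := hqF.out
  have hEfix := V2_isFix_EInf (M := M) (q := q) A
  obtain ⟨mInf, rInf⟩ := (V2_tri_inf (M := M) A hA).eInf
  obtain ⟨r₀, hr₀⟩ := V2_small (isBranch_zero A hq hA rfl B.al) hfix hEfix (by
    obtain ⟨m, r⟩ := (V2_tri_zero A hA B.al).eInf
    exact ⟨m, by rw [r, sub_self (jqModC (kk A) ^ q), mul_zero]⟩)
  have hmid : ∀ a : Fin (q - 1), ∃ r₁ : ℕ, ∀ r, r₁ ≤ r →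
      ∃ h : (i ((a : ℕ) + 1) : FB (q ^ 2 * M) →+* LaurentSeries Qb) (x * V2EInf M q ^ r) ∈ gRing A,
        gRed A ⟨_, h⟩ = 0 := by
    intro a
    have ha := V2_not_dvd a
    obtain ⟨m, r⟩ := (V2_tri_mid A hA (V2_prim B ha) (B.mid _ ha)).eInf
    exact V2_small (isBranch_mid A hq hA M _ (V2_prim B ha) (B.mid _ ha)) hfix hEfix
      ⟨m, by rw [r, sub_self, zero_mul]⟩
  choose r₁ hr₁ using hmid
  set r : ℕ := max r₀ (Finset.univ.sup r₁) with hr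
  set Eb : LaurentSeries (kk A) := (jqModC (kk A) ^ (q ^ 2) - jqModC (kk A)) *
    (jqModC (kk A) ^ q - (jqModC (kk A) ^ (q ^ 2)) ^ q) with hEb
  obtain ⟨my, ry⟩ := V2_of_eq (A := A) (y := eInf (q ^ 2 * M) (x * V2EInf M q ^ r))
    ((⟨_, hx⟩ : gRing A) * (⟨_, mInf⟩ : gRing A) ^ r) (by
      rw [map_mul, map_pow]
      rfl)
  replace ry : gRed A ⟨_, my⟩ = gRed A ⟨_, hx⟩ * Eb ^ r := by
    rw [ry, map_mul, map_pow, rInf]
  have hu : gRed A ⟨_, hx⟩ * Eb ^ r ∈ FT A M := by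
    refine V2_core hqM A hA B (x * V2EInf M q ^ r)
      (Sum.elim (fun _ => qExpand (kk A) (q ^ 2) (gRed A ⟨_, hx⟩ * Eb ^ r)) (fun _ => 0)) ?_ _ ?_
    · rintro (_ | a | k)
      · exact ⟨qExpand_mem_gRing A (q ^ 2) my, (gRed_qExpand A (q ^ 2) my).trans (by rw [ry]; rfl)⟩
      · obtain ⟨h, h0⟩ := hr₁ a r (le_trans (Finset.le_sup (Finset.mem_univ a)) (le_max_right _ _))
        exact ⟨qExpand_mem_gRing A (q ^ 2) h, (gRed_qExpand A (q ^ 2) h).trans (by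
          rw [h0, map_zero]; rfl)⟩
      · obtain ⟨h, h0⟩ := hr₀ r (le_max_left _ _)
        have hU : IsU A ((ζ₂ ^ (k : ℕ) : Qbˣ) : Qb) :=
          V2_isU_of_pow_eq_one A _ (pow_pos hq.pos 2) (by
            rw [← pow_mul, mul_comm, pow_mul, B.prim₂.pow_eq_one, one_pow])
        exact ⟨twist_mem_gRing A _ hU h, (gRed_twist' A _ hU h).trans (by
          rw [h0, ← twistHom_apply, map_zero]; rfl)⟩
    · rw [Fintype.sum_sum_type]
      simp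
  have hj := V2_jq_mem (M := M) A
  have hEm : Eb ∈ FT A M :=
    mul_mem (sub_mem (pow_mem hj _) hj) (sub_mem (pow_mem hj _) (pow_mem (pow_mem hj _) _))
  have hq2 : 2 ≤ q := hq.two_le
  have hE0 : Eb ≠ 0 := by
    refine mul_ne_zero (sub_ne_zero.2 ?_) (sub_ne_zero.2 ?_)
    · have := V2_pow_ne A (a := q ^ 2) (b := 1) (by nlinarith)
      rwa [pow_one] at this
    · rw [← pow_mul]
      exact V2_pow_ne A (by nlinarith [pow_pos hq.pos 2])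
  have h1 : gRed A ⟨_, hx⟩ = gRed A ⟨_, hx⟩ * Eb ^ r / Eb ^ r :=
    (mul_div_cancel_right₀ _ (pow_ne_zero r hE0)).symm
  rw [h1]
  exact div_mem hu (pow_mem hEm r)

include hA in
/-- the middle branches are conjugate under inertia -/
theorem V2_gal (B : BrData M q w ζ i ζ₂) {y : FB (q ^ 2 * M)} (hfix : IsFix A (q ^ 2 * M) y)
    {a a' : ℕ} (ha : ¬ q ∣ a) (ha' : ¬ q ∣ a') {b : LaurentSeries (kk A)}
    (H : ∃ h : i a y ∈ gRing A, gRed A ⟨_, h⟩ = b) :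
    ∃ h : i a' y ∈ gRing A, gRed A ⟨_, h⟩ = b := by
  have hq := hqF.out
  have hpa := V2_prim B ha
  have hpa' := V2_prim B ha'
  have hQ : IsPrimitiveRoot ((ζ ^ a : Qbˣ) : Qb) q :=
    hpa.map_of_injective Units.coeHom_injective
  have hQ' : IsPrimitiveRoot ((ζ ^ a' : Qbˣ) : Qb) q :=
    hpa'.map_of_injective Units.coeHom_injective
  obtain ⟨k, hk, hke⟩ := hQ.eq_pow_of_pow_eq_one hQ'.pow_eq_one
  have hkq : ¬ q ∣ k := by
    rintro ⟨c, rfl⟩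
    rw [pow_mul, hQ.pow_eq_one, one_pow] at hke
    exact hQ'.ne_one hq.one_lt hke.symm
  obtain ⟨σ, hσ, hσz⟩ := exists_inertia_zeta A hq hA hQ k hkq
  have hz : Units.map ((σ : Qb →+* Qb) : Qb →* Qb) (ζ ^ a) = ζ ^ a' := by
    apply Units.ext
    rw [← hke]
    exact hσz
  have hg := IsIMid.gal hq σ (B.mid a ha) (i' := i a') (by rw [hz]; exact B.mid a' ha') y
  rw [hfix σ hσ] at hg
  obtain ⟨h, hr⟩ := H
  exact V2_transfer hg.symm ⟨coeffMap_mem_gRing A hσ h, by rw [gRed_coeffMap A hσ h, hr]⟩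

include hqM hA in
theorem gRed_mem_FT_mid (B : BrData M q w ζ i ζ₂) (x : FB (q ^ 2 * M))
    (hfix : IsFix A (q ^ 2 * M) x) (a : ℕ) (ha : ¬ q ∣ a) (hx : i a x ∈ gRing A) :
    gRed A ⟨_, hx⟩ ∈ FT A M := by
  have hq := hqF.out
  have hEfix := V2_isFix_EMid (M := M) (q := q) A
  obtain ⟨mMid, rMid⟩ := (V2_tri_mid A hA (V2_prim B ha) (B.mid _ ha)).eMid
  obtain ⟨r₀, hr₀⟩ := V2_small (isBranch_zero A hq hA rfl B.al) hfix hEfix (by
    obtain ⟨m, r⟩ := (V2_tri_zero A hA B.al).eMid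
    exact ⟨m, by rw [r, ← pow_mul, ← sq, sub_self (jqModC (kk A) ^ (q ^ 2)), mul_zero]⟩)
  obtain ⟨r₁, hr₁⟩ := V2_small (isBranch_inf A hq hA (q ^ 2 * M)) hfix hEfix (by
    obtain ⟨m, r⟩ := (V2_tri_inf (M := M) A hA).eMid
    exact ⟨m, by rw [r, ← pow_mul, ← sq, sub_self (jqModC (kk A) ^ (q ^ 2)), zero_mul]⟩)
  set r : ℕ := max r₀ r₁ with hr
  set Eb : LaurentSeries (kk A) := (jqModC (kk A) - (jqModC (kk A) ^ q) ^ q) *
    (jqModC (kk A) - (jqModC (kk A) ^ q) ^ q) with hEb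
  obtain ⟨my, ry⟩ := V2_of_eq (A := A) (y := i a (x * V2EMid M q ^ r))
    ((⟨_, hx⟩ : gRing A) * (⟨_, mMid⟩ : gRing A) ^ r) (by
      rw [map_mul, map_pow]
      rfl)
  replace ry : gRed A ⟨_, my⟩ = gRed A ⟨_, hx⟩ * Eb ^ r := by
    rw [ry, map_mul, map_pow, rMid]
  have hyfix : IsFix A (q ^ 2 * M) (x * V2EMid M q ^ r) := hfix.mul (hEfix.pow r)
  have hu : ((q - 1 : ℕ) : LaurentSeries (kk A)) * (gRed A ⟨_, hx⟩ * Eb ^ r) ∈ FT A M := by
    refine V2_core hqM A hA B (x * V2EMid M q ^ r)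
      (Sum.elim (fun _ => 0) (Sum.elim
        (fun _ => qExpand (kk A) (q ^ 2) (gRed A ⟨_, hx⟩ * Eb ^ r)) (fun _ => 0))) ?_ _ ?_
    · rintro (_ | a' | k)
      · obtain ⟨h, h0⟩ := hr₁ r (le_max_right _ _)
        exact ⟨qExpand_mem_gRing A (q ^ 2) h, (gRed_qExpand A (q ^ 2) h).trans (by
          rw [h0, map_zero]; rfl)⟩
      · obtain ⟨h, h0⟩ := V2_gal A hA B hyfix ha (V2_not_dvd a') ⟨my, ry⟩
        exact ⟨qExpand_mem_gRing A (q ^ 2) h, (gRed_qExpand A (q ^ 2) h).trans (by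
          rw [h0]; rfl)⟩
      · obtain ⟨h, h0⟩ := hr₀ r (le_max_left _ _)
        have hU : IsU A ((ζ₂ ^ (k : ℕ) : Qbˣ) : Qb) :=
          V2_isU_of_pow_eq_one A _ (pow_pos hq.pos 2) (by
            rw [← pow_mul, mul_comm, pow_mul, B.prim₂.pow_eq_one, one_pow])
        exact ⟨twist_mem_gRing A _ hU h, (gRed_twist' A _ hU h).trans (by
          rw [h0, ← twistHom_apply, map_zero]; rfl)⟩
    · have h9 : ∀ u₀ : LaurentSeries (kk A),
          qExpand (kk A) (q ^ 2) (((q - 1 : ℕ) : LaurentSeries (kk A)) * u₀) =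
            ((q - 1 : ℕ) : LaurentSeries (kk A)) * qExpand (kk A) (q ^ 2) u₀ := by
        intro u₀
        rw [map_mul, map_natCast]
      rw [h9, Fintype.sum_sum_type, Fintype.sum_sum_type]
      simp
  have hj := V2_jq_mem (M := M) A
  have hEm : Eb ∈ FT A M :=
    mul_mem (sub_mem hj (pow_mem (pow_mem hj _) _)) (sub_mem hj (pow_mem (pow_mem hj _) _))
  have hq2 : 2 ≤ q := hq.two_le
  have hE1 : jqModC (kk A) - (jqModC (kk A) ^ q) ^ q ≠ 0 := by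
    refine sub_ne_zero.2 ?_
    rw [← pow_mul]
    have := V2_pow_ne A (a := 1) (b := q * q) (by nlinarith)
    rwa [pow_one] at this
  have hE0 : Eb ≠ 0 := mul_ne_zero hE1 hE1
  have hn0 : ((q - 1 : ℕ) : LaurentSeries (kk A)) ≠ 0 := by
    have : CharP (kk A) q := charP_kk hq hA
    rw [← map_natCast (HahnSeries.C : kk A →+* LaurentSeries (kk A))]
    intro h0
    have h1 : ((q - 1 : ℕ) : kk A) = 0 := by
      apply (HahnSeries.C : kk A →+* LaurentSeries (kk A)).injective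
      rw [h0, map_zero]
    rw [CharP.cast_eq_zero_iff (kk A) q] at h1
    exact Nat.not_dvd_of_pos_of_lt (by omega) (by omega) h1
  have h1 : gRed A ⟨_, hx⟩ = ((q - 1 : ℕ) : LaurentSeries (kk A)) * (gRed A ⟨_, hx⟩ * Eb ^ r) /
      (((q - 1 : ℕ) : LaurentSeries (kk A)) * Eb ^ r) := by
    field_simp
  rw [h1]
  exact div_mem hu (mul_mem (natCast_mem _ _) (pow_mem hEm r))

include hqM hA in
theorem gRed_mem_FT_zero (B : BrData M q w ζ i ζ₂) (x : FB (q ^ 2 * M))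
    (hfix : IsFix A (q ^ 2 * M) x)
    (hx : ((w x : FB (q ^ 2 * M)) : LaurentSeries Qb) ∈ gRing A) :
    gRed A ⟨_, hx⟩ ∈ FT A M :=
  gRed_mem_FT_inf hqM A hA B (w x) (hfix.al B.al) hx

end

end Fermat.Agent.S36Lib
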