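import Fermat.Agent.S36.Mod.ValDefs
import Fermat.Agent.S36.Mod.ValFix
import Fermat.Agent.S36.K0c
import Fermat.Agent.S18.RedDataC

/-!
# S36 (VAL), leaf (V3): lifting the residue field inside `F0`
-/

set_option autoImplicit false
set_option synthInstance.maxHeartbeats 400000
set_option linter.unusedSectionVars false
set_option linter.unusedVariables false

open AlgebraicCurve ModularCurve

namespace Fermat.Agent.S36Lib

open Fermat.Agent.S18Lib Fermat.Agent.S24Lib Fermat.Agent.S28Lib Fermat.Agent.ESLib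
  Fermat.Agent.S34Lib Fermat.Agent.S28Lib.RelationAux Fermat.Agent.FFLib

noncomputable section

variable (A : ValuationSubring Qb)

/-- (V3) -/
theorem exists_fix_lift (M : ℕ) [NeZero M] {q : ℕ} [Fact q.Prime] (hqM : ¬ q ∣ M)
    (hA : A.LiesOverPrime q) (u : FT A M) :
    ∃ x : OC M hqM A hA, IsFix A M (x : FB M) ∧ redC M hqM A hA x = u := by
  have key : ∀ z : LaurentSeries (kk A), z ∈ FT A M →
      ∃ x : OC M hqM A hA, IsFix A M (x : FB M) ∧
        (redC M hqM A hA x : LaurentSeries (kk A)) = z := by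
    intro z hz
    induction hz using IntermediateField.adjoin_induction with
    | mem z hz =>
      obtain ⟨d, hd0, hd, rfl⟩ := hz
      have h1 : cE A (qExpand A d (jqModC A)) = Wq_J d := by
        rw [Wq_J_eq, coeffEmb, coeffMap_qExpand'', cE, coeffMap_qExpand'', coeffMap_jqModC]
        congr 1
        exact (coeffMap_jqModC (R := ℚ) (algebraMap ℚ Qb)).symm
      have h2 : cE A (qExpand A d (jqModC A)) ∈ FB M := by
        rw [h1]
        exact Wq_J_mem hd
      obtain ⟨h, h3⟩ := rd_int M hqM A hA _ h2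
      refine ⟨_, ?_, h3.trans ?_⟩
      · have : (⟨cE A (qExpand A d (jqModC A)), h2⟩ : FB M) = JF M d hd := Subtype.ext h1
        show IsFix A M (⟨cE A (qExpand A d (jqModC A)), h2⟩ : FB M)
        rw [this]
        exact isFix_JF M d hd
      · rw [cR, coeffMap_qExpand'', coeffMap_jqModC]
    | algebraMap c =>
      obtain ⟨a, rfl⟩ := IsLocalRing.residue_surjective c
      obtain ⟨a₀, ha₀K, ha₀A, hdiff⟩ := exists_K0_residue A (Fact.out : q.Prime) hA a.2
      have h := (algebraMap_mem_OC_iff M hqM A hA a₀).2 ha₀A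
      refine ⟨⟨_, h⟩, (isFix_algebraMap_iff M a₀).2 ha₀K, ?_⟩
      rw [redC_algebraMap M hqM A hA ⟨a₀, ha₀A⟩ h]
      have hres : resA A ⟨a₀, ha₀A⟩ = IsLocalRing.residue A a := by
        symm
        rw [← sub_eq_zero, ← map_sub, K0c_residue_eq_zero_iff]
        exact hdiff
      rw [hres]
      rfl
    | add z z' _ _ hz hz' =>
      obtain ⟨x, hx, rfl⟩ := hz
      obtain ⟨x', hx', rfl⟩ := hz'
      exact ⟨x + x', hx.add hx', by rw [map_add]; rfl⟩
    | inv z _ hz =>
      obtain ⟨x, hx, rfl⟩ := hz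
      by_cases h0 : redC M hqM A hA x = 0
      · exact ⟨0, isFix_zero M, by rw [h0, map_zero]; simp⟩
      · obtain ⟨u, rfl⟩ := isUnit_of_redC_ne_zero M hqM A hA x h0
        refine ⟨((u⁻¹ : (OC M hqM A hA)ˣ) : OC M hqM A hA), ?_, ?_⟩
        · have h1 : (((u⁻¹ : (OC M hqM A hA)ˣ) : OC M hqM A hA) : FB M) =
              ((u : OC M hqM A hA) : FB M)⁻¹ := by
            have h2 : (((u⁻¹ : (OC M hqM A hA)ˣ) : OC M hqM A hA) : FB M) *
                ((u : OC M hqM A hA) : FB M) = 1 := by
              have := congrArg (fun y : OC M hqM A hA => (y : FB M)) (Units.inv_mul u)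
              exact this
            exact eq_inv_of_mul_eq_one_left h2
          rw [h1]
          exact hx.inv
        · have h1 : redC M hqM A hA ((u⁻¹ : (OC M hqM A hA)ˣ) : OC M hqM A hA) *
              redC M hqM A hA (u : OC M hqM A hA) = 1 := by
            rw [← map_mul]
            simp
          have h2 := eq_inv_of_mul_eq_one_left h1
          rw [h2]
          rfl
    | mul z z' _ _ hz hz' =>
      obtain ⟨x, hx, rfl⟩ := hz
      obtain ⟨x', hx', rfl⟩ := hz'
      exact ⟨x * x', hx.mul hx', by rw [map_mul]; rfl⟩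
  obtain ⟨x, hx, hx'⟩ := key u u.2
  exact ⟨x, hx, Subtype.ext hx'⟩

end

end Fermat.Agent.S36Lib
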