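import Fermat.Agent.S36.Mod.EtaF
import Fermat.Agent.S18.DivDelta
import Fermat.Agent.S34.Pullback
import Fermat.Agent.S34.PolesJ
import Fermat.Agent.S37.FEFund

/-!
# S36, modular side, block (ETA): sharp pole bounds for the eta quotients
-/

set_option autoImplicit false
set_option synthInstance.maxHeartbeats 400000

open AlgebraicCurve IntermediateField Polynomial ModularCurve CongruenceSubgroup
  Fermat.Agent.S24Lib Fermat.Agent.FFLib Fermat.Agent.S18Lib Fermat.Agent.S28Lib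
  Fermat.Agent.ESLib Fermat.Agent.S20Lib Fermat.Agent.S34Lib Fermat.Agent.S20Lib.Cusps
open UpperHalfPlane ModularForm Matrix.SpecialLinearGroup Filter Topology
open scoped MatrixGroups Manifold

namespace Fermat.Agent.S36Lib

noncomputable section

lemma EL_Dan_one : Dan 1 = Dl := by
  funext τ
  rw [Dan]
  congr 1
  apply UpperHalfPlane.ext
  rw [coe_utr one_pos one_pos]
  simp

/-- `Δ((aτ+b)/a')^e / Δ(τ)` is bounded at `i∞` if `a a' = e` -/
lemma EL_bdd_aux {e a b a' : ℕ} (ha : 0 < a) (ha' : 0 < a') (h : a * a' = e) :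
    IsBoundedAtImInfty (fun τ => Dl (utr a b a' τ) ^ e / Dl τ) := by
  have h1 : Tendsto (fun τ => (Dl (utr a b a' τ) * ee (-1) (utr a b a' τ)) ^ e /
      (Dl τ * ee (-1) τ)) atImInfty (𝓝 (1 ^ e / 1)) :=
    ((W3.tendsto_Dl_mul_ee.comp (W3.tendsto_utr ha ha')).pow e).div W3.tendsto_Dl_mul_ee
      one_ne_zero
  have h3 : IsBoundedAtImInfty (fun τ => ee 1 (utr a b a' τ) ^ e * ee (-1) τ) := by
    apply W3.bdd_of_norm_le_one
    intro τ
    rw [norm_mul, norm_pow, norm_ee, norm_ee, W3.im_utr ha ha', ← Real.exp_nat_mul,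
      ← Real.exp_add]
    apply Real.exp_le_one_iff.mpr
    have hle : (1 : ℝ) ≤ e * ((a : ℝ) / a') := by
      have h6 : (a : ℝ) * a' = e := by exact_mod_cast h
      have h5 : (1 : ℝ) ≤ a := by exact_mod_cast ha
      have h7 : (0 : ℝ) < a' := by exact_mod_cast ha'
      rw [← h6]
      have : (a : ℝ) * a' * (a / a') = a * a := by field_simp
      rw [this]
      nlinarith
    have hy := τ.im_pos
    have hpi := Real.pi_pos
    have : 0 ≤ 2 * Real.pi * τ.im * ((e : ℝ) * ((a : ℝ) / a') - 1) := by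
      apply mul_nonneg (by positivity) (by linarith)
    nlinarith
  have := (W3.bdd_of_tendsto h1).mul h3
  refine this.congr' ?_ (by rfl)
  refine Filter.Eventually.of_forall fun τ => ?_
  simp only [Pi.mul_apply]
  have e1 := ee_neg_mul 1 (utr a b a' τ)
  have e2 := ee_ne_zero (-1) τ
  have e3 := Dl_ne_zero τ
  have e4 : (Dl (utr a b a' τ) * ee (-1) (utr a b a' τ)) ^ e * ee 1 (utr a b a' τ) ^ e =
      Dl (utr a b a' τ) ^ e := by
    rw [← mul_pow, mul_assoc, e1, mul_one]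
  field_simp
  linear_combination e4

/-- `Δ(eτ)^e / Δ` is a modular form of weight `12 (e - 1)` -/
theorem isMF_Dan_pow_div {N e : ℕ} [NeZero N] (he : e ∣ N) :
    IsMF (Gamma0 N) (12 * (e : ℤ) - 12) (Dan e ^ e / Dl) where
  holo := ((isMF_Dan he).holo.pow e).div isMF_Dl.holo Dl_ne_zero
  inv γ hγ := by
    have h1 : IsMF (Gamma0 N) (12 * (e : ℤ)) (Dan e ^ e) := by
      have := SeparatingAux.isMF_pow (isMF_Dan he) e
      rwa [mul_comm] at this
    rw [div_slash_SL2, h1.inv γ hγ, isMF_Dl.top_slash]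
  bdd γ := by
    have he0 : 0 < e := Nat.pos_of_ne_zero (by
      rintro rfl; exact NeZero.ne N (Nat.eq_zero_of_zero_dvd he))
    rw [div_slash_SL2, isMF_Dl.top_slash, mul_comm (12 : ℤ), ud_pow_slash]
    obtain ⟨a, b, a', ha, ha', h2, -, h3⟩ :=
      slash_dilate (k := 12) (f := Dl) (fun γ => isMF_Dl.top_slash γ) he0 γ
    have h4 : IsBoundedAtImInfty (fun _ : ℍ => ((a' : ℂ) ^ (-(12 : ℤ))) ^ e) :=
      Filter.const_boundedAtFilter _ _
    have := h4.mul (EL_bdd_aux (b := b) ha ha' h2)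
    refine this.congr' ?_ (by rfl)
    refine Filter.Eventually.of_forall fun τ => ?_
    simp only [Pi.mul_apply, Pi.div_apply, Pi.pow_apply]
    have h5 : (Dan e ∣[(12 : ℤ)] γ) τ = (a' : ℂ) ^ (-(12 : ℤ)) * Dl (utr a b a' τ) := h3 τ
    rw [h5, mul_pow]
    ring

/-! ### representatives -/

theorem EL_rep_one {N q : ℕ} [NeZero N] (hq : q ∣ N) : W7_Rep N (q - 1) (DD 1 / DD q) := by
  have := Eta_neZero hq
  have hq0 : 0 < q := Nat.pos_of_ne_zero (NeZero.ne q)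
  refine ⟨etaAn 1 q, isWH_etaAn (one_dvd _) hq, laurentFun_etaAn 1 q, ?_⟩
  have h := isMF_pow_div_Dan hq
  have e1 : etaAn 1 q * Dl ^ (q - 1) = Dl ^ q / Dan q := by
    obtain ⟨k, rfl⟩ : ∃ k, q = k + 1 := ⟨q - 1, by omega⟩
    funext τ
    simp only [etaAn, EL_Dan_one, Pi.mul_apply, Pi.div_apply, Pi.pow_apply, Nat.add_sub_cancel]
    ring
  have e2 : (12 * ((q - 1 : ℕ) : ℤ)) = 12 * (q : ℤ) - 12 := by
    rw [Nat.cast_sub hq0]
    push_cast
    ring
  rw [e1, e2]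
  exact h

lemma EL_laurentFun_pow {g : ℍ → ℂ} (hg : IsMerInf 1 g) (n : ℕ) :
    IsMerInf 1 (g ^ n) ∧ laurentFun 1 (g ^ n) = laurentFun 1 g ^ n := by
  induction n with
  | zero =>
    have e : g ^ 0 = Function.const ℍ (1 : ℂ) := by
      funext τ
      simp
    rw [e, pow_zero]
    exact ⟨isMerInf_const 1 1, by rw [laurentFun_const one_pos, map_one]⟩
  | succ n ih =>
    rw [pow_succ, pow_succ]
    exact ⟨ih.1.mul hg, by rw [laurentFun_mul one_pos ih.1 hg, ih.2]⟩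

theorem EL_rep_pow {N q : ℕ} [NeZero N] (hq : q ∣ N) : W7_Rep N (q - 1) ((DD q / DD 1) ^ q) := by
  have := Eta_neZero hq
  have hq0 : 0 < q := Nat.pos_of_ne_zero (NeZero.ne q)
  have h := isMF_Dan_pow_div hq
  have e1 : etaAn q 1 ^ q * Dl ^ (q - 1) = Dan q ^ q / Dl := by
    obtain ⟨k, rfl⟩ : ∃ k, q = k + 1 := ⟨q - 1, by omega⟩
    funext τ
    simp only [etaAn, EL_Dan_one, Pi.mul_apply, Pi.div_apply, Pi.pow_apply, Nat.add_sub_cancel]
    have := Dl_ne_zero τ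
    rw [div_pow]
    field_simp
    ring
  have e2 : (12 * ((q - 1 : ℕ) : ℤ)) = 12 * (q : ℤ) - 12 := by
    rw [Nat.cast_sub hq0]
    push_cast
    ring
  have h' : IsMF (Gamma0 N) (12 * ((q - 1 : ℕ) : ℤ)) (etaAn q 1 ^ q * Dl ^ (q - 1)) := by
    rw [e1, e2]
    exact h
  refine ⟨etaAn q 1 ^ q, bl_isWH h', ?_, h'⟩
  rw [(EL_laurentFun_pow (isWH_etaAn hq (one_dvd N)).isMerInf_one q).2, laurentFun_etaAn, map_pow]

theorem EL_rep_J {N d : ℕ} [NeZero N] (hd : d ∣ N) : W7_Rep N d (Wq_J d) := by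
  have := Eta_neZero hd
  have hq0 : 0 < d := NeZero.pos d
  have hwh : IsWH (Gamma0 N) (janD d) := isWH_janD hd
  refine ⟨janD d, hwh, ?_, ?_⟩
  · rw [laurentFun_janD, Wq_J_eq]
    exact (W6_coeffMap_iotaC_coeffEmb _).symm
  · have hD : IsMF ⊤ (12 * (d : ℤ)) (Dl ^ d) := by
      have := SeparatingAux.isMF_pow isMF_Dl d
      rwa [mul_comm] at this
    have hsl : ∀ γ : SL(2, ℤ), (janD d * Dl ^ d) ∣[(12 * d : ℤ)] γ
        = (janD d ∣[(0 : ℤ)] γ) * Dl ^ d := by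
      intro γ
      have := mul_slash_SL2 0 (12 * d) γ (janD d) (Dl ^ d)
      rw [zero_add, hD.top_slash] at this
      exact this
    refine ⟨hwh.holo.mul hD.holo, fun γ hγ => by rw [hsl, hwh.inv γ hγ], fun γ => ?_⟩
    rw [hsl]
    obtain ⟨a, b, a', ha, ha', h1, _, h3⟩ := W3.janD_slash hq0 γ
    have : (janD d ∣[(0 : ℤ)] γ) = fun τ => jan (utr a b a' τ) := funext h3
    rw [this]
    exact W3.bdd_jan_utr_mul ha ha' h1

/-! ### the bounds -/

/-- `Δ/Δ_q ∈ L((q-1) (j)_∞)` at every level `N`, `q ∣ N` -/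
theorem etaF_one_mem_L (N q : ℕ) [NeZero N] (hq : q ∣ N) :
    etaF N 1 q (one_dvd _) hq ∈
      riemannRochSpace ((q - 1) • poleDiv Qb (JF N 1 (one_dvd _))) := by
  rw [JF_one]
  exact bl_mem_L N (q - 1) _ (EL_rep_one hq) _

/-- `(Δ_q/Δ)^q ∈ L((q-1) (j)_∞)` at every level `N`, `q ∣ N` -/
theorem etaF_pow_mem_L (N q : ℕ) [NeZero N] (hq : q ∣ N) :
    etaF N q 1 hq (one_dvd _) ^ q ∈
      riemannRochSpace ((q - 1) • poleDiv Qb (JF N 1 (one_dvd _))) := by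
  rw [JF_one]
  exact bl_mem_L N (q - 1) _ (EL_rep_pow hq) (etaF N q 1 hq (one_dvd _) ^ q).2

theorem EL_poleDiv_nonneg (N : ℕ) [NeZero N] (x : FB N) : 0 ≤ poleDiv Qb x := by
  intro v
  rw [poleDiv_apply (isFF_bar N)]
  exact le_max_right _ _

/-- `(j_d)_∞ ≤ d (j)_∞` -/
theorem poleDiv_JF_le (N d : ℕ) [NeZero N] (hd : d ∣ N) :
    poleDiv Qb (JF N d hd) ≤ d • poleDiv Qb (JF N 1 (one_dvd _)) := by
  apply JQ_poleDiv_le (isFF_bar N) (smul_nonneg (Nat.zero_le d) (EL_poleDiv_nonneg N _))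
  rw [JF_one]
  exact bl_mem_L N d _ (EL_rep_J hd) _

/-- pull back of `L(n (x)_∞)` -/
theorem EL_map_mem_L {N' N : ℕ} [NeZero N'] [NeZero N] (φ : FB N' →ₐ[Qb] FB N) (x z : FB N')
    (n : ℕ) (hz : z ∈ riemannRochSpace (n • poleDiv Qb x)) :
    φ z ∈ riemannRochSpace (n • poleDiv Qb (φ x)) := by
  let _ := algebraAlong φ
  have := isScalarTower_along φ
  have := isIntegral_along φ (S37Lib.fe_isIntegral_along (isFF_bar N') (isFF_bar N) φ)
  exact PB_mem_L (isFF_bar N') (isFF_bar N) x z n hz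

theorem EL_mem_L_mono {N : ℕ} [NeZero N] {D E : Divisor Qb (FB N)} (h : D ≤ E) {x : FB N}
    (hx : x ∈ riemannRochSpace D) : x ∈ riemannRochSpace E := by
  rw [mem_L_iff] at hx ⊢
  intro v
  rcases hx v with h0 | h1
  · exact Or.inl h0
  · right
    have := h v
    omega

theorem EL_bHom_JF {N' N : ℕ} [NeZero N'] [NeZero N] (c : ℕ) [NeZero c] (h : N' * c ∣ N) :
    bHom c h (JF N' 1 (one_dvd _)) = JF N c ((dvd_mul_left c N').trans h) := by
  apply Subtype.ext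
  rw [coe_bHom]
  show qExpand Qb c (Wq_J 1) = Wq_J c
  have := Wq_qExpand_J c 1
  rwa [mul_one] at this

theorem EL_aux (N q : ℕ) [NeZero N] (hq : q ∣ N) (hq2 : q ^ 2 ∣ N) :
    etaF N q (q ^ 2) hq hq2 ∈ riemannRochSpace ((q - 1) • poleDiv Qb (JF N q hq)) ∧
    etaF N (q ^ 2) q hq2 hq ^ q ∈ riemannRochSpace ((q - 1) • poleDiv Qb (JF N q hq)) := by
  have hq0 := Eta_neZero hq
  obtain ⟨N', rfl⟩ := hq
  have hN' : NeZero N' := ⟨fun h0 => NeZero.ne (q * N') (by rw [h0, mul_zero])⟩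
  have hqN' : q ∣ N' := by
    rw [sq] at hq2
    exact (Nat.mul_dvd_mul_iff_left (Nat.pos_of_ne_zero (NeZero.ne q))).mp hq2
  have hdvd : N' * q ∣ q * N' := by rw [mul_comm]
  constructor
  · have h1 := EL_map_mem_L (bHom q hdvd) _ _ _ (etaF_one_mem_L N' q hqN')
    rw [EL_bHom_JF, bHom_etaF] at h1
    have e : etaF (q * N') q (q ^ 2) (Dvd.intro N' rfl) hq2 = etaF (q * N') (q * 1) (q * q)
        (((mul_comm q 1) ▸ Nat.mul_dvd_mul_right (one_dvd N') q).trans hdvd)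
        (((mul_comm q q) ▸ Nat.mul_dvd_mul_right hqN' q).trans hdvd) := by
      apply Subtype.ext
      rw [coe_etaF, coe_etaF, mul_one, sq]
    rw [e]
    exact h1
  · have h1 := EL_map_mem_L (bHom q hdvd) _ _ _ (etaF_pow_mem_L N' q hqN')
    rw [EL_bHom_JF, map_pow, bHom_etaF] at h1
    have e : etaF (q * N') (q ^ 2) q hq2 (Dvd.intro N' rfl) = etaF (q * N') (q * q) (q * 1)
        (((mul_comm q q) ▸ Nat.mul_dvd_mul_right hqN' q).trans hdvd)
        (((mul_comm q 1) ▸ Nat.mul_dvd_mul_right (one_dvd N') q).trans hdvd) := by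
      apply Subtype.ext
      rw [coe_etaF, coe_etaF, mul_one, sq]
    rw [e]
    exact h1

/-- `Δ_q/Δ_{q²} ∈ L(q (q-1) (j)_∞)` -/
theorem etaF_q_mem_L (N q : ℕ) [NeZero N] (hq : q ∣ N) (hq2 : q ^ 2 ∣ N) :
    etaF N q (q ^ 2) hq hq2 ∈
      riemannRochSpace ((q * (q - 1)) • poleDiv Qb (JF N 1 (one_dvd _))) := by
  refine EL_mem_L_mono ?_ (EL_aux N q hq hq2).1
  rw [mul_comm q, mul_smul]
  exact smul_le_smul_of_nonneg_left (poleDiv_JF_le N q hq) (Nat.zero_le _)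

/-- `Δ_{q²}/Δ_q ∈ L((q-1) (j)_∞)` -/
theorem etaF_qq_mem_L (N q : ℕ) [NeZero N] (hq : q ∣ N) (hq2 : q ^ 2 ∣ N) :
    etaF N (q ^ 2) q hq2 hq ∈
      riemannRochSpace ((q - 1) • poleDiv Qb (JF N 1 (one_dvd _))) := by
  have hq0 := Eta_neZero hq
  have h1 : etaF N (q ^ 2) q hq2 hq ^ q ∈
      riemannRochSpace ((q * (q - 1)) • poleDiv Qb (JF N 1 (one_dvd _))) := by
    refine EL_mem_L_mono ?_ (EL_aux N q hq hq2).2
    rw [mul_comm q, mul_smul]
    exact smul_le_smul_of_nonneg_left (poleDiv_JF_le N q hq) (Nat.zero_le _)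
  rw [mem_L_iff] at h1 ⊢
  intro v
  right
  rcases h1 v with h0 | h2
  · exact absurd h0 (pow_ne_zero _ (etaF_ne_zero _ _ _ _ _))
  · rw [pl_ord_pow, mul_smul, Finsupp.smul_apply, nsmul_eq_mul] at h2
    have hq1 : (0 : ℤ) < q := by exact_mod_cast Nat.pos_of_ne_zero (NeZero.ne q)
    have h3 : (q : ℤ) * (-((q - 1) • poleDiv Qb (JF N 1 (one_dvd _))) v) ≤
        (q : ℤ) * v.ord (etaF N (q ^ 2) q hq2 hq) := by
      rw [mul_neg]
      exact h2
    exact le_of_mul_le_mul_left h3 hq1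

end

end Fermat.Agent.S36Lib
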