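import Fermat.Agent.Lib.FF.ValRing
import Fermat.Agent.S24.PlaceFibre

/-!
# S36 (REG): abstract function fields: regular off the poles of `x` = integral over `K[x]`
-/

set_option autoImplicit false
set_option synthInstance.maxHeartbeats 400000
set_option linter.unusedSectionVars false

open AlgebraicCurve Polynomial
open scoped IntermediateField

namespace Fermat.Agent.S36Lib

open Fermat.Agent.S24Lib Fermat.Agent.FFLib

noncomputable section

/-- `y` is integral over `K[x]` -/
def IntOver (K : Type*) {F : Type*} [Field K] [Field F] [Algebra K F] (x y : F) : Prop :=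
  ((aeval x : K[X] →ₐ[K] F) : K[X] →+* F).IsIntegralElem y

/-- a root of a monic polynomial with coefficients regular at `v` is regular at `v` -/
theorem ord_nonneg_of_root {K F : Type*} [Field K] [Field F] [Algebra K F] (v : Place K F)
    (P : F[X]) (hP : P.Monic) (hc : ∀ k, 0 ≤ v.ord (P.coeff k)) {u : F} (hu : P.eval u = 0) :
    0 ≤ v.ord u := by
  have hl : P ∈ Polynomial.lifts (algebraMap v.toValuationSubring F) := by
    rw [Polynomial.lifts_iff_coeff_lifts]
    intro n
    exact ⟨⟨P.coeff n, (mem_valuationSubring_iff v _).2 (hc n)⟩, rfl⟩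
  obtain ⟨Q, hQ, -, hQm⟩ := Polynomial.lifts_and_degree_eq_and_monic hl hP
  have hint : IsIntegral v.toValuationSubring u := by
    refine ⟨Q, hQm, ?_⟩
    rw [← Polynomial.eval_map, hQ]
    exact hu
  obtain ⟨z, hz⟩ := IsIntegrallyClosed.algebraMap_eq_of_integral hint
  rw [← mem_valuationSubring_iff, ← hz]
  exact z.2

theorem REG_ord_aeval {K F : Type*} [Field K] [Field F] [Algebra K F] {x : F}
    (v : Place K F) (hv : 0 ≤ v.ord x) (p : K[X]) : 0 ≤ v.ord (aeval x p) := by
  rw [← mem_valuationSubring_iff] at hv ⊢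
  exact vr_aeval_mem v.toValuationSubring v.algebraMap_mem' hv p

theorem regular_of_intOver {K F : Type*} [Field K] [Field F] [Algebra K F] {x y : F}
    (hy : IntOver K x y) (v : Place K F) (hv : 0 ≤ v.ord x) : 0 ≤ v.ord y := by
  obtain ⟨p, hp, hp0⟩ := hy
  refine ord_nonneg_of_root v (p.map ((aeval x : K[X] →ₐ[K] F) : K[X] →+* F)) (hp.map _) ?_ ?_
  · intro k
    rw [Polynomial.coeff_map]
    exact REG_ord_aeval v hv _
  · rw [Polynomial.eval_map]
    exact hp0

theorem intOver_of_regular {K F : Type*} [Field K] [Field F] [Algebra K F] [IsAlgClosed K]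
    (h : IsFF K F) {x y : F} (hx : Transcendental K x)
    (hy : ∀ v : Place K F, 0 ≤ v.ord x → 0 ≤ v.ord y) : IntOver K x y := by
  set s : Set F := Set.range (algebraMap K F) ∪ {x} with hs
  have hmem : y ∈ (⨅ V : {V : ValuationSubring F // s ⊆ V.toSubring}, V.1.toSubring) := by
    rw [Subring.mem_iInf]
    rintro ⟨V, hV⟩
    by_cases htop : V = ⊤
    · subst htop
      exact ValuationSubring.mem_top y
    · have hK : ∀ a : K, algebraMap K F a ∈ V := fun a => hV (Or.inl ⟨a, rfl⟩)
      obtain ⟨v, hv⟩ := exists_place_of_valuationSubring h V hK htop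
      have hxV : x ∈ V := hV (Or.inr rfl)
      have : y ∈ v.toValuationSubring :=
        (mem_valuationSubring_iff v y).2 (hy v ((mem_valuationSubring_iff v x).1 (hv ▸ hxV)))
      rw [hv] at this
      exact this
  rw [iInf_valuationSubring_superset] at hmem
  have hint : IsIntegral (Subring.closure s) y := hmem
  obtain ⟨p, hp, hp0⟩ := hint
  -- every element of the closure is a polynomial in `x`
  have hcl : ∀ z ∈ Subring.closure s, ∃ g : K[X], aeval x g = z := by
    have hle : Subring.closure s ≤ ((aeval x : K[X] →ₐ[K] F) : K[X] →+* F).range := by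
      rw [Subring.closure_le]
      rintro z (⟨a, rfl⟩ | rfl)
      · exact ⟨C a, by simp⟩
      · exact ⟨X, by simp⟩
    intro z hz
    obtain ⟨g, hg⟩ := hle hz
    exact ⟨g, hg⟩
  have hl : p.map (algebraMap (Subring.closure s) F) ∈
      Polynomial.lifts ((aeval x : K[X] →ₐ[K] F) : K[X] →+* F) := by
    rw [Polynomial.lifts_iff_coeff_lifts]
    intro n
    rw [Polynomial.coeff_map]
    obtain ⟨g, hg⟩ := hcl _ (p.coeff n).2
    exact ⟨g, hg⟩
  obtain ⟨Q, hQ, -, hQm⟩ := Polynomial.lifts_and_degree_eq_and_monic hl (hp.map _)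
  refine ⟨Q, hQm, ?_⟩
  rw [← Polynomial.eval_map, hQ, Polynomial.eval_map]
  exact hp0

theorem IntOver.map {K F F' : Type*} [Field K] [Field F] [Field F'] [Algebra K F] [Algebra K F']
    (φ : F →ₐ[K] F') {x y : F} (h : IntOver K x y) : IntOver K (φ x) (φ y) := by
  obtain ⟨p, hp, hp0⟩ := h
  refine ⟨p, hp, ?_⟩
  have hcomp : ((aeval (φ x) : K[X] →ₐ[K] F') : K[X] →+* F') =
      (φ : F →+* F').comp ((aeval x : K[X] →ₐ[K] F) : K[X] →+* F) := by
    ext a
    · simp
    · simp
  rw [hcomp]
  have h2 := Polynomial.hom_eval₂ p ((aeval x : K[X] →ₐ[K] F) : K[X] →+* F) (φ : F →+* F') y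
  rw [hp0, map_zero] at h2
  exact h2.symm

theorem IntOver.of_map {K F F' : Type*} [Field K] [Field F] [Field F'] [Algebra K F]
    [Algebra K F'] (φ : F →ₐ[K] F') {x y : F} (h : IntOver K (φ x) (φ y)) : IntOver K x y := by
  obtain ⟨p, hp, hp0⟩ := h
  refine ⟨p, hp, ?_⟩
  have hcomp : ((aeval (φ x) : K[X] →ₐ[K] F') : K[X] →+* F') =
      (φ : F →+* F').comp ((aeval x : K[X] →ₐ[K] F) : K[X] →+* F) := by
    ext a
    · simp
    · simp
  rw [hcomp] at hp0
  have h2 : (φ : F →+* F') (p.eval₂ ((aeval x : K[X] →ₐ[K] F) : K[X] →+* F) y) = 0 := by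
    rw [Polynomial.hom_eval₂]
    exact hp0
  exact (map_eq_zero_iff (φ : F →+* F') (φ : F →+* F').injective).mp h2

/-- the elements integral over `K[x]`, as a subring -/
def intSubring (K : Type*) {F : Type*} [Field K] [Field F] [Algebra K F] (x : F) : Subring F where
  carrier := {y | IntOver K x y}
  mul_mem' := fun ha hb => RingHom.IsIntegralElem.mul _ ha hb
  one_mem' := by
    have := RingHom.isIntegralElem_map ((aeval x : K[X] →ₐ[K] F) : K[X] →+* F) (x := 1)
    rw [map_one] at this
    exact this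
  add_mem' := fun ha hb => RingHom.IsIntegralElem.add _ ha hb
  zero_mem' := by
    have := RingHom.isIntegralElem_map ((aeval x : K[X] →ₐ[K] F) : K[X] →+* F) (x := 0)
    rw [map_zero] at this
    exact this
  neg_mem' := fun ha => RingHom.IsIntegralElem.neg _ ha

end

end Fermat.Agent.S36Lib
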