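import Fermat.Agent.S36.Mod.EtaFormal
import Fermat.Agent.S36.ALCompat

/-!
# S36, modular side, block (ETA): the eta quotients as elements of `FB N`
-/

set_option autoImplicit false
set_option synthInstance.maxHeartbeats 400000

open AlgebraicCurve ModularCurve Polynomial

namespace Fermat.Agent.S36Lib

open Fermat.Agent.S18Lib Fermat.Agent.S24Lib Fermat.Agent.S28Lib Fermat.Agent.ESLib
  Fermat.Agent.S34Lib Fermat.Agent.S28Lib.RelationAux Fermat.Agent.FFLib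

noncomputable section

/-- `Δ(t^d)/Δ(t^e)` as an element of `FB N` -/
def etaF (N d e : ℕ) [NeZero N] (hd : d ∣ N) (he : e ∣ N) : FB N := ⟨DD d / DD e, etaQ_mem hd he⟩

theorem coe_etaF (N d e : ℕ) [NeZero N] (hd : d ∣ N) (he : e ∣ N) :
    ((etaF N d e hd he : FB N) : LaurentSeries Qb) = DD d / DD e := rfl

theorem JF_one (N : ℕ) [NeZero N] : JF N 1 (one_dvd _) = jBar N := by
  apply Subtype.ext
  show Wq_J 1 = ((jBar N : FB N) : LaurentSeries Qb)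
  rw [W7_coe_jBar, W7_jE_eq, Wq_J_eq, qExpand_one_apply]

theorem etaF_ne_zero (N d e : ℕ) [NeZero N] (hd : d ∣ N) (he : e ∣ N) : etaF N d e hd he ≠ 0 := by
  intro h
  exact div_ne_zero (DD_ne_zero d) (DD_ne_zero e) (congrArg Subtype.val h)

theorem etaF_inv (N d e : ℕ) [NeZero N] (hd : d ∣ N) (he : e ∣ N) :
    (etaF N d e hd he)⁻¹ = etaF N e d he hd := by
  apply Subtype.ext
  show (DD d / DD e)⁻¹ = DD e / DD d
  rw [inv_div]

theorem coeffMap_DD (σ : Qb →+* Qb) (d : ℕ) : coeffMap σ (DD d) = DD d := by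
  by_cases hd : d = 0
  · subst hd
    rw [DD, dif_pos rfl, map_one]
  · have : NeZero d := ⟨hd⟩
    rw [DD_eq_DLd, coeffMap_DLd]

theorem gal_etaF (N d e : ℕ) [NeZero N] (hd : d ∣ N) (he : e ∣ N) (σ : GQ) :
    ESLib.gal N σ (etaF N d e hd he) = etaF N d e hd he := by
  apply Subtype.ext
  rw [coe_gal, coe_etaF, map_div₀, coeffMap_DD, coeffMap_DD]

theorem isFix_etaF (A : ValuationSubring Qb) (N d e : ℕ) [NeZero N] (hd : d ∣ N) (he : e ∣ N) :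
    IsFix A N (etaF N d e hd he) := fun σ _ => gal_etaF N d e hd he σ

/-- (f3) units off the cusps -/
theorem etaF_ord (N d e : ℕ) [NeZero N] (hd : d ∣ N) (he : e ∣ N) (v : Place Qb (FB N))
    (hv : 0 ≤ v.ord (JF N 1 (one_dvd _))) : v.ord (etaF N d e hd he) = 0 := by
  rw [JF_one] at hv
  exact etaQ_ord_eq_zero hd he v hv

theorem aHom_etaF {N' N : ℕ} [NeZero N'] [NeZero N] (h : N' ∣ N) (d e : ℕ) (hd : d ∣ N')
    (he : e ∣ N') :
    aHom h (etaF N' d e hd he) = etaF N d e (hd.trans h) (he.trans h) := by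
  apply Subtype.ext
  rw [coe_aHom]
  rfl

theorem bHom_etaF {N' N : ℕ} [NeZero N'] [NeZero N] (c : ℕ) [NeZero c] (h : N' * c ∣ N) (d e : ℕ)
    (hd : d ∣ N') (he : e ∣ N') :
    bHom c h (etaF N' d e hd he) =
      etaF N (c * d) (c * e) (((mul_comm c d) ▸ Nat.mul_dvd_mul_right hd c).trans h)
        (((mul_comm c e) ▸ Nat.mul_dvd_mul_right he c).trans h) := by
  have := Eta_neZero hd
  have := Eta_neZero he
  apply Subtype.ext
  rw [coe_bHom, coe_etaF, coe_etaF, map_div₀, qExpand_DD, qExpand_DD]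

/-- (f2) Atkin-Lehner on the eta quotients -/
theorem IsAL.apply_etaF {N Q M : ℕ} [NeZero N] (hN : N = Q * M) (hQM : Nat.Coprime Q M)
    {w : FB N ≃ₐ[Qb] FB N} (hw : IsAL N Q M w) {d₁ e₁ d₂ e₂ : ℕ} (hd₁ : d₁ ∣ Q) (he₁ : e₁ ∣ M)
    (hd₂ : d₂ ∣ Q) (he₂ : e₂ ∣ M) (h1 : d₁ * e₁ ∣ N) (h2 : d₂ * e₂ ∣ N)
    (h3 : Q / d₁ * e₁ ∣ N) (h4 : Q / d₂ * e₂ ∣ N) :
    w (etaF N (d₁ * e₁) (d₂ * e₂) h1 h2) =
      algebraMap Qb (FB N) ((((Q / d₁ : ℕ) : Qb) / ((Q / d₂ : ℕ) : Qb)) ^ 12) *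
        etaF N (Q / d₁ * e₁) (Q / d₂ * e₂) h3 h4 := by
  subst hN
  have : NeZero Q := ⟨fun h0 => NeZero.ne (Q * M) (by rw [h0, zero_mul])⟩
  have : NeZero M := ⟨fun h0 => NeZero.ne (Q * M) (by rw [h0, mul_zero])⟩
  apply Subtype.ext
  have h := wQ_etaQ Q M hQM w hw.gen hd₁ he₁ hd₂ he₂ (etaQ_mem h1 h2)
  rw [← rr_coe_algebraMap (Q * M)] at h
  exact h

end

end Fermat.Agent.S36Lib
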