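import Fermat.Agent.S36.Mod.BrDefs
import Fermat.Agent.S36.Mod.ValFix
import Fermat.Agent.S36.Mod.ValApi
import Fermat.Agent.S36.Mod.ValG
import Fermat.Agent.S36.Mod.ValV1
import Fermat.Agent.S36.Mod.EtaF
import Fermat.Agent.S36.K0d
import Fermat.Agent.S34.ModDefs
import Fermat.Agent.S34.Frob
import Fermat.Agent.S18.PoleLemma
import Fermat.Agent.S18.JRed

/-!
# S36, modular side, (BL) leaf (BLA): generalities
-/

set_option autoImplicit false
set_option synthInstance.maxHeartbeats 400000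
set_option linter.unusedSectionVars false
set_option linter.unusedVariables false

open AlgebraicCurve ModularCurve Polynomial
open scoped IntermediateField

namespace Fermat.Agent.S36Lib

open Fermat.Agent.S18Lib Fermat.Agent.S24Lib Fermat.Agent.S28Lib Fermat.Agent.ESLib
  Fermat.Agent.S34Lib Fermat.Agent.FFLib

noncomputable section

variable {M q : ℕ} [NeZero M] [NeZero q] [hqF : Fact q.Prime] (hqM : ¬ q ∣ M)
variable {w : FB (q ^ 2 * M) ≃ₐ[Qb] FB (q ^ 2 * M)} {ζ : Qbˣ}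
  {i : ℕ → FB (q ^ 2 * M) →ₐ[Qb] LaurentSeries Qb} {ζ₂ : Qbˣ}
variable (A : ValuationSubring Qb) (hA : A.LiesOverPrime q)

/-! ## (BLA) `Mod/BLAux.lean` : generalities -/

theorem Ge.zpow {A : ValuationSubring Qb} {N : ℕ} {e : FB N →+* LaurentSeries Qb} {ϖ : FB N}
    (hϖ : ϖ ≠ 0) {a : ℤ} {g : FB N} (hg : Ge A e ϖ a g) (hr : rd A e ϖ a g ≠ 0) (n : ℤ) :
    Ge A e ϖ (n * a) (g ^ n) := by
  obtain ⟨k, rfl | rfl⟩ := n.eq_nat_or_neg
  · rw [zpow_natCast]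
    exact hg.pow hϖ k
  · rw [zpow_neg, zpow_natCast, neg_mul]
    refine (hg.pow hϖ k).inv hϖ ?_
    rw [rd_pow hϖ hg]
    exact pow_ne_zero _ hr

theorem rd_zpow {A : ValuationSubring Qb} {N : ℕ} {e : FB N →+* LaurentSeries Qb} {ϖ : FB N}
    (hϖ : ϖ ≠ 0) {a : ℤ} {g : FB N} (hg : Ge A e ϖ a g) (hr : rd A e ϖ a g ≠ 0) (n : ℤ) :
    rd A e ϖ (n * a) (g ^ n) = rd A e ϖ a g ^ n := by
  obtain ⟨k, rfl | rfl⟩ := n.eq_nat_or_neg
  · rw [zpow_natCast, zpow_natCast]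
    exact rd_pow hϖ hg k
  · rw [zpow_neg, zpow_natCast, neg_mul, zpow_neg, zpow_natCast,
      rd_inv hϖ (hg.pow hϖ k) (by rw [rd_pow hϖ hg]; exact pow_ne_zero _ hr), rd_pow hϖ hg]

theorem BLA_zero_eq {N : ℕ} (e : FB N →+* LaurentSeries Qb) (ϖ g : FB N) :
    e (ϖ ^ (-(0 : ℤ)) * g) = e g := by
  rw [neg_zero, zpow_zero, one_mul]

theorem ge_zero_iff {A : ValuationSubring Qb} {N : ℕ} {e : FB N →+* LaurentSeries Qb} {ϖ : FB N}
    {g : FB N} : Ge A e ϖ 0 g ↔ e g ∈ gRing A := by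
  unfold Ge
  rw [BLA_zero_eq]

theorem rd_zero_eq {A : ValuationSubring Qb} {N : ℕ} {e : FB N →+* LaurentSeries Qb} {ϖ : FB N}
    {g : FB N} (h : e g ∈ gRing A) : rd A e ϖ 0 g = gRed A ⟨e g, h⟩ :=
  API_rd_eq h (BLA_zero_eq e ϖ g)

include hA in
/-- all the middle branches are conjugate under inertia -/
theorem mid_all (B : BrData M q w ζ i ζ₂) (x : FB (q ^ 2 * M)) (hx : IsFix A (q ^ 2 * M) x)
    (a b : ℕ) (ha : ¬ q ∣ a) (hb : ¬ q ∣ b) (h1 : i a x ∈ gRing A) :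
    ∃ h : i b x ∈ gRing A, gRed A ⟨_, h⟩ = gRed A ⟨_, h1⟩ := by
  have hq := hqF.out
  have hcop : a.Coprime q := ((Nat.Prime.coprime_iff_not_dvd hq).mpr ha).symm
  have hζa : IsPrimitiveRoot (ζ ^ a) q := B.prim.pow_of_coprime a hcop
  have hζa' : IsPrimitiveRoot (((ζ ^ a : Qbˣ) : Qb)) q := IsPrimitiveRoot.coe_units_iff.2 hζa
  -- `ζ ^ b` is a power of `ζ ^ a`
  obtain ⟨c, -, hc'⟩ := hζa'.eq_pow_of_pow_eq_one (ξ := ((ζ ^ b : Qbˣ) : Qb))
    (by rw [← Units.val_pow_eq_pow_val, ← pow_mul, mul_comm, pow_mul, B.prim.pow_eq_one, one_pow,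
      Units.val_one])
  have hc : (ζ ^ a) ^ c = ζ ^ b := by
    apply Units.ext
    rw [Units.val_pow_eq_pow_val]
    exact hc'
  have hqc : ¬ q ∣ c := by
    intro hqc
    obtain ⟨d, rfl⟩ := hqc
    rw [pow_mul, hζa.pow_eq_one, one_pow] at hc
    exact hb ((B.prim.pow_eq_one_iff_dvd b).1 hc.symm)
  obtain ⟨σ, hσ, hσζ⟩ := exists_inertia_zeta A hq hA hζa' c hqc
  have hu : Units.map ((σ : Qb →+* Qb) : Qb →* Qb) (ζ ^ a) = ζ ^ b := by
    apply Units.ext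
    rw [← hc']
    exact hσζ
  have hmid : IsIMid M q (Units.map ((σ : Qb →+* Qb) : Qb →* Qb) (ζ ^ a)) (i b) := by
    rw [hu]
    exact B.mid b hb
  have key := IsIMid.gal hq σ (B.mid a ha) hmid x
  rw [hx σ hσ] at key
  have h2 := coeffMap_mem_gRing A hσ h1
  have h3 := gRed_coeffMap A hσ h1
  refine ⟨by rw [← key]; exact h2, ?_⟩
  rw [← h3]
  congr 1
  exact Subtype.ext key.symm

include hA in
theorem allInt_of_ge (B : BrData M q w ζ i ζ₂) (h : FB (q ^ 2 * M))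
    (hfix : IsFix A (q ^ 2 * M) h)
    (h1 : Ge A (eInf (q ^ 2 * M)) (qF (q ^ 2 * M) q) 0 h)
    (h2 : Ge A (i 1 : FB (q ^ 2 * M) →+* LaurentSeries Qb) (piF M q) 0 h)
    (h3 : Ge A (eZero w) (qF (q ^ 2 * M) q) 0 h) : AllInt A w i h := by
  have h11 : ¬ q ∣ 1 := fun h => hqF.out.one_lt.ne' (Nat.dvd_one.1 h)
  have h1' : eInf (q ^ 2 * M) h ∈ gRing A := ge_zero_iff.1 h1
  have h2' : (i 1 : FB (q ^ 2 * M) →+* LaurentSeries Qb) h ∈ gRing A := ge_zero_iff.1 h2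
  have h3' : eZero w h ∈ gRing A := ge_zero_iff.1 h3
  have h2'' : i 1 h ∈ gRing A := h2'
  refine ⟨h1', fun a ha => ?_, h3'⟩
  exact (mid_all A hA B h hfix 1 a h11 ha h2'').1

/-- products in `L(n J)` -/
theorem mem_L_mul {K F : Type*} [Field K] [Field F] [Algebra K F] {D : Divisor K F} {a b : ℕ}
    {x y : F} (hx : x ∈ riemannRochSpace (a • D)) (hy : y ∈ riemannRochSpace (b • D)) :
    x * y ∈ riemannRochSpace ((a + b) • D) := by
  rw [mem_L_iff] at hx hy ⊢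
  intro v
  have := D2.ge_mul v (hx v) (hy v)
  convert this using 1
  simp only [Finsupp.coe_smul, Pi.smul_apply, add_smul, Finsupp.coe_add, Pi.add_apply]
  ring

theorem mem_L_pow {K F : Type*} [Field K] [Field F] [Algebra K F] {D : Divisor K F} {a : ℕ}
    {x : F} (hx : x ∈ riemannRochSpace (a • D)) (r : ℕ) :
    x ^ r ∈ riemannRochSpace ((r * a) • D) := by
  induction r with
  | zero =>
    rw [pow_zero, zero_mul, zero_smul, mem_L_iff]
    intro v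
    right
    simp
  | succ r ih =>
    rw [pow_succ, add_mul, one_mul]
    exact mem_L_mul ih hx

theorem const_mul_mem_L {K F : Type*} [Field K] [Field F] [Algebra K F] {D : Divisor K F}
    {x : F} (hx : x ∈ riemannRochSpace D) (c : K) :
    algebraMap K F c * x ∈ riemannRochSpace D := by
  rw [← Algebra.smul_def]
  exact (riemannRochSpace D).smul_mem c hx

theorem BLA_J_one : Wq_J 1 = cE A (jqModC A) := by
  rw [Wq_J_eq_cE A 1, qExpand_one_apply]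

theorem BLA_coe_jBar : ((jBar M : FB M) : LaurentSeries Qb) = cE A (jqModC A) :=
  uj_coe_jBar M A

theorem BLA_cR_j : cR A (jqModC A) = jqModC (kk A) := by
  rw [cR, coeffMap_jqModC]

theorem BLA_coe_jT : ((jT A M : FT A M) : LaurentSeries (kk A)) = jqModC (kk A) := rfl

theorem BLA_adjoin_inv {K F : Type*} [Field K] [Field F] [Algebra K F] (x : F) :
    K⟮x⁻¹⟯ = K⟮x⟯ := by
  apply le_antisymm
  · rw [IntermediateField.adjoin_simple_le_iff]
    exact K⟮x⟯.inv_mem (IntermediateField.mem_adjoin_simple_self K x)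
  · rw [IntermediateField.adjoin_simple_le_iff]
    have := K⟮x⁻¹⟯.inv_mem (IntermediateField.mem_adjoin_simple_self K x⁻¹)
    rwa [inv_inv] at this

/-- the two coordinates `X = j`, `X = 1/j` at level `M` -/
theorem exists_X_j : ∃ X : OC M hqM A hA, ((X : OC M hqM A hA) : FB M) = jBar M ∧
    redC M hqM A hA X = jT A M ∧
    Module.finrank Qb⟮((X : OC M hqM A hA) : FB M)⟯ (FB M) ≤
      Module.finrank (kk A)⟮redC M hqM A hA X⟯ (FT A M) := by
  have hmem : jBar M ∈ OC M hqM A hA := by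
    rw [mem_OC_iff, BLA_coe_jBar A]
    exact cE_mem_gRing A _
  have hred : redC M hqM A hA ⟨jBar M, hmem⟩ = jT A M := by
    apply Subtype.ext
    rw [coe_redC, BLA_coe_jT, ← BLA_cR_j, ← gRed_cE]
    congr 1
    exact Subtype.ext (BLA_coe_jBar (M := M) A)
  refine ⟨⟨jBar M, hmem⟩, rfl, hred, ?_⟩
  rw [hred]
  show Module.finrank Qb⟮jBar M⟯ (FB M) ≤ _
  rw [finrank_eq_index M]
  exact idx_le_finrank_FT M hqM A hA

theorem exists_X_jinv : ∃ X : OC M hqM A hA, ((X : OC M hqM A hA) : FB M) = (jBar M)⁻¹ ∧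
    redC M hqM A hA X = (jT A M)⁻¹ ∧
    Module.finrank Qb⟮((X : OC M hqM A hA) : FB M)⟯ (FB M) ≤
      Module.finrank (kk A)⟮redC M hqM A hA X⟯ (FT A M) := by
  obtain ⟨X, hX, hred, hdeg⟩ := exists_X_j hqM A hA
  have hj0 : jT A M ≠ 0 := by
    intro h0
    apply transcendental_jT A M
    rw [h0]
    exact isAlgebraic_zero
  obtain ⟨u, hu⟩ := isUnit_of_redC_ne_zero M hqM A hA X (by rw [hred]; exact hj0)
  have h1 : X * ((u⁻¹ : (OC M hqM A hA)ˣ) : OC M hqM A hA) = 1 := by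
    rw [← hu]
    exact Units.mul_inv u
  have hX0 : ((X : OC M hqM A hA) : FB M) ≠ 0 := by
    intro h0
    have : X = 0 := Subtype.ext h0
    rw [this, zero_mul] at h1
    exact zero_ne_one h1
  have h2 : ((((u⁻¹ : (OC M hqM A hA)ˣ) : OC M hqM A hA)) : FB M) = (jBar M)⁻¹ := by
    rw [← hX]
    apply eq_inv_of_mul_eq_one_right
    exact congrArg Subtype.val h1
  have h3 : redC M hqM A hA ((u⁻¹ : (OC M hqM A hA)ˣ) : OC M hqM A hA) = (jT A M)⁻¹ := by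
    rw [← hred]
    apply eq_inv_of_mul_eq_one_right
    rw [← map_mul, h1, map_one]
  refine ⟨_, h2, h3, ?_⟩
  rw [h2, h3, BLA_adjoin_inv, BLA_adjoin_inv]
  rw [hX, hred] at hdeg
  exact hdeg

theorem aHom_jBar : aHom (dvdM M q) (jBar M) = JF (q ^ 2 * M) 1 (one_dvd _) := by
  apply Subtype.ext
  rw [coe_aHom, ← JF_one]
  rfl

theorem BLA_core {N : ℕ} {e : FB N →+* LaurentSeries Qb} {ϖ : FB N} {g : FB N}
    (y : LaurentSeries A) (hy : e g = cE A y) :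
    Ge A e ϖ 0 g ∧ rd A e ϖ 0 g = cR A y := by
  have h : e g ∈ gRing A := by
    rw [hy]
    exact cE_mem_gRing A y
  refine ⟨ge_zero_iff.2 h, ?_⟩
  rw [rd_zero_eq h, ← gRed_cE]
  congr 1
  exact Subtype.ext hy

/-- `j` on the three branches -/
theorem JF_one_inf : Ge A (eInf (q ^ 2 * M)) (qF (q ^ 2 * M) q) 0 (JF (q ^ 2 * M) 1 (one_dvd _)) ∧
    rd A (eInf (q ^ 2 * M)) (qF (q ^ 2 * M) q) 0 (JF (q ^ 2 * M) 1 (one_dvd _)) =
      jqModC (kk A) := by
  rw [← BLA_cR_j]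
  exact BLA_core A (jqModC A) (BLA_J_one A)

theorem JF_one_mid (B : BrData M q w ζ i ζ₂) :
    Ge A (i 1 : FB (q ^ 2 * M) →+* LaurentSeries Qb) (piF M q) 0
      (JF (q ^ 2 * M) 1 (one_dvd _)) ∧
    rd A (i 1 : FB (q ^ 2 * M) →+* LaurentSeries Qb) (piF M q) 0
      (JF (q ^ 2 * M) 1 (one_dvd _)) = jqModC (kk A) := by
  have h11 : ¬ q ∣ 1 := fun h => hqF.out.one_lt.ne' (Nat.dvd_one.1 h)
  rw [← BLA_cR_j]
  exact BLA_core A (jqModC A) (((B.mid 1 h11).low 1 (one_dvd _) _).trans (BLA_J_one A))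

include hA in
theorem BLA_qExpand_sq :
    qExpand (kk A) (q ^ 2) (jqModC (kk A)) = jqModC (kk A) ^ (q ^ 2) := by
  have : CharP (kk A) q := Fermat.Agent.S18Lib.charP_kk A hA
  rw [qExpand_congr (pow_two q), ← qExpand_qExpand, qExpand_jqModC_eq_pow q (kk A), map_pow,
    qExpand_jqModC_eq_pow q (kk A), ← pow_mul, pow_two]

include hA in
theorem JF_one_zero (B : BrData M q w ζ i ζ₂) :
    Ge A (eZero w) (qF (q ^ 2 * M) q) 0 (JF (q ^ 2 * M) 1 (one_dvd _)) ∧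
    rd A (eZero w) (qF (q ^ 2 * M) q) 0 (JF (q ^ 2 * M) 1 (one_dvd _)) =
      jqModC (kk A) ^ (q ^ 2) := by
  have h0 : cR A (qExpand A (q ^ 2) (jqModC A)) = jqModC (kk A) ^ (q ^ 2) := by
    rw [cR, coeffMap_qExpand'', coeffMap_jqModC, BLA_qExpand_sq A hA]
  rw [← h0]
  refine BLA_core A (qExpand A (q ^ 2) (jqModC A)) ?_
  rw [← Wq_J_eq_cE A (q ^ 2), eZero_apply]
  have h1 := B.al.gen 1 1 (one_dvd _) (one_dvd _) (Wq_J_mem (by rw [mul_one]; exact one_dvd _))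
  have h2 : q ^ 2 / 1 * 1 = q ^ 2 := by rw [Nat.div_one, mul_one]
  rw [h2] at h1
  rw [← h1]
  rfl

end

end Fermat.Agent.S36Lib
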