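import Fermat.Agent.S36.Mod.BLTri

/-!
# S36 (BL), part 2: the master lemma (`int_branch` for `X = j` and `X = 1/j`)
-/

set_option autoImplicit false
set_option synthInstance.maxHeartbeats 400000
set_option linter.unusedSectionVars false

open AlgebraicCurve ModularCurve Polynomial
open scoped IntermediateField

namespace Fermat.Agent.S36Lib

open Fermat.Agent.S18Lib Fermat.Agent.S24Lib Fermat.Agent.S28Lib Fermat.Agent.ESLib
  Fermat.Agent.S34Lib Fermat.Agent.FFLib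

noncomputable section

variable {M q : ℕ} [NeZero M] [NeZero q] [hqF : Fact q.Prime] (hqM : ¬ q ∣ M)
variable {w : FB (q ^ 2 * M) ≃ₐ[Qb] FB (q ^ 2 * M)} {ζ : Qbˣ}
  {i : ℕ → FB (q ^ 2 * M) →ₐ[Qb] LaurentSeries Qb} {ζ₂ : Qbˣ}
variable (A : ValuationSubring Qb) (hA : A.LiesOverPrime q)

include hA in
theorem BL_mid_all (B : BrData M q w ζ i ζ₂) {h : FB (q ^ 2 * M)} (hfix : IsFix A (q ^ 2 * M) h)
    (h1 : i 1 h ∈ gRing A) (a : ℕ) (ha : ¬ q ∣ a) : i a h ∈ gRing A := by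
  have hzp : IsPrimitiveRoot (ζ : Qb) q := IsPrimitiveRoot.coe_units_iff.mpr B.prim
  obtain ⟨σ, hσ, hσz⟩ := exists_inertia_zeta A hqF.out hA hzp a ha
  have hu : Units.map ((σ : Qb →+* Qb) : Qb →* Qb) ζ = ζ ^ a := Units.ext (by simpa using hσz)
  have h' : IsIMid M q (Units.map ((σ : Qb →+* Qb) : Qb →* Qb) ζ) (i a) := by
    rw [hu]
    exact B.mid a ha
  have h2 := IsIMid.gal hqF.out σ (BL_mid_one B) h' h
  rw [hfix σ hσ] at h2
  rw [← h2]
  exact coeffMap_mem_gRing A hσ h1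

include hA in
theorem BLTri.allInt (B : BrData M q w ζ i ζ₂) {a c b : ℤ} {ra rc rb : LaurentSeries (kk A)}
    {h : FB (q ^ 2 * M)} (T : BLTri A w (i 1) a c b ra rc rb h) (ha : 0 ≤ a) (hc : 0 ≤ c)
    (hb : 0 ≤ b) : AllInt A w i h :=
  ⟨T.inf.mem_of_nonneg (isBranch_inf A hqF.out hA _) ha,
    fun k hk => BL_mid_all A hA B T.fix (T.mid.mem_of_nonneg (BL_branch_mid A hA B) hc) k hk,
    T.zero.mem_of_nonneg (isBranch_zero A hqF.out hA rfl B.al) hb⟩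

theorem BL_master (B : BrData M q w ζ i ζ₂) (X : OC M hqM A hA)
    (hX : Transcendental (kk A) (redC M hqM A hA X))
    (hdeg : Module.finrank Qb⟮((X : OC M hqM A hA) : FB M)⟯ (FB M) ≤
      Module.finrank (kk A)⟮redC M hqM A hA X⟯ (FT A M))
    {h : FB (q ^ 2 * M)}
    (hreg : ∀ v : Place Qb (FB (q ^ 2 * M)),
      0 ≤ v.ord (aHom (dvdM M q) ((X : OC M hqM A hA) : FB M)) → 0 ≤ v.ord h)
    {a c b : ℤ} {ra rc rb : LaurentSeries (kk A)} (T : BLTri A w (i 1) a c b ra rc rb h)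
    (ha : 0 ≤ a) (hc : 0 ≤ c) (hb : 0 ≤ b) (P : Place (kk A) (FT A M)) (U : FT A M) :
    (a = 0 → (U : LaurentSeries (kk A)) = ra → 0 ≤ P.ord (redC M hqM A hA X) → 0 ≤ P.ord U) ∧
    (c = 0 → (U : LaurentSeries (kk A)) = rc → 0 ≤ P.ord (redC M hqM A hA X) → 0 ≤ P.ord U) ∧
    (b = 0 → (U : LaurentSeries (kk A)) = rb →
      0 ≤ P.ord (Vq M q A hA (Vq M q A hA (redC M hqM A hA X))) → 0 ≤ P.ord U) := by
  have I := int_branch hqM A hA B X hX hdeg h hreg (T.allInt A hA B ha hc hb) U P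
  refine ⟨?_, ?_, ?_⟩
  · rintro rfl hU
    exact I.1 (hU.trans (T.inf.gRed_eq _).symm)
  · rintro rfl hU
    exact I.2.1 1 BL_not_dvd_one (hU.trans (T.mid.gRed_eq _).symm)
  · rintro rfl hU
    exact I.2.2 (hU.trans (T.zero.gRed_eq _).symm)

/-! ## `X = j` and `X = 1/j` -/

theorem BL_jBar_mem : jBar M ∈ OC M hqM A hA := by
  rw [mem_OC_iff, uj_coe_jBar M A]
  exact cE_mem_gRing A _

theorem BL_redC_jBar : redC M hqM A hA ⟨jBar M, BL_jBar_mem hqM A hA⟩ = jT A M := by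
  apply Subtype.ext
  rw [coe_redC]
  have h : OCtoG M hqM A hA ⟨jBar M, BL_jBar_mem hqM A hA⟩ =
      ⟨cE A (jqModC A), cE_mem_gRing A _⟩ := Subtype.ext (uj_coe_jBar M A)
  rw [h, gRed_cE, cR_def, coeffMap_jqModC]
  rfl

theorem BL_jT_ne_zero : jT A M ≠ 0 := by
  intro h
  exact BL_j_ne_zero (kk A) (congrArg Subtype.val h)

theorem BL_exists_inv : ∃ Y : OC M hqM A hA, ((Y : OC M hqM A hA) : FB M) = (jBar M)⁻¹ ∧
    redC M hqM A hA Y = (jT A M)⁻¹ := by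
  have hu := isUnit_of_redC_ne_zero M hqM A hA ⟨jBar M, BL_jBar_mem hqM A hA⟩
    (by rw [BL_redC_jBar]; exact BL_jT_ne_zero A)
  obtain ⟨Y, hY⟩ := hu.exists_right_inv
  refine ⟨Y, ?_, ?_⟩
  · have h1 : jBar M * ((Y : OC M hqM A hA) : FB M) = 1 := congrArg Subtype.val hY
    exact eq_inv_of_mul_eq_one_right h1
  · have h1 := congrArg (redC M hqM A hA) hY
    rw [map_mul, map_one, BL_redC_jBar] at h1
    exact eq_inv_of_mul_eq_one_right h1

theorem BL_aHom_jBar : aHom (dvdM M q) (jBar M) = JF (q ^ 2 * M) 1 (one_dvd _) := by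
  rw [JF_one]
  apply Subtype.ext
  rw [coe_aHom, uj_coe_jBar M ⊤, uj_coe_jBar _ ⊤]

theorem BL_adjoin_inv {K F : Type*} [Field K] [Field F] [Algebra K F] (x : F) :
    K⟮x⁻¹⟯ = K⟮x⟯ := by
  apply le_antisymm
  · rw [IntermediateField.adjoin_simple_le_iff]
    exact inv_mem (IntermediateField.mem_adjoin_simple_self K x)
  · rw [IntermediateField.adjoin_simple_le_iff]
    have := inv_mem (IntermediateField.mem_adjoin_simple_self K x⁻¹)
    rwa [inv_inv] at this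

theorem BL_Vq_jT : Vq M q A hA (Vq M q A hA (jT A M)) = jT A M ^ (q ^ 2) := by
  have : CharP (kk A) q := Fermat.Agent.S18Lib.charP_kk A hA
  have h1 : Vq M q A hA (jT A M) = jT A M ^ q := Subtype.ext (qExpand_jqModC_eq_pow q (kk A))
  rw [h1, map_pow, h1, ← pow_mul, sq]

include hqM hA in
theorem BL_fin (B : BrData M q w ζ i ζ₂) {h : FB (q ^ 2 * M)}
    (hreg : ∀ v : Place Qb (FB (q ^ 2 * M)),
      0 ≤ v.ord (JF (q ^ 2 * M) 1 (one_dvd _)) → 0 ≤ v.ord h)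
    {a c b : ℤ} {ra rc rb : LaurentSeries (kk A)} (T : BLTri A w (i 1) a c b ra rc rb h)
    (ha : 0 ≤ a) (hc : 0 ≤ c) (hb : 0 ≤ b) (P : Place (kk A) (FT A M))
    (hP : 0 ≤ P.ord (jT A M)) (U : FT A M) :
    (a = 0 → (U : LaurentSeries (kk A)) = ra → 0 ≤ P.ord U) ∧
    (c = 0 → (U : LaurentSeries (kk A)) = rc → 0 ≤ P.ord U) ∧
    (b = 0 → (U : LaurentSeries (kk A)) = rb → 0 ≤ P.ord U) := by
  have I := BL_master hqM A hA B ⟨jBar M, BL_jBar_mem hqM A hA⟩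
    (by rw [BL_redC_jBar]; exact transcendental_jT A M)
    (by
      rw [BL_redC_jBar]
      show Module.finrank Qb⟮jBar M⟯ (FB M) ≤ _
      rw [finrank_eq_index M]
      exact idx_le_finrank_FT M hqM A hA)
    (h := h) (by
      intro v hv
      apply hreg v
      rw [← BL_aHom_jBar]
      exact hv) T ha hc hb P U
  rw [BL_redC_jBar, BL_Vq_jT, pl_ord_pow] at I
  exact ⟨fun h1 h2 => I.1 h1 h2 hP, fun h1 h2 => I.2.1 h1 h2 hP,
    fun h1 h2 => I.2.2 h1 h2 (mul_nonneg (Nat.cast_nonneg _) hP)⟩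

include hqM hA in
theorem BL_infty (B : BrData M q w ζ i ζ₂) {h : FB (q ^ 2 * M)}
    (hreg : ∀ v : Place Qb (FB (q ^ 2 * M)),
      v.ord (JF (q ^ 2 * M) 1 (one_dvd _)) ≤ 0 → 0 ≤ v.ord h)
    {a c b : ℤ} {ra rc rb : LaurentSeries (kk A)} (T : BLTri A w (i 1) a c b ra rc rb h)
    (ha : 0 ≤ a) (hc : 0 ≤ c) (hb : 0 ≤ b) (P : Place (kk A) (FT A M))
    (hP : P.ord (jT A M) < 0) (U : FT A M) :
    (a = 0 → (U : LaurentSeries (kk A)) = ra → 0 ≤ P.ord U) ∧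
    (c = 0 → (U : LaurentSeries (kk A)) = rc → 0 ≤ P.ord U) ∧
    (b = 0 → (U : LaurentSeries (kk A)) = rb → 0 ≤ P.ord U) := by
  obtain ⟨Y, hY1, hY2⟩ := BL_exists_inv (M := M) hqM A hA
  have I := BL_master hqM A hA B Y
    (by
      rw [hY2]
      intro hal
      exact transcendental_jT A M (IsAlgebraic.inv_iff.mp hal))
    (by
      rw [hY1, hY2, BL_adjoin_inv, BL_adjoin_inv, finrank_eq_index M]
      exact idx_le_finrank_FT M hqM A hA)
    (h := h) (by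
      intro v hv
      apply hreg v
      rw [hY1, map_inv₀, BL_aHom_jBar, v.ord_inv] at hv
      omega) T ha hc hb P U
  rw [hY2, map_inv₀, map_inv₀, BL_Vq_jT, P.ord_inv, P.ord_inv, pl_ord_pow] at I
  have h0 : 0 ≤ -P.ord (jT A M) := by omega
  have h1 : 0 ≤ -(((q ^ 2 : ℕ) : ℤ) * P.ord (jT A M)) := by
    rw [← mul_neg]
    exact mul_nonneg (Nat.cast_nonneg _) h0
  exact ⟨fun h2 h3 => I.1 h2 h3 h0, fun h2 h3 => I.2.1 h2 h3 h0, fun h2 h3 => I.2.2 h2 h3 h1⟩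

end

end Fermat.Agent.S36Lib
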