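import Fermat.Agent.S36.Mod.BLMaster

/-!
# S36 (BL), part 3: regularity of the monomials
-/

set_option autoImplicit false
set_option synthInstance.maxHeartbeats 400000
set_option linter.unusedSectionVars false

open AlgebraicCurve ModularCurve Polynomial
open scoped IntermediateField

namespace Fermat.Agent.S36Lib

open Fermat.Agent.S18Lib Fermat.Agent.S24Lib Fermat.Agent.S28Lib Fermat.Agent.ESLib
  Fermat.Agent.S34Lib Fermat.Agent.FFLib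

noncomputable section

section Abs

variable {K F : Type*} [Field K] [Field F] [Algebra K F]

theorem BL_ge_pow (v : Place K F) {n : ℤ} {x : F} (hx : D2_ge v n x) (s : ℕ) :
    D2_ge v (s * n) (x ^ s) := by
  induction s with
  | zero =>
    rw [Nat.cast_zero, zero_mul, pow_zero]
    exact Or.inr (by rw [Place.ord_one])
  | succ s ih =>
    rw [pow_succ, Nat.cast_succ, add_mul, one_mul]
    exact D2.ge_mul v ih hx

theorem BL_ord_nonneg (v : Place K F) {x : F} (hx : D2_ge v 0 x) : 0 ≤ v.ord x := by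
  rcases hx with rfl | hx
  · rw [Place.ord_zero]
  · exact hx

theorem BL_L_fin [IsAlgClosed K] (h : IsFF K F) {J x : F} {m : ℕ}
    (hx : x ∈ riemannRochSpace (m • poleDiv K J)) (v : Place K F) (hv : 0 ≤ v.ord J) :
    D2_ge v 0 x := by
  have h1 := mem_L_iff.mp hx v
  rw [Finsupp.smul_apply, poleDiv_apply h, max_eq_right (by omega), smul_zero, neg_zero] at h1
  exact h1

theorem BL_L_inf [IsAlgClosed K] (h : IsFF K F) {J x : F} {m : ℕ}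
    (hx : x ∈ riemannRochSpace (m • poleDiv K J)) (v : Place K F) (hv : v.ord J ≤ 0) :
    D2_ge v (m * v.ord J) x := by
  have h1 := mem_L_iff.mp hx v
  rw [Finsupp.smul_apply, poleDiv_apply h, max_eq_left (by omega), nsmul_eq_mul, mul_neg,
    neg_neg] at h1
  exact h1

end Abs

variable {M q : ℕ} [NeZero M] [NeZero q]

theorem BL_ord_q12 (v : Place Qb (FB (q ^ 2 * M))) (a : ℤ) :
    v.ord ((qF (q ^ 2 * M) q ^ 12) ^ a) = 0 := by
  rw [v.ord_zpow, pl_ord_pow]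
  unfold qF
  rw [ord_algebraMap, mul_zero, mul_zero]

theorem BL_reg_mon (v : Place Qb (FB (q ^ 2 * M))) {g : FB (q ^ 2 * M)} {n1 m1 m2 : ℤ} (s : ℕ)
    (a b c d : ℤ) (hg : D2_ge v n1 (g ^ s)) (h1 : D2_ge v m1 (et1 M q ^ b))
    (h2 : D2_ge v m2 (et2 M q ^ c))
    (hsum : 0 ≤ n1 + m1 + m2 + d * v.ord (JF (q ^ 2 * M) 1 (one_dvd _))) :
    0 ≤ v.ord (BL_mon M q g s a b c d) := by
  apply BL_ord_nonneg
  have h3 : D2_ge v 0 ((qF (q ^ 2 * M) q ^ 12) ^ a) := Or.inr (BL_ord_q12 v a).ge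
  have h4 : D2_ge v (d * v.ord (JF (q ^ 2 * M) 1 (one_dvd _)))
      (JF (q ^ 2 * M) 1 (one_dvd _) ^ d) := Or.inr (v.ord_zpow _ d).ge
  have h5 := D2.ge_mul v (D2.ge_mul v (D2.ge_mul v (D2.ge_mul v hg h3) h1) h2) h4
  exact D2.ge_mono v (by omega) h5

theorem BL_et1_fin (v : Place Qb (FB (q ^ 2 * M)))
    (hv : 0 ≤ v.ord (JF (q ^ 2 * M) 1 (one_dvd _))) (b : ℤ) : D2_ge v 0 (et1 M q ^ b) := by
  refine Or.inr ?_
  rw [v.ord_zpow]
  unfold et1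
  rw [etaF_ord _ _ _ _ _ v hv, mul_zero]

theorem BL_et2_fin (v : Place Qb (FB (q ^ 2 * M)))
    (hv : 0 ≤ v.ord (JF (q ^ 2 * M) 1 (one_dvd _))) (b : ℤ) : D2_ge v 0 (et2 M q ^ b) := by
  refine Or.inr ?_
  rw [v.ord_zpow]
  unfold et2
  rw [etaF_ord _ _ _ _ _ v hv, mul_zero]

/-- `f₁^(-r)` -/
theorem BL_et1_neg (v : Place Qb (FB (q ^ 2 * M)))
    (hv : v.ord (JF (q ^ 2 * M) 1 (one_dvd _)) ≤ 0) (r : ℕ) :
    D2_ge v (r * (((q - 1 : ℕ) : ℤ) * v.ord (JF (q ^ 2 * M) 1 (one_dvd _))))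
      (et1 M q ^ (-(r : ℤ))) := by
  rw [zpow_neg, zpow_natCast, ← inv_pow]
  apply BL_ge_pow
  unfold et1
  rw [etaF_inv]
  exact BL_L_inf (isFF_bar _) (etaF_one_mem_L _ _ _) v hv

/-- `f₁^(q r)` -/
theorem BL_et1_pos (v : Place Qb (FB (q ^ 2 * M)))
    (hv : v.ord (JF (q ^ 2 * M) 1 (one_dvd _)) ≤ 0) (r : ℕ) :
    D2_ge v (r * (((q - 1 : ℕ) : ℤ) * v.ord (JF (q ^ 2 * M) 1 (one_dvd _))))
      (et1 M q ^ ((q : ℤ) * r)) := by
  rw [zpow_mul, zpow_natCast, zpow_natCast]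
  apply BL_ge_pow
  unfold et1
  exact BL_L_inf (isFF_bar _) (etaF_pow_mem_L _ _ _) v hv

/-- `f₂^(-r)` -/
theorem BL_et2_neg (v : Place Qb (FB (q ^ 2 * M)))
    (hv : v.ord (JF (q ^ 2 * M) 1 (one_dvd _)) ≤ 0) (r : ℕ) :
    D2_ge v (r * (((q * (q - 1) : ℕ) : ℤ) * v.ord (JF (q ^ 2 * M) 1 (one_dvd _))))
      (et2 M q ^ (-(r : ℤ))) := by
  rw [zpow_neg, zpow_natCast, ← inv_pow]
  apply BL_ge_pow
  unfold et2
  rw [etaF_inv]
  exact BL_L_inf (isFF_bar _) (etaF_q_mem_L _ _ _ _) v hv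

/-- `f₂^r` -/
theorem BL_et2_pos (v : Place Qb (FB (q ^ 2 * M)))
    (hv : v.ord (JF (q ^ 2 * M) 1 (one_dvd _)) ≤ 0) (r : ℕ) :
    D2_ge v (r * (((q - 1 : ℕ) : ℤ) * v.ord (JF (q ^ 2 * M) 1 (one_dvd _))))
      (et2 M q ^ (r : ℤ)) := by
  rw [zpow_natCast]
  apply BL_ge_pow
  unfold et2
  exact BL_L_inf (isFF_bar _) (etaF_qq_mem_L _ _ _ _) v hv

end

end Fermat.Agent.S36Lib
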