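import Fermat.Agent.S36.Mod.Int1
import Fermat.Agent.S34.ModDefs
import Fermat.Agent.S34.Frob
import Fermat.Agent.S18.PoleLemma
import Fermat.Agent.S18.ResField

/-!
# S36 (INT2): regular + integral on all branches ⇒ the reductions are regular
-/

set_option autoImplicit false
set_option synthInstance.maxHeartbeats 400000
set_option linter.unusedSectionVars false
set_option linter.style.haveILetI false

open AlgebraicCurve ModularCurve Polynomial
open scoped IntermediateField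

namespace Fermat.Agent.S36Lib

open Fermat.Agent.S18Lib Fermat.Agent.S24Lib Fermat.Agent.S28Lib Fermat.Agent.ESLib
  Fermat.Agent.S34Lib Fermat.Agent.FFLib

noncomputable section

/-- abstract reduction of a monic equation -/
theorem INT2_abs {F F' L Lk Ft : Type*} [Field F] [Field F'] [Field L] [Field Lk] [Field Ft]
    (O : Subring F) (G : Subring L) (red : O →+* Ft) (gr : G →+* Lk) (ι : Ft →+* Lk)
    (φ : F →+* F') (e : F' →+* L) (Vb : Ft →+* Ft)
    (hmem : ∀ c : O, e (φ (c : F)) ∈ G)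
    (hred : ∀ c : O, gr ⟨e (φ (c : F)), hmem c⟩ = ι (Vb (red c)))
    (P : F[X]) (hPm : P.Monic) (hPc : ∀ k, P.coeff k ∈ O) (h : F') (hP0 : P.eval₂ φ h = 0)
    (hh : e h ∈ G) (u : Ft) (hu : ι u = gr ⟨e h, hh⟩) :
    ∃ Pb : Ft[X], Pb.Monic ∧ (∀ k, Pb.coeff k = Vb (red ⟨P.coeff k, hPc k⟩)) ∧
      Pb.eval u = 0 := by
  have hl : P ∈ Polynomial.lifts O.subtype := by
    rw [Polynomial.lifts_iff_coeff_lifts]
    intro n
    exact ⟨⟨P.coeff n, hPc n⟩, rfl⟩
  obtain ⟨P', hP', -, hP'm⟩ := Polynomial.lifts_and_degree_eq_and_monic hl hPm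
  let ψ : O →+* G := RingHom.codRestrict ((e.comp φ).comp O.subtype) G hmem
  have h1 : P'.eval₂ ψ ⟨e h, hh⟩ = 0 := by
    apply Subtype.ext
    have h2 := Polynomial.hom_eval₂ P' ψ G.subtype ⟨e h, hh⟩
    have h3 : G.subtype.comp ψ = (e.comp φ).comp O.subtype := by
      ext c
      rfl
    rw [h3] at h2
    show G.subtype (P'.eval₂ ψ ⟨e h, hh⟩) = 0
    rw [h2]
    show P'.eval₂ ((e.comp φ).comp O.subtype) (e h) = 0
    rw [← Polynomial.eval₂_map, hP', ← Polynomial.hom_eval₂, hP0, map_zero]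
  have h4 := congrArg gr h1
  rw [Polynomial.hom_eval₂, map_zero, ← hu] at h4
  have h5 : gr.comp ψ = ι.comp (Vb.comp red) := by
    ext c
    exact hred c
  rw [h5, ← Polynomial.hom_eval₂] at h4
  have h6 : P'.eval₂ (Vb.comp red) u = 0 := (map_eq_zero ι).mp h4
  refine ⟨P'.map (Vb.comp red), hP'm.map _, fun k => ?_, ?_⟩
  · rw [Polynomial.coeff_map]
    have : P'.coeff k = ⟨P.coeff k, hPc k⟩ := by
      apply Subtype.ext
      show (P'.coeff k : F) = P.coeff k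
      conv_rhs => rw [← hP', Polynomial.coeff_map]
      rfl
    rw [this]
    rfl
  · rw [Polynomial.eval_map]
    exact h6

variable {M q : ℕ} [NeZero M] [NeZero q] [hqF : Fact q.Prime] (hqM : ¬ q ∣ M)
variable {w : FB (q ^ 2 * M) ≃ₐ[Qb] FB (q ^ 2 * M)} {ζ : Qbˣ}
  {i : ℕ → FB (q ^ 2 * M) →ₐ[Qb] LaurentSeries Qb} {ζ₂ : Qbˣ}

variable (A : ValuationSubring Qb) (hA : A.LiesOverPrime q)

/-- `V_q` on `FT A M` as a `kk A`-algebra hom -/
def INT2_VqAlg : FT A M →ₐ[kk A] FT A M :=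
  { Vq M q A hA with
    commutes' := fun c => by
      apply Subtype.ext
      show qExpand (kk A) q ((algebraMap (kk A) (FT A M) c : FT A M) : LaurentSeries (kk A)) =
        ((algebraMap (kk A) (FT A M) c : FT A M) : LaurentSeries (kk A))
      have : ((algebraMap (kk A) (FT A M) c : FT A M) : LaurentSeries (kk A)) =
          HahnSeries.C c := by
        have h1 : ((algebraMap (kk A) (FT A M) c : FT A M) : LaurentSeries (kk A)) =
          algebraMap (kk A) (LaurentSeries (kk A)) c := rfl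
        rw [h1, algebraMap_laurentSeries_eq_single]
        rfl
      rw [this, qExpand_C] }

theorem INT2_VqAlg_apply (x : FT A M) : INT2_VqAlg A hA x = Vq M q A hA x := rfl

theorem INT2_coe_VV (x : FT A M) :
    ((Vq M q A hA (Vq M q A hA x) : FT A M) : LaurentSeries (kk A)) =
      qExpand (kk A) (q ^ 2) (x : LaurentSeries (kk A)) := by
  show qExpand (kk A) q (qExpand (kk A) q (x : LaurentSeries (kk A))) = _
  rw [qExpand_qExpand]
  exact qExpand_congr (sq q).symm _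

theorem INT2_conc (e : FB (q ^ 2 * M) →+* LaurentSeries Qb) (Vb : FT A M →+* FT A M)
    (hmem : ∀ c : OC M hqM A hA, e (aHom (dvdM M q) (c : FB M)) ∈ gRing A)
    (hred : ∀ c : OC M hqM A hA, gRed A ⟨_, hmem c⟩ =
      ((Vb (redC M hqM A hA c) : FT A M) : LaurentSeries (kk A)))
    (Q : (FB M)[X]) (hQm : Q.Monic) (hQc : ∀ k, Q.coeff k ∈ OC M hqM A hA) (h : FB (q ^ 2 * M))
    (hQ0 : Q.eval₂ (aHom (dvdM M q) : FB M →+* FB (q ^ 2 * M)) h = 0)
    (hh : e h ∈ gRing A) (u : FT A M) (hu : (u : LaurentSeries (kk A)) = gRed A ⟨e h, hh⟩) :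
    ∃ Pb : (FT A M)[X], Pb.Monic ∧
      (∀ k, Pb.coeff k = Vb (redC M hqM A hA ⟨Q.coeff k, hQc k⟩)) ∧ Pb.eval u = 0 :=
  INT2_abs (OC M hqM A hA).toSubring (gRing A)
      (redC M hqM A hA) (gRed A) ((FT A M).val : FT A M →+* LaurentSeries (kk A))
      (aHom (dvdM M q) : FB M →+* FB (q ^ 2 * M)) e Vb hmem hred Q hQm hQc h hQ0 hh u hu

theorem INT2_gRed_congr {x y : LaurentSeries Qb} (hx : x ∈ gRing A) (hy : y ∈ gRing A)
    (h : x = y) : gRed A ⟨x, hx⟩ = gRed A ⟨y, hy⟩ := by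
  subst h
  rfl

/-- a branch which is the identity on `FB M` -/
theorem INT2_id (e : FB (q ^ 2 * M) →+* LaurentSeries Qb)
    (he : ∀ c : FB M, e (aHom (dvdM M q) c) = (c : LaurentSeries Qb))
    (Q : (FB M)[X]) (hQm : Q.Monic) (hQc : ∀ k, Q.coeff k ∈ OC M hqM A hA) (h : FB (q ^ 2 * M))
    (hQ0 : Q.eval₂ (aHom (dvdM M q) : FB M →+* FB (q ^ 2 * M)) h = 0)
    (hh : e h ∈ gRing A) (u : FT A M) (hu : (u : LaurentSeries (kk A)) = gRed A ⟨e h, hh⟩) :
    ∃ Pb : (FT A M)[X], Pb.Monic ∧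
      (∀ k, Pb.coeff k = redC M hqM A hA ⟨Q.coeff k, hQc k⟩) ∧ Pb.eval u = 0 :=
  INT2_conc hqM A hA e (RingHom.id _)
    (fun c => by rw [he]; exact c.2)
    (fun c => INT2_gRed_congr A _ c.2 (he _)) Q hQm hQc h hQ0 hh u hu

/-- a branch which is `V_{q²}` on `FB M` -/
theorem INT2_VV (e : FB (q ^ 2 * M) →+* LaurentSeries Qb)
    (he : ∀ c : FB M, e (aHom (dvdM M q) c) = qExpand Qb (q ^ 2) (c : LaurentSeries Qb))
    (Q : (FB M)[X]) (hQm : Q.Monic) (hQc : ∀ k, Q.coeff k ∈ OC M hqM A hA) (h : FB (q ^ 2 * M))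
    (hQ0 : Q.eval₂ (aHom (dvdM M q) : FB M →+* FB (q ^ 2 * M)) h = 0)
    (hh : e h ∈ gRing A) (u : FT A M) (hu : (u : LaurentSeries (kk A)) = gRed A ⟨e h, hh⟩) :
    ∃ Pb : (FT A M)[X], Pb.Monic ∧
      (∀ k, Pb.coeff k = Vq M q A hA (Vq M q A hA (redC M hqM A hA ⟨Q.coeff k, hQc k⟩))) ∧
      Pb.eval u = 0 :=
  INT2_conc hqM A hA e ((Vq M q A hA).comp (Vq M q A hA))
    (fun c => by rw [he]; exact qExpand_mem_gRing A (q ^ 2) c.2)
    (fun c => by
      rw [INT2_gRed_congr A _ (qExpand_mem_gRing A (q ^ 2) c.2) (he _), gRed_qExpand]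
      exact (INT2_coe_VV (M := M) (q := q) A hA (redC M hqM A hA c)).symm) Q hQm hQc h hQ0 hh u hu

theorem INT2_transc (X : OC M hqM A hA)
    (hX : Transcendental (kk A) (redC M hqM A hA X)) :
    Transcendental Qb ((X : OC M hqM A hA) : FB M) :=
  transcendental_of_red (RM M q hqM A hA) X hX

theorem INT2_red_reg (X : OC M hqM A hA)
    (hX : Transcendental (kk A) (redC M hqM A hA X))
    (hdeg : Module.finrank Qb⟮((X : OC M hqM A hA) : FB M)⟯ (FB M) ≤
      Module.finrank (kk A)⟮redC M hqM A hA X⟯ (FT A M))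
    (c : OC M hqM A hA)
    (hc : ∀ v : Place Qb (FB M), 0 ≤ v.ord ((X : OC M hqM A hA) : FB M) →
      0 ≤ v.ord ((c : OC M hqM A hA) : FB M))
    (v : Place (kk A) (FT A M)) (hv : 0 ≤ v.ord (redC M hqM A hA X)) :
    0 ≤ v.ord (redC M hqM A hA c) := by
  haveI : IsAlgClosed (kk A) := isAlgClosed_kk A
  exact red_ord_nonneg (isFF_FB M) (isFF_FT A M) (RM M q hqM A hA) X hX hdeg c hc v hv

theorem INT2_red_reg_VV (X : OC M hqM A hA)
    (hX : Transcendental (kk A) (redC M hqM A hA X))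
    (hdeg : Module.finrank Qb⟮((X : OC M hqM A hA) : FB M)⟯ (FB M) ≤
      Module.finrank (kk A)⟮redC M hqM A hA X⟯ (FT A M))
    (c : OC M hqM A hA)
    (hc : ∀ v : Place Qb (FB M), 0 ≤ v.ord ((X : OC M hqM A hA) : FB M) →
      0 ≤ v.ord ((c : OC M hqM A hA) : FB M))
    (v : Place (kk A) (FT A M))
    (hv : 0 ≤ v.ord (Vq M q A hA (Vq M q A hA (redC M hqM A hA X)))) :
    0 ≤ v.ord (Vq M q A hA (Vq M q A hA (redC M hqM A hA c))) := by
  haveI : IsAlgClosed (kk A) := isAlgClosed_kk A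
  have h1 : IntOver (kk A) (redC M hqM A hA X) (redC M hqM A hA c) :=
    intOver_of_regular (isFF_FT A M) hX (fun v' hv' => INT2_red_reg hqM A hA X hX hdeg c hc v' hv')
  have h2 := (h1.map (INT2_VqAlg (M := M) A hA)).map (INT2_VqAlg (M := M) A hA)
  exact regular_of_intOver h2 v hv

/-- (INT2) the reductions are regular -/
theorem int_branch (B : BrData M q w ζ i ζ₂) (X : OC M hqM A hA)
    (hX : Transcendental (kk A) (redC M hqM A hA X))
    (hdeg : Module.finrank Qb⟮((X : OC M hqM A hA) : FB M)⟯ (FB M) ≤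
      Module.finrank (kk A)⟮redC M hqM A hA X⟯ (FT A M))
    (h : FB (q ^ 2 * M))
    (hreg : ∀ v : Place Qb (FB (q ^ 2 * M)),
      0 ≤ v.ord (aHom (dvdM M q) ((X : OC M hqM A hA) : FB M)) → 0 ≤ v.ord h)
    (hint : AllInt A w i h) (u : FT A M) (P : Place (kk A) (FT A M)) :
    ((u : LaurentSeries (kk A)) = gRed A ⟨_, hint.inf⟩ → 0 ≤ P.ord (redC M hqM A hA X) →
      0 ≤ P.ord u) ∧
    (∀ (a : ℕ) (ha : ¬ q ∣ a), (u : LaurentSeries (kk A)) = gRed A ⟨_, hint.mid a ha⟩ →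
      0 ≤ P.ord (redC M hqM A hA X) → 0 ≤ P.ord u) ∧
    ((u : LaurentSeries (kk A)) = gRed A ⟨_, hint.zero⟩ →
      0 ≤ P.ord (Vq M q A hA (Vq M q A hA (redC M hqM A hA X))) → 0 ≤ P.ord u) := by
  obtain ⟨Q, hQm, hQc, hQr, hQ0⟩ := exists_good_poly hqM A hA B _
    (INT2_transc hqM A hA X hX) h hreg hint
  refine ⟨fun hu hP => ?_, fun a ha hu hP => ?_, fun hu hP => ?_⟩
  · obtain ⟨Pb, hPbm, hPbc, hPb0⟩ := INT2_id hqM A hA (eInf (q ^ 2 * M))
      (fun c => by rw [eInf_apply, coe_aHom]) Q hQm hQc h hQ0 hint.inf u hu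
    refine ord_nonneg_of_root P Pb hPbm (fun k => ?_) hPb0
    rw [hPbc]
    exact INT2_red_reg hqM A hA X hX hdeg ⟨Q.coeff k, hQc k⟩ (hQr k) P hP
  · obtain ⟨Pb, hPbm, hPbc, hPb0⟩ := INT2_id hqM A hA
      (i a : FB (q ^ 2 * M) →+* LaurentSeries Qb)
      (fun c => by
        obtain ⟨c, hc⟩ := c
        rw [aHom_eq]
        exact (B.mid a ha).apply_of_mem c (FB_le_of_dvd (dvd_mul_left M q) hc) _)
      Q hQm hQc h hQ0 (hint.mid a ha) u hu
    refine ord_nonneg_of_root P Pb hPbm (fun k => ?_) hPb0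
    rw [hPbc]
    exact INT2_red_reg hqM A hA X hX hdeg ⟨Q.coeff k, hQc k⟩ (hQr k) P hP
  · obtain ⟨Pb, hPbm, hPbc, hPb0⟩ := INT2_VV hqM A hA (eZero w)
      (fun c => by
        obtain ⟨c, hc⟩ := c
        rw [aHom_eq, eZero_apply]
        exact wQ_eq_qExpand (q ^ 2) M w B.al.gen c hc _)
      Q hQm hQc h hQ0 hint.zero u hu
    refine ord_nonneg_of_root P Pb hPbm (fun k => ?_) hPb0
    rw [hPbc]
    exact INT2_red_reg_VV hqM A hA X hX hdeg ⟨Q.coeff k, hQc k⟩ (hQr k) P hP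

end

end Fermat.Agent.S36Lib
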