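import Fermat.Agent.S36.Mod.EtaTable
import Fermat.Agent.S36.Mod.EtaL
import Fermat.Agent.S36.Mod.EtaH
import Fermat.Agent.S36.Mod.ValV1
import Fermat.Agent.S36.Mod.Int2

/-!
# S36 (BL), part 1: the calculus of valuations / reductions on the three branches
-/

set_option autoImplicit false
set_option synthInstance.maxHeartbeats 400000
set_option linter.unusedSectionVars false

open AlgebraicCurve ModularCurve Polynomial
open scoped IntermediateField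

namespace Fermat.Agent.S36Lib

open Fermat.Agent.S18Lib Fermat.Agent.S24Lib Fermat.Agent.S28Lib Fermat.Agent.ESLib
  Fermat.Agent.S34Lib Fermat.Agent.FFLib

noncomputable section

/-! ## one branch -/

section One

variable {A : ValuationSubring Qb} {N : ℕ} {e : FB N →+* LaurentSeries Qb} {ϖ : FB N}

/-- `v(g) ≥ a` with reduction `r` -/
def BLBr (A : ValuationSubring Qb) {N : ℕ} (e : FB N →+* LaurentSeries Qb) (ϖ : FB N) (a : ℤ)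
    (r : LaurentSeries (kk A)) (g : FB N) : Prop :=
  Ge A e ϖ a g ∧ rd A e ϖ a g = r

theorem BLBr.congr {a a' : ℤ} {r r' : LaurentSeries (kk A)} {g : FB N} (h : BLBr A e ϖ a r g)
    (ha : a = a') (hr : r = r') : BLBr A e ϖ a' r' g := by
  subst ha hr
  exact h

theorem BLBr.mul (hϖ : ϖ ≠ 0) {a b : ℤ} {r s : LaurentSeries (kk A)} {g h : FB N}
    (hg : BLBr A e ϖ a r g) (hh : BLBr A e ϖ b s h) : BLBr A e ϖ (a + b) (r * s) (g * h) :=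
  ⟨hg.1.mul hϖ hh.1, by rw [rd_mul hϖ hg.1 hh.1, hg.2, hh.2]⟩

theorem BLBr.pow (hϖ : ϖ ≠ 0) {a : ℤ} {r : LaurentSeries (kk A)} {g : FB N}
    (hg : BLBr A e ϖ a r g) (n : ℕ) : BLBr A e ϖ (n * a) (r ^ n) (g ^ n) :=
  ⟨hg.1.pow hϖ n, by rw [rd_pow hϖ hg.1, hg.2]⟩

theorem BLBr.inv (hϖ : ϖ ≠ 0) {a : ℤ} {r : LaurentSeries (kk A)} {g : FB N}
    (hg : BLBr A e ϖ a r g) (hr : r ≠ 0) : BLBr A e ϖ (-a) r⁻¹ g⁻¹ := by
  have hr' : rd A e ϖ a g ≠ 0 := by rw [hg.2]; exact hr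
  exact ⟨hg.1.inv hϖ hr', by rw [rd_inv hϖ hg.1 hr', hg.2]⟩

theorem BLBr.zpow (hϖ : ϖ ≠ 0) {a : ℤ} {r : LaurentSeries (kk A)} {g : FB N}
    (hg : BLBr A e ϖ a r g) (hr : r ≠ 0) (k : ℤ) : BLBr A e ϖ (k * a) (r ^ k) (g ^ k) := by
  obtain ⟨n, rfl | rfl⟩ := k.eq_nat_or_neg
  · rw [zpow_natCast, zpow_natCast]
    exact hg.pow hϖ n
  · rw [zpow_neg, zpow_neg, zpow_natCast, zpow_natCast, neg_mul]
    exact (hg.pow hϖ n).inv hϖ (pow_ne_zero n hr)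

theorem BLBr.unif (hϖ : ϖ ≠ 0) (a : ℤ) : BLBr A e ϖ a 1 (ϖ ^ a) :=
  ⟨ge_unif_zpow hϖ a, rd_unif_zpow hϖ a⟩

theorem BLBr.of_eq {g : FB N} {x : LaurentSeries Qb} (hx : x ∈ gRing A) (h : e g = x) :
    BLBr A e ϖ 0 (gRed A ⟨x, hx⟩) g := by
  have h' : e (ϖ ^ (-(0 : ℤ)) * g) = x := by rw [neg_zero, zpow_zero, one_mul, h]
  exact ⟨API_ge_of_eq hx h', API_rd_eq hx h'⟩

theorem BLBr.mem {r : LaurentSeries (kk A)} {g : FB N} (h : BLBr A e ϖ 0 r g) : e g ∈ gRing A := by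
  have := h.1
  unfold Ge at this
  rwa [neg_zero, zpow_zero, one_mul] at this

theorem BLBr.gRed_eq {r : LaurentSeries (kk A)} {g : FB N} (h : BLBr A e ϖ 0 r g)
    (hm : e g ∈ gRing A) : gRed A ⟨e g, hm⟩ = r := by
  rw [← h.2, API_rd_eq hm (by rw [neg_zero, zpow_zero, one_mul])]

theorem BLBr.mem_of_nonneg (hB : IsBranch A e ϖ) {a : ℤ} (ha : 0 ≤ a) {r : LaurentSeries (kk A)}
    {g : FB N} (h : BLBr A e ϖ a r g) : e g ∈ gRing A := by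
  have := hB.ge_mono ha h.1
  unfold Ge at this
  rwa [neg_zero, zpow_zero, one_mul] at this

end One

/-! ## three branches -/

section Three

variable {M q : ℕ} [NeZero M] [NeZero q]
variable {A : ValuationSubring Qb} {w : FB (q ^ 2 * M) ≃ₐ[Qb] FB (q ^ 2 * M)}
  {i1 : FB (q ^ 2 * M) →ₐ[Qb] LaurentSeries Qb}

/-- valuations `≥ (a, c, b)` and reductions `(ra, rc, rb)` on the branches `(∞, mid, 0)` -/
structure BLTri (A : ValuationSubring Qb) (w : FB (q ^ 2 * M) ≃ₐ[Qb] FB (q ^ 2 * M))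
    (i1 : FB (q ^ 2 * M) →ₐ[Qb] LaurentSeries Qb) (a c b : ℤ)
    (ra rc rb : LaurentSeries (kk A)) (x : FB (q ^ 2 * M)) : Prop where
  fix : IsFix A (q ^ 2 * M) x
  inf : BLBr A (eInf (q ^ 2 * M)) (qF (q ^ 2 * M) q) a ra x
  mid : BLBr A (i1 : FB (q ^ 2 * M) →+* LaurentSeries Qb) (piF M q) c rc x
  zero : BLBr A (eZero w) (qF (q ^ 2 * M) q) b rb x

theorem BL_qF_ne_zero (N q : ℕ) [NeZero q] : qF N q ≠ 0 := by
  unfold qF
  rw [Ne, map_eq_zero]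
  exact_mod_cast NeZero.ne q

theorem BLTri.congr {a c b a' c' b' : ℤ} {ra rc rb ra' rc' rb' : LaurentSeries (kk A)}
    {x : FB (q ^ 2 * M)} (h : BLTri A w i1 a c b ra rc rb x) (ha : a = a') (hc : c = c')
    (hb : b = b') (hra : ra = ra') (hrc : rc = rc') (hrb : rb = rb') :
    BLTri A w i1 a' c' b' ra' rc' rb' x := by
  subst ha hc hb hra hrc hrb
  exact h

theorem BLTri.mul (hπ : piF M q ≠ 0) {a c b a' c' b' : ℤ}
    {ra rc rb ra' rc' rb' : LaurentSeries (kk A)} {x y : FB (q ^ 2 * M)}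
    (hx : BLTri A w i1 a c b ra rc rb x) (hy : BLTri A w i1 a' c' b' ra' rc' rb' y) :
    BLTri A w i1 (a + a') (c + c') (b + b') (ra * ra') (rc * rc') (rb * rb') (x * y) :=
  ⟨hx.fix.mul hy.fix, hx.inf.mul (BL_qF_ne_zero _ q) hy.inf, hx.mid.mul hπ hy.mid,
    hx.zero.mul (BL_qF_ne_zero _ q) hy.zero⟩

theorem BLTri.pow (hπ : piF M q ≠ 0) {a c b : ℤ} {ra rc rb : LaurentSeries (kk A)}
    {x : FB (q ^ 2 * M)} (hx : BLTri A w i1 a c b ra rc rb x) (n : ℕ) :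
    BLTri A w i1 (n * a) (n * c) (n * b) (ra ^ n) (rc ^ n) (rb ^ n) (x ^ n) :=
  ⟨hx.fix.pow n, hx.inf.pow (BL_qF_ne_zero _ q) n, hx.mid.pow hπ n,
    hx.zero.pow (BL_qF_ne_zero _ q) n⟩

theorem BLTri.zpow (hπ : piF M q ≠ 0) {a c b : ℤ} {ra rc rb : LaurentSeries (kk A)}
    {x : FB (q ^ 2 * M)} (hx : BLTri A w i1 a c b ra rc rb x) (h1 : ra ≠ 0) (h2 : rc ≠ 0)
    (h3 : rb ≠ 0) (k : ℤ) :
    BLTri A w i1 (k * a) (k * c) (k * b) (ra ^ k) (rc ^ k) (rb ^ k) (x ^ k) :=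
  ⟨hx.fix.zpow k, hx.inf.zpow (BL_qF_ne_zero _ q) h1 k, hx.mid.zpow hπ h2 k,
    hx.zero.zpow (BL_qF_ne_zero _ q) h3 k⟩

end Three

/-! ## the basic elements -/

section Base

variable {M q : ℕ} [NeZero M] [NeZero q] [hqF : Fact q.Prime] (hqM : ¬ q ∣ M)
variable {w : FB (q ^ 2 * M) ≃ₐ[Qb] FB (q ^ 2 * M)} {ζ : Qbˣ}
  {i : ℕ → FB (q ^ 2 * M) →ₐ[Qb] LaurentSeries Qb} {ζ₂ : Qbˣ}
variable (A : ValuationSubring Qb) (hA : A.LiesOverPrime q)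

/-- `j̄⁴ (j̄ - 1728)³` as a series -/
def BL_E (κ : Type) [Field κ] : LaurentSeries κ := jqModC κ ^ 4 * (jqModC κ - 1728) ^ 3

theorem BL_not_dvd_one : ¬ q ∣ 1 := fun h => hqF.out.one_lt.ne' (Nat.dvd_one.mp h)

theorem BL_mid_one (B : BrData M q w ζ i ζ₂) : IsIMid M q ζ (i 1) := by
  have := B.mid 1 BL_not_dvd_one
  rwa [pow_one] at this

include hA in
theorem BL_branch_mid (B : BrData M q w ζ i ζ₂) :
    IsBranch A (i 1 : FB (q ^ 2 * M) →+* LaurentSeries Qb) (piF M q) :=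
  isBranch_mid A hqF.out hA M ζ B.prim (BL_mid_one B)

include hA in
theorem BL_piF_ne_zero (B : BrData M q w ζ i ζ₂) : piF M q ≠ 0 := (BL_branch_mid A hA B).ne

theorem BL_J_mem (d : ℕ) [NeZero d] : Wq_J d ∈ gRing A := by
  rw [Wq_J_eq_cE A d]
  exact cE_mem_gRing A _

theorem BL_gRed_J (d : ℕ) [NeZero d] (h : Wq_J d ∈ gRing A) :
    gRed A ⟨Wq_J d, h⟩ = qExpand (kk A) d (jqModC (kk A)) := by
  have h1 := Wq_J_eq_cE A d
  have h2 : (⟨Wq_J d, h⟩ : gRing A) = ⟨cE A _, cE_mem_gRing A _⟩ := Subtype.ext h1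
  rw [h2, gRed_cE, cR_def, ff_coeffMap_qExpand, coeffMap_jqModC]

theorem BL_qExpand_sq (κ : Type) [Field κ] [CharP κ q] :
    qExpand κ (q ^ 2) (jqModC κ) = jqModC κ ^ (q ^ 2) := by
  rw [qExpand_congr (R := κ) (sq q), ← qExpand_qExpand, qExpand_jqModC_eq_pow q κ, map_pow,
    qExpand_jqModC_eq_pow q κ, ← pow_mul, sq]

include hA in
theorem BL_tri_J (B : BrData M q w ζ i ζ₂) :
    BLTri A w (i 1) 0 0 0 (jqModC (kk A)) (jqModC (kk A)) (jqModC (kk A) ^ (q ^ 2))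
      (JF (q ^ 2 * M) 1 (one_dvd _)) := by
  have : CharP (kk A) q := Fermat.Agent.S18Lib.charP_kk A hA
  refine ⟨isFix_JF _ _ _, ?_, ?_, ?_⟩
  · refine (BLBr.of_eq (BL_J_mem A 1) rfl).congr rfl ?_
    rw [BL_gRed_J, qExpand_one_apply]
  · refine (BLBr.of_eq (BL_J_mem A 1) ((BL_mid_one B).low 1 (one_dvd _) _)).congr rfl ?_
    rw [BL_gRed_J, qExpand_one_apply]
  · have h1 : eZero w (JF (q ^ 2 * M) 1 (one_dvd _)) = Wq_J (q ^ 2) :=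
      (B.al.gen 1 1 (one_dvd _) (one_dvd _) (Wq_J_mem (one_dvd _))).trans
        (by rw [Nat.div_one, mul_one])
    refine (BLBr.of_eq (BL_J_mem A (q ^ 2)) h1).congr rfl ?_
    rw [BL_gRed_J, BL_qExpand_sq]

include hqM hA in
theorem BL_tri_et1 (B : BrData M q w ζ i ζ₂) :
    BLTri A w (i 1) 0 0 (-12) (phiL (kk A) q) (phiL (kk A) q) (phiL (kk A) q ^ q)⁻¹
      (et1 M q) :=
  ⟨isFix_etaF A _ _ _ _ _, et1_inf A, et1_mid A (BL_mid_one B), et1_zero A hqF.out hqM hA B.al⟩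

include hqM hA in
theorem BL_tri_et2 (B : BrData M q w ζ i ζ₂) :
    BLTri A w (i 1) 0 (-(12 * ((q : ℤ) - 1))) (-12) (phiL (kk A) q ^ q)
      (BL_E (kk A) ^ (2 * (q - 1)) * phiL (kk A) q) (phiL (kk A) q)⁻¹ (et2 M q) :=
  ⟨isFix_etaF A _ _ _ _ _, et2_inf A hqF.out hA, et2_mid A hqF.out hqM hA B.prim (BL_mid_one B),
    et2_zero A hqF.out hqM B.al⟩

theorem BL_j_sub_ne (κ : Type) [Field κ] (c : κ) :
    jqModC κ - algebraMap κ (LaurentSeries κ) c ≠ 0 := by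
  have h1 : Transcendental κ (jqModC κ) :=
    transcendental_iff_injective.mpr (KeyLemma.aeval_injective _ (order_jqModC κ))
  intro h
  have := (transcendental_iff.mp h1) (X - C c) (by simp [h])
  exact X_sub_C_ne_zero c this

theorem BL_j_ne_zero (κ : Type) [Field κ] : jqModC κ ≠ 0 := by
  have := BL_j_sub_ne κ 0
  rwa [map_zero, sub_zero] at this

theorem BL_E_ne_zero (κ : Type) [Field κ] : BL_E κ ≠ 0 := by
  have h := BL_j_sub_ne κ 1728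
  rw [map_ofNat] at h
  exact mul_ne_zero (pow_ne_zero _ (BL_j_ne_zero κ)) (pow_ne_zero _ h)

include hqM hA in
theorem BL_q12_mid (B : BrData M q w ζ i ζ₂) :
    BLBr A (i 1 : FB (q ^ 2 * M) →+* LaurentSeries Qb) (piF M q) (12 * ((q : ℤ) - 1))
      (phiL (kk A) q ^ 2 * BL_E (kk A) ^ (2 * (q - 1)))⁻¹ (qF (q ^ 2 * M) q ^ 12) := by
  have hπ := BL_piF_ne_zero A hA B
  have hi := BL_mid_one B
  have e2 := et2_mid A hqF.out hqM hA B.prim hi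
  have hzp : IsPrimitiveRoot (ζ : Qb) q := IsPrimitiveRoot.coe_units_iff.mpr B.prim
  have hzU : IsU A (ζ : Qb) := INT1_isU A hqF.out.pos hzp.pow_eq_one
  have hz1 : (ζ : Qb) - 1 ∈ A.nonunits := K0d_zeta_sub_one_mem A hqF.out hA hzp
  obtain ⟨hφ, hφ'⟩ := isGU_phiL A q
  have ht := twist_mem_gRing A ζ hzU hφ
  have htr := gRed_twist A ζ hzU hz1 hφ
  have ht0 : twist ζ (phiL Qb q) ≠ 0 := by
    intro h0
    apply phiL_ne_zero Qb q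
    have h1 : twistHom ζ (phiL Qb q) = 0 := h0
    exact (map_eq_zero _).mp h1
  have hq0 : (q : Qb) ≠ 0 := by exact_mod_cast NeZero.ne q
  have hc : i 1 ((qF (q ^ 2 * M) q ^ 12)⁻¹) = HahnSeries.C (((q : Qb) ^ 12)⁻¹) := by
    have : (qF (q ^ 2 * M) q ^ 12)⁻¹ = algebraMap Qb (FB (q ^ 2 * M)) (((q : Qb) ^ 12)⁻¹) := by
      rw [map_inv₀, map_pow]
      rfl
    rw [this, AlgHom.commutes, INT1_C_eq]
  have key : (i 1 : FB (q ^ 2 * M) →+* LaurentSeries Qb)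
      (piF M q ^ (-(-(12 * ((q : ℤ) - 1)))) * (qF (q ^ 2 * M) q ^ 12)⁻¹) =
      (i 1 : FB (q ^ 2 * M) →+* LaurentSeries Qb)
        (piF M q ^ (-(-(12 * ((q : ℤ) - 1)))) * et2 M q) * twist ζ (phiL Qb q) := by
    rw [map_mul, map_mul]
    show _ * i 1 _ = _ * i 1 (et2 M q) * _
    rw [hi.apply_et2 hqF.out hqM B.prim, hc, mul_assoc, mul_assoc, inv_mul_cancel₀ ht0, mul_one]
  have h1 : BLBr A (i 1 : FB (q ^ 2 * M) →+* LaurentSeries Qb) (piF M q)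
      (-(12 * ((q : ℤ) - 1))) (phiL (kk A) q ^ 2 * BL_E (kk A) ^ (2 * (q - 1)))
      (qF (q ^ 2 * M) q ^ 12)⁻¹ := by
    refine ⟨API_ge_of_eq ((gRing A).mul_mem e2.1 ht) key, ?_⟩
    rw [API_rd_eq ((gRing A).mul_mem e2.1 ht) key, API_gRed_mul e2.1 ht, ← rd_of_ge e2.1, e2.2,
      htr, gRed_phiL]
    unfold BL_E
    ring
  have h2 := h1.inv hπ (mul_ne_zero (pow_ne_zero _ (phiL_ne_zero _ q))
    (pow_ne_zero _ (BL_E_ne_zero _)))
  rwa [neg_neg, inv_inv] at h2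

include hqM hA in
theorem BL_tri_q12 (B : BrData M q w ζ i ζ₂) :
    BLTri A w (i 1) 12 (12 * ((q : ℤ) - 1)) 12 1
      (phiL (kk A) q ^ 2 * BL_E (kk A) ^ (2 * (q - 1)))⁻¹ 1 (qF (q ^ 2 * M) q ^ 12) := by
  refine ⟨(isFix_qF _ _).pow 12, ?_, BL_q12_mid hqM A hA B, ?_⟩
  · have := BLBr.unif (A := A) (e := eInf (q ^ 2 * M)) (BL_qF_ne_zero (q ^ 2 * M) q) 12
    exact this
  · have := BLBr.unif (A := A) (e := eZero w) (BL_qF_ne_zero (q ^ 2 * M) q) 12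
    exact this

theorem BL_alg1 {F : Type*} [Field F] {x : F} (hx : x ≠ 0) (n : ℕ) (b c : ℤ) :
    x ^ b * (x ^ n) ^ c = x ^ (b + n * c) := by
  rw [← zpow_natCast x n, ← zpow_mul, ← zpow_add₀ hx]

theorem BL_alg2 {F : Type*} [Field F] {x y : F} (hx : x ≠ 0) (hy : y ≠ 0) (n : ℕ) (a b c : ℤ) :
    ((x ^ 2 * y ^ n)⁻¹) ^ a * x ^ b * (y ^ n * x) ^ c =
      x ^ (b + c - 2 * a) * y ^ ((n : ℤ) * (c - a)) := by
  have h1 : x ^ (b + c - 2 * a) = ((x ^ 2) ^ a)⁻¹ * x ^ b * x ^ c := by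
    rw [← zpow_neg, ← zpow_natCast x 2, ← zpow_mul, ← zpow_add₀ hx, ← zpow_add₀ hx]
    congr 1
    push_cast
    ring
  have h2 : y ^ ((n : ℤ) * (c - a)) = (y ^ n) ^ c * ((y ^ n) ^ a)⁻¹ := by
    rw [← zpow_natCast y n, ← zpow_mul, ← zpow_mul, ← zpow_neg, ← zpow_add₀ hy]
    congr 1
    ring
  rw [h1, h2, inv_zpow, mul_zpow, mul_zpow, mul_inv]
  ring

theorem BL_alg3 {F : Type*} [Field F] {x : F} (hx : x ≠ 0) (n : ℕ) (b c : ℤ) :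
    ((x ^ n)⁻¹) ^ b * (x⁻¹) ^ c = x ^ (-(n * b) - c) := by
  rw [inv_zpow', inv_zpow', ← zpow_natCast x n, ← zpow_mul, ← zpow_add₀ hx]
  congr 1
  ring

/-- the monomials `g^s (q¹²)^a f₁^b f₂^c j^d` -/
def BL_mon (M q : ℕ) [NeZero M] [NeZero q] (g : FB (q ^ 2 * M)) (s : ℕ) (a b c d : ℤ) :
    FB (q ^ 2 * M) :=
  g ^ s * (qF (q ^ 2 * M) q ^ 12) ^ a * et1 M q ^ b * et2 M q ^ c *
    JF (q ^ 2 * M) 1 (one_dvd _) ^ d

include hqM hA in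
theorem BL_tri_mon (B : BrData M q w ζ i ζ₂) {α γ β : ℤ} {uI uM uZ : LaurentSeries (kk A)}
    {g : FB (q ^ 2 * M)} (hg : BLTri A w (i 1) α γ β uI uM uZ g) (s : ℕ) (a b c d : ℤ) :
    BLTri A w (i 1) (s * α + 12 * a) (s * γ + 12 * ((q : ℤ) - 1) * (a - c))
      (s * β + 12 * (a - b - c))
      (uI ^ s * phiL (kk A) q ^ (b + q * c) * jqModC (kk A) ^ d)
      (uM ^ s * (phiL (kk A) q ^ (b + c - 2 * a) *
        BL_E (kk A) ^ (((2 * (q - 1) : ℕ) : ℤ) * (c - a))) * jqModC (kk A) ^ d)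
      (uZ ^ s * phiL (kk A) q ^ (-(q * b) - c) * jqModC (kk A) ^ (((q ^ 2 : ℕ) : ℤ) * d))
      (BL_mon M q g s a b c d) := by
  have hπ := BL_piF_ne_zero A hA B
  have hφ : phiL (kk A) q ≠ 0 := phiL_ne_zero _ q
  have hE : BL_E (kk A) ≠ 0 := BL_E_ne_zero _
  have hj : jqModC (kk A) ≠ 0 := BL_j_ne_zero _
  have h1 := (BL_tri_q12 hqM A hA B).zpow hπ one_ne_zero
    (inv_ne_zero (mul_ne_zero (pow_ne_zero _ hφ) (pow_ne_zero _ hE))) one_ne_zero a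
  have h2 := (BL_tri_et1 hqM A hA B).zpow hπ hφ hφ (inv_ne_zero (pow_ne_zero _ hφ)) b
  have h3 := (BL_tri_et2 hqM A hA B).zpow hπ (pow_ne_zero _ hφ)
    (mul_ne_zero (pow_ne_zero _ hE) hφ) (inv_ne_zero hφ) c
  have h4 := (BL_tri_J A hA B).zpow hπ hj hj (pow_ne_zero _ hj) d
  refine (((((hg.pow hπ s).mul hπ h1).mul hπ h2).mul hπ h3).mul hπ h4).congr (by ring) (by ring)
    (by ring) ?_ ?_ ?_
  · rw [one_zpow, mul_one, mul_assoc (uI ^ s), BL_alg1 hφ]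
  · rw [mul_assoc (uM ^ s), mul_assoc (uM ^ s), BL_alg2 hφ hE]
  · rw [one_zpow, mul_one, mul_assoc (uZ ^ s), BL_alg3 hφ, ← zpow_natCast (jqModC (kk A)) (q ^ 2),
      ← zpow_mul]

end Base

end

end Fermat.Agent.S36Lib
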