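import Fermat.Agent.S36.Mod.ResField
import Fermat.Agent.S36.Mod.EtaL

/-!
# S36, modular side, (BLZ): the hypotheses of (BL) are symmetric under `w`
-/

set_option autoImplicit false
set_option synthInstance.maxHeartbeats 400000
set_option linter.unusedSectionVars false
set_option linter.unusedVariables false

open AlgebraicCurve ModularCurve Polynomial
open scoped IntermediateField

namespace Fermat.Agent.S36Lib

open Fermat.Agent.S18Lib Fermat.Agent.S24Lib Fermat.Agent.S28Lib Fermat.Agent.ESLib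
  Fermat.Agent.S34Lib Fermat.Agent.FFLib

noncomputable section

variable {M q : ℕ} [NeZero M] [NeZero q] [hqF : Fact q.Prime] (hqM : ¬ q ∣ M)
variable {w : FB (q ^ 2 * M) ≃ₐ[Qb] FB (q ^ 2 * M)} {ζ : Qbˣ}
  {i : ℕ → FB (q ^ 2 * M) →ₐ[Qb] LaurentSeries Qb} {ζ₂ : Qbˣ}
variable (A : ValuationSubring Qb) (hA : A.LiesOverPrime q)

theorem BLZ_w_qF (a : ℤ) (g : FB (q ^ 2 * M)) :
    w (qF (q ^ 2 * M) q ^ a * g) = qF (q ^ 2 * M) q ^ a * w g := by
  rw [map_mul, map_zpow₀, qF, w.commutes]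

theorem BLZ_w_J1 (hw : IsAL (q ^ 2 * M) (q ^ 2) M w) :
    w (JF (q ^ 2 * M) 1 (one_dvd _)) = JF (q ^ 2 * M) (q ^ 2) (dvd_mul_right _ _) := by
  apply Subtype.ext
  have := V2_al_JF hw 1 (one_dvd _) (one_dvd _)
  rw [eZero_apply, Nat.div_one] at this
  exact this

theorem BLZ_w_Jqq (hw : IsAL (q ^ 2 * M) (q ^ 2) M w) :
    w (JF (q ^ 2 * M) (q ^ 2) (dvd_mul_right _ _)) = JF (q ^ 2 * M) 1 (one_dvd _) := by
  rw [← BLZ_w_J1 hw, hw.invol]

theorem BLZ_w_piF (hw : IsAL (q ^ 2 * M) (q ^ 2) M w) : w (piF M q) = - piF M q := by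
  rw [piF, map_sub, BLZ_w_J1 hw, BLZ_w_Jqq hw, neg_sub]

theorem BLZ_neg_one_zpow_mem (a : ℤ) : ((-1 : LaurentSeries Qb) ^ a) ∈ gRing A := by
  rcases Int.even_or_odd a with h | h
  · rw [h.neg_one_zpow]; exact one_mem _
  · rw [h.neg_one_zpow]; exact neg_mem (one_mem _)

include hA in
/-- the hypotheses of (BL) are symmetric under `w` -/
theorem BLHyp.al (B : BrData M q w ζ i ζ₂) {n : ℕ} {α γ β : ℤ} {g : FB (q ^ 2 * M)}
    (hg : BLHyp A w i n α γ β g) : BLHyp A w i (n * q ^ 2) β γ α (w g) where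
  fix := hg.fix.al B.al
  memL := by
    have h1 := EL_map_mem_L (w : FB (q ^ 2 * M) →ₐ[Qb] FB (q ^ 2 * M)) _ g n hg.memL
    have h2 : (w : FB (q ^ 2 * M) →ₐ[Qb] FB (q ^ 2 * M)) (JF (q ^ 2 * M) 1 (one_dvd _)) =
        JF (q ^ 2 * M) (q ^ 2) (dvd_mul_right _ _) := BLZ_w_J1 B.al
    rw [h2] at h1
    refine EL_mem_L_mono ?_ h1
    rw [mul_smul]
    exact smul_le_smul_of_nonneg_left (poleDiv_JF_le _ _ _) (Nat.zero_le n)
  inf := by
    have h := hg.zero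
    unfold Ge at h ⊢
    rw [eZero_apply, BLZ_w_qF] at h
    exact h
  mid := by
    have hq := hqF.out
    have h := hg.mid
    unfold Ge at h ⊢
    have h1q : ¬ q ∣ 1 := hq.one_lt.ne' ∘ Nat.dvd_one.mp
    have hq1 : ¬ q ∣ q - 1 :=
      Nat.not_dvd_of_pos_of_lt (Nat.sub_pos_of_lt hq.one_lt) (Nat.sub_lt hq.pos one_pos)
    obtain ⟨h', -⟩ := V2_gal A hA B (((isFix_piF M q).zpow (-γ)).mul hg.fix) h1q hq1 ⟨h, rfl⟩
    have hz : (ζ ^ 1)⁻¹ = ζ ^ (q - 1) := by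
      apply inv_eq_of_mul_eq_one_left
      rw [← pow_add, Nat.sub_add_cancel hq.pos, B.prim.pow_eq_one]
    have hc := IsIMid.comp_wQ hq (z := ζ ^ 1) (by rw [pow_one, B.prim.pow_eq_one])
      (B.mid 1 h1q) (i' := i (q - 1)) (by rw [hz]; exact B.mid _ hq1) w B.al.gen
      ((-1) ^ (-γ) * (piF M q ^ (-γ) * g))
    have he : w ((-1) ^ (-γ) * (piF M q ^ (-γ) * g)) = piF M q ^ (-γ) * w g := by
      rw [map_mul, map_mul, map_zpow₀, map_zpow₀, BLZ_w_piF B.al, map_neg, map_one, ← mul_assoc,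
        ← mul_zpow, neg_mul_neg, one_mul]
    rw [he] at hc
    show i 1 (piF M q ^ (-γ) * w g) ∈ gRing A
    rw [hc]
    refine twist_mem_gRing A _ (V2_isU_of_pow_eq_one A _ hq.pos
      (by rw [pow_one, B.prim.pow_eq_one])) ?_
    rw [map_mul, map_zpow₀, map_neg, map_one]
    exact mul_mem (BLZ_neg_one_zpow_mem A _) h'
  zero := by
    have h := hg.inf
    unfold Ge at h ⊢
    rw [eZero_apply, BLZ_w_qF, B.al.invol]
    exact h

theorem rd_eInf_al (B : BrData M q w ζ i ζ₂) (β : ℤ) (g : FB (q ^ 2 * M)) :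
    rd A (eInf (q ^ 2 * M)) (qF (q ^ 2 * M) q) β (w g) =
      rd A (eZero w) (qF (q ^ 2 * M) q) β g := by
  have he : eZero w (qF (q ^ 2 * M) q ^ (-β) * g) =
      eInf (q ^ 2 * M) (qF (q ^ 2 * M) q ^ (-β) * w g) := by
    rw [eZero_apply, BLZ_w_qF]
    rfl
  by_cases h : Ge A (eInf (q ^ 2 * M)) (qF (q ^ 2 * M) q) β (w g)
  · rw [rd_of_ge h, API_rd_eq h he]
  · have h' : ¬ Ge A (eZero w) (qF (q ^ 2 * M) q) β g := by
      intro h2
      apply h
      unfold Ge at h2 ⊢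
      rwa [← he]
    rw [rd_of_not_ge h, rd_of_not_ge h']

end

end Fermat.Agent.S36Lib
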