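import Mathlib

/-! # S36 (CJA): a complete list of conjugates, abstract part (Mathlib only) -/

set_option autoImplicit false
set_option synthInstance.maxHeartbeats 400000
set_option linter.style.haveILetI false

open Polynomial

namespace Fermat.Agent.S36Lib

/-- the embeddings into an algebraic closure -/
theorem CJA_bij {K F Ω ι : Type*} [Field K] [Field F] [Field Ω] [Algebra K F]
    [FiniteDimensional K F] [CharZero K] [Fintype ι] (V : K →+* Ω) (τ : ι → F →+* Ω)
    (hτ : ∀ i a, τ i (algebraMap K F a) = V a) (hinj : Function.Injective τ)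
    (hcard : Fintype.card ι = Module.finrank K F) :
    letI : Algebra K (AlgebraicClosure Ω) :=
      ((algebraMap Ω (AlgebraicClosure Ω)).comp V).toAlgebra
    ∃ σ : ι → F →ₐ[K] AlgebraicClosure Ω, Function.Bijective σ ∧
      ∀ i y, σ i y = algebraMap Ω (AlgebraicClosure Ω) (τ i y) := by
  letI : Algebra K (AlgebraicClosure Ω) :=
      ((algebraMap Ω (AlgebraicClosure Ω)).comp V).toAlgebra
  let σ : ι → F →ₐ[K] AlgebraicClosure Ω := fun i =>
    { ((algebraMap Ω (AlgebraicClosure Ω)).comp (τ i)) with
      commutes' := fun a => by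
        show algebraMap Ω (AlgebraicClosure Ω) (τ i (algebraMap K F a)) = _
        rw [hτ]
        rfl }
  have hσ : Function.Injective σ := by
    intro a b hab
    apply hinj
    ext y
    apply (algebraMap Ω (AlgebraicClosure Ω)).injective
    exact DFunLike.congr_fun hab y
  have hcard' : Fintype.card ι = Fintype.card (F →ₐ[K] AlgebraicClosure Ω) := by
    rw [hcard, AlgHom.card]
  exact ⟨σ, (Fintype.bijective_iff_injective_and_card σ).2 ⟨hσ, hcard'⟩, fun i y => rfl⟩

theorem conj_coeff_mem {K F Ω ι : Type*} [Field K] [Field F] [Field Ω] [Algebra K F]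
    [FiniteDimensional K F] [CharZero K] [Fintype ι] (V : K →+* Ω) (τ : ι → F →+* Ω)
    (hτ : ∀ i a, τ i (algebraMap K F a) = V a) (hinj : Function.Injective τ)
    (hcard : Fintype.card ι = Module.finrank K F) (x : F) (S : Subring Ω)
    (hx : ∀ i, τ i x ∈ S) (k : ℕ) : V ((minpoly K x).coeff k) ∈ S := by
  letI : Algebra K (AlgebraicClosure Ω) :=
      ((algebraMap Ω (AlgebraicClosure Ω)).comp V).toAlgebra
  obtain ⟨σ, hσ, hστ⟩ := CJA_bij V τ hτ hinj hcard
  set E := AlgebraicClosure Ω with hE
  let S' : Subring E := S.map (algebraMap Ω E)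
  have hroots : ∀ r ∈ ((minpoly K x).map (algebraMap K E)).roots, r ∈ S' := by
    intro r hr
    have h1 : r ∈ (minpoly K x).rootSet E := by
      rw [Polynomial.rootSet, Polynomial.aroots]
      simpa using hr
    rw [← (Algebra.IsAlgebraic.of_finite K F).range_eval_eq_rootSet_minpoly E x] at h1
    obtain ⟨ψ, rfl⟩ := h1
    obtain ⟨i, rfl⟩ := hσ.2 ψ
    show σ i x ∈ S'
    rw [hστ]
    exact ⟨_, hx i, rfl⟩
  have hsplit : ((minpoly K x).map (algebraMap K E)).Splits := IsAlgClosed.splits _
  have hmonic : ((minpoly K x).map (algebraMap K E)).Monic :=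
    (minpoly.monic (Algebra.IsIntegral.isIntegral x)).map _
  have hprod := hsplit.eq_prod_roots_of_monic hmonic
  have hlift : (minpoly K x).map (algebraMap K E) ∈ Polynomial.lifts S'.subtype := by
    rw [hprod]
    apply Subsemiring.multiset_prod_mem
    intro p hp
    obtain ⟨r, hr, rfl⟩ := Multiset.mem_map.mp hp
    rw [Polynomial.lifts_iff_coeff_lifts]
    intro n
    have hr' := hroots r hr
    rw [Polynomial.coeff_sub, Polynomial.coeff_X, Polynomial.coeff_C]
    refine ⟨⟨_, ?_⟩, rfl⟩
    refine S'.sub_mem ?_ ?_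
    · split_ifs
      · exact S'.one_mem
      · exact S'.zero_mem
    · split_ifs
      · exact hr'
      · exact S'.zero_mem
  rw [Polynomial.lifts_iff_coeff_lifts] at hlift
  obtain ⟨⟨y, s, hs, hsy⟩, hy⟩ := hlift k
  rw [Polynomial.coeff_map] at hy
  have h2 : algebraMap Ω E s = algebraMap Ω E (V ((minpoly K x).coeff k)) := by
    rw [hsy]
    exact hy
  rw [← (algebraMap Ω E).injective h2]
  exact hs

theorem conj_trace {K F Ω ι : Type*} [Field K] [Field F] [Field Ω] [Algebra K F]
    [FiniteDimensional K F] [CharZero K] [Fintype ι] (V : K →+* Ω) (τ : ι → F →+* Ω)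
    (hτ : ∀ i a, τ i (algebraMap K F a) = V a) (hinj : Function.Injective τ)
    (hcard : Fintype.card ι = Module.finrank K F) (x : F) :
    V (Algebra.trace K F x) = ∑ i, τ i x := by
  letI : Algebra K (AlgebraicClosure Ω) :=
      ((algebraMap Ω (AlgebraicClosure Ω)).comp V).toAlgebra
  obtain ⟨σ, hσ, hστ⟩ := CJA_bij V τ hτ hinj hcard
  apply (algebraMap Ω (AlgebraicClosure Ω)).injective
  have h1 : algebraMap Ω (AlgebraicClosure Ω) (V (Algebra.trace K F x)) =
      algebraMap K (AlgebraicClosure Ω) (Algebra.trace K F x) := rfl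
  rw [h1, trace_eq_sum_embeddings (AlgebraicClosure Ω), map_sum]
  exact (Fintype.sum_bijective σ hσ _ _ (fun i => (hστ i x).symm)).symm

end Fermat.Agent.S36Lib
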