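import Fermat.Agent.S36.Mod.IMid
import Fermat.Agent.S18.HauptCore
import Fermat.Agent.S18.RiemannLower

/-! # S36 (ETA), analytic part: the quotients `Δ(dτ)/Δ(eτ)` in `FB N`

* `DD d` : the expansion of `Δ(dτ)`; `etaQ_mem`, `etaQ_mem_L`, `etaQ_ord_eq_zero`
* `Eta_transfer` : (T) an embedding which is "substitution of `W`" on the generators `j(q^n)`
  is so on every element with a holomorphic representative
* `wQ_etaQ` : the Atkin-Lehner involution on eta quotients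
* `IsIMid.etaQ_top` : the embeddings `i_mid` on eta quotients
-/

set_option autoImplicit false
set_option synthInstance.maxHeartbeats 400000

open AlgebraicCurve IntermediateField Polynomial ModularCurve CongruenceSubgroup
  Fermat.Agent.S24Lib Fermat.Agent.FFLib Fermat.Agent.S18Lib Fermat.Agent.S28Lib
  Fermat.Agent.ESLib Fermat.Agent.S20Lib Fermat.Agent.S34Lib Fermat.Agent.S20Lib.Cusps
open UpperHalfPlane ModularForm Matrix.SpecialLinearGroup Filter Topology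
open scoped MatrixGroups Manifold

namespace Fermat.Agent.S36Lib

noncomputable section

local notation "ιP" => HahnSeries.ofPowerSeries ℤ ℂ

/-- the expansion of `Δ(dτ)` (junk `1` for `d = 0`) -/
def DD (d : ℕ) : LaurentSeries Qb :=
  if h : d = 0 then 1 else haveI : NeZero d := ⟨h⟩; qExpand Qb d W7_DK

lemma DD_eq (d : ℕ) [NeZero d] : DD d = qExpand Qb d W7_DK := by
  rw [DD, dif_neg (NeZero.ne d)]

/-- `τ ↦ Δ(dτ)` -/
def Dan (d : ℕ) (τ : ℍ) : ℂ := Dl (utr d 0 1 τ)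

lemma Dan_ne_zero (d : ℕ) (τ : ℍ) : Dan d τ ≠ 0 := Dl_ne_zero _

lemma DD_ne_zero (d : ℕ) : DD d ≠ 0 := by
  by_cases hd : d = 0
  · rw [DD, dif_pos hd]; exact one_ne_zero
  · have : NeZero d := ⟨hd⟩
    intro h
    rw [DD_eq] at h
    exact bl_DK_ne_zero (qExpand_injective (R := Qb) d (by rw [map_zero]; exact h))

lemma Eta_qExpand_ofPS {R : Type*} [CommRing R] (d : ℕ) [NeZero d] (hd : d ≠ 0)
    (p : PowerSeries R) :
    qExpand R d (HahnSeries.ofPowerSeries ℤ R p) =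
      HahnSeries.ofPowerSeries ℤ R (PowerSeries.expand d hd p) := by
  ext k
  by_cases hk : (d : ℤ) ∣ k
  · obtain ⟨m, rfl⟩ := hk
    rw [qExpand_coeff_mul]
    rcases le_or_gt 0 m with hm | hm
    · lift m to ℕ using hm
      rw [HahnSeries.ofPowerSeries_apply_coeff,
        show (d : ℤ) * (m : ℤ) = ((d * m : ℕ) : ℤ) by push_cast; ring,
        HahnSeries.ofPowerSeries_apply_coeff, PowerSeries.coeff_expand_mul]
    · rw [ofPowerSeries_coeff_of_neg _ hm, ofPowerSeries_coeff_of_neg]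
      have : (0 : ℤ) < d := by exact_mod_cast Nat.pos_of_ne_zero hd
      nlinarith
  · rw [qExpand_coeff_of_not_dvd d _ hk]
    rcases le_or_gt 0 k with hk0 | hk0
    · lift k to ℕ using hk0
      rw [HahnSeries.ofPowerSeries_apply_coeff, PowerSeries.coeff_expand,
        if_neg (by exact_mod_cast hk)]
    · rw [ofPowerSeries_coeff_of_neg _ hk0]

lemma isMF_Dan {N d : ℕ} [NeZero N] (hd : d ∣ N) : IsMF (Gamma0 N) 12 (Dan d) :=
  isMF_dilate N isMF_Dl hd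

lemma isMerInf_Dan (d : ℕ) [NeZero d] : IsMerInf 1 (Dan d) :=
  W2.isMerInf_of_isMF (isMF_Dan (N := d) dvd_rfl)

theorem laurentFun_Dan (d : ℕ) [NeZero d] : laurentFun 1 (Dan d) = coeffMap iotaC (DD d) := by
  have hB := isMF_Dan (N := d) dvd_rfl
  rw [laurentFun_of_bdd one_pos (isMerInf_Dan d) (by simpa using hB.bdd 1)]
  simp only [Nat.cast_one]
  rw [DD_eq, coeffMap_qExpand'', W7_coeffMap_DK, Eta_qExpand_ofPS d (NeZero.ne d)]
  congr 1
  exact qExpansion_dilate (W2.qi_of_isMF_top isMF_Dl) (NeZero.ne d)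

/-- `Δ(τ)^e / Δ((aτ+b)/a')` is bounded at `i∞` if `a a' = e` -/
lemma Eta_bdd_aux {e a b a' : ℕ} (ha : 0 < a) (ha' : 0 < a') (h : a * a' = e) :
    IsBoundedAtImInfty (fun τ => Dl τ ^ e / Dl (utr a b a' τ)) := by
  have h1 : Tendsto (fun τ => (Dl τ * ee (-1) τ) ^ e /
      (Dl (utr a b a' τ) * ee (-1) (utr a b a' τ))) atImInfty (𝓝 (1 ^ e / 1)) :=
    (W3.tendsto_Dl_mul_ee.pow e).div (W3.tendsto_Dl_mul_ee.comp (W3.tendsto_utr ha ha'))
      one_ne_zero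
  have h3 : IsBoundedAtImInfty (fun τ => ee 1 τ ^ e * ee (-1) (utr a b a' τ)) := by
    apply W3.bdd_of_norm_le_one
    intro τ
    rw [norm_mul, norm_pow, norm_ee, norm_ee, W3.im_utr ha ha', ← Real.exp_nat_mul,
      ← Real.exp_add]
    apply Real.exp_le_one_iff.mpr
    have hle : (a : ℝ) / a' ≤ e := by
      rw [div_le_iff₀ (by positivity)]
      have h5 : (1 : ℝ) ≤ a' := by exact_mod_cast ha'
      have h6 : (a : ℝ) * a' = e := by exact_mod_cast h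
      have h7 : (0 : ℝ) ≤ a := by positivity
      nlinarith
    have hy := τ.im_pos
    have hpi := Real.pi_pos
    have : 0 ≤ 2 * Real.pi * τ.im * ((e : ℝ) - a / a') := by
      apply mul_nonneg (by positivity) (by linarith)
    nlinarith
  have := (W3.bdd_of_tendsto h1).mul h3
  refine this.congr' ?_ (by rfl)
  refine Filter.Eventually.of_forall fun τ => ?_
  simp only [Pi.mul_apply]
  have e1 := ee_neg_mul 1 τ
  have e2 := ee_ne_zero (-1) (utr a b a' τ)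
  have e3 := Dl_ne_zero (utr a b a' τ)
  have e4 : (Dl τ * ee (-1) τ) ^ e * ee 1 τ ^ e = Dl τ ^ e := by
    rw [← mul_pow, mul_assoc, e1, mul_one]
  field_simp
  linear_combination e4

/-- `Δ^e / Δ(eτ)` is a modular form of weight `12 (e - 1)` -/
theorem isMF_pow_div_Dan {N e : ℕ} [NeZero N] (he : e ∣ N) :
    IsMF (Gamma0 N) (12 * (e : ℤ) - 12) (Dl ^ e / Dan e) where
  holo := (isMF_Dl.holo.pow e).div (isMF_Dan he).holo (Dan_ne_zero e)
  inv γ hγ := by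
    have h1 : IsMF ⊤ (12 * (e : ℤ)) (Dl ^ e) := by
      have := SeparatingAux.isMF_pow isMF_Dl e
      rwa [mul_comm] at this
    rw [div_slash_SL2, h1.top_slash, (isMF_Dan he).inv γ hγ]
  bdd γ := by
    have he0 : 0 < e := Nat.pos_of_ne_zero (by
      rintro rfl; exact NeZero.ne N (Nat.eq_zero_of_zero_dvd he))
    have h1 : IsMF ⊤ (12 * (e : ℤ)) (Dl ^ e) := by
      have := SeparatingAux.isMF_pow isMF_Dl e
      rwa [mul_comm] at this
    rw [div_slash_SL2, h1.top_slash]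
    obtain ⟨a, b, a', ha, ha', h2, -, h3⟩ :=
      slash_dilate (k := 12) (f := Dl) (fun γ => isMF_Dl.top_slash γ) he0 γ
    have h4 : IsBoundedAtImInfty (fun _ : ℍ => ((a' : ℂ) ^ (-(12 : ℤ)))⁻¹) :=
      Filter.const_boundedAtFilter _ _
    have := h4.mul (Eta_bdd_aux (b := b) ha ha' h2)
    refine this.congr' ?_ (by rfl)
    refine Filter.Eventually.of_forall fun τ => ?_
    simp only [Pi.mul_apply, Pi.div_apply, Pi.pow_apply]
    have h5 : (Dan e ∣[(12 : ℤ)] γ) τ = (a' : ℂ) ^ (-(12 : ℤ)) * Dl (utr a b a' τ) := h3 τ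
    rw [h5]
    have e3 := Dl_ne_zero (utr a b a' τ)
    have e5 : (a' : ℂ) ^ (-(12 : ℤ)) ≠ 0 := zpow_ne_zero _ (by exact_mod_cast ha'.ne')
    field_simp

/-- the analytic eta quotient -/
def etaAn (d e : ℕ) : ℍ → ℂ := Dan d / Dan e

theorem etaAn_mul_pow {N d e : ℕ} [NeZero N] (hd : d ∣ N) (he : e ∣ N) :
    IsMF (Gamma0 N) (12 * (e : ℤ)) (etaAn d e * Dl ^ e) := by
  have h := (isMF_Dan hd).mul' (isMF_pow_div_Dan he) (m := 12 * (e : ℤ)) (by ring)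
  have e1 : etaAn d e * Dl ^ e = Dan d * (Dl ^ e / Dan e) := by
    funext τ
    simp only [etaAn, Pi.mul_apply, Pi.div_apply, Pi.pow_apply]
    ring
  rwa [e1]

theorem isWH_etaAn {N d e : ℕ} [NeZero N] (hd : d ∣ N) (he : e ∣ N) :
    IsWH (Gamma0 N) (etaAn d e) := bl_isWH (etaAn_mul_pow hd he)

theorem laurentFun_etaAn (d e : ℕ) [NeZero d] [NeZero e] :
    laurentFun 1 (etaAn d e) = coeffMap iotaC (DD d / DD e) := by
  have hwh : IsWH (Gamma0 (d * e)) (etaAn d e) :=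
    isWH_etaAn (Dvd.intro _ rfl) (Dvd.intro_left _ rfl)
  have h1 := laurentFun_mul one_pos hwh.isMerInf_one (isMerInf_Dan e)
  have e1 : etaAn d e * Dan e = Dan d := by
    funext τ
    simp only [etaAn, Pi.mul_apply, Pi.div_apply]
    exact div_mul_cancel₀ _ (Dan_ne_zero e τ)
  rw [e1, laurentFun_Dan, laurentFun_Dan] at h1
  have h0 : coeffMap iotaC (DD e) ≠ 0 := by
    rw [Ne, map_eq_zero_iff _ W7_coeffMap_injective]
    exact DD_ne_zero e
  rw [map_div₀, eq_div_iff h0]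
  exact h1.symm

lemma Eta_neZero {N d : ℕ} [NeZero N] (hd : d ∣ N) : NeZero d :=
  ⟨by rintro rfl; exact NeZero.ne N (Nat.eq_zero_of_zero_dvd hd)⟩

theorem etaQ_rep {N d e : ℕ} [NeZero N] (hd : d ∣ N) (he : e ∣ N) :
    W7_Rep N e (DD d / DD e) :=
  have := Eta_neZero hd
  have := Eta_neZero he
  ⟨etaAn d e, isWH_etaAn hd he, laurentFun_etaAn d e, etaAn_mul_pow hd he⟩

/-- (E1) the eta quotients lie in the function field -/
theorem etaQ_mem {N d e : ℕ} [NeZero N] (hd : d ∣ N) (he : e ∣ N) :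
    DD d / DD e ∈ FB N := mem_FB_of_Rep N e _ (etaQ_rep hd he)

/-- (E4) the eta quotients have their poles at the cusps -/
theorem etaQ_mem_L {N d e : ℕ} [NeZero N] (hd : d ∣ N) (he : e ∣ N) :
    (⟨DD d / DD e, etaQ_mem hd he⟩ : FB N) ∈
      riemannRochSpace (e • FFLib.poleDiv Qb (jBar N)) :=
  bl_mem_L N e _ (etaQ_rep hd he) _

/-! ### (T) the transfer lemma -/

lemma Eta_eq_of_laurentFun {g g' : ℍ → ℂ} (hg : IsMerInf 1 g) (hg' : IsMerInf 1 g')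
    (h : laurentFun 1 g = laurentFun 1 g') : g = g' := by
  have := IM_laurHom_injective (a₁ := ⟨g, hg⟩) (a₂ := ⟨g', hg'⟩) h
  exact congrArg Subtype.val this

/-- transfer on the ring generated by the `j(q^n)` -/
theorem Eta_transfer_ring {N : ℕ} [NeZero N] (φ : FB N →ₐ[Qb] LaurentSeries Qb) (W : ℍ → ℍ)
    (hW : ∀ n, n ∣ N → IsMerInf 1 (fun τ => janD n (W τ)) ∧ ∀ h : Wq_J n ∈ FB N,
      laurentFun 1 (fun τ => janD n (W τ)) = coeffMap iotaC (φ ⟨Wq_J n, h⟩))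
    (a : LaurentSeries Qb) (ha : a ∈ Algebra.adjoin Qb (gensBar N)) :
    ∃ g : ℍ → ℂ, IsMerInf 1 g ∧ laurentFun 1 g = coeffMap iotaC a ∧
      IsMerInf 1 (fun τ => g (W τ)) ∧ ∀ h : a ∈ FB N,
        laurentFun 1 (fun τ => g (W τ)) = coeffMap iotaC (φ ⟨a, h⟩) := by
  have hle : ∀ z, z ∈ Algebra.adjoin Qb (gensBar N) → z ∈ FB N := by
    intro z hz
    have h1 := IntermediateField.algebra_adjoin_le_adjoin Qb (gensBar N) hz
    have h2 : z ∈ IntermediateField.adjoin Qb (gensBar N) := h1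
    rw [← bar_eq_adjoin] at h2
    exact h2
  induction ha using Algebra.adjoin_induction with
  | mem x hx =>
    obtain ⟨y, ⟨d, hne, hd, rfl⟩, rfl⟩ := hx
    obtain ⟨h1, h2⟩ := hW d hd
    refine ⟨janD d, (isWH_janD hd).isMerInf_one, by
      rw [laurentFun_janD, W6_coeffMap_iotaC_coeffEmb], h1, fun h => ?_⟩
    have h3 := h2 (Wq_J_mem hd)
    rw [h3]
    congr 2
    apply Subtype.ext
    exact Wq_J_eq d
  | algebraMap c =>
    refine ⟨Function.const ℍ (iotaC c), isMerInf_const 1 _, by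
      rw [laurentFun_const one_pos, W6_coeffMap_iotaC_algebraMap], isMerInf_const 1 _,
      fun h => ?_⟩
    have h1 : (⟨algebraMap Qb (LaurentSeries Qb) c, h⟩ : FB N) = algebraMap Qb (FB N) c := rfl
    rw [h1, φ.commutes, W6_coeffMap_iotaC_algebraMap]
    exact laurentFun_const one_pos _
  | add x y hx hy ihx ihy =>
    obtain ⟨g₁, a₁, b₁, c₁, d₁⟩ := ihx
    obtain ⟨g₂, a₂, b₂, c₂, d₂⟩ := ihy
    refine ⟨g₁ + g₂, a₁.add a₂, by rw [laurentFun_add one_pos a₁ a₂, b₁, b₂, map_add],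
      c₁.add c₂, fun h => ?_⟩
    have h1 : (⟨x + y, h⟩ : FB N) = ⟨x, hle x hx⟩ + ⟨y, hle y hy⟩ := rfl
    rw [h1, map_add, map_add, ← d₁, ← d₂]
    exact laurentFun_add one_pos c₁ c₂
  | mul x y hx hy ihx ihy =>
    obtain ⟨g₁, a₁, b₁, c₁, d₁⟩ := ihx
    obtain ⟨g₂, a₂, b₂, c₂, d₂⟩ := ihy
    refine ⟨g₁ * g₂, a₁.mul a₂, by rw [laurentFun_mul one_pos a₁ a₂, b₁, b₂, map_mul],
      c₁.mul c₂, fun h => ?_⟩
    have h1 : (⟨x * y, h⟩ : FB N) = ⟨x, hle x hx⟩ * ⟨y, hle y hy⟩ := rfl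
    rw [h1, map_mul, map_mul, ← d₁, ← d₂]
    exact laurentFun_mul one_pos c₁ c₂

/-- (T) if `φ` is "substitution of `W`" on the generators `j(q^n)`, it is so on every element of
`FB N` with a holomorphic representative -/
theorem Eta_transfer {N : ℕ} [NeZero N] (φ : FB N →ₐ[Qb] LaurentSeries Qb) (W : ℍ → ℍ)
    (hW : ∀ n, n ∣ N → IsMerInf 1 (fun τ => janD n (W τ)) ∧ ∀ h : Wq_J n ∈ FB N,
      laurentFun 1 (fun τ => janD n (W τ)) = coeffMap iotaC (φ ⟨Wq_J n, h⟩))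
    (x : FB N) (g : ℍ → ℂ) (hg : IsMerInf 1 g)
    (hL : laurentFun 1 g = coeffMap iotaC (x : LaurentSeries Qb))
    (hgW : IsMerInf 1 (fun τ => g (W τ))) :
    laurentFun 1 (fun τ => g (W τ)) = coeffMap iotaC (φ x) := by
  have hx : (x : LaurentSeries Qb) ∈ IntermediateField.adjoin Qb (gensBar N) := by
    rw [← bar_eq_adjoin]; exact x.2
  obtain ⟨a, ha, b, hb, hxab⟩ := IntermediateField.mem_adjoin_iff_div.mp hx
  have hle : ∀ z, z ∈ Algebra.adjoin Qb (gensBar N) → z ∈ FB N := by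
    intro z hz
    have h1 := IntermediateField.algebra_adjoin_le_adjoin Qb (gensBar N) hz
    have h2 : z ∈ IntermediateField.adjoin Qb (gensBar N) := h1
    rw [← bar_eq_adjoin] at h2
    exact h2
  by_cases hb0 : b = 0
  · -- then `x = 0`, `g = 0`
    have hx0 : x = 0 := Subtype.ext (by rw [hxab, hb0, div_zero]; rfl)
    have hg0 : g = 0 := by
      rw [← laurentFun_eq_zero_iff one_pos hg, hL, hx0]
      simp
    subst hg0
    rw [hx0, map_zero, map_zero]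
    exact (laurentFun_eq_zero_iff one_pos hgW).mpr rfl
  obtain ⟨ga, a₁, a₂, a₃, a₄⟩ := Eta_transfer_ring φ W hW a ha
  obtain ⟨gb, b₁, b₂, b₃, b₄⟩ := Eta_transfer_ring φ W hW b hb
  have hmul : g * gb = ga := by
    apply Eta_eq_of_laurentFun (hg.mul b₁) a₁
    rw [laurentFun_mul one_pos hg b₁, hL, b₂, a₂, ← map_mul, hxab, div_mul_cancel₀ _ hb0]
  have hmulW : (fun τ => g (W τ)) * (fun τ => gb (W τ)) = fun τ => ga (W τ) := by
    funext τ
    exact congrFun hmul (W τ)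
  have h1 := laurentFun_mul one_pos hgW b₃
  rw [hmulW, a₄ (hle a ha), b₄ (hle b hb)] at h1
  have hxb : x * ⟨b, hle b hb⟩ = ⟨a, hle a ha⟩ := by
    apply Subtype.ext
    show (x : LaurentSeries Qb) * b = a
    rw [hxab, div_mul_cancel₀ _ hb0]
  rw [← hxb, map_mul, map_mul] at h1
  have hφb : coeffMap iotaC (φ ⟨b, hle b hb⟩) ≠ 0 := by
    rw [Ne, map_eq_zero_iff _ W7_coeffMap_injective]
    intro h
    have h2 := (map_eq_zero_iff φ φ.toRingHom.injective).mp h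
    exact hb0 (congrArg Subtype.val h2)
  exact (mul_right_cancel₀ hφb h1).symm

/-! ### (E2) the Atkin-Lehner involution on eta quotients -/

lemma Eta_Dl_smul (γ : SL(2, ℤ)) (τ : ℍ) :
    Dl (γ • τ) = ((γ 1 0 : ℂ) * (τ : ℂ) + (γ 1 1 : ℂ)) ^ 12 * Dl τ := by
  have h1 : Dl (γ • τ) = denom γ τ ^ (12 : ℤ) * Dl τ := by
    have := congrFun (isMF_Dl.top_slash γ) τ
    rw [SL_slash_apply] at this
    have h := denom_ne_zero γ τ
    rw [← this, mul_comm, mul_assoc, ← zpow_add₀ h]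
    simp
  rw [h1, ModularGroup.denom_apply]
  norm_cast

theorem Eta_exists_point (Q M : ℕ) (hQ : 0 < Q) (hM : 0 < M) (hQM : Nat.Coprime Q M) :
    ∃ (W : ℍ → ℍ) (F : ℍ → ℂ), (∀ τ, F τ ≠ 0) ∧ ∀ d e : ℕ, d ∣ Q → e ∣ M → ∀ τ,
      janD (d * e) (W τ) = janD (Q / d * e) τ ∧
      Dan (d * e) (W τ) = ((Q / d : ℕ) : ℂ) ^ 12 * F τ * Dan (Q / d * e) τ := by
  obtain ⟨u, v, huv⟩ : ∃ u v : ℤ, u * Q + v * M = 1 := Nat.isCoprime_iff_coprime.mpr hQM
  let γ1 : SL(2, ℤ) := ⟨!![1, -v; M, Q * u], by rw [Matrix.det_fin_two_of]; linarith⟩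
  refine ⟨fun τ => γ1 • utr Q 0 1 τ, fun τ => ((M : ℂ) * (τ : ℂ) + (u : ℂ)) ^ 12, fun τ => ?_, ?_⟩
  · have := IM_linear_ne_zero M u (Or.inl (by exact_mod_cast hM.ne')) τ
    exact pow_ne_zero _ (by exact_mod_cast this)
  rintro d e ⟨Q', rfl⟩ ⟨M', rfl⟩ τ
  have hd : 0 < d := by
    rcases Nat.eq_zero_or_pos d with h0 | h0
    · simp [h0] at hQ
    · exact h0
  have hQ' : 0 < Q' := by
    rcases Nat.eq_zero_or_pos Q' with h0 | h0
    · simp [h0] at hQ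
    · exact h0
  have he : 0 < e := by
    rcases Nat.eq_zero_or_pos e with h0 | h0
    · simp [h0] at hM
    · exact h0
  rw [Nat.mul_div_cancel_left _ hd]
  let γ : SL(2, ℤ) := ⟨!![d, -(e * v); M', Q' * u], by
    rw [Matrix.det_fin_two_of]; push_cast at huv; linarith⟩
  have key : utr (d * e) 0 1 (γ1 • utr (d * Q') 0 1 τ) = γ • utr (Q' * e) 0 1 τ := by
    apply UpperHalfPlane.ext
    have hM' : 0 < M' := by
      rcases Nat.eq_zero_or_pos M' with h0 | h0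
      · simp [h0] at hM
      · exact h0
    rw [coe_utr (Nat.mul_pos hd he) one_pos, coe_specialLinearGroup_apply,
      coe_specialLinearGroup_apply, coe_utr hQ one_pos, coe_utr (Nat.mul_pos hQ' he) one_pos]
    have e1 : (γ1 : Matrix (Fin 2) (Fin 2) ℤ) 0 0 = 1 := rfl
    have e2 : (γ1 : Matrix (Fin 2) (Fin 2) ℤ) 0 1 = -v := rfl
    have e3 : (γ1 : Matrix (Fin 2) (Fin 2) ℤ) 1 0 = ((e * M' : ℕ) : ℤ) := rfl
    have e4 : (γ1 : Matrix (Fin 2) (Fin 2) ℤ) 1 1 = ((d * Q' : ℕ) : ℤ) * u := rfl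
    have f1 : (γ : Matrix (Fin 2) (Fin 2) ℤ) 0 0 = d := rfl
    have f2 : (γ : Matrix (Fin 2) (Fin 2) ℤ) 0 1 = -(e * v) := rfl
    have f3 : (γ : Matrix (Fin 2) (Fin 2) ℤ) 1 0 = M' := rfl
    have f4 : (γ : Matrix (Fin 2) (Fin 2) ℤ) 1 1 = Q' * u := rfl
    rw [e1, e2, e3, e4, f1, f2, f3, f4]
    have h1 := IM_linear_ne_zero ((M' * Q' * e : ℕ) : ℤ) (Q' * u)
      (Or.inl (by exact_mod_cast (Nat.mul_pos (Nat.mul_pos hM' hQ') he).ne')) τ
    have hdC : (d : ℂ) ≠ 0 := by exact_mod_cast hd.ne'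
    simp only [eq_intCast]
    push_cast at h1 ⊢
    have h2 : ((e : ℂ) * M' * ((d * Q' * (τ : ℂ) + 0) / 1) + d * Q' * u) =
        d * (M' * Q' * e * (τ : ℂ) + Q' * u) := by ring
    have h3 : ((M' : ℂ) * ((Q' * e * (τ : ℂ) + 0) / 1) + Q' * u) =
        (M' * Q' * e * (τ : ℂ) + Q' * u) := by ring
    rw [h2, h3]
    field_simp
    ring
  constructor
  · show jan (utr (d * e) 0 1 (γ1 • utr (d * Q') 0 1 τ)) = jan (utr (Q' * e) 0 1 τ)
    rw [key, Wq_jan_smul]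
  · show Dl (utr (d * e) 0 1 (γ1 • utr (d * Q') 0 1 τ)) = _ * Dl (utr (Q' * e) 0 1 τ)
    rw [key, Eta_Dl_smul, coe_utr (Nat.mul_pos hQ' he) one_pos]
    have f3 : (γ : Matrix (Fin 2) (Fin 2) ℤ) 1 0 = M' := rfl
    have f4 : (γ : Matrix (Fin 2) (Fin 2) ℤ) 1 1 = Q' * u := rfl
    rw [f3, f4]
    push_cast
    ring

lemma Eta_coeffMap_C (c : Qb) :
    coeffMap iotaC (HahnSeries.C c : LaurentSeries Qb) = HahnSeries.C (iotaC c) := by
  have : (HahnSeries.C c : LaurentSeries Qb) = HahnSeries.single 0 c := rfl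
  rw [this, coeffMap_single]
  rfl

/-- a constant multiple of an eta quotient: analytic representative -/
lemma Eta_const_mul {N d e : ℕ} [NeZero N] (hd : d ∣ N) (he : e ∣ N) (c : Qb) :
    IsMerInf 1 (Function.const ℍ (iotaC c) * etaAn d e) ∧
      laurentFun 1 (Function.const ℍ (iotaC c) * etaAn d e) =
        coeffMap iotaC (HahnSeries.C c * (DD d / DD e)) := by
  have := Eta_neZero hd
  have := Eta_neZero he
  have h1 := (isWH_etaAn hd he).isMerInf_one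
  refine ⟨(isMerInf_const 1 _).mul h1, ?_⟩
  rw [laurentFun_mul one_pos (isMerInf_const 1 _) h1, laurentFun_const one_pos,
    laurentFun_etaAn, map_mul, Eta_coeffMap_C]

/-- (E2) -/
theorem wQ_etaQ (Q M : ℕ) [NeZero Q] [NeZero M] (hQM : Nat.Coprime Q M)
    (w : FB (Q * M) ≃ₐ[Qb] FB (Q * M))
    (hw : ∀ d e : ℕ, d ∣ Q → e ∣ M → ∀ h : Wq_J (d * e) ∈ FB (Q * M),
        ((w ⟨Wq_J (d * e), h⟩ : FB (Q * M)) : LaurentSeries Qb) = Wq_J (Q / d * e))
    {d₁ e₁ d₂ e₂ : ℕ} (hd₁ : d₁ ∣ Q) (he₁ : e₁ ∣ M) (hd₂ : d₂ ∣ Q) (he₂ : e₂ ∣ M)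
    (h : DD (d₁ * e₁) / DD (d₂ * e₂) ∈ FB (Q * M)) :
    ((w ⟨DD (d₁ * e₁) / DD (d₂ * e₂), h⟩ : FB (Q * M)) : LaurentSeries Qb) =
      HahnSeries.C ((((Q / d₁ : ℕ) : Qb) / ((Q / d₂ : ℕ) : Qb)) ^ 12) *
        (DD (Q / d₁ * e₁) / DD (Q / d₂ * e₂)) := by
  obtain ⟨W, F, hF, hWF⟩ := Eta_exists_point Q M (Nat.pos_of_ne_zero (NeZero.ne Q))
    (Nat.pos_of_ne_zero (NeZero.ne M)) hQM
  let φ : FB (Q * M) →ₐ[Qb] LaurentSeries Qb :=
    (FB (Q * M)).val.comp (w : FB (Q * M) →ₐ[Qb] FB (Q * M))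
  have hW : ∀ n, n ∣ Q * M → IsMerInf 1 (fun τ => janD n (W τ)) ∧ ∀ h : Wq_J n ∈ FB (Q * M),
      laurentFun 1 (fun τ => janD n (W τ)) = coeffMap iotaC (φ ⟨Wq_J n, h⟩) := by
    intro n hn
    obtain ⟨d, e, hd, he, rfl⟩ := (Nat.dvd_mul).mp hn
    have e1 : (fun τ => janD (d * e) (W τ)) = janD (Q / d * e) := by
      funext τ; exact (hWF d e hd he τ).1
    have hdvd : Q / d * e ∣ Q * M := Nat.mul_dvd_mul (Nat.div_dvd_of_dvd hd) he
    obtain ⟨h1, h2⟩ := IM_laurentFun_janD (Q / d * e) (Eta_neZero hdvd).out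
    rw [e1]
    refine ⟨h1, fun h => ?_⟩
    rw [h2]
    congr 1
    exact (hw d e hd he h).symm
  have hD₁ : d₁ * e₁ ∣ Q * M := Nat.mul_dvd_mul hd₁ he₁
  have hD₂ : d₂ * e₂ ∣ Q * M := Nat.mul_dvd_mul hd₂ he₂
  have hD₁' : Q / d₁ * e₁ ∣ Q * M := Nat.mul_dvd_mul (Nat.div_dvd_of_dvd hd₁) he₁
  have hD₂' : Q / d₂ * e₂ ∣ Q * M := Nat.mul_dvd_mul (Nat.div_dvd_of_dvd hd₂) he₂
  have := Eta_neZero hD₁
  have := Eta_neZero hD₂
  set c : Qb := (((Q / d₁ : ℕ) : Qb) / ((Q / d₂ : ℕ) : Qb)) ^ 12 with hc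
  have hq2 : ((Q / d₂ : ℕ) : ℂ) ≠ 0 := by
    have := (Eta_neZero (Nat.div_dvd_of_dvd hd₂)).out
    exact_mod_cast this
  have hcomp : (fun τ => etaAn (d₁ * e₁) (d₂ * e₂) (W τ)) =
      Function.const ℍ (iotaC c) * etaAn (Q / d₁ * e₁) (Q / d₂ * e₂) := by
    funext τ
    simp only [etaAn, Pi.div_apply, Pi.mul_apply, Function.const_apply]
    rw [(hWF d₁ e₁ hd₁ he₁ τ).2, (hWF d₂ e₂ hd₂ he₂ τ).2, hc]
    have h1 := hF τ
    have h2 := Dan_ne_zero (Q / d₂ * e₂) τ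
    simp only [map_pow, map_div₀, map_natCast]
    field_simp
  obtain ⟨k1, k2⟩ := Eta_const_mul hD₁' hD₂' c
  have hT := Eta_transfer φ W hW ⟨DD (d₁ * e₁) / DD (d₂ * e₂), h⟩ (etaAn (d₁ * e₁) (d₂ * e₂))
    (isWH_etaAn hD₁ hD₂).isMerInf_one (laurentFun_etaAn _ _) (by rw [hcomp]; exact k1)
  rw [hcomp, k2] at hT
  exact (W7_coeffMap_injective hT).symm

/-! ### (E3) the embeddings `i_mid` on eta quotients -/

theorem Eta_exists_data (M q : ℕ) [NeZero M] [NeZero q] (hq : q.Prime) (hqM : ¬ q ∣ M) (z : Qbˣ)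
    (hz : IsPrimitiveRoot z q) :
    ∃ (a : ℕ) (c δ : ℤ) (γ : SL(2, ℤ)),
      ((Units.map (iotaC : Qb →* ℂ) z : ℂˣ) : ℂ) =
        Complex.exp (2 * Real.pi * Complex.I * (((a : ℝ) / q : ℝ) : ℂ)) ∧
      (M : ℤ) * c * a + δ * q = 1 ∧ γ 0 0 = 1 ∧ γ 0 1 = 0 ∧ γ 1 0 = q * M * c ∧ γ 1 1 = 1 ∧
      γ ∈ Gamma0 (q * M) := by
  have hZprim : IsPrimitiveRoot ((Units.map (iotaC : Qb →* ℂ) z : ℂˣ) : ℂ) q := by
    have h1 : IsPrimitiveRoot (z : Qb) q := IsPrimitiveRoot.coe_units_iff.mpr hz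
    exact h1.map_of_injective iotaC.injective
  obtain ⟨a, -, haq, hZa⟩ := (Complex.isPrimitiveRoot_iff _ q hq.ne_zero).mp hZprim
  obtain ⟨c, δ, hc⟩ : ∃ c δ : ℤ, (M : ℤ) * c * a + δ * q = 1 := by
    have h1 : Nat.Coprime (M * a) q :=
      Nat.Coprime.mul_left ((Nat.Prime.coprime_iff_not_dvd hq).mpr hqM).symm haq
    obtain ⟨u, v, huv⟩ := Nat.isCoprime_iff_coprime.mpr h1
    exact ⟨u, v, by push_cast at huv; linarith⟩
  refine ⟨a, c, δ, ⟨!![1, 0; q * M * c, 1], by rw [Matrix.det_fin_two_of]; ring⟩, ?_, hc,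
    rfl, rfl, rfl, rfl, ?_⟩
  · rw [← hZa]; push_cast; rfl
  · rw [Gamma0_mem]
    show (((q * M * c : ℤ)) : ZMod (q * M)) = 0
    have : ((q * M * c : ℤ)) = ((q * M : ℕ) : ℤ) * c := by push_cast; ring
    rw [this, Int.cast_mul, Int.cast_natCast, ZMod.natCast_self, zero_mul]

lemma Eta_Dan_smul {N e : ℕ} [NeZero N] (he : e ∣ N) (γ : SL(2, ℤ)) (hγ : γ ∈ Gamma0 N) (τ : ℍ) :
    Dan e (γ • τ) = ((γ 1 0 : ℂ) * (τ : ℂ) + (γ 1 1 : ℂ)) ^ 12 * Dan e τ := by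
  have h1 : Dan e (γ • τ) = denom γ τ ^ (12 : ℤ) * Dan e τ := by
    have := congrFun ((isMF_Dan he).inv γ hγ) τ
    rw [SL_slash_apply] at this
    have h := denom_ne_zero γ τ
    rw [← this, mul_comm, mul_assoc, ← zpow_add₀ h]
    simp
  rw [h1, ModularGroup.denom_apply]
  norm_cast

theorem Eta_Dan_mid (q M : ℕ) (hq : 0 < q) (hM : 0 < M) (a : ℕ) (c δ : ℤ)
    (hc : (M : ℤ) * c * a + δ * q = 1) (γ : SL(2, ℤ)) (h00 : γ 0 0 = 1) (h01 : γ 0 1 = 0)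
    (h10 : γ 1 0 = q * M * c) (h11 : γ 1 1 = 1) (d : ℕ) (hd : d ∣ M) (τ : ℍ) :
    Dan (q ^ 2 * d) (γ • τ) =
      (((q : ℂ) * M * c * (τ : ℂ) + 1) / q) ^ 12 * Dan d (((a : ℝ) / q) +ᵥ τ) := by
  obtain ⟨M', rfl⟩ := hd
  have hd0 : 0 < d := by
    rcases Nat.eq_zero_or_pos d with h0 | h0
    · simp [h0] at hM
    · exact h0
  let γ' : SL(2, ℤ) := ⟨!![q, -(d * a); M' * c, δ], by
    rw [Matrix.det_fin_two_of]; push_cast at hc; linarith⟩
  have hqC : (q : ℂ) ≠ 0 := by exact_mod_cast hq.ne'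
  have hcC : ((d * M' : ℕ) : ℂ) * c * a + δ * q = 1 := by exact_mod_cast hc
  have h2 : ((M' : ℂ) * c * ((d * ((a : ℂ) / q + (τ : ℂ)) + 0) / 1) + δ) =
      (q * (d * M') * c * (τ : ℂ) + 1) / q := by
    push_cast at hcC
    field_simp
    linear_combination hcC
  have key : utr (q ^ 2 * d) 0 1 (γ • τ) = γ' • utr d 0 1 (((a : ℝ) / q) +ᵥ τ) := by
    apply UpperHalfPlane.ext
    rw [coe_utr (Nat.mul_pos (pow_pos hq 2) hd0) one_pos, coe_specialLinearGroup_apply,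
      coe_specialLinearGroup_apply, coe_utr hd0 one_pos, coe_vadd]
    have f1 : (γ' : Matrix (Fin 2) (Fin 2) ℤ) 0 0 = q := rfl
    have f2 : (γ' : Matrix (Fin 2) (Fin 2) ℤ) 0 1 = -(d * a) := rfl
    have f3 : (γ' : Matrix (Fin 2) (Fin 2) ℤ) 1 0 = M' * c := rfl
    have f4 : (γ' : Matrix (Fin 2) (Fin 2) ℤ) 1 1 = δ := rfl
    rw [h00, h01, h10, h11, f1, f2, f3, f4]
    have h1 := IM_linear_ne_zero (q * (d * M' : ℕ) * c) 1 (Or.inr one_ne_zero) τ
    simp only [eq_intCast]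
    push_cast at h1 ⊢
    rw [h2]
    field_simp
    ring
  show Dl (utr (q ^ 2 * d) 0 1 (γ • τ)) = _ * Dl (utr d 0 1 (((a : ℝ) / q) +ᵥ τ))
  rw [key, Eta_Dl_smul, coe_utr hd0 one_pos, coe_vadd]
  have f3 : (γ' : Matrix (Fin 2) (Fin 2) ℤ) 1 0 = M' * c := rfl
  have f4 : (γ' : Matrix (Fin 2) (Fin 2) ℤ) 1 1 = δ := rfl
  rw [f3, f4]
  push_cast
  rw [h2]

/-- `1 / Δ(eτ)` -/
lemma Eta_isMerInf_inv (e : ℕ) [NeZero e] :
    IsMerInf 1 (fun τ => (Dan e τ)⁻¹) ∧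
      laurentFun 1 (fun τ => (Dan e τ)⁻¹) = (coeffMap iotaC (DD e))⁻¹ := by
  have h1 := isMerInf_Dan e
  have hI : IsMerInf 1 (fun τ => (Dan e τ)⁻¹) := by
    refine ⟨?_, ?_, ⟨e, ?_⟩⟩
    · have : (fun τ => (Dan e τ)⁻¹) = (fun _ => (1 : ℂ)) / Dan e := by
        funext τ; simp
      rw [this]
      exact mdifferentiable_const.div h1.holo (Dan_ne_zero e)
    · intro w
      have := h1.per w
      simp only [Function.comp_apply] at this ⊢
      rw [this]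
    · have h2 := (isMF_pow_div_Dan (N := e) dvd_rfl).bdd 1
      rw [SlashAction.slash_one] at h2
      refine h2.congr' ?_ (by rfl)
      refine Filter.Eventually.of_forall fun τ => ?_
      simp only [Pi.mul_apply, Pi.div_apply, Pi.pow_apply]
      rw [div_eq_mul_inv, mul_comm]
  refine ⟨hI, ?_⟩
  have h3 := laurentFun_mul one_pos hI h1
  have e1 : (fun τ => (Dan e τ)⁻¹) * Dan e = Function.const ℍ 1 := by
    funext τ
    simp only [Pi.mul_apply, Function.const_apply]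
    exact inv_mul_cancel₀ (Dan_ne_zero e τ)
  rw [e1, laurentFun_const one_pos, laurentFun_Dan, map_one] at h3
  exact eq_inv_of_mul_eq_one_left h3.symm

/-- (E3) -/
theorem IsIMid.etaQ_top {M q : ℕ} [NeZero M] [NeZero q] (hq : q.Prime) (hqM : ¬ q ∣ M)
    {z : Qbˣ} (hz : IsPrimitiveRoot z q) {i : FB (q ^ 2 * M) →ₐ[Qb] LaurentSeries Qb}
    (hi : IsIMid M q z i) {d e : ℕ} (hd : d ∣ M) (he : e ∣ q * M)
    (h : DD (q ^ 2 * d) / DD e ∈ FB (q ^ 2 * M)) :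
    i ⟨DD (q ^ 2 * d) / DD e, h⟩ =
      HahnSeries.C (((q : Qb) ^ 12)⁻¹) * (twist z (DD d) / DD e) := by
  obtain ⟨a, c, δ, γ, hZ, hc, h00, h01, h10, h11, hγ⟩ := Eta_exists_data M q hq hqM z hz
  have hM0 : 0 < M := Nat.pos_of_ne_zero (NeZero.ne M)
  set Z : ℂˣ := Units.map (iotaC : Qb →* ℂ) z with hZdef
  have hW : ∀ n, n ∣ q ^ 2 * M → IsMerInf 1 (fun τ => janD n (γ • τ)) ∧
      ∀ h : Wq_J n ∈ FB (q ^ 2 * M),
        laurentFun 1 (fun τ => janD n (γ • τ)) = coeffMap iotaC (i ⟨Wq_J n, h⟩) := by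
    intro n hn
    rcases IM_dvd_cases hq hn with h1 | ⟨d', hd', rfl⟩
    · have e1 : (fun τ => janD n (γ • τ)) = janD n := by
        funext τ; exact IM_janD_smul h1 γ hγ τ
      obtain ⟨k1, k2⟩ := IM_laurentFun_janD n (Eta_neZero h1).out
      rw [e1]
      exact ⟨k1, fun h => by rw [k2, hi.low n h1]⟩
    · have e1 : (fun τ => janD (q ^ 2 * d') (γ • τ)) =
          fun τ => janD d' (((a : ℝ) / q) +ᵥ τ) := by
        funext τ; exact IM_janD_mid q M hq.pos hM0 a c δ hc γ h00 h01 h10 h11 d' hd' τ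
      obtain ⟨k1, k2⟩ := IM_laurentFun_janD d' (Eta_neZero hd').out
      obtain ⟨k3, k4⟩ := laurentFun_vadd_real k1 ((a : ℝ) / q) Z hZ
      rw [e1]
      exact ⟨k3, fun h => by rw [k4, k2, hi.top d' hd', coeffMap_twist]⟩
  have hD₁ : q ^ 2 * d ∣ q ^ 2 * M := Nat.mul_dvd_mul_left _ hd
  have hD₂ : e ∣ q ^ 2 * M := he.trans ⟨q, by ring⟩
  have := Eta_neZero hD₁
  have := Eta_neZero hD₂
  have := Eta_neZero hd
  obtain ⟨s1, s2⟩ := laurentFun_vadd_real (isMerInf_Dan d) ((a : ℝ) / q) Z hZ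
  obtain ⟨t1, t2⟩ := Eta_isMerInf_inv e
  set c' : Qb := ((q : Qb) ^ 12)⁻¹ with hc'
  have hqC : (q : ℂ) ≠ 0 := by exact_mod_cast hq.ne_zero
  have hcomp : (fun τ => etaAn (q ^ 2 * d) e (γ • τ)) =
      Function.const ℍ (iotaC c') * ((fun τ => Dan d (((a : ℝ) / q) +ᵥ τ)) *
        fun τ => (Dan e τ)⁻¹) := by
    funext τ
    simp only [etaAn, Pi.div_apply, Pi.mul_apply, Function.const_apply]
    rw [Eta_Dan_mid q M hq.pos hM0 a c δ hc γ h00 h01 h10 h11 d hd τ,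
      Eta_Dan_smul he γ hγ τ, h10, h11, hc']
    have h1 := IM_linear_ne_zero (q * M * c) 1 (Or.inr one_ne_zero) τ
    have h2 := Dan_ne_zero e τ
    push_cast at h1 ⊢
    simp only [map_inv₀, map_pow, map_natCast]
    field_simp
  have hmer : IsMerInf 1 (Function.const ℍ (iotaC c') *
      ((fun τ => Dan d (((a : ℝ) / q) +ᵥ τ)) * fun τ => (Dan e τ)⁻¹)) :=
    (isMerInf_const 1 _).mul (s1.mul t1)
  have hT := Eta_transfer i (fun τ => γ • τ) hW ⟨DD (q ^ 2 * d) / DD e, h⟩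
    (etaAn (q ^ 2 * d) e) (isWH_etaAn hD₁ hD₂).isMerInf_one (laurentFun_etaAn _ _)
    (by rw [hcomp]; exact hmer)
  rw [hcomp, laurentFun_mul one_pos (isMerInf_const 1 _) (s1.mul t1),
    laurentFun_mul one_pos s1 t1, laurentFun_const one_pos, s2, t2, laurentFun_Dan,
    ← coeffMap_twist, ← Eta_coeffMap_C, ← map_inv₀, ← map_mul, ← map_mul] at hT
  rw [← W7_coeffMap_injective hT, div_eq_mul_inv]

/-! ### (E4) units off the cusps -/

theorem etaQ_ord_nonneg {N d e : ℕ} [NeZero N] (hd : d ∣ N) (he : e ∣ N)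
    (v : Place Qb (FB N)) (hv : 0 ≤ v.ord (jBar N)) :
    0 ≤ v.ord (⟨DD d / DD e, etaQ_mem hd he⟩ : FB N) := by
  have h1 := (FFLib.mem_L_iff.mp (etaQ_mem_L hd he)) v
  have h2 : (e • FFLib.poleDiv Qb (jBar N)) v = 0 := by
    rw [Finsupp.smul_apply, FFLib.poleDiv_apply (isFF_FB N), max_eq_right (by omega), smul_zero]
  rw [h2, neg_zero] at h1
  rcases h1 with h1 | h1
  · exfalso
    have h3 := congrArg Subtype.val h1
    exact div_ne_zero (DD_ne_zero d) (DD_ne_zero e) h3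
  · exact h1

/-- (E4) the eta quotients are units at all places off the cusps -/
theorem etaQ_ord_eq_zero {N d e : ℕ} [NeZero N] (hd : d ∣ N) (he : e ∣ N)
    (v : Place Qb (FB N)) (hv : 0 ≤ v.ord (jBar N)) :
    v.ord (⟨DD d / DD e, etaQ_mem hd he⟩ : FB N) = 0 := by
  have h1 := etaQ_ord_nonneg hd he v hv
  have h2 := etaQ_ord_nonneg he hd v hv
  have h3 : (⟨DD e / DD d, etaQ_mem he hd⟩ : FB N) =
      (⟨DD d / DD e, etaQ_mem hd he⟩ : FB N)⁻¹ := by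
    apply Subtype.ext
    show DD e / DD d = (DD d / DD e)⁻¹
    rw [inv_div]
  rw [h3, v.ord_inv] at h2
  omega

end

end Fermat.Agent.S36Lib
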