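import Fermat.Agent.S36.Mod.Eta
import Fermat.Agent.S36.Mod.ValGU
import Fermat.Agent.S18.ThetaJ
import Fermat.Agent.ES.Integral
import Fermat.Agent.S28.Transfer

/-!
# S36, modular side, block (ETA), formal part: the series `φ = Δ(t^q)/Δ(t)`
-/

set_option autoImplicit false
set_option synthInstance.maxHeartbeats 400000

open AlgebraicCurve ModularCurve Polynomial

namespace Fermat.Agent.S36Lib

open Fermat.Agent.S18Lib Fermat.Agent.S24Lib Fermat.Agent.S28Lib Fermat.Agent.ESLib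
  Fermat.Agent.S34Lib Fermat.Agent.S28Lib.RelationAux Fermat.Agent.FFLib

noncomputable section

theorem DD_eq_DLd (d : ℕ) [NeZero d] : DD d = DLd Qb d := by
  rw [DD_eq, DLd_eq_qExpand]
  rfl

theorem phiL_eq_DD (q : ℕ) [NeZero q] : phiL Qb q = DD q / DD 1 := by
  rw [phiL, DD_eq_DLd, DD_eq_DLd]

theorem qExpand_DD (c d : ℕ) [NeZero c] [NeZero d] : qExpand Qb c (DD d) = DD (c * d) := by
  rw [DD_eq, DD_eq]
  ext k
  by_cases hk : (c : ℤ) ∣ k
  · obtain ⟨m, rfl⟩ := hk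
    rw [qExpand_coeff_mul]
    by_cases hm : (d : ℤ) ∣ m
    · obtain ⟨n, rfl⟩ := hm
      rw [qExpand_coeff_mul, show (c : ℤ) * ((d : ℤ) * n) = ((c * d : ℕ) : ℤ) * n by
        push_cast; ring, qExpand_coeff_mul]
    · rw [qExpand_coeff_of_not_dvd _ _ hm, qExpand_coeff_of_not_dvd]
      intro h
      apply hm
      have hc : (c : ℤ) ≠ 0 := by exact_mod_cast NeZero.ne c
      rw [Nat.cast_mul] at h
      exact (mul_dvd_mul_iff_left hc).mp h
  · rw [qExpand_coeff_of_not_dvd _ _ hk, qExpand_coeff_of_not_dvd]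
    intro h
    apply hk
    rw [Nat.cast_mul] at h
    exact (dvd_mul_right _ _).trans h

theorem qExpand_phiL_eq_DD (q : ℕ) [NeZero q] :
    qExpand Qb q (phiL Qb q) = DD (q ^ 2) / DD q := by
  rw [phiL_eq_DD, map_div₀, qExpand_DD, qExpand_DD, mul_one, sq]

theorem EF_LL_unit_ne_zero (κ : Type) [Field κ] (u : (PowerSeries ℤ)ˣ) :
    LL κ (u : PowerSeries ℤ) ≠ 0 := (u.isUnit.map (LL κ)).ne_zero

theorem EF_LL_X_ne_zero (κ : Type) [Field κ] : LL κ PowerSeries.X ≠ 0 := by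
  rw [LL_X]
  simp

theorem DLd_ne_zero (κ : Type) [Field κ] (d : ℕ) : DLd κ d ≠ 0 := by
  rw [DLd, map_mul, map_pow]
  exact mul_ne_zero (pow_ne_zero _ (EF_LL_X_ne_zero κ)) (EF_LL_unit_ne_zero κ _)

theorem phiL_ne_zero (κ : Type) [Field κ] (q : ℕ) : phiL κ q ≠ 0 :=
  div_ne_zero (DLd_ne_zero κ q) (DLd_ne_zero κ 1)

theorem coeffMap_DLd {κ κ' : Type} [CommRing κ] [CommRing κ'] (f : κ →+* κ') (d : ℕ) :
    coeffMap f (DLd κ d) = DLd κ' d := TJ_coeffMap_LL f _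

theorem coeffMap_phiL {κ κ' : Type} [Field κ] [Field κ'] (f : κ →+* κ') (q : ℕ) :
    coeffMap f (phiL κ q) = phiL κ' q := by
  rw [phiL, map_div₀, coeffMap_DLd, coeffMap_DLd, phiL]

/-- `φ⁻¹ = t^(1-q) * unit` -/
theorem phiL_inv_eq (κ : Type) [Field κ] (q : ℕ) [NeZero q] :
    (phiL κ q)⁻¹ = HahnSeries.single (-((q : ℤ) - 1)) 1 *
      LL κ ((expU 1 * (expU q)⁻¹ : (PowerSeries ℤ)ˣ) : PowerSeries ℤ) := by
  have hX := EF_LL_X_ne_zero κ
  have hq := EF_LL_unit_ne_zero κ (expU q)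
  have h1 : LL κ ((expU 1 * (expU q)⁻¹ : (PowerSeries ℤ)ˣ) : PowerSeries ℤ) =
      LL κ (expU 1 : PowerSeries ℤ) / LL κ (expU q : PowerSeries ℤ) := by
    rw [eq_div_iff hq, ← map_mul, ← Units.val_mul, inv_mul_cancel_right]
  have h2 : (HahnSeries.single (-((q : ℤ) - 1)) (1 : κ) : LaurentSeries κ) =
      LL κ PowerSeries.X / LL κ PowerSeries.X ^ q := by
    rw [eq_div_iff (pow_ne_zero _ hX), LL_X, HahnSeries.single_pow, one_pow,
      HahnSeries.single_mul_single, one_mul]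
    congr 1
    simp
  rw [phiL, inv_div, DLd, DLd, map_mul, map_mul, map_pow, map_pow, pow_one, h1, h2]
  field_simp

/-- `φ⁻¹ = t^(1-q) (1 + ...)` -/
theorem phiL_inv_coeff (κ : Type) [Field κ] (q : ℕ) [NeZero q] :
    ((phiL κ q)⁻¹).coeff (-((q : ℤ) - 1)) = 1 ∧ ∀ n : ℤ, n < -((q : ℤ) - 1) →
      ((phiL κ q)⁻¹).coeff n = 0 := by
  rw [phiL_inv_eq]
  set s : PowerSeries ℤ := ((expU 1 * (expU q)⁻¹ : (PowerSeries ℤ)ˣ) : PowerSeries ℤ) with hs
  have hc : PowerSeries.constantCoeff s = 1 := by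
    have h : ccU (expU 1 * (expU q)⁻¹) = 1 := by
      rw [map_mul, map_inv, ccU_expU, ccU_expU, inv_one, one_mul]
    exact congrArg Units.val h
  constructor
  · have := HahnSeries.coeff_single_mul_add (r := (1 : κ)) (x := LL κ s) (a := 0)
      (b := -((q : ℤ) - 1))
    rw [zero_add, one_mul] at this
    rw [this, LL_apply]
    have h0 := HahnSeries.ofPowerSeries_apply_coeff (Γ := ℤ) (s.map (Int.castRingHom κ)) 0
    rw [Nat.cast_zero] at h0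
    rw [h0, PowerSeries.coeff_map, PowerSeries.coeff_zero_eq_constantCoeff_apply, hc]
    simp
  · intro n hn
    have := HahnSeries.coeff_single_mul_add (r := (1 : κ)) (x := LL κ s) (a := n + ((q : ℤ) - 1))
      (b := -((q : ℤ) - 1))
    rw [show n + ((q : ℤ) - 1) + -((q : ℤ) - 1) = n by ring, one_mul] at this
    rw [this, LL_apply, ofPowerSeries_coeff_of_neg _ (by omega)]

theorem EF_cE_LL (A : ValuationSubring Qb) (s : PowerSeries ℤ) : cE A (LL A s) = LL Qb s :=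
  TJ_coeffMap_LL _ s

theorem EF_cR_LL (A : ValuationSubring Qb) (s : PowerSeries ℤ) : cR A (LL A s) = LL (kk A) s :=
  TJ_coeffMap_LL _ s

theorem isGU_DLd (A : ValuationSubring Qb) (d : ℕ) : IsGU A (DLd Qb d) := by
  rw [DLd, ← EF_cE_LL A]
  apply isGU_cE
  rw [EF_cR_LL]
  exact DLd_ne_zero (kk A) d

theorem gRed_DLd (A : ValuationSubring Qb) (d : ℕ) (h : DLd Qb d ∈ gRing A) :
    gRed A ⟨DLd Qb d, h⟩ = DLd (kk A) d := by
  have e : (⟨DLd Qb d, h⟩ : gRing A) = ⟨cE A (LL A (PowerSeries.X ^ d * (expU d : PowerSeries ℤ))),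
      cE_mem_gRing A _⟩ := Subtype.ext (EF_cE_LL A _).symm
  rw [e, gRed_cE, EF_cR_LL]
  rfl

theorem isGU_phiL (A : ValuationSubring Qb) (q : ℕ) : IsGU A (phiL Qb q) := by
  rw [phiL, div_eq_mul_inv]
  exact (isGU_DLd A q).mul (isGU_DLd A 1).inv

theorem gRed_phiL (A : ValuationSubring Qb) (q : ℕ) (h : phiL Qb q ∈ gRing A) :
    gRed A ⟨phiL Qb q, h⟩ = phiL (kk A) q := by
  obtain ⟨h1, -⟩ := isGU_DLd A q
  obtain ⟨h2, -⟩ := isGU_DLd A 1
  have e : (⟨phiL Qb q, h⟩ : gRing A) * ⟨DLd Qb 1, h2⟩ = ⟨DLd Qb q, h1⟩ :=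
    Subtype.ext (div_mul_cancel₀ _ (DLd_ne_zero Qb 1))
  have e2 := congrArg (gRed A) e
  rw [map_mul, gRed_DLd, gRed_DLd] at e2
  show _ = DLd (kk A) q / DLd (kk A) 1
  rw [eq_div_iff (DLd_ne_zero (kk A) 1)]
  exact e2

theorem gRed_phiL_inv (A : ValuationSubring Qb) (q : ℕ) (h : (phiL Qb q)⁻¹ ∈ gRing A) :
    gRed A ⟨(phiL Qb q)⁻¹, h⟩ = (phiL (kk A) q)⁻¹ := by
  rw [gRed_inv (isGU_phiL A q).1 h, gRed_phiL]

theorem DLd_one (κ : Type) [CommRing κ] : DLd κ 1 = DL κ := by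
  rw [DLd_eq_qExpand]
  ext k
  have := qExpand_coeff_mul (R := κ) 1 (DL κ) k
  rwa [Nat.cast_one, one_mul] at this

theorem DLd_char (κ : Type) [Field κ] (q : ℕ) [NeZero q] [Fact q.Prime] [CharP κ q] :
    DLd κ q = DL κ ^ q := by
  rw [pow_char_eq, TJ_coeffMap_DL, DLd_eq_qExpand]

/-- in characteristic `q`: `φ̄ = Δ̄^(q-1)` -/
theorem phiL_char (κ : Type) [Field κ] (q : ℕ) [hq : Fact q.Prime] [CharP κ q] :
    phiL κ q = DL κ ^ (q - 1) := by
  have : NeZero q := ⟨hq.out.ne_zero⟩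
  have h0 : DL κ ≠ 0 := (isUnit_DL κ).ne_zero
  rw [phiL, DLd_char, DLd_one, div_eq_iff h0, ← pow_succ, Nat.sub_add_cancel hq.out.pos]

theorem qExpand_phiL_char (κ : Type) [Field κ] (q : ℕ) [NeZero q] [Fact q.Prime] [CharP κ q] :
    qExpand κ q (phiL κ q) = phiL κ q ^ q := by
  rw [pow_char_eq, coeffMap_phiL]

/-- `(θ j̄)^(12 (q-1)) = φ̄² (j̄⁴ (j̄ - 1728)³)^(2 (q-1))` -/
theorem thetaFun_j_pow_char (κ : Type) [Field κ] (q : ℕ) [Fact q.Prime] [CharP κ q] :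
    thetaFun (jqModC κ) ^ (12 * (q - 1)) =
      phiL κ q ^ 2 * (jqModC κ ^ 4 * (jqModC κ - 1728) ^ 3) ^ (2 * (q - 1)) := by
  rw [show 12 * (q - 1) = 6 * (2 * (q - 1)) by ring, pow_mul, thetaFun_j_pow_six, mul_pow,
    phiL_char, ← pow_mul, mul_comm (q - 1) 2, mul_comm]

end

end Fermat.Agent.S36Lib
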