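import Fermat.Agent.S36.Mod.EtaF
import Fermat.Agent.S36.Mod.ValG
import Fermat.Agent.S36.Mod.ValV1
import Mathlib.NumberTheory.Wilson
import Mathlib.RingTheory.RootsOfUnity.Lemmas

/-!
# S36, modular side, block (ETA): the table of valuations and reductions at level `q² M`
-/

set_option autoImplicit false
set_option synthInstance.maxHeartbeats 400000

open AlgebraicCurve ModularCurve Polynomial

namespace Fermat.Agent.S36Lib

open Fermat.Agent.S18Lib Fermat.Agent.S24Lib Fermat.Agent.S28Lib Fermat.Agent.ESLib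
  Fermat.Agent.S34Lib Fermat.Agent.S28Lib.RelationAux Fermat.Agent.FFLib

noncomputable section

variable (M q : ℕ) [NeZero M] [NeZero q]

/-- `f₁ = Δ_q/Δ` at level `q² M` -/
def et1 : FB (q ^ 2 * M) :=
  etaF (q ^ 2 * M) q 1 (Dvd.dvd.mul_right (Dvd.intro_left (q ^ 1) (by ring)) M) (one_dvd _)

/-- `f₂ = Δ_{q²}/Δ_q` at level `q² M` -/
def et2 : FB (q ^ 2 * M) :=
  etaF (q ^ 2 * M) (q ^ 2) q (dvd_mul_right _ _)
    (Dvd.dvd.mul_right (Dvd.intro_left (q ^ 1) (by ring)) M)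

theorem coe_et1 : ((et1 M q : FB (q ^ 2 * M)) : LaurentSeries Qb) = phiL Qb q := by
  rw [phiL_eq_DD]
  rfl

theorem coe_et2 : ((et2 M q : FB (q ^ 2 * M)) : LaurentSeries Qb) =
    qExpand Qb q (phiL Qb q) := by
  rw [qExpand_phiL_eq_DD]
  rfl

theorem et1_ne_zero : et1 M q ≠ 0 := etaF_ne_zero _ _ _ _ _

theorem et2_ne_zero : et2 M q ≠ 0 := etaF_ne_zero _ _ _ _ _

theorem isFix_et1 (A : ValuationSubring Qb) : IsFix A (q ^ 2 * M) (et1 M q) := isFix_etaF A _ _ _ _ _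

theorem isFix_et2 (A : ValuationSubring Qb) : IsFix A (q ^ 2 * M) (et2 M q) := isFix_etaF A _ _ _ _ _

variable {M q}

theorem etaF_congr {N d e d' e' : ℕ} [NeZero N] (hd : d ∣ N) (he : e ∣ N) (hd' : d' ∣ N)
    (he' : e' ∣ N) (h1 : d = d') (h2 : e = e') : etaF N d e hd he = etaF N d' e' hd' he' := by
  subst h1 h2
  rfl

theorem IsIMid.apply_et1 {z : Qbˣ} {i : FB (q ^ 2 * M) →ₐ[Qb] LaurentSeries Qb}
    (hi : IsIMid M q z i) : i (et1 M q) = phiL Qb q := by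
  rw [phiL_eq_DD]
  exact hi.apply_of_mem _ (etaQ_mem (dvd_mul_right q M) (one_dvd _)) _

theorem ET_twist_DD {z : Qbˣ} (hz : z ^ q = 1) : twist z (DD q) = DD q := by
  rw [DD_eq, twist_qExpand q z hz]

theorem IsIMid.apply_et2 (hq : q.Prime) (hqM : ¬ q ∣ M) {z : Qbˣ} (hz : IsPrimitiveRoot z q)
    {i : FB (q ^ 2 * M) →ₐ[Qb] LaurentSeries Qb} (hi : IsIMid M q z i) :
    i (et2 M q) = HahnSeries.C (((q : Qb) ^ 12)⁻¹) * (twist z (phiL Qb q))⁻¹ := by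
  have h1 : DD (q ^ 2 * 1) / DD q ∈ FB (q ^ 2 * M) := by
    rw [mul_one]
    exact (et2 M q).2
  have h := IsIMid.etaQ_top hq hqM hz hi (one_dvd M) (dvd_mul_right q M) h1
  have e : et2 M q = ⟨DD (q ^ 2 * 1) / DD q, h1⟩ := by
    apply Subtype.ext
    show DD (q ^ 2) / DD q = DD (q ^ 2 * 1) / DD q
    rw [mul_one]
  rw [e, h, phiL_eq_DD, ← twistHom_apply, ← twistHom_apply, map_div₀, inv_div, twistHom_apply,
    twistHom_apply, ET_twist_DD hz.pow_eq_one]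

theorem ET_qF_zpow (N q : ℕ) :
    qF N q ^ (-12 : ℤ) = algebraMap Qb (FB N) (((q : Qb) ^ 12)⁻¹) := by
  rw [qF, zpow_neg, map_inv₀, map_pow]
  rfl

theorem IsAL.apply_et1 (hq : q.Prime) (hqM : ¬ q ∣ M) {w : FB (q ^ 2 * M) ≃ₐ[Qb] FB (q ^ 2 * M)}
    (hw : IsAL (q ^ 2 * M) (q ^ 2) M w) :
    w (et1 M q) = qF (q ^ 2 * M) q ^ (-12 : ℤ) * (et2 M q)⁻¹ := by
  have hc : Nat.Coprime (q ^ 2) M := Nat.Coprime.pow_left 2 ((Nat.Prime.coprime_iff_not_dvd hq).2 hqM)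
  have hq0 : (q : Qb) ≠ 0 := by exact_mod_cast hq.ne_zero
  have d1 : q ^ 2 / q = q := by rw [sq, Nat.mul_div_cancel _ hq.pos]
  have d2 : q ^ 2 / 1 = q ^ 2 := Nat.div_one _
  have hqd : q ∣ q ^ 2 := Dvd.intro_left (q ^ 1) (by ring)
  have hqN : q ∣ q ^ 2 * M := hqd.mul_right M
  have h := hw.apply_etaF rfl hc (d₁ := q) (e₁ := 1) (d₂ := 1) (e₂ := 1) hqd (one_dvd _) (one_dvd _)
    (one_dvd _) (by rw [mul_one]; exact hqN) (by simp)
    (by rw [d1, mul_one]; exact hqN) (by rw [d2, mul_one]; exact dvd_mul_right _ _)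
  rw [et1, et2, etaF_inv, ET_qF_zpow,
    etaF_congr _ _ (by rw [mul_one]; exact hqN) (by simp) (mul_one q).symm (mul_one 1).symm, h]
  congr 1
  · congr 1
    rw [d1, d2]
    push_cast
    field_simp
  · exact etaF_congr _ _ _ _ (by rw [d1, mul_one]) (by rw [d2, mul_one])

theorem IsAL.apply_et2 (hq : q.Prime) (hqM : ¬ q ∣ M) {w : FB (q ^ 2 * M) ≃ₐ[Qb] FB (q ^ 2 * M)}
    (hw : IsAL (q ^ 2 * M) (q ^ 2) M w) :
    w (et2 M q) = qF (q ^ 2 * M) q ^ (-12 : ℤ) * (et1 M q)⁻¹ := by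
  have hc : Nat.Coprime (q ^ 2) M := Nat.Coprime.pow_left 2 ((Nat.Prime.coprime_iff_not_dvd hq).2 hqM)
  have hq0 : (q : Qb) ≠ 0 := by exact_mod_cast hq.ne_zero
  have d1 : q ^ 2 / q = q := by rw [sq, Nat.mul_div_cancel _ hq.pos]
  have d2 : q ^ 2 / q ^ 2 = 1 := Nat.div_self (pow_pos hq.pos 2)
  have hqd : q ∣ q ^ 2 := Dvd.intro_left (q ^ 1) (by ring)
  have hqN : q ∣ q ^ 2 * M := hqd.mul_right M
  have h := hw.apply_etaF rfl hc (d₁ := q ^ 2) (e₁ := 1) (d₂ := q) (e₂ := 1) dvd_rfl (one_dvd _) hqd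
    (one_dvd _) (by rw [mul_one]; exact dvd_mul_right _ _) (by rw [mul_one]; exact hqN)
    (by rw [d2]; simp) (by rw [d1, mul_one]; exact hqN)
  rw [et1, et2, etaF_inv, ET_qF_zpow,
    etaF_congr _ _ (by rw [mul_one]; exact dvd_mul_right _ _) (by rw [mul_one]; exact hqN)
      (mul_one (q ^ 2)).symm (mul_one q).symm, h]
  congr 1
  · congr 1
    rw [d1, d2]
    push_cast
    field_simp
  · exact etaF_congr _ _ _ _ (by rw [d2, mul_one]) (by rw [d1, mul_one])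

variable (A : ValuationSubring Qb)

theorem ET_res_eq {a b : A} (h : (a : Qb) - (b : Qb) ∈ A.nonunits) : resA A a = resA A b := by
  obtain ⟨ha, hm⟩ := ValuationSubring.mem_nonunits_iff_exists_mem_maximalIdeal.1 h
  have h1 := (IsLocalRing.residue_eq_zero_iff _).2 hm
  have h2 : (⟨(a : Qb) - b, ha⟩ : A) = a - b := Subtype.ext rfl
  rw [h2, map_sub, sub_eq_zero] at h1
  exact h1

/-- `(z - 1)^(q-1) / q ≡ ± 1` -/
theorem exists_unit_zeta {q : ℕ} (hq : q.Prime) (hA : A.LiesOverPrime q) {z : Qb}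
    (hz : IsPrimitiveRoot z q) :
    ∃ (u : Qb) (hu : u ∈ A), (z - 1) ^ (q - 1) = (q : Qb) * u ∧ resA A ⟨u, hu⟩ ^ 2 = 1 := by
  have hch : CharP (kk A) q := charP_kk hq hA
  have hF : Fact q.Prime := ⟨hq⟩
  obtain ⟨n, rfl⟩ : ∃ n, q = n + 1 := ⟨q - 1, by have := hq.pos; omega⟩
  have hzU : IsU A z := ⟨K0d_zeta_mem A hq hz, K0d_zeta_mem A hq hz.inv⟩
  have hz0 : z ≠ 0 := hz.ne_zero (by omega)
  have hz1 := K0d_zeta_sub_one_mem A hq hA hz
  choose g hgA hg1 hg2 using exists_geom_zpow A hzU hz0 hz1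
  set G : A := ∏ k ∈ Finset.range n, ⟨g ((k + 1 : ℕ) : ℤ), hgA _⟩ with hG
  have hres : resA A G = -1 := by
    rw [hG, map_prod]
    have h1 : ∀ k ∈ Finset.range n, resA A ⟨g ((k + 1 : ℕ) : ℤ), hgA _⟩ = ((k + 1 : ℕ) : kk A) := by
      intro k _
      rw [← map_natCast (resA A)]
      apply ET_res_eq
      have := hg2 ((k + 1 : ℕ) : ℤ)
      simpa using this
    rw [Finset.prod_congr rfl h1, ← Nat.cast_prod, Finset.prod_range_add_one_eq_factorial]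
    have hw := ZMod.wilsons_lemma (p := n + 1)
    have := congrArg (ZMod.castHom (dvd_refl (n + 1)) (kk A)) hw
    simpa using this
  have hGu : IsUnit G := by
    rw [← IsLocalRing.residue_ne_zero_iff_isUnit, hres]
    exact neg_ne_zero.2 one_ne_zero
  obtain ⟨Gu, hGu⟩ := hGu
  have hprod := hz.prod_pow_sub_one_eq_order
  have h2 : ∏ k ∈ Finset.range n, (z ^ (k + 1) - 1) = (z - 1) ^ n * (G : Qb) := by
    rw [hG]
    have : ((∏ k ∈ Finset.range n, (⟨g ((k + 1 : ℕ) : ℤ), hgA _⟩ : A) : A) : Qb) =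
        ∏ k ∈ Finset.range n, g ((k + 1 : ℕ) : ℤ) := by
      rw [← A.subtype_apply, map_prod]
      rfl
    have h3 : (z - 1) ^ n = ∏ _k ∈ Finset.range n, (z - 1) := by
      rw [Finset.prod_const, Finset.card_range]
    rw [this, h3, ← Finset.prod_mul_distrib]
    refine Finset.prod_congr rfl fun k _ => ?_
    rw [← hg1, zpow_natCast]
  have hinv : (G : Qb) * (((Gu⁻¹ : Aˣ) : A) : Qb) = 1 := by
    have : G * ((Gu⁻¹ : Aˣ) : A) = 1 := by rw [← hGu]; simp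
    exact congrArg Subtype.val this
  refine ⟨(((-1) ^ n * ((Gu⁻¹ : Aˣ) : A) : A) : Qb), Subtype.property _, ?_, ?_⟩
  · rw [Nat.add_sub_cancel]
    push_cast
    rw [← hprod, h2]
    have h3 : ((-1 : Qb) ^ n) * (-1) ^ n = 1 := by rw [← mul_pow]; simp
    calc (z - 1) ^ n = (z - 1) ^ n * (((-1 : Qb) ^ n) * (-1) ^ n) *
          ((G : Qb) * (((Gu⁻¹ : Aˣ) : A) : Qb)) := by rw [h3, hinv, mul_one, mul_one]
      _ = _ := by ring
  · have h4 : resA A ((Gu⁻¹ : Aˣ) : A) = -1 := by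
      have : G * ((Gu⁻¹ : Aˣ) : A) = 1 := by rw [← hGu]; simp
      have h5 := congrArg (resA A) this
      rw [map_mul, hres, map_one] at h5
      linear_combination -h5
    show resA A ((-1) ^ n * ((Gu⁻¹ : Aˣ) : A)) ^ 2 = 1
    rw [map_mul, h4, map_pow, map_neg, map_one, mul_pow, ← pow_mul, mul_comm n 2, pow_mul]
    simp

variable {A}

theorem ET_core {N : ℕ} {e : FB N →+* LaurentSeries Qb} {ϖ : FB N} {a : ℤ} {g : FB N}
    {y : LaurentSeries Qb} (hy : e (ϖ ^ (-a) * g) = y) (hm : y ∈ gRing A)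
    {r : LaurentSeries (kk A)} (hr : gRed A ⟨y, hm⟩ = r) :
    Ge A e ϖ a g ∧ rd A e ϖ a g = r := by
  subst hy
  exact ⟨hm, by rw [rd_of_ge hm]; exact hr⟩

variable (A)

theorem et1_inf : Ge A (eInf (q ^ 2 * M)) (qF (q ^ 2 * M) q) 0 (et1 M q) ∧
    rd A (eInf (q ^ 2 * M)) (qF (q ^ 2 * M) q) 0 (et1 M q) = phiL (kk A) q := by
  refine ET_core (y := phiL Qb q) ?_ (isGU_phiL A q).1 (gRed_phiL A q _)
  rw [neg_zero, zpow_zero, one_mul, eInf_apply, coe_et1]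

theorem et2_inf (hq : q.Prime) (hA : A.LiesOverPrime q) :
    Ge A (eInf (q ^ 2 * M)) (qF (q ^ 2 * M) q) 0 (et2 M q) ∧
    rd A (eInf (q ^ 2 * M)) (qF (q ^ 2 * M) q) 0 (et2 M q) = phiL (kk A) q ^ q := by
  have hch : CharP (kk A) q := charP_kk hq hA
  have hF : Fact q.Prime := ⟨hq⟩
  refine ET_core (y := qExpand Qb q (phiL Qb q)) ?_ (qExpand_mem_gRing A q (isGU_phiL A q).1) ?_
  · rw [neg_zero, zpow_zero, one_mul, eInf_apply, coe_et2]
  · rw [gRed_qExpand A q (isGU_phiL A q).1, gRed_phiL, qExpand_phiL_char]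

theorem et1_mid {z : Qbˣ} {i : FB (q ^ 2 * M) →ₐ[Qb] LaurentSeries Qb} (hi : IsIMid M q z i) :
    Ge A (i : FB (q ^ 2 * M) →+* LaurentSeries Qb) (piF M q) 0 (et1 M q) ∧
    rd A (i : FB (q ^ 2 * M) →+* LaurentSeries Qb) (piF M q) 0 (et1 M q) = phiL (kk A) q := by
  refine ET_core (y := phiL Qb q) ?_ (isGU_phiL A q).1 (gRed_phiL A q _)
  rw [neg_zero, zpow_zero, one_mul]
  exact hi.apply_et1

theorem ET_qF_ne_zero (N : ℕ) {q : ℕ} (hq : q ≠ 0) : qF N q ≠ 0 := by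
  rw [qF, Ne, map_eq_zero]
  exact_mod_cast hq

theorem et1_zero (hq : q.Prime) (hqM : ¬ q ∣ M) (hA : A.LiesOverPrime q)
    {w : FB (q ^ 2 * M) ≃ₐ[Qb] FB (q ^ 2 * M)} (hw : IsAL (q ^ 2 * M) (q ^ 2) M w) :
    Ge A (eZero w) (qF (q ^ 2 * M) q) (-12) (et1 M q) ∧
    rd A (eZero w) (qF (q ^ 2 * M) q) (-12) (et1 M q) = (phiL (kk A) q ^ q)⁻¹ := by
  have hch : CharP (kk A) q := charP_kk hq hA
  have hF : Fact q.Prime := ⟨hq⟩
  have hU : IsGU A (qExpand Qb q (phiL Qb q)) :=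
    ⟨qExpand_mem_gRing A q (isGU_phiL A q).1, by
      rw [gRed_qExpand A q (isGU_phiL A q).1, gRed_phiL, qExpand_phiL_char]
      exact pow_ne_zero _ (phiL_ne_zero _ _)⟩
  refine ET_core (y := (qExpand Qb q (phiL Qb q))⁻¹) ?_ hU.inv.1 ?_
  · have h0 := ET_qF_ne_zero (q ^ 2 * M) hq.ne_zero
    have h1 : w (qF (q ^ 2 * M) q ^ (-(-12 : ℤ)) * et1 M q) = (et2 M q)⁻¹ := by
      have hwq : w (qF (q ^ 2 * M) q) = qF (q ^ 2 * M) q := w.commutes _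
      rw [map_mul, hw.apply_et1 hq hqM, map_zpow₀, hwq, ← mul_assoc, ← zpow_add₀ h0]
      simp
    rw [eZero_apply, h1]
    show ((et2 M q : FB (q ^ 2 * M)) : LaurentSeries Qb)⁻¹ = _
    rw [coe_et2]
  · rw [gRed_inv hU.1, gRed_qExpand A q (isGU_phiL A q).1, gRed_phiL, qExpand_phiL_char]

theorem et2_zero (hq : q.Prime) (hqM : ¬ q ∣ M)
    {w : FB (q ^ 2 * M) ≃ₐ[Qb] FB (q ^ 2 * M)} (hw : IsAL (q ^ 2 * M) (q ^ 2) M w) :
    Ge A (eZero w) (qF (q ^ 2 * M) q) (-12) (et2 M q) ∧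
    rd A (eZero w) (qF (q ^ 2 * M) q) (-12) (et2 M q) = (phiL (kk A) q)⁻¹ := by
  refine ET_core (y := (phiL Qb q)⁻¹) ?_ (isGU_phiL A q).inv.1 (gRed_phiL_inv A q _)
  have h0 := ET_qF_ne_zero (q ^ 2 * M) hq.ne_zero
  have h1 : w (qF (q ^ 2 * M) q ^ (-(-12 : ℤ)) * et2 M q) = (et1 M q)⁻¹ := by
    have hwq : w (qF (q ^ 2 * M) q) = qF (q ^ 2 * M) q := w.commutes _
    rw [map_mul, hw.apply_et2 hq hqM, map_zpow₀, hwq, ← mul_assoc, ← zpow_add₀ h0]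
    simp
  rw [eZero_apply, h1]
  show ((et1 M q : FB (q ^ 2 * M)) : LaurentSeries Qb)⁻¹ = _
  rw [coe_et1]

theorem et2_mid (hq : q.Prime) (hqM : ¬ q ∣ M) (hA : A.LiesOverPrime q) {z : Qbˣ}
    (hz : IsPrimitiveRoot z q) {i : FB (q ^ 2 * M) →ₐ[Qb] LaurentSeries Qb}
    (hi : IsIMid M q z i) :
    Ge A (i : FB (q ^ 2 * M) →+* LaurentSeries Qb) (piF M q) (-(12 * ((q : ℤ) - 1))) (et2 M q) ∧
    rd A (i : FB (q ^ 2 * M) →+* LaurentSeries Qb) (piF M q) (-(12 * ((q : ℤ) - 1))) (et2 M q) =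
      (jqModC (kk A) ^ 4 * (jqModC (kk A) - 1728) ^ 3) ^ (2 * (q - 1)) * phiL (kk A) q := by
  have hch : CharP (kk A) q := charP_kk hq hA
  have hF : Fact q.Prime := ⟨hq⟩
  obtain ⟨y0, hy1, hy2⟩ := mid_unif A hq hA M z hz hi
  obtain ⟨u, hu, hu1, hu2⟩ := exists_unit_zeta A hq hA (V1_zeta z hz)
  have hzU := V1_isU_zeta A hq z hz
  have hz1 := K0d_zeta_sub_one_mem A hq hA (V1_zeta z hz)
  have hT : twist z (phiL Qb q) ∈ gRing A := twist_mem_gRing A z hzU (isGU_phiL A q).1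
  have hTr : gRed A ⟨_, hT⟩ = phiL (kk A) q := by
    rw [gRed_twist A z hzU hz1 (isGU_phiL A q).1, gRed_phiL]
  have hTU : IsGU A (twist z (phiL Qb q)) := ⟨hT, by rw [hTr]; exact phiL_ne_zero _ _⟩
  have hu12 : u ^ 12 ∈ A := pow_mem hu 12
  have hq0 : (q : Qb) ≠ 0 := by exact_mod_cast hq.ne_zero
  refine ET_core (y := HahnSeries.C (u ^ 12) * cE A (y0 ^ (12 * (q - 1))) *
    (twist z (phiL Qb q))⁻¹) ?_
    ((gRing A).mul_mem ((gRing A).mul_mem (C_mem_gRing hu12) (cE_mem_gRing A _)) hTU.inv.1) ?_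
  · have e1 : -(-(12 * ((q : ℤ) - 1))) = ((12 * (q - 1) : ℕ) : ℤ) := by
      rw [Nat.cast_mul, Nat.cast_sub hq.pos]
      push_cast
      ring
    rw [e1, zpow_natCast, map_mul, map_pow]
    show (i (piF M q)) ^ (12 * (q - 1)) * i (et2 M q) = _
    have e2 : ((z : Qb) - 1) ^ (12 * (q - 1)) = (q : Qb) ^ 12 * u ^ 12 := by
      rw [mul_comm 12, pow_mul, hu1, mul_pow]
    rw [hy1, hi.apply_et2 hq hqM hz, mul_pow, ← map_pow, ← map_pow, e2, map_mul]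
    have e3 : (HahnSeries.C ((q : Qb) ^ 12) : LaurentSeries Qb) * HahnSeries.C (((q : Qb) ^ 12)⁻¹)
        = 1 := by
      rw [← map_mul, mul_inv_cancel₀ (pow_ne_zero _ hq0), map_one]
    linear_combination (HahnSeries.C (u ^ 12) * cE A (y0 ^ (12 * (q - 1))) *
      (twist z (phiL Qb q))⁻¹) * e3
  · have e : (⟨HahnSeries.C (u ^ 12) * cE A (y0 ^ (12 * (q - 1))) * (twist z (phiL Qb q))⁻¹,
        (gRing A).mul_mem ((gRing A).mul_mem (C_mem_gRing hu12) (cE_mem_gRing A _)) hTU.inv.1⟩ :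
        gRing A) = ⟨_, C_mem_gRing hu12⟩ * ⟨_, cE_mem_gRing A (y0 ^ (12 * (q - 1)))⟩ *
          ⟨_, hTU.inv.1⟩ := rfl
    have e4 : resA A ⟨u ^ 12, hu12⟩ = 1 := by
      have : (⟨u ^ 12, hu12⟩ : A) = (⟨u, hu⟩ : A) ^ 12 := rfl
      rw [this, map_pow, show 12 = 2 * 6 by norm_num, pow_mul, hu2, one_pow]
    rw [e, map_mul, map_mul, gRed_C hu12, gRed_cE, gRed_inv hT, hTr, e4, map_one, one_mul, map_pow,
      hy2, thetaFun_j_pow_char]
    have h0 := phiL_ne_zero (kk A) q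
    field_simp

end

end Fermat.Agent.S36Lib
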