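import Fermat.Agent.S36.Mod.Conj
import Fermat.Agent.S36.Mod.Reg
import Fermat.Agent.S36.Mod.ValG
import Fermat.Agent.S18.RiemannLower

/-!
# S36 (INT1): regular + integral on all branches ⇒ root of a good monic polynomial over `FB M`
-/

set_option autoImplicit false
set_option synthInstance.maxHeartbeats 400000
set_option linter.unusedSectionVars false

open AlgebraicCurve ModularCurve Polynomial
open scoped IntermediateField

namespace Fermat.Agent.S36Lib

open Fermat.Agent.S18Lib Fermat.Agent.S24Lib Fermat.Agent.S28Lib Fermat.Agent.ESLib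
  Fermat.Agent.S34Lib Fermat.Agent.FFLib

noncomputable section

theorem INT1_isU (A : ValuationSubring Qb) {z : Qb} {n : ℕ} (hn : 0 < n) (hz : z ^ n = 1) :
    IsU A z := by
  obtain ⟨m, rfl⟩ : ∃ m, n = m + 1 := ⟨n - 1, by omega⟩
  have hz0 : z ≠ 0 := by
    rintro rfl
    simp at hz
  have h1 : z⁻¹ = z ^ m := by
    rw [pow_succ] at hz
    exact (eq_inv_of_mul_eq_one_left hz).symm
  have h2 : z = z⁻¹ ^ m := by
    rw [inv_pow, ← h1, inv_inv]
  rcases A.mem_or_inv_mem z with h | h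
  · exact ⟨h, by rw [h1]; exact pow_mem h m⟩
  · exact ⟨by rw [h2]; exact pow_mem h m, h⟩

variable {M q : ℕ} [NeZero M] [NeZero q] [hqF : Fact q.Prime] (hqM : ¬ q ∣ M)
variable {w : FB (q ^ 2 * M) ≃ₐ[Qb] FB (q ^ 2 * M)} {ζ : Qbˣ}
  {i : ℕ → FB (q ^ 2 * M) →ₐ[Qb] LaurentSeries Qb} {ζ₂ : Qbˣ}

theorem INT1_C_eq (c : Qb) :
    (HahnSeries.C c : LaurentSeries Qb) = algebraMap Qb (LaurentSeries Qb) c := by
  rw [algebraMap_laurentSeries_eq_single]
  rfl

theorem INT1_tau_alg (B : BrData M q w ζ i ζ₂) (t) (c : Qb) :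
    tauFam M q w i ζ₂ t (algebraMap Qb (FB (q ^ 2 * M)) c) =
      algebraMap Qb (LaurentSeries Qb) c := by
  have h := tauFam_aHom B t (algebraMap Qb (FB M) c)
  rw [AlgHom.commutes, rr_coe_algebraMap, qExpand_C, INT1_C_eq] at h
  exact h

/-- `tauFam t` as an algebra hom -/
def INT1_tauAlg (B : BrData M q w ζ i ζ₂) (t : Unit ⊕ (Fin (q - 1) ⊕ Fin (q ^ 2))) :
    FB (q ^ 2 * M) →ₐ[Qb] LaurentSeries Qb :=
  { tauFam M q w i ζ₂ t with commutes' := INT1_tau_alg B t }

theorem INT1_tauAlg_apply (B : BrData M q w ζ i ζ₂) (t) (x : FB (q ^ 2 * M)) :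
    INT1_tauAlg B t x = tauFam M q w i ζ₂ t x := rfl

/-- `V_{d}` on `FB M` as an algebra hom -/
def INT1_V (M d : ℕ) [NeZero d] : FB M →ₐ[Qb] LaurentSeries Qb :=
  { (qExpand Qb d).comp ((FB M).val : FB M →+* LaurentSeries Qb) with
    commutes' := fun c => by
      show qExpand Qb d ((algebraMap Qb (FB M) c : FB M) : LaurentSeries Qb) = _
      rw [rr_coe_algebraMap, qExpand_C, INT1_C_eq] }

theorem INT1_V_apply (M d : ℕ) [NeZero d] (x : FB M) :
    INT1_V M d x = qExpand Qb d (x : LaurentSeries Qb) := rfl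

variable (A : ValuationSubring Qb) (hA : A.LiesOverPrime q)

/-- `V c` integral ⇒ `c` integral -/
theorem INT1_mem_OC (d : ℕ) [NeZero d] (c : FB M)
    (hc : qExpand Qb d (c : LaurentSeries Qb) ∈ gRing A) : c ∈ OC M hqM A hA := by
  by_contra hn
  have hinv : c⁻¹ ∈ OC M hqM A hA := ((OC M hqM A hA).mem_or_inv_mem c).resolve_left hn
  have hc0 : c ≠ 0 := by
    rintro rfl
    exact hn (OC M hqM A hA).zero_mem
  have hred : redC M hqM A hA ⟨c⁻¹, hinv⟩ = 0 := by
    by_contra hne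
    obtain ⟨u, hu⟩ := isUnit_of_redC_ne_zero M hqM A hA ⟨c⁻¹, hinv⟩ hne
    apply hn
    have h1 : ((u⁻¹ : (OC M hqM A hA)ˣ) : OC M hqM A hA) * ⟨c⁻¹, hinv⟩ = 1 := by
      rw [← hu]; simp
    have h2 : (((u⁻¹ : (OC M hqM A hA)ˣ) : OC M hqM A hA) : FB M) * c⁻¹ = 1 :=
      congrArg Subtype.val h1
    have h3 : c = (((u⁻¹ : (OC M hqM A hA)ˣ) : OC M hqM A hA) : FB M) := by
      field_simp at h2
      exact h2.symm
    rw [h3]
    exact ((u⁻¹ : (OC M hqM A hA)ˣ) : OC M hqM A hA).2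
  have hinv' : ((c⁻¹ : FB M) : LaurentSeries Qb) ∈ gRing A := hinv
  have hred' : gRed A ⟨_, hinv'⟩ = 0 := congrArg Subtype.val hred
  have h4 := gRed_qExpand A d hinv'
  rw [hred', map_zero] at h4
  have h5 : (⟨_, hc⟩ : gRing A) * ⟨_, qExpand_mem_gRing A d hinv'⟩ = 1 := by
    apply Subtype.ext
    show qExpand Qb d (c : LaurentSeries Qb) * qExpand Qb d ((c⁻¹ : FB M) : LaurentSeries Qb) = 1
    rw [← map_mul]
    have : (c : LaurentSeries Qb) * ((c⁻¹ : FB M) : LaurentSeries Qb) = 1 := by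
      have := congrArg (fun z : FB M => (z : LaurentSeries Qb)) (mul_inv_cancel₀ hc0)
      exact this
    rw [this, map_one]
  have h6 := congrArg (gRed A) h5
  rw [map_mul, h4, mul_zero, map_one] at h6
  exact zero_ne_one h6

theorem INT1_tau_mem_gRing (B : BrData M q w ζ i ζ₂) {h : FB (q ^ 2 * M)}
    (hint : AllInt A w i h) (t) : tauFam M q w i ζ₂ t h ∈ gRing A := by
  have hq : q.Prime := hqF.out
  rcases t with _ | a | k
  · exact qExpand_mem_gRing A (q ^ 2) hint.inf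
  · refine qExpand_mem_gRing A (q ^ 2) (hint.mid _ ?_)
    intro hdvd
    have := Nat.le_of_dvd (Nat.succ_pos _) hdvd
    have := a.2
    omega
  · refine twist_mem_gRing A (ζ₂ ^ (k : ℕ)) ?_ hint.zero
    refine INT1_isU A (n := q ^ 2) (pow_pos hq.pos 2) ?_
    have := B.prim₂.pow_eq_one
    rw [← Units.val_pow_eq_pow_val, ← pow_mul, mul_comm, pow_mul, this, one_pow, Units.val_one]

/-- (INT1) `h` regular off the poles of `X ∈ FB M` and integral on all branches is a root of a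
monic polynomial over `FB M` whose coefficients are integral and regular off the poles of `X` -/
theorem exists_good_poly (B : BrData M q w ζ i ζ₂) (X : FB M) (hX : Transcendental Qb X)
    (h : FB (q ^ 2 * M))
    (hreg : ∀ v : Place Qb (FB (q ^ 2 * M)), 0 ≤ v.ord (aHom (dvdM M q) X) → 0 ≤ v.ord h)
    (hint : AllInt A w i h) :
    ∃ P : (FB M)[X], P.Monic ∧ (∀ k, P.coeff k ∈ OC M hqM A hA) ∧
      (∀ k (v : Place Qb (FB M)), 0 ≤ v.ord X → 0 ≤ v.ord (P.coeff k)) ∧
      P.eval₂ (aHom (dvdM M q) : FB M →+* FB (q ^ 2 * M)) h = 0 := by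
  have hX' : Transcendental Qb (aHom (dvdM M q) X) := by
    intro halg
    exact hX ((isAlgebraic_algHom_iff _ (aHom (dvdM M q)).toRingHom.injective).mp halg)
  have hI : IntOver Qb (aHom (dvdM M q) X) h :=
    intOver_of_regular (isFF_FB (q ^ 2 * M)) hX' hreg
  obtain ⟨P, hPm, hPc, hP0⟩ := exists_poly_of_mem hqM B h
    (gRing A ⊓ intSubring Qb (qExpand Qb (q ^ 2) (X : LaurentSeries Qb))) (fun t => by
      refine ⟨INT1_tau_mem_gRing A B hint t, ?_⟩
      have := hI.map (INT1_tauAlg B t)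
      rw [INT1_tauAlg_apply, INT1_tauAlg_apply, tauFam_aHom B] at this
      exact this)
  refine ⟨P, hPm, fun k => INT1_mem_OC hqM A hA (q ^ 2) _ (hPc k).1, fun k v hv => ?_, hP0⟩
  have h1 : IntOver Qb (INT1_V M (q ^ 2) X) (INT1_V M (q ^ 2) (P.coeff k)) := (hPc k).2
  exact regular_of_intOver h1.of_map v hv

end

end Fermat.Agent.S36Lib
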