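import Fermat.Agent.S36.Mod.Defs

/-!
# S36, modular side, block (VAL): definitions

* `IsGU A x` : `x` is a unit of the Gauss ring (`x ∈ gRing A`, non-zero reduction)
* `fixF A N` : the subfield `F0 = {IsFix}` of `FB N`
* `R0 A N` : the subring of `FB N` generated by `K0 A` and the `j(t^d)`, `d ∣ N`
* `BD A K1 π` : Laurent series with coefficients in `K1` and bounded denominators
* `IsBranch A e ϖ` : `(e, ϖ)` induces a discrete valuation on `F0` with uniformizer `ϖ`
* `vB A e ϖ g` : the valuation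
-/

set_option autoImplicit false
set_option synthInstance.maxHeartbeats 400000

open AlgebraicCurve ModularCurve

namespace Fermat.Agent.S36Lib

open Fermat.Agent.S18Lib Fermat.Agent.S24Lib Fermat.Agent.S28Lib Fermat.Agent.ESLib
  Fermat.Agent.S34Lib Fermat.Agent.S28Lib.RelationAux

noncomputable section

/-- `x` is a unit of the Gauss ring -/
def IsGU (A : ValuationSubring Qb) (x : LaurentSeries Qb) : Prop :=
  ∃ h : x ∈ gRing A, gRed A ⟨x, h⟩ ≠ 0

/-- the subring of `FB N` generated by `K0 A` and the `j(t^d)` -/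
def R0 (A : ValuationSubring Qb) (N : ℕ) [NeZero N] : Subring (FB N) :=
  Subring.closure ({y | ∃ c ∈ K0 A, y = algebraMap Qb (FB N) c} ∪
    {y | ∃ (d : ℕ) (h : d ∣ N), y = JF N d h})

/-- Laurent series with coefficients in `K1` and bounded denominators (powers of `π`) -/
def IsBD (A : ValuationSubring Qb) (K1 : Subfield Qb) (π : Qb) (y : LaurentSeries Qb) : Prop :=
  (∀ n, y.coeff n ∈ K1) ∧ ∃ s : ℕ, ∀ n, π ^ s * y.coeff n ∈ A

/-- `(e, ϖ)` is a branch: it induces a discrete valuation on `F0 = {IsFix}`, with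
uniformizer `ϖ` -/
structure IsBranch (A : ValuationSubring Qb) {N : ℕ} (e : FB N →+* LaurentSeries Qb)
    (ϖ : FB N) : Prop where
  const : ∀ c : Qb, e (algebraMap Qb (FB N) c) = HahnSeries.C c
  ne : ϖ ≠ 0
  fix : IsFix A N ϖ
  mem : e ϖ ∈ gRing A
  red : gRed A ⟨e ϖ, mem⟩ = 0
  disc : ∀ x : FB N, x ≠ 0 → IsFix A N x → ∃ a : ℤ, Ge A e ϖ a x ∧ rd A e ϖ a x ≠ 0

open Classical in
/-- the valuation of `g` on the branch `(e, ϖ)` (junk value `0`) -/
def vB (A : ValuationSubring Qb) {N : ℕ} (e : FB N →+* LaurentSeries Qb) (ϖ : FB N)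
    (g : FB N) : ℤ :=
  if h : ∃ a : ℤ, Ge A e ϖ a g ∧ rd A e ϖ a g ≠ 0 then h.choose else 0

end

end Fermat.Agent.S36Lib
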